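import Fermat.Agent.S14.Defs
import Fermat.Agent.ES.Z.ChebFin

/-!
# T-S14, WP6 (CK), part B: from Kummer data over a Galois closure and the weak Chebotarev theorem to
a place with prescribed power residue symbols (up to a common nonzero factor).
-/

set_option autoImplicit false
set_option linter.unusedSectionVars false
set_option synthInstance.maxHeartbeats 200000

open NumberField IsDedekindDomain
open scoped Pointwise

namespace Fermat.Agent.S14lib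

section finiteField

variable {κ : Type*} [Field κ] [Finite κ]

/-- if `x ^ q = x` for all `x` then `#κ - 1 ∣ q - 1` -/
theorem card_sub_one_dvd_of_forall_pow_eq {q : ℕ} (hq : 1 ≤ q) (h : ∀ x : κ, x ^ q = x) :
    (Nat.card κ - 1) ∣ (q - 1) := by
  classical
  cases nonempty_fintype κ
  obtain ⟨γ, hγ⟩ := IsCyclic.exists_generator (α := κˣ)
  have h1 : orderOf γ = Fintype.card κˣ := by
    rw [orderOf_eq_card_of_forall_mem_zpowers hγ, Nat.card_eq_fintype_card]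
  rw [Nat.card_eq_fintype_card, ← Fintype.card_units, ← h1]
  apply orderOf_dvd_of_pow_eq_one
  apply Units.ext
  have h2 := h (γ : κ)
  obtain ⟨r, rfl⟩ : ∃ r, q = r + 1 := ⟨q - 1, by omega⟩
  rw [pow_succ] at h2
  have h3 : ((γ : κ) ^ r - 1) * (γ : κ) = 0 := by rw [sub_mul, h2, one_mul, sub_self]
  have h4 := (mul_eq_zero.1 h3).resolve_right γ.ne_zero
  simpa [sub_eq_zero] using h4

theorem dvd_card_sub_one_of_pow_eq_one {p : ℕ} [Fact p.Prime] {z : κ} (h1 : z ^ p = 1)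
    (h2 : z ≠ 1) : p ∣ Nat.card κ - 1 := by
  classical
  cases nonempty_fintype κ
  have hz0 : z ≠ 0 := by
    rintro rfl
    rw [zero_pow (Fact.out : p.Prime).ne_zero] at h1
    exact zero_ne_one h1
  have h3 : orderOf z = p := orderOf_eq_prime h1 h2
  rw [← h3, Nat.card_eq_fintype_card]
  exact orderOf_dvd_of_pow_eq_one (FiniteField.pow_card_sub_one_eq_one z hz0)

end finiteField

section algebra

variable {M : Type*} [Monoid M] {p : ℕ} [Fact p.Prime]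

theorem pow_eq_pow_of_modEq_of_pow_eq_one {y : M} (hy : y ^ p = 1) {a b : ℕ}
    (h : a ≡ b [MOD p]) : y ^ a = y ^ b := by
  have key : ∀ c : ℕ, y ^ c = y ^ (c % p) := by
    intro c
    conv_lhs => rw [← Nat.div_add_mod c p, pow_add, pow_mul, hy, one_pow, one_mul]
  rw [key a, key b, h]

/-- the final algebra step -/
theorem exists_scalar_of_pow_eq {n : ℕ} {z : M} (hz : orderOf z = p) (y : Fin n → M)
    (hy : ∀ i, y i ^ p = 1) (m : ℕ) (a : Fin n → ZMod p) (ha : a ≠ 0)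
    (h : ∀ i, y i ^ m = z ^ (a i).val) :
    ∃ c : ZMod p, c ≠ 0 ∧ ∀ i, y i = z ^ (c * a i).val := by
  have hp : p.Prime := Fact.out
  have hzp : z ^ p = 1 := by rw [← hz]; exact pow_orderOf_eq_one z
  have hm : (m : ZMod p) ≠ 0 := by
    intro h0
    apply ha
    funext i
    rw [ZMod.natCast_eq_zero_iff] at h0
    obtain ⟨t, rfl⟩ := h0
    have h1 := h i
    rw [pow_mul, hy, one_pow] at h1
    have h2 : p ∣ (a i).val := by
      have h2' := orderOf_dvd_of_pow_eq_one h1.symm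
      rwa [hz] at h2'
    have h3 : (a i).val = 0 := Nat.eq_zero_of_dvd_of_lt h2 (ZMod.val_lt _)
    simpa using (ZMod.val_eq_zero (a i)).1 h3
  refine ⟨(m : ZMod p)⁻¹, inv_ne_zero hm, fun i => ?_⟩
  set c : ZMod p := (m : ZMod p)⁻¹ with hc
  have h1 : m * c.val ≡ 1 [MOD p] := by
    rw [← ZMod.natCast_eq_natCast_iff]
    push_cast
    rw [ZMod.natCast_zmod_val, hc, mul_inv_cancel₀ hm]
  have h2 : y i = y i ^ (m * c.val) := by
    rw [pow_eq_pow_of_modEq_of_pow_eq_one (hy i) h1, pow_one]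
  rw [h2, pow_mul, h i, ← pow_mul]
  apply pow_eq_pow_of_modEq_of_pow_eq_one hzp
  rw [← ZMod.natCast_eq_natCast_iff]
  push_cast
  rw [ZMod.natCast_zmod_val, ZMod.natCast_zmod_val, ZMod.natCast_zmod_val, mul_comm]

end algebra

section frob

theorem card_int_quot {ℓ : ℕ} : Nat.card (ℤ ⧸ Ideal.span {(ℓ : ℤ)}) = ℓ := by
  rw [← Submodule.cardQuot_apply, ← Ideal.absNorm_apply, Ideal.absNorm_span_singleton]
  simp

theorem exists_frob_at {L : Type*} [Field L] [NumberField L] [IsGalois ℚ L] {ℓ : ℕ}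
    (hℓ : ℓ.Prime) :
    ∃ (P : Ideal (𝓞 L)) (_ : P.IsPrime) (φ : Gal(L/ℚ)), (ℓ : 𝓞 L) ∈ P ∧
      ∀ x : 𝓞 L, φ • x - x ^ ℓ ∈ P := by
  have : Fact ℓ.Prime := ⟨hℓ⟩
  have hmax : (Ideal.span {(ℓ : ℤ)}).IsMaximal := Int.ideal_span_isMaximal_of_prime ℓ
  obtain ⟨P, hP, hover⟩ := Ideal.exists_maximal_ideal_liesOver_of_isIntegral (S := 𝓞 L)
    (Ideal.span {(ℓ : ℤ)})
  have hu : P.under ℤ = Ideal.span {(ℓ : ℤ)} := hover.over.symm
  have hmem : (ℓ : 𝓞 L) ∈ P := by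
    have h1 : (ℓ : ℤ) ∈ P.under ℤ := by rw [hu]; exact Ideal.mem_span_singleton_self _
    simpa using h1
  have hP0 : P ≠ ⊥ := by
    rintro rfl
    have : (ℓ : 𝓞 L) = 0 := hmem
    exact hℓ.ne_zero (by exact_mod_cast this)
  have hfin : Finite (𝓞 L ⧸ P) := Ideal.finiteQuotientOfFreeOfNeBot P hP0
  have hprime : P.IsPrime := hP.isPrime
  obtain ⟨φ, hφ⟩ := IsArithFrobAt.exists_of_isInvariant ℤ Gal(L/ℚ) P
  refine ⟨P, hprime, φ, hmem, fun x => ?_⟩
  have := hφ x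
  rw [hu, card_int_quot] at this
  exact this

end frob

/-- iterating a Frobenius congruence -/
theorem frob_iterate {S G : Type*} [CommRing S] [Group G] [MulSemiringAction G S] (P : Ideal S)
    (φ : G) {ℓ : ℕ} (hφ : ∀ x : S, φ • x - x ^ ℓ ∈ P) (b : ℕ) (x : S) :
    (φ ^ b) • x - x ^ (ℓ ^ b) ∈ P := by
  induction b with
  | zero => simp
  | succ b ih =>
    have h1 := hφ ((φ ^ b) • x)
    have h2 : ((φ ^ b) • x) ^ ℓ - (x ^ (ℓ ^ b)) ^ ℓ ∈ P :=
      Ideal.mem_of_dvd P (sub_dvd_pow_sub_pow _ _ ℓ) ih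
    have h3 := add_mem h1 h2
    rw [pow_succ', mul_smul, pow_succ, pow_mul]
    convert h3 using 1
    ring

section core

variable {k : Type} [Field k] [NumberField k] {p : ℕ} [Fact p.Prime]

theorem CK_core {ζ : 𝓞 k} (hζ : IsPrimitiveRoot ζ p) {n : ℕ} (w : Fin n → 𝓞 k)
    {L : Type} [Field L] [NumberField L] [IsGalois ℚ L] (ι : k →+* L) (θ : Fin n → L)
    (g : L ≃ₐ[ℚ] L) (hθ : ∀ i, θ i ^ p = ι (w i)) (hg : ∀ x, g (ι x) = ι x)
    (a : Fin n → ZMod p) (ha : a ≠ 0) (hgθ : ∀ i, g (θ i) = ι ζ ^ (a i).val * θ i)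
    (B : ℕ) (hB : B ≠ 0) (hpB : p ∣ B)
    (hwB : ∀ i, ∀ v : Pl k, w i ∈ v.asIdeal → (B : 𝓞 k) ∈ v.asIdeal) :
    ∃ v : Pl k, (B : 𝓞 k) ∉ v.asIdeal ∧ ∃ c : ZMod p, c ≠ 0 ∧
      ∀ i, w i ^ ((nrm v - 1) / p) - ζ ^ (c * a i).val ∈ v.asIdeal := by
  classical
  have hp : p.Prime := Fact.out
  -- integral versions
  let ιO : 𝓞 k →+* 𝓞 L := RingOfIntegers.mapRingHom ι
  have hιO : ∀ x : 𝓞 k, ((ιO x : 𝓞 L) : L) = ι (x : k) := fun _ => rfl
  have hint : ∀ i, IsIntegral ℤ (θ i) := by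
    intro i
    apply IsIntegral.of_pow hp.pos
    rw [hθ, ← hιO]
    exact RingOfIntegers.isIntegral_coe _
  let Θ : Fin n → 𝓞 L := fun i => ⟨θ i, hint i⟩
  have hΘ : ∀ i, Θ i ^ p = ιO (w i) := fun i => RingOfIntegers.ext (hθ i)
  have hgO : ∀ x : 𝓞 k, g • ιO x = ιO x := fun x => RingOfIntegers.ext (hg x)
  have hgΘ : ∀ i, g • Θ i = ιO ζ ^ (a i).val * Θ i := fun i => RingOfIntegers.ext (hgθ i)
  -- weak Chebotarev
  obtain ⟨ℓ, hℓ, hℓT, h⟩ := ESlib.exists_prime_forall_frob (L := L) g B.primeFactors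
  obtain ⟨P, hPp, φ, hP, hφ⟩ := exists_frob_at (L := L) hℓ
  obtain ⟨τ, b, hb⟩ := h P hP φ hφ
  set P' : Ideal (𝓞 L) := τ⁻¹ • P with hP'
  have hP'p : P'.IsPrime := inferInstance
  have hfrob : ∀ x : 𝓞 L, g • x - x ^ (ℓ ^ b) ∈ P' := by
    intro x
    rw [← hb]
    exact frob_iterate P' _ (ESlib.frob_conj P φ hφ τ) b x
  have hℓP' : (ℓ : 𝓞 L) ∈ P' := by
    rw [hP', Ideal.mem_pointwise_smul_iff_inv_smul_mem, inv_inv]
    have e : τ • (ℓ : 𝓞 L) = ℓ := map_natCast (MulSemiringAction.toRingHom Gal(L/ℚ) (𝓞 L) τ) ℓ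
    rw [e]
    exact hP
  -- the place
  let vI : Ideal (𝓞 k) := P'.comap ιO
  have hvp : vI.IsPrime := Ideal.comap_isPrime ιO P'
  have hℓv : (ℓ : 𝓞 k) ∈ vI := by
    show ιO (ℓ : 𝓞 k) ∈ P'
    rw [map_natCast]
    exact hℓP'
  have hv0 : vI ≠ ⊥ := by
    intro h0
    rw [h0, Ideal.mem_bot] at hℓv
    exact hℓ.ne_zero (by exact_mod_cast hℓv)
  let v : Pl k := ⟨vI, hvp, hv0⟩
  have hmem : ∀ x : 𝓞 k, x ∈ v.asIdeal ↔ ιO x ∈ P' := fun _ => Iff.rfl
  have hBv : (B : 𝓞 k) ∉ v.asIdeal := by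
    intro hBv
    have hcop : Nat.Coprime ℓ B := by
      rw [Nat.Prime.coprime_iff_not_dvd hℓ]
      exact fun hd => hℓT (Nat.mem_primeFactors.2 ⟨hℓ, hd, hB⟩)
    have h1 : ((1 : ℤ) : 𝓞 k) ∈ v.asIdeal := by
      have h2 := Nat.isCoprime_iff_coprime.2 hcop
      obtain ⟨x, y, hxy⟩ := h2
      rw [← hxy]
      push_cast
      exact add_mem (Ideal.mul_mem_left _ _ hℓv) (Ideal.mul_mem_left _ _ hBv)
    exact hvp.ne_top ((Ideal.eq_top_iff_one _).2 (by simpa using h1))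
  have hpv : (p : 𝓞 k) ∉ v.asIdeal := by
    intro h1
    obtain ⟨t, rfl⟩ := hpB
    exact hBv (by push_cast; exact Ideal.mul_mem_right _ _ h1)
  have hwv : ∀ i, w i ∉ v.asIdeal := fun i hi => hBv (hwB i v hi)
  refine ⟨v, hBv, ?_⟩
  -- the residue field
  have hmax : v.asIdeal.IsMaximal := v.isMaximal
  let _ : Field (𝓞 k ⧸ v.asIdeal) := Ideal.Quotient.field v.asIdeal
  have hfin : Finite (𝓞 k ⧸ v.asIdeal) := Ideal.finiteQuotientOfFreeOfNeBot _ hv0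
  have hN : nrm v = Nat.card (𝓞 k ⧸ v.asIdeal) := by
    rw [nrm, Ideal.absNorm_apply, Submodule.cardQuot_apply]
  let mk : 𝓞 k →+* (𝓞 k ⧸ v.asIdeal) := Ideal.Quotient.mk v.asIdeal
  have hmk : ∀ x y : 𝓞 k, mk x = mk y ↔ x - y ∈ v.asIdeal := fun x y => Ideal.Quotient.eq
  have hq1 : 1 ≤ ℓ ^ b := Nat.one_le_pow _ _ hℓ.pos
  have hfix : ∀ x : 𝓞 k ⧸ v.asIdeal, x ^ (ℓ ^ b) = x := by
    intro x
    obtain ⟨x, rfl⟩ := Ideal.Quotient.mk_surjective x
    show mk x ^ (ℓ ^ b) = mk x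
    rw [← map_pow, eq_comm, hmk, hmem, map_sub, map_pow]
    have := hfrob (ιO x)
    rwa [hgO] at this
  obtain ⟨m, hm⟩ := card_sub_one_dvd_of_forall_pow_eq hq1 hfix
  have hz1 : mk ζ ^ p = 1 := by rw [← map_pow, hζ.pow_eq_one, map_one]
  have hz2 : mk ζ ≠ 1 := by
    intro h1
    have h2 := congrArg mk (hζ.geom_sum_eq_zero hp.one_lt)
    rw [map_sum, map_zero] at h2
    simp only [map_pow, h1, one_pow, Finset.sum_const, Finset.card_range, nsmul_eq_mul,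
      mul_one] at h2
    apply hpv
    rw [← Ideal.Quotient.eq_zero_iff_mem]
    rw [map_natCast]
    exact h2
  obtain ⟨e, he⟩ := dvd_card_sub_one_of_pow_eq_one hz1 hz2
  have hediv : (nrm v - 1) / p = e := by
    rw [hN, he, Nat.mul_div_cancel_left _ hp.pos]
  rw [hediv]
  have hord : orderOf (mk ζ) = p := orderOf_eq_prime hz1 hz2
  have hkey : ∀ i, (mk (w i) ^ e) ^ m = mk ζ ^ (a i).val := by
    intro i
    rw [← map_pow, ← map_pow, ← map_pow, hmk, hmem, map_sub, map_pow, map_pow, map_pow, ← hΘ]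
    have h1 := hfrob (Θ i)
    rw [hgΘ] at h1
    have h2 : Θ i ∉ P' := by
      intro h3
      apply hwv i
      rw [hmem, ← hΘ]
      exact Ideal.pow_mem_of_mem _ h3 _ hp.pos
    have h3 : ℓ ^ b = p * e * m + 1 := by
      rw [← he, ← hm]; omega
    have h4 : (((Θ i ^ p) ^ e) ^ m - ιO ζ ^ (a i).val) * Θ i ∈ P' := by
      have : (((Θ i ^ p) ^ e) ^ m - ιO ζ ^ (a i).val) * Θ i =
          -(ιO ζ ^ (a i).val * Θ i - Θ i ^ (ℓ ^ b)) := by
        rw [h3, pow_succ, pow_mul, pow_mul]; ring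
      rw [this]
      exact neg_mem h1
    exact (hP'p.mem_or_mem h4).resolve_right h2
  have hy : ∀ i, (mk (w i) ^ e) ^ p = 1 := by
    intro i
    have h1 : mk (w i) ≠ 0 := by
      intro h0
      exact hwv i (Ideal.Quotient.eq_zero_iff_mem.1 h0)
    cases nonempty_fintype (𝓞 k ⧸ v.asIdeal)
    have h2 := FiniteField.pow_card_sub_one_eq_one _ h1
    rw [← Nat.card_eq_fintype_card, he] at h2
    rw [← pow_mul, mul_comm]
    exact h2
  obtain ⟨c, hc, hcy⟩ := exists_scalar_of_pow_eq hord (fun i => mk (w i) ^ e) hy m a ha hkey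
  refine ⟨c, hc, fun i => ?_⟩
  rw [← hmk, map_pow, map_pow]
  exact hcy i

end core

end Fermat.Agent.S14lib
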