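import Fermat.Agent.S14.Defs

/-!
# T-S14, WP0d (second half): the calculus of `InPN`

`InPN p ζ Sg x D` : "`D ∈ P + Norms` for `k(x^(1/p))/k`".  It is a subgroup of the divisors, it only
depends on `D` modulo `p` at the non-split unramified places, on `x` modulo `p`-th powers, ...
-/

set_option autoImplicit false

open NumberField IsDedekindDomain

namespace Fermat.Agent.S14lib

variable {k : Type*} [Field k] [NumberField k]

/-! ### local copies of the basic API (names `InPN.aux_*`) -/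

theorem InPN.aux_ordv_one (v : Pl k) : ordv v (1 : k) = 0 := by
  simp [ordv]

theorem InPN.aux_ordv_mul (v : Pl k) {x y : k} (hx : x ≠ 0) (hy : y ≠ 0) :
    ordv v (x * y) = ordv v x + ordv v y := by
  unfold ordv
  rw [map_mul, WithZero.log_mul (by simpa using hx) (by simpa using hy)]
  ring

theorem InPN.aux_ordv_inv (v : Pl k) (x : k) : ordv v x⁻¹ = - ordv v x := by
  unfold ordv
  rw [map_inv₀, WithZero.log_inv]

theorem InPN.aux_ordv_pow (v : Pl k) (x : k) (n : ℕ) : ordv v (x ^ n) = n * ordv v x := by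
  unfold ordv
  rw [map_pow, WithZero.log_pow]
  simp

theorem InPN.aux_ordv_zpow (v : Pl k) (x : k) (n : ℤ) : ordv v (x ^ n) = n * ordv v x := by
  unfold ordv
  rw [map_zpow₀, WithZero.log_zpow]
  simp

/-- `val_v ((1 - ζ)^p) ≤ 1` -/
theorem InPN.aux_eps_le_one {p : ℕ} {ζ : k} (hζ : IsPrimitiveRoot ζ p) (hp : 0 < p) (v : Pl k) :
    v.valuation k ((1 - ζ) ^ p) ≤ 1 := by
  have hint : IsIntegral ℤ ζ := hζ.isIntegral hp
  have h1 : v.valuation k (1 - ζ) ≤ 1 := by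
    obtain ⟨ζ', hζ'⟩ : ∃ ζ' : 𝓞 k, algebraMap (𝓞 k) k ζ' = ζ :=
      ⟨⟨ζ, hint⟩, rfl⟩
    have : (1 - ζ) = algebraMap (𝓞 k) k (1 - ζ') := by
      rw [map_sub, map_one, hζ']
    rw [this]
    exact v.valuation_le_one _
  rw [map_pow]
  exact pow_le_one' h1 p

/-- `0 < val_v ((1 - ζ)^p)` -/
theorem InPN.aux_eps_pos {p : ℕ} {ζ : k} (hζ : IsPrimitiveRoot ζ p) (hp : 1 < p) (v : Pl k) :
    0 < v.valuation k ((1 - ζ) ^ p) := by
  have h : (1 - ζ) ≠ 0 := sub_ne_zero.2 (hζ.ne_one hp).symm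
  rw [zero_lt_iff]
  exact (Valuation.ne_zero_iff _).2 (pow_ne_zero _ h)

theorem InPN.aux_locPow_one {p : ℕ} {ζ : k} (hζ : IsPrimitiveRoot ζ p) (hp : 1 < p) (v : Pl k) :
    LocPow p ζ v 1 :=
  ⟨1, one_ne_zero, by simpa using InPN.aux_eps_pos hζ hp v⟩

theorem InPN.aux_locPow_pow {p : ℕ} {ζ : k} (hζ : IsPrimitiveRoot ζ p) (hp : 1 < p) (v : Pl k)
    {y : k} (hy : y ≠ 0) : LocPow p ζ v (y ^ p) :=
  ⟨y, hy, by
    rw [div_self (pow_ne_zero _ hy), sub_self, map_zero]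
    exact InPN.aux_eps_pos hζ hp v⟩

theorem InPN.aux_locPow_mul {p : ℕ} {ζ : k} (hζ : IsPrimitiveRoot ζ p) (hp : 0 < p) {v : Pl k}
    {x y : k} (hx : LocPow p ζ v x) (hy : LocPow p ζ v y) : LocPow p ζ v (x * y) := by
  obtain ⟨z, hz, hxz⟩ := hx
  obtain ⟨w, hw, hyw⟩ := hy
  refine ⟨z * w, mul_ne_zero hz hw, ?_⟩
  set a := x / z ^ p - 1 with ha
  set b := y / w ^ p - 1 with hb
  have he := InPN.aux_eps_le_one hζ hp v
  have hab : x * y / (z * w) ^ p - 1 = a + b + a * b := by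
    rw [ha, hb, mul_pow]
    field_simp
    ring
  rw [hab]
  have h3 : v.valuation k (a * b) < v.valuation k ((1 - ζ) ^ p) := by
    rw [map_mul]
    calc v.valuation k a * v.valuation k b ≤ v.valuation k a * 1 :=
          mul_le_mul' le_rfl ((hyw.le).trans he)
      _ = v.valuation k a := mul_one _
      _ < _ := hxz
  exact Valuation.map_add_lt _ (Valuation.map_add_lt _ hxz hyw) h3

theorem InPN.aux_locPow_inv {p : ℕ} {ζ : k} (hζ : IsPrimitiveRoot ζ p) (hp : 0 < p) {v : Pl k}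
    {x : k} (hx : LocPow p ζ v x) : LocPow p ζ v x⁻¹ := by
  obtain ⟨z, hz, hxz⟩ := hx
  refine ⟨z⁻¹, inv_ne_zero hz, ?_⟩
  set a := x / z ^ p - 1 with ha
  have he := InPN.aux_eps_le_one hζ hp v
  have ha1 : v.valuation k a < 1 := hxz.trans_le he
  have h1a : v.valuation k (1 + a) = 1 := by
    have := Valuation.map_add_eq_of_lt_right (v.valuation k) (x := a) (y := 1)
      (by simpa using ha1)
    rw [add_comm, this, map_one]
  have hxa : x / z ^ p = 1 + a := by rw [ha]; ring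
  have h1a0 : (1 + a) ≠ 0 := by
    intro h
    rw [h, map_zero] at h1a
    exact zero_ne_one h1a
  have : x⁻¹ / z⁻¹ ^ p - 1 = - a / (1 + a) := by
    have : x⁻¹ / z⁻¹ ^ p = (x / z ^ p)⁻¹ := by
      rw [inv_pow, inv_div, div_inv_eq_mul, mul_comm, div_eq_mul_inv]
    rw [this, hxa]
    field_simp
    ring
  rw [this, map_div₀, h1a, div_one, Valuation.map_neg]
  exact hxz

theorem InPN.aux_locPow_npow {p : ℕ} {ζ : k} (hζ : IsPrimitiveRoot ζ p) (hp : 1 < p) {v : Pl k}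
    {x : k} (hx : LocPow p ζ v x) (n : ℕ) : LocPow p ζ v (x ^ n) := by
  induction n with
  | zero => simpa using InPN.aux_locPow_one hζ hp v
  | succ n ih => rw [pow_succ]; exact InPN.aux_locPow_mul hζ (by omega) ih hx

theorem InPN.aux_locPow_zpow {p : ℕ} {ζ : k} (hζ : IsPrimitiveRoot ζ p) (hp : 1 < p) {v : Pl k}
    {x : k} (hx : LocPow p ζ v x) (n : ℤ) : LocPow p ζ v (x ^ n) := by
  cases n with
  | ofNat n => simpa using InPN.aux_locPow_npow hζ hp hx n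
  | negSucc n =>
    rw [zpow_negSucc]
    exact InPN.aux_locPow_inv hζ (by omega) (InPN.aux_locPow_npow hζ hp hx _)

theorem InPN.aux_locPow_ne_zero {p : ℕ} {ζ : k} (hζ : IsPrimitiveRoot ζ p) (hp : 0 < p) {v : Pl k}
    {x : k} (hx : LocPow p ζ v x) : x ≠ 0 := by
  obtain ⟨z, hz, hxz⟩ := hx
  rintro rfl
  have he := InPN.aux_eps_le_one hζ hp v
  rw [zero_div, zero_sub, Valuation.map_neg, map_one] at hxz
  exact absurd hxz (not_lt.2 he)

theorem InPN.aux_locPow_dvd {p : ℕ} {ζ : k} (hζ : IsPrimitiveRoot ζ p) (hp : 0 < p) {v : Pl k}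
    {x : k} (hx : LocPow p ζ v x) : (p : ℤ) ∣ ordv v x := by
  have hx0 := InPN.aux_locPow_ne_zero hζ hp hx
  obtain ⟨z, hz, hxz⟩ := hx
  have he := InPN.aux_eps_le_one hζ hp v
  have h1 : v.valuation k (x / z ^ p) = 1 := by
    have := Valuation.map_add_eq_of_lt_right (v.valuation k) (x := x / z ^ p - 1) (y := 1)
      (by simpa using hxz.trans_le he)
    rwa [sub_add_cancel, map_one] at this
  have h2 : ordv v (x / z ^ p) = 0 := by
    unfold ordv; rw [h1]; simp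
  rw [div_eq_mul_inv, InPN.aux_ordv_mul v hx0 (inv_ne_zero (pow_ne_zero _ hz)),
    InPN.aux_ordv_inv, InPN.aux_ordv_pow] at h2
  exact ⟨ordv v z, by linarith⟩

/-! ### the calculus -/

section calculus

variable {p : ℕ} {ζ : k} {Sg : Set (Pl k)} {x : k}

/-- monotonicity in the set of places to avoid -/
theorem InPN.mono {Sg' : Set (Pl k)} (h : Sg ⊆ Sg') {D : Pl k → ℤ} (hD : InPN p ζ Sg' x D) :
    InPN p ζ Sg x D := by
  obtain ⟨z, hz, h1, h2, h3⟩ := hD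
  exact ⟨z, hz, fun v hv => h1 v (h hv), h2, h3⟩

/-- `InPN` only depends on `D` modulo `p` at the unramified non-split places. -/
theorem InPN.congr {D D' : Pl k → ℤ}
    (h : ∀ v, (p : ℤ) ∣ ordv v x → ¬ LocPow p ζ v x → (p : ℤ) ∣ D v - D' v)
    (hD : InPN p ζ Sg x D) : InPN p ζ Sg x D' := by
  obtain ⟨z, hz, h1, h2, h3⟩ := hD
  refine ⟨z, hz, h1, h2, fun v hv hv' => ?_⟩
  have := dvd_sub (h3 v hv hv') (h v hv hv')
  have e : D v - ordv v z - (D v - D' v) = D' v - ordv v z := by ring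
  rwa [e] at this

theorem InPN.congr_iff {D D' : Pl k → ℤ}
    (h : ∀ v, (p : ℤ) ∣ ordv v x → ¬ LocPow p ζ v x → (p : ℤ) ∣ D v - D' v) :
    InPN p ζ Sg x D ↔ InPN p ζ Sg x D' :=
  ⟨InPN.congr h, InPN.congr fun v hv hv' => by
    have := h v hv hv'
    rw [← neg_sub]; exact (dvd_neg).2 this⟩

/-- the divisor of an element which is a unit on `Sg`, and a unit and a local `p`-th power at the
ramified places. -/
theorem InPN.of_dv {z : k} (hz : z ≠ 0) (h1 : ∀ v ∈ Sg, ordv v z = 0)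
    (h2 : ∀ v, ¬ (p : ℤ) ∣ ordv v x → ordv v z = 0 ∧ LocPow p ζ v z) :
    InPN p ζ Sg x (dv z) :=
  ⟨z, hz, h1, h2, fun v _ _ => by simp [dv]⟩

/-- unramified case, nothing to avoid: every principal divisor is `InPN` -/
theorem InPN.of_dv_unram (hx : ∀ v : Pl k, (p : ℤ) ∣ ordv v x) {z : k} (hz : z ≠ 0) :
    InPN p ζ ∅ x (dv z) :=
  InPN.of_dv hz (fun v hv => absurd hv (Set.notMem_empty v)) fun v hv => absurd (hx v) hv

/-- unramified case: every principal divisor prime to `Sg` is `InPN` -/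
theorem InPN.of_dv_unram' (hx : ∀ v : Pl k, (p : ℤ) ∣ ordv v x) {z : k} (hz : z ≠ 0)
    (h1 : ∀ v ∈ Sg, ordv v z = 0) : InPN p ζ Sg x (dv z) :=
  InPN.of_dv hz h1 fun v hv => absurd (hx v) hv

theorem InPN.zero (hζ : IsPrimitiveRoot ζ p) (hp : 1 < p) : InPN p ζ Sg x 0 :=
  ⟨1, one_ne_zero, fun v _ => InPN.aux_ordv_one v,
    fun v _ => ⟨InPN.aux_ordv_one v, InPN.aux_locPow_one hζ hp v⟩,
    fun v _ _ => by simp [InPN.aux_ordv_one]⟩

/-- divisors which are `≡ 0 mod p` at the unramified non-split places -/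
theorem InPN.of_dvd (hζ : IsPrimitiveRoot ζ p) (hp : 1 < p) {D : Pl k → ℤ}
    (h : ∀ v, (p : ℤ) ∣ ordv v x → ¬ LocPow p ζ v x → (p : ℤ) ∣ D v) : InPN p ζ Sg x D :=
  InPN.congr (D := 0) (fun v hv hv' => by simpa using h v hv hv') (InPN.zero hζ hp)

theorem InPN.add (hζ : IsPrimitiveRoot ζ p) (hp : 0 < p) {D₁ D₂ : Pl k → ℤ}
    (h₁ : InPN p ζ Sg x D₁) (h₂ : InPN p ζ Sg x D₂) : InPN p ζ Sg x (D₁ + D₂) := by
  obtain ⟨z, hz, a1, a2, a3⟩ := h₁
  obtain ⟨w, hw, b1, b2, b3⟩ := h₂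
  refine ⟨z * w, mul_ne_zero hz hw, fun v hv => ?_, fun v hv => ⟨?_, ?_⟩, fun v hv hv' => ?_⟩
  · rw [InPN.aux_ordv_mul v hz hw, a1 v hv, b1 v hv, add_zero]
  · rw [InPN.aux_ordv_mul v hz hw, (a2 v hv).1, (b2 v hv).1, add_zero]
  · exact InPN.aux_locPow_mul hζ hp (a2 v hv).2 (b2 v hv).2
  · rw [InPN.aux_ordv_mul v hz hw]
    have := dvd_add (a3 v hv hv') (b3 v hv hv')
    have e : D₁ v - ordv v z + (D₂ v - ordv v w) = (D₁ + D₂) v - (ordv v z + ordv v w) := by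
      simp only [Pi.add_apply]; ring
    rwa [e] at this

theorem InPN.neg (hζ : IsPrimitiveRoot ζ p) (hp : 0 < p) {D : Pl k → ℤ}
    (h : InPN p ζ Sg x D) : InPN p ζ Sg x (-D) := by
  obtain ⟨z, hz, a1, a2, a3⟩ := h
  refine ⟨z⁻¹, inv_ne_zero hz, fun v hv => ?_, fun v hv => ⟨?_, ?_⟩, fun v hv hv' => ?_⟩
  · rw [InPN.aux_ordv_inv, a1 v hv, neg_zero]
  · rw [InPN.aux_ordv_inv, (a2 v hv).1, neg_zero]
  · exact InPN.aux_locPow_inv hζ hp (a2 v hv).2
  · rw [InPN.aux_ordv_inv]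
    have := (dvd_neg).2 (a3 v hv hv')
    have e : -(D v - ordv v z) = (-D) v - -ordv v z := by
      simp only [Pi.neg_apply]; ring
    rwa [e] at this

theorem InPN.sub (hζ : IsPrimitiveRoot ζ p) (hp : 0 < p) {D₁ D₂ : Pl k → ℤ}
    (h₁ : InPN p ζ Sg x D₁) (h₂ : InPN p ζ Sg x D₂) : InPN p ζ Sg x (D₁ - D₂) := by
  rw [sub_eq_add_neg]
  exact InPN.add hζ hp h₁ (InPN.neg hζ hp h₂)

theorem InPN.zsmul (hζ : IsPrimitiveRoot ζ p) (hp : 1 < p) {D : Pl k → ℤ}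
    (h : InPN p ζ Sg x D) (j : ℤ) : InPN p ζ Sg x (j • D) := by
  obtain ⟨z, hz, a1, a2, a3⟩ := h
  refine ⟨z ^ j, zpow_ne_zero _ hz, fun v hv => ?_, fun v hv => ⟨?_, ?_⟩, fun v hv hv' => ?_⟩
  · rw [InPN.aux_ordv_zpow, a1 v hv, mul_zero]
  · rw [InPN.aux_ordv_zpow, (a2 v hv).1, mul_zero]
  · exact InPN.aux_locPow_zpow hζ hp (a2 v hv).2 j
  · rw [InPN.aux_ordv_zpow]
    have := Dvd.dvd.mul_left (a3 v hv hv') j
    have e : j * (D v - ordv v z) = (j • D) v - j * ordv v z := by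
      simp only [Pi.smul_apply, smul_eq_mul]; ring
    rwa [e] at this

/-- cancellation: `D₁ + D₂` and `D₂` in `InPN` imply `D₁` in `InPN` -/
theorem InPN.of_add_right (hζ : IsPrimitiveRoot ζ p) (hp : 0 < p) {D₁ D₂ : Pl k → ℤ}
    (h : InPN p ζ Sg x (D₁ + D₂)) (h₂ : InPN p ζ Sg x D₂) : InPN p ζ Sg x D₁ := by
  have := InPN.sub hζ hp h h₂
  rwa [add_sub_cancel_right] at this

/-- if `j` is prime to `p` and `j • D` is `InPN` then `D` is `InPN` -/
theorem InPN.of_zsmul (hζ : IsPrimitiveRoot ζ p) (hp : 1 < p) {D : Pl k → ℤ} {j : ℤ}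
    (hj : IsCoprime j (p : ℤ)) (h : InPN p ζ Sg x (j • D)) : InPN p ζ Sg x D := by
  obtain ⟨a, b, hab⟩ := hj
  refine InPN.congr (D := a • (j • D)) (fun v _ _ => ?_) (InPN.zsmul hζ hp h a)
  refine ⟨- b * D v, ?_⟩
  simp only [Pi.smul_apply, smul_eq_mul]
  have : D v = (a * j + b * p) * D v := by rw [hab, one_mul]
  linear_combination (-1 : ℤ) * this

/-- a split place is `InPN` -/
theorem InPN.single_of_locPow (hζ : IsPrimitiveRoot ζ p) (hp : 1 < p) {v : Pl k}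
    (hv : LocPow p ζ v x) (n : ℤ) : InPN p ζ Sg x (Finsupp.single v n : Pl k →₀ ℤ) := by
  classical
  refine InPN.of_dvd hζ hp fun w _ hw' => ?_
  have : w ≠ v := by rintro rfl; exact hw' hv
  rw [Finsupp.single_apply, if_neg (Ne.symm this)]
  exact dvd_zero _

/-- a ramified place is `InPN` -/
theorem InPN.single_of_ram (hζ : IsPrimitiveRoot ζ p) (hp : 1 < p) {v : Pl k}
    (hv : ¬ (p : ℤ) ∣ ordv v x) (n : ℤ) : InPN p ζ Sg x (Finsupp.single v n : Pl k →₀ ℤ) := by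
  classical
  refine InPN.of_dvd hζ hp fun w hw _ => ?_
  have : w ≠ v := by rintro rfl; exact hv hw
  rw [Finsupp.single_apply, if_neg (Ne.symm this)]
  exact dvd_zero _

/-- `Finsupp` forms -/
theorem InPN.fadd (hζ : IsPrimitiveRoot ζ p) (hp : 0 < p) {D₁ D₂ : Pl k →₀ ℤ}
    (h₁ : InPN p ζ Sg x D₁) (h₂ : InPN p ζ Sg x D₂) : InPN p ζ Sg x (D₁ + D₂ : Pl k →₀ ℤ) := by
  rw [Finsupp.coe_add]; exact InPN.add hζ hp h₁ h₂

theorem InPN.fneg (hζ : IsPrimitiveRoot ζ p) (hp : 0 < p) {D : Pl k →₀ ℤ}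
    (h : InPN p ζ Sg x D) : InPN p ζ Sg x (-D : Pl k →₀ ℤ) := by
  rw [Finsupp.coe_neg]; exact InPN.neg hζ hp h

theorem InPN.fsub (hζ : IsPrimitiveRoot ζ p) (hp : 0 < p) {D₁ D₂ : Pl k →₀ ℤ}
    (h₁ : InPN p ζ Sg x D₁) (h₂ : InPN p ζ Sg x D₂) : InPN p ζ Sg x (D₁ - D₂ : Pl k →₀ ℤ) := by
  rw [Finsupp.coe_sub]; exact InPN.sub hζ hp h₁ h₂

theorem InPN.fzsmul (hζ : IsPrimitiveRoot ζ p) (hp : 1 < p) {D : Pl k →₀ ℤ}
    (h : InPN p ζ Sg x D) (j : ℤ) : InPN p ζ Sg x (j • D : Pl k →₀ ℤ) := by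
  rw [Finsupp.coe_smul]; exact InPN.zsmul hζ hp h j

theorem InPN.fzero (hζ : IsPrimitiveRoot ζ p) (hp : 1 < p) :
    InPN p ζ Sg x (0 : Pl k →₀ ℤ) := by
  rw [Finsupp.coe_zero]; exact InPN.zero hζ hp

/-- if all the non-split unramified places are `InPN`, every divisor is. -/
theorem InPN.of_forall_single (hζ : IsPrimitiveRoot ζ p) (hp : 1 < p)
    (h : ∀ v, (p : ℤ) ∣ ordv v x → ¬ LocPow p ζ v x →
      InPN p ζ Sg x (Finsupp.single v 1 : Pl k →₀ ℤ)) (D : Pl k →₀ ℤ) : InPN p ζ Sg x D := by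
  classical
  induction D using Finsupp.induction_linear with
  | zero => exact InPN.fzero hζ hp
  | add f g hf hg => exact InPN.fadd hζ (by omega) hf hg
  | single v n =>
    by_cases h1 : (p : ℤ) ∣ ordv v x
    · by_cases h2 : LocPow p ζ v x
      · exact InPN.single_of_locPow hζ hp h2 n
      · have := InPN.fzsmul hζ hp (h v h1 h2) n
        rwa [Finsupp.smul_single, smul_eq_mul, mul_one] at this
    · exact InPN.single_of_ram hζ hp h1 n

/-- `InPN` only depends on `x` modulo `p`-th powers. -/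
theorem InPN.congr_x (hζ : IsPrimitiveRoot ζ p) (hp : 1 < p) (hx : x ≠ 0) {y : k} (hy : y ≠ 0)
    {D : Pl k → ℤ} (h : InPN p ζ Sg x D) : InPN p ζ Sg (x * y ^ p) D := by
  have hord : ∀ v : Pl k, (p : ℤ) ∣ ordv v (x * y ^ p) ↔ (p : ℤ) ∣ ordv v x := fun v => by
    rw [InPN.aux_ordv_mul v hx (pow_ne_zero _ hy), InPN.aux_ordv_pow]
    exact (Int.dvd_add_left (Dvd.intro _ rfl))
  have hloc : ∀ v : Pl k, LocPow p ζ v x → LocPow p ζ v (x * y ^ p) := fun v hv =>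
    InPN.aux_locPow_mul hζ (by omega) hv (InPN.aux_locPow_pow hζ hp v hy)
  obtain ⟨z, hz, a1, a2, a3⟩ := h
  exact ⟨z, hz, a1, fun v hv => a2 v (fun h' => hv ((hord v).2 h')),
    fun v hv hv' => a3 v ((hord v).1 hv) fun h' => hv' (hloc v h')⟩

end calculus

end Fermat.Agent.S14lib
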