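import Fermat.Agent.S14.Ord
import Fermat.Agent.S14.InPN

/-!
# T-S14, WP0d (first half): the calculus of `LocPow`, `SymEq` and `sym`
-/

set_option autoImplicit false
set_option linter.unusedSectionVars false
set_option linter.style.haveILetI false
set_option linter.unusedVariables false

open NumberField IsDedekindDomain

namespace Fermat.Agent.S14lib

variable {k : Type*} [Field k] [NumberField k] {p : ℕ} [Fact p.Prime] {ζ : k}

/-! ### `LocPow` is a subgroup containing the `p`-th powers -/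

theorem LocPow.one (hζ : IsPrimitiveRoot ζ p) (v : Pl k) : LocPow p ζ v (1 : k) :=
  InPN.aux_locPow_one hζ (Fact.out : p.Prime).one_lt v

theorem locPow_pow (hζ : IsPrimitiveRoot ζ p) (v : Pl k) {y : k} (hy : y ≠ 0) :
    LocPow p ζ v (y ^ p) :=
  InPN.aux_locPow_pow hζ (Fact.out : p.Prime).one_lt v hy

theorem LocPow.mul (hζ : IsPrimitiveRoot ζ p) {v : Pl k} {x y : k} (hx : LocPow p ζ v x)
    (hy : LocPow p ζ v y) : LocPow p ζ v (x * y) :=
  InPN.aux_locPow_mul hζ (Fact.out : p.Prime).pos hx hy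

theorem LocPow.inv (hζ : IsPrimitiveRoot ζ p) {v : Pl k} {x : k} (hx : LocPow p ζ v x) :
    LocPow p ζ v x⁻¹ :=
  InPN.aux_locPow_inv hζ (Fact.out : p.Prime).pos hx

theorem LocPow.div (hζ : IsPrimitiveRoot ζ p) {v : Pl k} {x y : k} (hx : LocPow p ζ v x)
    (hy : LocPow p ζ v y) : LocPow p ζ v (x / y) := by
  rw [div_eq_mul_inv]
  exact hx.mul hζ (hy.inv hζ)

theorem LocPow.pow (hζ : IsPrimitiveRoot ζ p) {v : Pl k} {x : k} (hx : LocPow p ζ v x) (n : ℕ) :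
    LocPow p ζ v (x ^ n) :=
  InPN.aux_locPow_npow hζ (Fact.out : p.Prime).one_lt hx n

theorem LocPow.zpow (hζ : IsPrimitiveRoot ζ p) {v : Pl k} {x : k} (hx : LocPow p ζ v x) (n : ℤ) :
    LocPow p ζ v (x ^ n) :=
  InPN.aux_locPow_zpow hζ (Fact.out : p.Prime).one_lt hx n

theorem LocPow.ne_zero (hζ : IsPrimitiveRoot ζ p) {v : Pl k} {x : k} (hx : LocPow p ζ v x) :
    x ≠ 0 :=
  InPN.aux_locPow_ne_zero hζ (Fact.out : p.Prime).pos hx

theorem LocPow.dvd_ordv (hζ : IsPrimitiveRoot ζ p) {v : Pl k} {x : k} (hx : LocPow p ζ v x) :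
    (p : ℤ) ∣ ordv v x :=
  InPN.aux_locPow_dvd hζ (Fact.out : p.Prime).pos hx

theorem locPow_mul_pow_iff (hζ : IsPrimitiveRoot ζ p) {v : Pl k} {x y : k} (hy : y ≠ 0) :
    LocPow p ζ v (x * y ^ p) ↔ LocPow p ζ v x := by
  constructor
  · intro h
    have := h.div hζ (locPow_pow hζ v hy)
    rwa [mul_div_cancel_right₀ _ (pow_ne_zero _ hy)] at this
  · intro h
    exact h.mul hζ (locPow_pow hζ v hy)

theorem locPow_zpow_mul (hζ : IsPrimitiveRoot ζ p) (v : Pl k) {y : k} (hy : y ≠ 0) (n : ℤ) :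
    LocPow p ζ v (y ^ ((p : ℤ) * n)) := by
  rw [zpow_mul, zpow_natCast]
  exact (locPow_pow hζ v hy).zpow hζ n

theorem LocPow.prod (hζ : IsPrimitiveRoot ζ p) {v : Pl k} {ι : Type*} (s : Finset ι) (f : ι → k)
    (h : ∀ i ∈ s, LocPow p ζ v (f i)) : LocPow p ζ v (∏ i ∈ s, f i) := by
  classical
  induction s using Finset.induction_on with
  | empty => simpa using LocPow.one hζ v
  | insert a s ha ih =>
    rw [Finset.prod_insert ha]
    exact (h a (Finset.mem_insert_self a s)).mul hζ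
      (ih fun i hi => h i (Finset.mem_insert_of_mem hi))

/-- congruence: `x ≡ y` multiplicatively modulo `(1 - ζ) ^ p v` -/
theorem LocPow.congr (hζ : IsPrimitiveRoot ζ p) {v : Pl k} {x y : k} (hx : LocPow p ζ v x)
    (h : v.valuation k (y / x - 1) < v.valuation k ((1 - ζ) ^ p)) :
    LocPow p ζ v y := by
  have h1 : LocPow p ζ v (y / x) := ⟨1, one_ne_zero, by simpa using h⟩
  have := h1.mul hζ hx
  rwa [div_mul_cancel₀ _ (hx.ne_zero hζ)] at this

/-! ### the residue field -/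


/-- in a finite cyclic group of order `m * p`, `x ^ m = 1` implies that `x` is a `p`-th power -/
theorem exists_pow_eq_of_pow_eq_one_cyclic {G : Type*} [Group G] [IsCyclic G] {m q : ℕ}
    (hm : 0 < m) (hcard : Nat.card G = m * q) {x : G} (hx : x ^ m = 1) : ∃ y : G, y ^ q = x := by
  obtain ⟨g, hg⟩ := IsCyclic.exists_generator (α := G)
  obtain ⟨j, rfl⟩ := Subgroup.mem_zpowers_iff.1 (hg x)
  have h1 : orderOf g = m * q := by rw [orderOf_eq_card_of_forall_mem_zpowers hg, hcard]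
  rw [← zpow_natCast, ← zpow_mul, ← orderOf_dvd_iff_zpow_eq_one, h1] at hx
  have h2 : (q : ℤ) ∣ j := by
    push_cast at hx
    rw [mul_comm j] at hx
    exact Int.dvd_of_mul_dvd_mul_left (by exact_mod_cast hm.ne') hx
  obtain ⟨c, rfl⟩ := h2
  exact ⟨g ^ c, by rw [← zpow_natCast, ← zpow_mul, mul_comm]⟩

/-- the residue field version -/
theorem exists_pow_sub_mem (v : Pl k) {m q : ℕ} (hm : 0 < m) (hmq : m * q = nrm v - 1) {a : 𝓞 k}
    (ha : a ^ m - 1 ∈ v.asIdeal) : ∃ b : 𝓞 k, b ∉ v.asIdeal ∧ a - b ^ q ∈ v.asIdeal := by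
  haveI : v.asIdeal.IsMaximal := v.isMaximal
  letI := Ideal.Quotient.field v.asIdeal
  haveI : Finite (𝓞 k ⧸ v.asIdeal) := finite_quot v
  have h1 : (Ideal.Quotient.mk v.asIdeal a) ^ m = 1 := by
    rw [← map_pow, ← sub_eq_zero, ← map_one (Ideal.Quotient.mk v.asIdeal), ← map_sub]
    exact Ideal.Quotient.eq_zero_iff_mem.2 ha
  have ha0 : Ideal.Quotient.mk v.asIdeal a ≠ 0 := by
    intro h
    rw [h, zero_pow hm.ne'] at h1
    exact zero_ne_one h1
  have hcard : Nat.card (𝓞 k ⧸ v.asIdeal)ˣ = m * q := by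
    rw [Nat.card_units, card_quot_eq_nrm, hmq]
  obtain ⟨y, hy⟩ := exists_pow_eq_of_pow_eq_one_cyclic hm hcard (x := Units.mk0 _ ha0)
    (by ext; simpa using h1)
  obtain ⟨b, hb⟩ := Ideal.Quotient.mk_surjective (y : 𝓞 k ⧸ v.asIdeal)
  refine ⟨b, ?_, ?_⟩
  · intro h
    rw [← Ideal.Quotient.eq_zero_iff_mem, hb] at h
    exact y.ne_zero h
  · rw [← Ideal.Quotient.eq_zero_iff_mem, map_sub, map_pow, hb, sub_eq_zero]
    have := congrArg Units.val hy
    simpa using this.symm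

/-- an integer which generates the residue field: `b ^ m ≢ 1` for `0 < m < N v - 1` -/
theorem exists_generator_mod (v : Pl k) : ∃ b : 𝓞 k, b ∉ v.asIdeal ∧
    ∀ m : ℕ, 0 < m → m < nrm v - 1 → b ^ m - 1 ∉ v.asIdeal := by
  haveI : v.asIdeal.IsMaximal := v.isMaximal
  letI := Ideal.Quotient.field v.asIdeal
  haveI : Finite (𝓞 k ⧸ v.asIdeal) := finite_quot v
  obtain ⟨g, hg⟩ := IsCyclic.exists_generator (α := (𝓞 k ⧸ v.asIdeal)ˣ)
  have h1 : orderOf g = nrm v - 1 := by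
    rw [orderOf_eq_card_of_forall_mem_zpowers hg, Nat.card_units, card_quot_eq_nrm]
  obtain ⟨b, hb⟩ := Ideal.Quotient.mk_surjective (g : 𝓞 k ⧸ v.asIdeal)
  refine ⟨b, ?_, ?_⟩
  · intro h
    rw [← Ideal.Quotient.eq_zero_iff_mem, hb] at h
    exact g.ne_zero h
  · intro m hm hm' h
    rw [← Ideal.Quotient.eq_zero_iff_mem, map_sub, map_pow, hb, map_one, sub_eq_zero] at h
    have h2 : g ^ m = 1 := by ext; simpa using h
    have h3 := orderOf_dvd_of_pow_eq_one h2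
    rw [h1] at h3
    exact absurd (Nat.le_of_dvd hm h3) (by omega)

theorem valuation_algebraMap_eq_one_iff (v : Pl k) (a : 𝓞 k) :
    v.valuation k (algebraMap (𝓞 k) k a) = 1 ↔ a ∉ v.asIdeal := by
  rw [← v.valuation_lt_one_iff_mem (K := k) a, not_lt]
  exact ⟨fun h => h.ge, fun h => le_antisymm (v.valuation_le_one a) h⟩

/-- a `v`-unit is congruent to an algebraic integer prime to `v` -/
theorem exists_integer_unit (v : Pl k) {u : k} (hu : v.valuation k u = 1) :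
    ∃ a : 𝓞 k, a ∉ v.asIdeal ∧ v.valuation k (u - algebraMap (𝓞 k) k a) < 1 := by
  obtain ⟨a, ha⟩ := exists_integer_valuation_sub_lt v hu.le 0
  simp only [CharP.cast_eq_zero, neg_zero, WithZero.exp_zero] at ha
  refine ⟨a, ?_, ha⟩
  intro h
  have h1 : v.valuation k (algebraMap (𝓞 k) k a) < 1 := (v.valuation_lt_one_iff_mem a).2 h
  have h2 := (v.valuation k).map_add (u - algebraMap (𝓞 k) k a) (algebraMap (𝓞 k) k a)
  rw [sub_add_cancel, hu] at h2
  exact absurd h2 (not_le.2 (max_lt ha h1))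

/-- `u ^ ((N v - 1) / p) ≡ 1` implies that `u` is a `p`-th power modulo `v` -/
theorem exists_valuation_div_pow_sub_one_lt (hζ : IsPrimitiveRoot ζ p) {v : Pl k}
    (hv : ¬ Above p v) {u : k} (hu : v.valuation k u = 1)
    (h : v.valuation k (u ^ ((nrm v - 1) / p) - 1) < 1) :
    ∃ w : k, w ≠ 0 ∧ v.valuation k (u / w ^ p - 1) < 1 := by
  have hm : 0 < (nrm v - 1) / p := by
    have h1 := one_lt_nrm v
    exact Nat.div_pos (Nat.le_of_dvd (by omega) (dvd_nrm_sub_one hζ hv)) (Fact.out : p.Prime).pos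
  obtain ⟨a, ha, hua⟩ := exists_integer_unit v hu
  have h1 := valuation_pow_sub_pow_lt v hu.le (v.valuation_le_one a) hua ((nrm v - 1) / p)
  have h2 : a ^ ((nrm v - 1) / p) - 1 ∈ v.asIdeal := by
    have e : algebraMap (𝓞 k) k (a ^ ((nrm v - 1) / p) - 1) =
      (u ^ ((nrm v - 1) / p) - 1) - (u ^ ((nrm v - 1) / p) -
        algebraMap (𝓞 k) k a ^ ((nrm v - 1) / p)) := by
      rw [map_sub, map_pow, map_one]
      ring
    have key : v.valuation k (algebraMap (𝓞 k) k (a ^ ((nrm v - 1) / p) - 1)) < 1 := by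
      rw [e]
      exact lt_of_le_of_lt ((v.valuation k).map_sub _ _) (max_lt h h1)
    exact (v.valuation_lt_one_iff_mem _).1 key
  obtain ⟨b, hb, hab⟩ := exists_pow_sub_mem v hm (Nat.div_mul_cancel (dvd_nrm_sub_one hζ hv)) h2
  have hb1 := (valuation_algebraMap_eq_one_iff v b).2 hb
  have hb0 : algebraMap (𝓞 k) k b ≠ 0 := by
    intro h0
    rw [h0, map_zero] at hb1
    exact zero_ne_one hb1
  refine ⟨algebraMap (𝓞 k) k b, hb0, ?_⟩
  have e : u / algebraMap (𝓞 k) k b ^ p - 1 =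
      ((u - algebraMap (𝓞 k) k a) + algebraMap (𝓞 k) k (a - b ^ p)) *
        (algebraMap (𝓞 k) k b ^ p)⁻¹ := by
    rw [map_sub, map_pow]
    field_simp
    ring
  rw [e, map_mul, map_inv₀, map_pow, hb1, one_pow, inv_one, mul_one]
  exact lt_of_le_of_lt ((v.valuation k).map_add _ _)
    (max_lt hua ((v.valuation_lt_one_iff_mem _).2 hab))

/-! ### `SymEq` -/


theorem symExp_pos (hζ : IsPrimitiveRoot ζ p) {v : Pl k} (hv : ¬ Above p v) :
    0 < (nrm v - 1) / p := by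
  have h1 := one_lt_nrm v
  exact Nat.div_pos (Nat.le_of_dvd (by omega) (dvd_nrm_sub_one hζ hv)) (Fact.out : p.Prime).pos

theorem symExp_mul (hζ : IsPrimitiveRoot ζ p) {v : Pl k} (hv : ¬ Above p v) :
    (nrm v - 1) / p * p = nrm v - 1 :=
  Nat.div_mul_cancel (dvd_nrm_sub_one hζ hv)

omit [NumberField k] in
theorem zeta_pow_val_natCast (hζ : IsPrimitiveRoot ζ p) (n : ℕ) :
    ζ ^ ((n : ZMod p).val) = ζ ^ n := by
  rw [ZMod.val_natCast, hζ.eq_orderOf, pow_mod_orderOf]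

omit [NumberField k] in
theorem zeta_pow_val_add (hζ : IsPrimitiveRoot ζ p) (i j : ZMod p) :
    ζ ^ (i + j).val = ζ ^ i.val * ζ ^ j.val := by
  haveI : NeZero p := ⟨(Fact.out : p.Prime).ne_zero⟩
  rw [← pow_add, ← zeta_pow_val_natCast hζ (i.val + j.val)]
  congr 2
  simp

omit [NumberField k] in
theorem zeta_pow_val_neg (hζ : IsPrimitiveRoot ζ p) (i : ZMod p) :
    ζ ^ (-i).val = (ζ ^ i.val)⁻¹ := by
  have h := zeta_pow_val_add hζ (-i) i
  rw [neg_add_cancel, ZMod.val_zero, pow_zero] at h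
  exact eq_inv_of_mul_eq_one_left h.symm

theorem valuation_zeta_pow (hζ : IsPrimitiveRoot ζ p) (v : Pl k) (n : ℕ) :
    v.valuation k (ζ ^ n) = 1 := by
  rw [map_pow, valuation_zeta hζ v, one_pow]

/-- `a ≡ ζ ^ n mod v` implies that `a` is a `v`-unit -/
theorem valuation_eq_one_of_sub_zeta_pow_lt (hζ : IsPrimitiveRoot ζ p) (v : Pl k) {a : k} {n : ℕ}
    (h : v.valuation k (a - ζ ^ n) < 1) : v.valuation k a = 1 := by
  have := Valuation.map_add_eq_of_lt_right (v.valuation k) (x := a - ζ ^ n) (y := ζ ^ n)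
    (by rwa [valuation_zeta_pow hζ v])
  rwa [sub_add_cancel, valuation_zeta_pow hζ v] at this

theorem valuation_eq_one_of_pow {v : Pl k} {y : k} {m : ℕ} (hm : 0 < m)
    (h : v.valuation k (y ^ m) = 1) : v.valuation k y = 1 := by
  have hy : y ≠ 0 := by
    rintro rfl
    rw [zero_pow hm.ne', map_zero] at h
    exact zero_ne_one h
  rw [valuation_eq_one_iff v (pow_ne_zero _ hy), ordv_pow] at h
  rw [valuation_eq_one_iff v hy]
  rcases mul_eq_zero.1 h with h | h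
  · exact absurd (by exact_mod_cast h) hm.ne'
  · exact h

theorem SymEq.aux_unit (hζ : IsPrimitiveRoot ζ p) {v : Pl k} (hv : ¬ Above p v) {y : k} {n : ℕ}
    (h : v.valuation k (y ^ ((nrm v - 1) / p) - ζ ^ n) < 1) : v.valuation k y = 1 :=
  valuation_eq_one_of_pow (symExp_pos hζ hv) (valuation_eq_one_of_sub_zeta_pow_lt hζ v h)

theorem SymEq.ne_zero (hζ : IsPrimitiveRoot ζ p) {v : Pl k} (hv : ¬ Above p v) {x : k}
    {i : ZMod p} (h : SymEq p ζ v x i) : x ≠ 0 := by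
  obtain ⟨z, hz, h⟩ := h
  have h1 := SymEq.aux_unit hζ hv h
  rintro rfl
  rw [zero_div, map_zero] at h1
  exact zero_ne_one h1

theorem SymEq.dvd_ordv (hζ : IsPrimitiveRoot ζ p) {v : Pl k} (hv : ¬ Above p v) {x : k}
    {i : ZMod p} (h : SymEq p ζ v x i) : (p : ℤ) ∣ ordv v x := by
  have hx0 := h.ne_zero hζ hv
  obtain ⟨z, hz, h⟩ := h
  have h1 := SymEq.aux_unit hζ hv h
  rw [valuation_eq_one_iff v (div_ne_zero hx0 (pow_ne_zero _ hz)),
    ordv_div v hx0 (pow_ne_zero _ hz), ordv_pow] at h1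
  exact ⟨ordv v z, by linarith⟩

/-- change of the witness -/
theorem SymEq.aux_witness (hζ : IsPrimitiveRoot ζ p) {v : Pl k} (hv : ¬ Above p v) {x z z' : k}
    {n : ℕ} (hz : z ≠ 0) (hz' : z' ≠ 0)
    (h : v.valuation k ((x / z ^ p) ^ ((nrm v - 1) / p) - ζ ^ n) < 1)
    (h' : v.valuation k (x / z' ^ p) = 1) :
    v.valuation k ((x / z' ^ p) ^ ((nrm v - 1) / p) - ζ ^ n) < 1 := by
  have h1 := SymEq.aux_unit hζ hv h
  have hx0 : x ≠ 0 := by
    rintro rfl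
    rw [zero_div, map_zero] at h1
    exact zero_ne_one h1
  set t := z / z' with ht
  have ht0 : t ≠ 0 := div_ne_zero hz hz'
  have e1 : x / z' ^ p = x / z ^ p * t ^ p := by
    rw [ht, div_pow]
    field_simp
  have ht1 : v.valuation k t = 1 := by
    apply valuation_eq_one_of_pow (Fact.out : p.Prime).pos
    have := h'
    rw [e1, map_mul, h1, one_mul] at this
    exact this
  have h2 := valuation_pow_nrm_sub_one_sub_one_lt v ht1
  have e2 : (x / z' ^ p) ^ ((nrm v - 1) / p) - ζ ^ n =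
      (x / z ^ p) ^ ((nrm v - 1) / p) * (t ^ (nrm v - 1) - 1) +
        ((x / z ^ p) ^ ((nrm v - 1) / p) - ζ ^ n) := by
    rw [e1, mul_pow, ← pow_mul, mul_comm p, symExp_mul hζ hv]
    ring
  rw [e2]
  refine lt_of_le_of_lt ((v.valuation k).map_add _ _) (max_lt ?_ h)
  rw [map_mul, map_pow, h1, one_pow, one_mul]
  exact h2

/-- uniqueness of the symbol -/
theorem SymEq.unique (hζ : IsPrimitiveRoot ζ p) {v : Pl k} (hv : ¬ Above p v) {x : k}
    {i j : ZMod p} (hi : SymEq p ζ v x i) (hj : SymEq p ζ v x j) : i = j := by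
  haveI : NeZero p := ⟨(Fact.out : p.Prime).ne_zero⟩
  obtain ⟨z, hz, hi⟩ := hi
  obtain ⟨z', hz', hj⟩ := hj
  have h1 := SymEq.aux_witness hζ hv hz' hz hj (SymEq.aux_unit hζ hv hi)
  have h2 : v.valuation k (ζ ^ i.val - ζ ^ j.val) < 1 := by
    have e : ζ ^ i.val - ζ ^ j.val = ((x / z ^ p) ^ ((nrm v - 1) / p) - ζ ^ j.val) -
      ((x / z ^ p) ^ ((nrm v - 1) / p) - ζ ^ i.val) := by ring
    rw [e]
    exact lt_of_le_of_lt ((v.valuation k).map_sub _ _) (max_lt h1 hi)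
  have h3 := dvd_sub_of_valuation_zeta_pow_sub_lt hζ hv h2
  have h4 : ((i.val : ℤ) : ZMod p) = ((j.val : ℤ) : ZMod p) :=
    (ZMod.intCast_eq_intCast_iff_dvd_sub _ _ _).2 (by
      rw [← neg_sub]; exact (dvd_neg).2 h3)
  simpa using h4

/-- existence of the symbol -/
theorem exists_symEq (hζ : IsPrimitiveRoot ζ p) {v : Pl k} (hv : ¬ Above p v) {x : k}
    (hx0 : x ≠ 0) (hx : (p : ℤ) ∣ ordv v x) : ∃ i, SymEq p ζ v x i := by
  have hp : p.Prime := Fact.out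
  haveI : NeZero p := ⟨hp.ne_zero⟩
  obtain ⟨n, hn⟩ := hx
  obtain ⟨ϖ, hϖ0, hϖ⟩ := exists_ordv_eq_one v
  have hz : ϖ ^ n ≠ 0 := zpow_ne_zero _ hϖ0
  set u := x / (ϖ ^ n) ^ p with hu
  have hu0 : u ≠ 0 := div_ne_zero hx0 (pow_ne_zero _ hz)
  have hu1 : v.valuation k u = 1 := by
    rw [valuation_eq_one_iff v hu0, hu, ordv_div v hx0 (pow_ne_zero _ hz), ordv_pow, ordv_zpow, hϖ,
      hn]
    ring
  have h1 := valuation_pow_nrm_sub_one_sub_one_lt v hu1
  rw [← symExp_mul hζ hv, pow_mul] at h1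
  have h2 := hζ.pow_sub_pow_eq_prod_sub_mul (u ^ ((nrm v - 1) / p)) 1 hp.pos
  rw [one_pow] at h2
  rw [h2, map_prod] at h1
  have h3 : ∃ μ ∈ Polynomial.nthRootsFinset p (1 : k),
      v.valuation k (u ^ ((nrm v - 1) / p) - μ * 1) < 1 := by
    by_contra hcon
    push Not at hcon
    exact absurd h1 (not_lt.2 (Finset.one_le_prod' hcon))
  obtain ⟨μ, hμ, h3⟩ := h3
  rw [mul_one] at h3
  obtain ⟨i, hi, rfl⟩ := hζ.eq_pow_of_pow_eq_one
    ((Polynomial.mem_nthRootsFinset hp.pos 1).1 hμ)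
  refine ⟨(i : ZMod p), ϖ ^ n, hz, ?_⟩
  rw [zeta_pow_val_natCast hζ]
  exact h3

theorem SymEq.sym_eq (hζ : IsPrimitiveRoot ζ p) {v : Pl k} (hv : ¬ Above p v) {x : k}
    {i : ZMod p} (hi : SymEq p ζ v x i) : sym p ζ v x = i := by
  have h : ∃ i, SymEq p ζ v x i := ⟨i, hi⟩
  rw [sym, dif_pos h]
  exact SymEq.unique hζ hv h.choose_spec hi

theorem symEq_sym (hζ : IsPrimitiveRoot ζ p) {v : Pl k} (hv : ¬ Above p v) {x : k}
    (hx0 : x ≠ 0) (hx : (p : ℤ) ∣ ordv v x) : SymEq p ζ v x (sym p ζ v x) := by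
  have h := exists_symEq hζ hv hx0 hx
  rw [sym, dif_pos h]
  exact h.choose_spec

theorem symEq_iff_sym_eq (hζ : IsPrimitiveRoot ζ p) {v : Pl k} (hv : ¬ Above p v) {x : k}
    (hx0 : x ≠ 0) (hx : (p : ℤ) ∣ ordv v x) (i : ZMod p) :
    SymEq p ζ v x i ↔ sym p ζ v x = i :=
  ⟨fun h => h.sym_eq hζ hv, fun h => h ▸ symEq_sym hζ hv hx0 hx⟩

/-- junk value -/
theorem sym_eq_zero_of_not_dvd (hζ : IsPrimitiveRoot ζ p) {v : Pl k} (hv : ¬ Above p v) {x : k}
    (hx : ¬ (p : ℤ) ∣ ordv v x) : sym p ζ v x = 0 := by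
  rw [sym, dif_neg]
  rintro ⟨i, hi⟩
  exact hx (hi.dvd_ordv hζ hv)

/-- for a `v`-unit the witness `z = 1` is enough -/
theorem symEq_iff_of_unit (hζ : IsPrimitiveRoot ζ p) {v : Pl k} (hv : ¬ Above p v) {x : k}
    (hx0 : x ≠ 0) (hx : ordv v x = 0) (i : ZMod p) :
    SymEq p ζ v x i ↔ v.valuation k (x ^ ((nrm v - 1) / p) - ζ ^ i.val) < 1 := by
  constructor
  · rintro ⟨z, hz, h⟩
    have := SymEq.aux_witness hζ hv hz one_ne_zero h
      (by rw [one_pow, div_one]; exact (valuation_eq_one_iff v hx0).2 hx)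
    rwa [one_pow, div_one] at this
  · intro h
    exact ⟨1, one_ne_zero, by rwa [one_pow, div_one]⟩

theorem SymEq.mul (hζ : IsPrimitiveRoot ζ p) {v : Pl k} {x y : k} {i j : ZMod p}
    (hi : SymEq p ζ v x i) (hj : SymEq p ζ v y j) : SymEq p ζ v (x * y) (i + j) := by
  obtain ⟨z, hz, hi⟩ := hi
  obtain ⟨w, hw, hj⟩ := hj
  refine ⟨z * w, mul_ne_zero hz hw, ?_⟩
  have h1 := valuation_eq_one_of_sub_zeta_pow_lt hζ v hi
  have e : (x * y / (z * w) ^ p) ^ ((nrm v - 1) / p) - ζ ^ (i + j).val =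
      (x / z ^ p) ^ ((nrm v - 1) / p) * ((y / w ^ p) ^ ((nrm v - 1) / p) - ζ ^ j.val) +
        ((x / z ^ p) ^ ((nrm v - 1) / p) - ζ ^ i.val) * ζ ^ j.val := by
    rw [zeta_pow_val_add hζ, mul_pow, mul_div_mul_comm, mul_pow]
    ring
  rw [e]
  refine lt_of_le_of_lt ((v.valuation k).map_add _ _) (max_lt ?_ ?_)
  · rw [map_mul, h1, one_mul]
    exact hj
  · rw [map_mul, valuation_zeta_pow hζ v, mul_one]
    exact hi

theorem symEq_one (hζ : IsPrimitiveRoot ζ p) (v : Pl k) : SymEq p ζ v (1 : k) 0 :=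
  ⟨1, one_ne_zero, by simp⟩

theorem symEq_pow_self (hζ : IsPrimitiveRoot ζ p) (v : Pl k) {y : k} (hy : y ≠ 0) :
    SymEq p ζ v (y ^ p) 0 :=
  ⟨y, hy, by rw [div_self (pow_ne_zero _ hy)]; simp⟩

theorem SymEq.inv (hζ : IsPrimitiveRoot ζ p) {v : Pl k} {x : k} {i : ZMod p}
    (hi : SymEq p ζ v x i) : SymEq p ζ v x⁻¹ (-i) := by
  obtain ⟨z, hz, hi⟩ := hi
  refine ⟨z⁻¹, inv_ne_zero hz, ?_⟩
  have h1 := valuation_eq_one_of_sub_zeta_pow_lt hζ v hi
  set a := (x / z ^ p) ^ ((nrm v - 1) / p) with ha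
  have ha0 : a ≠ 0 := by
    intro h
    rw [h, map_zero] at h1
    exact zero_ne_one h1
  have hζ0 : ζ ^ i.val ≠ 0 := pow_ne_zero _ (hζ.ne_zero (Fact.out : p.Prime).ne_zero)
  have e : (x⁻¹ / z⁻¹ ^ p) ^ ((nrm v - 1) / p) - ζ ^ (-i).val =
      - (a - ζ ^ i.val) * (a⁻¹ * (ζ ^ i.val)⁻¹) := by
    rw [zeta_pow_val_neg hζ, inv_pow, ← inv_div_inv, inv_inv, inv_inv, ← inv_div, inv_pow, ← ha]
    field_simp
    ring
  rw [e, map_mul, map_mul, map_inv₀, map_inv₀, h1, valuation_zeta_pow hζ v, Valuation.map_neg]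
  simpa using hi

theorem SymEq.pow (hζ : IsPrimitiveRoot ζ p) {v : Pl k} {x : k} {i : ZMod p}
    (hi : SymEq p ζ v x i) (n : ℕ) : SymEq p ζ v (x ^ n) (n * i) := by
  induction n with
  | zero => simpa using symEq_one hζ v
  | succ n ih =>
    rw [pow_succ]
    have := ih.mul hζ hi
    convert this using 1
    push_cast
    ring

theorem SymEq.zpow (hζ : IsPrimitiveRoot ζ p) {v : Pl k} {x : k} {i : ZMod p}
    (hi : SymEq p ζ v x i) (n : ℤ) : SymEq p ζ v (x ^ n) (n * i) := by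
  cases n with
  | ofNat n => simpa using hi.pow hζ n
  | negSucc n =>
    rw [zpow_negSucc]
    have := (hi.pow hζ (n + 1)).inv hζ
    convert this using 1
    push_cast
    ring

/-! ### `sym` -/

theorem sym_one (hζ : IsPrimitiveRoot ζ p) {v : Pl k} (hv : ¬ Above p v) :
    sym p ζ v (1 : k) = 0 :=
  (symEq_one hζ v).sym_eq hζ hv

theorem sym_pow_self (hζ : IsPrimitiveRoot ζ p) {v : Pl k} (hv : ¬ Above p v) {y : k}
    (hy : y ≠ 0) : sym p ζ v (y ^ p) = 0 :=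
  (symEq_pow_self hζ v hy).sym_eq hζ hv

theorem sym_mul (hζ : IsPrimitiveRoot ζ p) {v : Pl k} (hv : ¬ Above p v) {x y : k}
    (hx0 : x ≠ 0) (hx : (p : ℤ) ∣ ordv v x) (hy0 : y ≠ 0) (hy : (p : ℤ) ∣ ordv v y) :
    sym p ζ v (x * y) = sym p ζ v x + sym p ζ v y :=
  ((symEq_sym hζ hv hx0 hx).mul hζ (symEq_sym hζ hv hy0 hy)).sym_eq hζ hv

theorem sym_inv (hζ : IsPrimitiveRoot ζ p) {v : Pl k} (hv : ¬ Above p v) {x : k}
    (hx0 : x ≠ 0) (hx : (p : ℤ) ∣ ordv v x) : sym p ζ v x⁻¹ = - sym p ζ v x :=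
  ((symEq_sym hζ hv hx0 hx).inv hζ).sym_eq hζ hv

theorem sym_div (hζ : IsPrimitiveRoot ζ p) {v : Pl k} (hv : ¬ Above p v) {x y : k}
    (hx0 : x ≠ 0) (hx : (p : ℤ) ∣ ordv v x) (hy0 : y ≠ 0) (hy : (p : ℤ) ∣ ordv v y) :
    sym p ζ v (x / y) = sym p ζ v x - sym p ζ v y := by
  rw [div_eq_mul_inv, sub_eq_add_neg]
  exact ((symEq_sym hζ hv hx0 hx).mul hζ ((symEq_sym hζ hv hy0 hy).inv hζ)).sym_eq hζ hv

theorem sym_pow (hζ : IsPrimitiveRoot ζ p) {v : Pl k} (hv : ¬ Above p v) {x : k}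
    (hx0 : x ≠ 0) (hx : (p : ℤ) ∣ ordv v x) (n : ℕ) : sym p ζ v (x ^ n) = n * sym p ζ v x :=
  ((symEq_sym hζ hv hx0 hx).pow hζ n).sym_eq hζ hv

theorem sym_zpow (hζ : IsPrimitiveRoot ζ p) {v : Pl k} (hv : ¬ Above p v) {x : k}
    (hx0 : x ≠ 0) (hx : (p : ℤ) ∣ ordv v x) (n : ℤ) : sym p ζ v (x ^ n) = n * sym p ζ v x :=
  ((symEq_sym hζ hv hx0 hx).zpow hζ n).sym_eq hζ hv

theorem sym_mul_pow_self (hζ : IsPrimitiveRoot ζ p) {v : Pl k} (hv : ¬ Above p v) {x β : k}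
    (hx0 : x ≠ 0) (hx : (p : ℤ) ∣ ordv v x) (hβ : β ≠ 0) :
    sym p ζ v (x * β ^ p) = sym p ζ v x := by
  have := ((symEq_sym hζ hv hx0 hx).mul hζ (symEq_pow_self hζ v hβ)).sym_eq hζ hv
  rwa [add_zero] at this

/-- (`NeedAPI` of `End.lean`) -/
theorem sym_pow_mul_pow (hζ : IsPrimitiveRoot ζ p) {v : Pl k} (hv : ¬ Above p v) {x β : k}
    (hx0 : x ≠ 0) (hx : (p : ℤ) ∣ ordv v x) (hβ : β ≠ 0) (n : ℕ) :
    sym p ζ v (x ^ n * β ^ p) = n * sym p ζ v x := by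
  have := (((symEq_sym hζ hv hx0 hx).pow hζ n).mul hζ (symEq_pow_self hζ v hβ)).sym_eq hζ hv
  rwa [add_zero] at this

theorem sym_prod (hζ : IsPrimitiveRoot ζ p) {v : Pl k} (hv : ¬ Above p v) {ι : Type*}
    (s : Finset ι) (f : ι → k) (h0 : ∀ i ∈ s, f i ≠ 0) (h : ∀ i ∈ s, (p : ℤ) ∣ ordv v (f i)) :
    sym p ζ v (∏ i ∈ s, f i) = ∑ i ∈ s, sym p ζ v (f i) := by
  classical
  induction s using Finset.induction_on with
  | empty => simpa using sym_one hζ hv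
  | insert a s ha ih =>
    have h0' : ∀ i ∈ s, f i ≠ 0 := fun i hi => h0 i (Finset.mem_insert_of_mem hi)
    have h' : ∀ i ∈ s, (p : ℤ) ∣ ordv v (f i) := fun i hi => h i (Finset.mem_insert_of_mem hi)
    rw [Finset.prod_insert ha, Finset.sum_insert ha,
      sym_mul hζ hv (h0 a (Finset.mem_insert_self a s)) (h a (Finset.mem_insert_self a s))
        (Finset.prod_ne_zero_iff.2 h0')
        (by rw [ordv_prod v s f h0']; exact Finset.dvd_sum h'), ih h0' h']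

/-- (`NeedAPI` of `End.lean`) **the symbol vanishes exactly on the local `p`-th powers** -/
theorem sym_eq_zero_iff (hζ : IsPrimitiveRoot ζ p) {v : Pl k} (hv : ¬ Above p v) {x : k}
    (hx0 : x ≠ 0) (hx : (p : ℤ) ∣ ordv v x) : sym p ζ v x = 0 ↔ LocPow p ζ v x := by
  rw [← symEq_iff_sym_eq hζ hv hx0 hx, locPow_iff_of_not_above hζ hv]
  constructor
  · rintro ⟨z, hz, h⟩
    rw [ZMod.val_zero, pow_zero] at h
    have hu : v.valuation k (x / z ^ p) = 1 :=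
      SymEq.aux_unit hζ hv (n := 0) (by rwa [pow_zero])
    obtain ⟨w, hw, h1⟩ := exists_valuation_div_pow_sub_one_lt hζ hv hu h
    refine ⟨z * w, mul_ne_zero hz hw, ?_⟩
    rwa [mul_pow, ← div_div]
  · rintro ⟨z, hz, h⟩
    refine ⟨z, hz, ?_⟩
    rw [ZMod.val_zero, pow_zero]
    have := valuation_pow_sub_pow_lt v (valuation_eq_one_of_sub_one_lt v h).le
      (le_of_eq (map_one _)) h ((nrm v - 1) / p)
    rwa [one_pow] at this

theorem LocPow.sym_eq_zero (hζ : IsPrimitiveRoot ζ p) {v : Pl k} (hv : ¬ Above p v) {x : k}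
    (h : LocPow p ζ v x) : sym p ζ v x = 0 :=
  (sym_eq_zero_iff hζ hv (h.ne_zero hζ) (h.dvd_ordv hζ)).2 h

/-- the symbol only depends on `x` modulo `v` (multiplicatively) -/
theorem sym_congr (hζ : IsPrimitiveRoot ζ p) {v : Pl k} (hv : ¬ Above p v) {x y : k}
    (hx0 : x ≠ 0) (h : v.valuation k (y / x - 1) < 1) : sym p ζ v y = sym p ζ v x := by
  have h1 : LocPow p ζ v (y / x) :=
    (locPow_iff_of_not_above hζ hv _).2 ⟨1, one_ne_zero, by simpa using h⟩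
  have h2 := h1.ne_zero hζ
  have h3 : ordv v (y / x) = 0 := ordv_eq_zero_of_sub_one_lt v h
  have e : y = x * (y / x) := by field_simp
  by_cases hx : (p : ℤ) ∣ ordv v x
  · rw [e, sym_mul hζ hv hx0 hx h2 (h1.dvd_ordv hζ), h1.sym_eq_zero hζ hv, add_zero]
  · rw [sym_eq_zero_of_not_dvd hζ hv hx, sym_eq_zero_of_not_dvd hζ hv]
    rw [e, ordv_mul v hx0 h2, h3, add_zero]
    exact hx

/-- `sym v x = sym v y ↔ x / y` is a local `p`-th power -/
theorem sym_eq_sym_iff (hζ : IsPrimitiveRoot ζ p) {v : Pl k} (hv : ¬ Above p v) {x y : k}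
    (hx0 : x ≠ 0) (hx : (p : ℤ) ∣ ordv v x) (hy0 : y ≠ 0) (hy : (p : ℤ) ∣ ordv v y) :
    sym p ζ v x = sym p ζ v y ↔ LocPow p ζ v (x / y) := by
  rw [← sym_eq_zero_iff hζ hv (div_ne_zero hx0 hy0)
    (by rw [ordv_div v hx0 hy0]; exact dvd_sub hx hy), sym_div hζ hv hx0 hx hy0 hy, sub_eq_zero]

/-- the symbol of `ζ` -/
theorem sym_zeta (hζ : IsPrimitiveRoot ζ p) {v : Pl k} (hv : ¬ Above p v) :
    sym p ζ v ζ = (((nrm v - 1) / p : ℕ) : ZMod p) := by
  apply SymEq.sym_eq hζ hv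
  exact ⟨1, one_ne_zero, by rw [zeta_pow_val_natCast hζ]; simp⟩

/-- **surjectivity of the symbol on the integers prime to `v`** (`k(v)ˣ` is cyclic) -/
theorem exists_integer_sym_eq (hζ : IsPrimitiveRoot ζ p) {v : Pl k} (hv : ¬ Above p v)
    (i : ZMod p) :
    ∃ a : 𝓞 k, a ∉ v.asIdeal ∧ sym p ζ v (algebraMap (𝓞 k) k a) = i := by
  have hp : p.Prime := Fact.out
  haveI : NeZero p := ⟨hp.ne_zero⟩
  obtain ⟨b, hb, hgen⟩ := exists_generator_mod v
  have hb1 := (valuation_algebraMap_eq_one_iff v b).2 hb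
  have hb0 : algebraMap (𝓞 k) k b ≠ 0 := by
    intro h0
    rw [h0, map_zero] at hb1
    exact zero_ne_one hb1
  have hbo : ordv v (algebraMap (𝓞 k) k b) = 0 := (valuation_eq_one_iff v hb0).1 hb1
  have hbd : (p : ℤ) ∣ ordv v (algebraMap (𝓞 k) k b) := by rw [hbo]; exact dvd_zero _
  have hj : sym p ζ v (algebraMap (𝓞 k) k b) ≠ 0 := by
    intro h0
    have h1 := symEq_sym hζ hv hb0 hbd
    rw [h0, symEq_iff_of_unit hζ hv hb0 hbo, ZMod.val_zero, pow_zero] at h1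
    have hm := symExp_pos hζ hv
    have hm' : (nrm v - 1) / p < nrm v - 1 := by
      have := symExp_mul hζ hv
      have h2 := hp.two_le
      nlinarith
    apply hgen _ hm hm'
    have e : algebraMap (𝓞 k) k (b ^ ((nrm v - 1) / p) - 1) =
        algebraMap (𝓞 k) k b ^ ((nrm v - 1) / p) - 1 := by
      rw [map_sub, map_pow, map_one]
    have key : v.valuation k (algebraMap (𝓞 k) k (b ^ ((nrm v - 1) / p) - 1)) < 1 := by
      rw [e]; exact h1
    exact (v.valuation_lt_one_iff_mem _).1 key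
  refine ⟨b ^ (i * (sym p ζ v (algebraMap (𝓞 k) k b))⁻¹).val, ?_, ?_⟩
  · intro h
    exact hb (v.isPrime.mem_of_pow_mem _ h)
  · rw [map_pow, sym_pow hζ hv hb0 hbd, ZMod.natCast_zmod_val, mul_assoc, inv_mul_cancel₀ hj,
      mul_one]

/-- **surjectivity of the symbol on the `v`-units** -/
theorem exists_sym_eq (hζ : IsPrimitiveRoot ζ p) {v : Pl k} (hv : ¬ Above p v) (i : ZMod p) :
    ∃ u : k, u ≠ 0 ∧ ordv v u = 0 ∧ sym p ζ v u = i := by
  obtain ⟨a, ha, h⟩ := exists_integer_sym_eq hζ hv i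
  have ha1 := (valuation_algebraMap_eq_one_iff v a).2 ha
  have ha0 : algebraMap (𝓞 k) k a ≠ 0 := by
    intro h0
    rw [h0, map_zero] at ha1
    exact zero_ne_one ha1
  exact ⟨_, ha0, (valuation_eq_one_iff v ha0).1 ha1, h⟩

end Fermat.Agent.S14lib
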