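import Fermat.Agent.S14.Ord
import Fermat.Agent.S14.Sym

/-!
# T-S14, WP0e: Galois equivariance of `ordv`, `nrm`, `Above`, `LocPow`, `SymEq`, `sym`, `InPN`
under `pull σ v = σ⁻¹ v = {x | σ x ∈ v}`; the cyclotomic field: `σ_c`, transitivity on the places
above `l`, degree one `↔` trivial stabiliser.
-/

set_option autoImplicit false
set_option linter.style.haveILetI false
set_option linter.unusedSectionVars false

open NumberField IsDedekindDomain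

namespace Fermat.Agent.S14lib

section general

variable {k : Type*} [Field k] [NumberField k]

theorem mem_pull_asIdeal (σ : k ≃+* k) (v : Pl k) (a : 𝓞 k) :
    a ∈ (pull σ v).asIdeal ↔ RingOfIntegers.mapRingEquiv σ a ∈ v.asIdeal := Iff.rfl

theorem equiv_pull_asIdeal (σ : k ≃+* k) (v : Pl k) :
    (pull σ v).asIdeal = v.asIdeal.comap (RingOfIntegers.mapRingEquiv σ) := rfl

theorem equiv_mem_pull_pow (σ : k ≃+* k) (v : Pl k) (a : 𝓞 k) (n : ℕ) :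
    a ∈ (pull σ v).asIdeal ^ n ↔ RingOfIntegers.mapRingEquiv σ a ∈ v.asIdeal ^ n := by
  rw [equiv_pull_asIdeal, ← Ideal.map_symm, ← Ideal.map_pow, Ideal.map_symm]
  exact Iff.rfl

omit [NumberField k] in
theorem equiv_algebraMap_map (σ : k ≃+* k) (a : 𝓞 k) :
    algebraMap (𝓞 k) k (RingOfIntegers.mapRingEquiv σ a) = σ (algebraMap (𝓞 k) k a) := rfl

theorem equiv_ordv_pull_int (σ : k ≃+* k) (v : Pl k) {a : 𝓞 k} (ha : a ≠ 0) :
    ordv (pull σ v) (algebraMap (𝓞 k) k a) = ordv v (σ (algebraMap (𝓞 k) k a)) := by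
  have ha' : RingOfIntegers.mapRingEquiv σ a ≠ 0 :=
    (map_ne_zero_iff _ (RingOfIntegers.mapRingEquiv σ).injective).2 ha
  rw [← equiv_algebraMap_map]
  have h1 := ordv_algebraMap_nonneg (pull σ v) a
  have h2 := ordv_algebraMap_nonneg v (RingOfIntegers.mapRingEquiv σ a)
  have key : ∀ n : ℕ, (n : ℤ) ≤ ordv (pull σ v) (algebraMap (𝓞 k) k a) ↔
      (n : ℤ) ≤ ordv v (algebraMap (𝓞 k) k (RingOfIntegers.mapRingEquiv σ a)) := by
    intro n
    rw [le_ordv_algebraMap_iff _ ha, le_ordv_algebraMap_iff _ ha', equiv_mem_pull_pow]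
  obtain ⟨m, hm⟩ := Int.eq_ofNat_of_zero_le h1
  obtain ⟨m', hm'⟩ := Int.eq_ofNat_of_zero_le h2
  apply le_antisymm
  · rw [hm]; exact (key m).1 hm.ge
  · rw [hm']; exact (key m').2 hm'.ge

theorem ordv_pull (σ : k ≃+* k) (v : Pl k) (x : k) : ordv (pull σ v) x = ordv v (σ x) := by
  obtain ⟨a, b, hb, rfl⟩ := IsFractionRing.div_surjective (A := 𝓞 k) x
  have hb0 : b ≠ 0 := nonZeroDivisors.ne_zero hb
  have hb' : algebraMap (𝓞 k) k b ≠ 0 :=
    (map_ne_zero_iff _ (IsFractionRing.injective (𝓞 k) k)).2 hb0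
  by_cases ha : a = 0
  · subst ha
    simp
  have ha' : algebraMap (𝓞 k) k a ≠ 0 :=
    (map_ne_zero_iff _ (IsFractionRing.injective (𝓞 k) k)).2 ha
  rw [map_div₀, ordv_div _ ha' hb', ordv_div _ ((map_ne_zero σ).2 ha') ((map_ne_zero σ).2 hb'),
    equiv_ordv_pull_int σ v ha, equiv_ordv_pull_int σ v hb0]

theorem valuation_pull (σ : k ≃+* k) (v : Pl k) (x : k) :
    (pull σ v).valuation k x = v.valuation k (σ x) := by
  by_cases hx : x = 0
  · subst hx; simp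
  rw [valuation_eq_exp _ hx, valuation_eq_exp _ ((map_ne_zero σ).2 hx), ordv_pull]

theorem dv_pull (σ : k ≃+* k) (v : Pl k) (x : k) : dv x (pull σ v) = dv (σ x) v :=
  ordv_pull σ v x

theorem pull_refl (v : Pl k) : pull (RingEquiv.refl k) v = v := by
  apply HeightOneSpectrum.ext
  ext a
  rw [mem_pull_asIdeal]
  exact Iff.rfl

/-- `pull` is contravariant -/
theorem pull_trans (σ τ : k ≃+* k) (v : Pl k) : pull (σ.trans τ) v = pull σ (pull τ v) := by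
  apply HeightOneSpectrum.ext
  ext a
  rw [mem_pull_asIdeal, mem_pull_asIdeal, mem_pull_asIdeal]
  exact Iff.rfl

theorem pull_symm_pull (σ : k ≃+* k) (v : Pl k) : pull σ.symm (pull σ v) = v := by
  rw [← pull_trans]
  have : σ.symm.trans σ = RingEquiv.refl k := by ext; simp
  rw [this, pull_refl]

theorem pull_pull_symm (σ : k ≃+* k) (v : Pl k) : pull σ (pull σ.symm v) = v := by
  rw [← pull_trans]
  have : σ.trans σ.symm = RingEquiv.refl k := by ext; simp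
  rw [this, pull_refl]

theorem pull_injective (σ : k ≃+* k) : Function.Injective (pull σ) := fun v w h => by
  rw [← pull_symm_pull σ v, h, pull_symm_pull]

theorem pull_surjective (σ : k ≃+* k) : Function.Surjective (pull σ) := fun v =>
  ⟨pull σ.symm v, pull_pull_symm σ v⟩

theorem pull_eq_iff (σ : k ≃+* k) (v w : Pl k) : pull σ v = w ↔ v = pull σ.symm w :=
  ⟨fun h => by rw [← h, pull_symm_pull], fun h => by rw [h, pull_pull_symm]⟩

theorem nrm_pull (σ : k ≃+* k) (v : Pl k) : nrm (pull σ v) = nrm v := by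
  rw [← card_quot_eq_nrm, ← card_quot_eq_nrm]
  refine Nat.card_congr (Ideal.quotientEquiv _ _ (RingOfIntegers.mapRingEquiv σ) ?_).toEquiv
  rw [equiv_pull_asIdeal]
  exact (Ideal.map_comap_of_surjective _ (RingOfIntegers.mapRingEquiv σ).surjective _).symm

theorem above_pull (l : ℕ) (σ : k ≃+* k) (v : Pl k) : Above l (pull σ v) ↔ Above l v := by
  rw [Above, Above, mem_pull_asIdeal, map_natCast]

section zeta

variable {p : ℕ} [Fact p.Prime] {ζ : k}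

/-- every automorphism raises `ζ` to a power prime to `p` -/
theorem exists_pow_eq_apply (hζ : IsPrimitiveRoot ζ p) (σ : k ≃+* k) :
    ∃ c : ℕ, 1 ≤ c ∧ c < p ∧ σ ζ = ζ ^ c := by
  have hp : p.Prime := Fact.out
  haveI : NeZero p := ⟨hp.ne_zero⟩
  have h1 : (σ ζ) ^ p = 1 := by rw [← map_pow, hζ.pow_eq_one, map_one]
  obtain ⟨c, hc, hc'⟩ := hζ.eq_pow_of_pow_eq_one h1
  refine ⟨c, ?_, hc, hc'.symm⟩
  rcases Nat.eq_zero_or_pos c with rfl | h
  · exfalso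
    rw [pow_zero] at hc'
    have : σ ζ = σ 1 := by rw [← hc', map_one]
    exact hζ.ne_one hp.one_lt (σ.injective this)
  · exact h

theorem not_dvd_of_apply_eq_pow (hζ : IsPrimitiveRoot ζ p) (σ : k ≃+* k) {c : ℕ}
    (hc : σ ζ = ζ ^ c) : ¬ p ∣ c := by
  intro h
  rw [(hζ.pow_eq_one_iff_dvd c).2 h] at hc
  have : σ ζ = σ 1 := by rw [hc, map_one]
  exact hζ.ne_one (Fact.out : p.Prime).one_lt (σ.injective this)

theorem valuation_one_sub_apply (hζ : IsPrimitiveRoot ζ p) (σ : k ≃+* k) (v : Pl k) :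
    v.valuation k (1 - σ ζ) = v.valuation k (1 - ζ) := by
  obtain ⟨c, -, -, hc⟩ := exists_pow_eq_apply hζ σ
  have hpc := not_dvd_of_apply_eq_pow hζ σ hc
  have h0 : (1 : k) - ζ ^ c ≠ 0 := by
    intro h
    exact hpc ((hζ.pow_eq_one_iff_dvd c).1 (sub_eq_zero.1 h).symm)
  rw [hc, valuation_eq_exp v h0, valuation_eq_exp v (one_sub_zeta_ne_zero hζ),
    ordv_one_sub_zeta_pow hζ v hpc]

theorem locPow_pull (hζ : IsPrimitiveRoot ζ p) (σ : k ≃+* k) (v : Pl k) (x : k) :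
    LocPow p ζ (pull σ v) x ↔ LocPow p ζ v (σ x) := by
  have key : ∀ z : k, ((pull σ v).valuation k (x / z ^ p - 1) <
      (pull σ v).valuation k ((1 - ζ) ^ p)) ↔
      (v.valuation k (σ x / (σ z) ^ p - 1) < v.valuation k ((1 - ζ) ^ p)) := by
    intro z
    have e1 : σ (x / z ^ p - 1) = σ x / (σ z) ^ p - 1 := by simp
    have e2 : σ ((1 - ζ) ^ p) = (1 - σ ζ) ^ p := by simp
    rw [valuation_pull, valuation_pull, e1, e2, map_pow (v.valuation k), map_pow (v.valuation k),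
      valuation_one_sub_apply hζ]
  constructor
  · rintro ⟨z, hz, h⟩
    exact ⟨σ z, by simpa using hz, (key z).1 h⟩
  · rintro ⟨z, hz, h⟩
    refine ⟨σ.symm z, by simpa using hz, (key _).2 ?_⟩
    rwa [RingEquiv.apply_symm_apply]

/-- `(x / σ⁻¹v) = ζ^i ↔ (σ x / v) = (σ ζ)^i = ζ^(c i)` -/
theorem symEq_pull (hζ : IsPrimitiveRoot ζ p) (σ : k ≃+* k) {c : ℕ} (hc : σ ζ = ζ ^ c)
    (v : Pl k) (x : k) (i : ZMod p) :
    SymEq p ζ (pull σ v) x i ↔ SymEq p ζ v (σ x) (c * i) := by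
  haveI : NeZero p := ⟨(Fact.out : p.Prime).ne_zero⟩
  have hpow : (ζ ^ c) ^ i.val = ζ ^ ((c : ZMod p) * i).val := by
    rw [← pow_mul, ← zeta_pow_val_natCast hζ (c * i.val)]
    congr 2
    rw [Nat.cast_mul, ZMod.natCast_zmod_val]
  have key : ∀ z : k, ((pull σ v).valuation k
      ((x / z ^ p) ^ ((nrm (pull σ v) - 1) / p) - ζ ^ i.val) < 1) ↔
      (v.valuation k ((σ x / (σ z) ^ p) ^ ((nrm v - 1) / p) - ζ ^ ((c : ZMod p) * i).val) < 1) := by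
    intro z
    have e1 : σ ((x / z ^ p) ^ ((nrm v - 1) / p) - ζ ^ i.val) =
        (σ x / (σ z) ^ p) ^ ((nrm v - 1) / p) - (σ ζ) ^ i.val := by simp
    rw [valuation_pull, nrm_pull, e1, hc, hpow]
  constructor
  · rintro ⟨z, hz, h⟩
    exact ⟨σ z, by simpa using hz, (key z).1 h⟩
  · rintro ⟨z, hz, h⟩
    refine ⟨σ.symm z, by simpa using hz, (key _).2 ?_⟩
    rwa [RingEquiv.apply_symm_apply]

/-- uniqueness of the symbol (also in WP0d; kept here under an `equiv_` name) -/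
theorem equiv_symEq_unique (hζ : IsPrimitiveRoot ζ p) {v : Pl k} (hv : ¬ Above p v) {x : k}
    {i j : ZMod p} (hi : SymEq p ζ v x i) (hj : SymEq p ζ v x j) : i = j :=
  SymEq.unique hζ hv hi hj

theorem equiv_sym_eq (hζ : IsPrimitiveRoot ζ p) {v : Pl k} (hv : ¬ Above p v) {x : k}
    {i : ZMod p} (hi : SymEq p ζ v x i) : sym p ζ v x = i :=
  SymEq.sym_eq hζ hv hi

/-- **equivariance of the symbol** (no hypothesis on `x`: both sides are junk `0` together) -/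
theorem sym_apply_gen (hζ : IsPrimitiveRoot ζ p) (σ : k ≃+* k) {c : ℕ} (hc : σ ζ = ζ ^ c)
    {v : Pl k} (hv : ¬ Above p v) (x : k) :
    sym p ζ v (σ x) = c * sym p ζ (pull σ v) x := by
  have hv' : ¬ Above p (pull σ v) := fun h => hv ((above_pull p σ v).1 h)
  have hc0 : (c : ZMod p) ≠ 0 := by
    rw [Ne, ZMod.natCast_eq_zero_iff]
    exact not_dvd_of_apply_eq_pow hζ σ hc
  by_cases h : ∃ i, SymEq p ζ (pull σ v) x i
  · obtain ⟨i, hi⟩ := h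
    rw [SymEq.sym_eq hζ hv' hi, SymEq.sym_eq hζ hv ((symEq_pull hζ σ hc v x i).1 hi)]
  · have h' : ¬ ∃ j, SymEq p ζ v (σ x) j := by
      rintro ⟨j, hj⟩
      apply h
      refine ⟨(c : ZMod p)⁻¹ * j, (symEq_pull hζ σ hc v x _).2 ?_⟩
      rwa [mul_inv_cancel_left₀ hc0]
    rw [sym, sym, dif_neg h, dif_neg h', mul_zero]

/-- the same with the signature of `End.lean` (`NeedAPI.sym_apply`) -/
theorem sym_apply (hζ : IsPrimitiveRoot ζ p) {v : Pl k} (hv : ¬ Above p v) {x : k}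
    (_hx0 : x ≠ 0) (_hx : (p : ℤ) ∣ ordv v x) (σ : k ≃+* k) (c : ℕ) (hσ : σ ζ = ζ ^ c) :
    sym p ζ v (σ x) = c * sym p ζ (pull σ v) x :=
  sym_apply_gen hζ σ hσ hv x

/-- `SymEq` of `x ^ m * β ^ p` -/
theorem SymEq.pow_mul_pow (hζ : IsPrimitiveRoot ζ p) {v : Pl k} {x β : k} {i : ZMod p}
    (hi : SymEq p ζ v x i) (m : ℕ) (hβ : β ≠ 0) : SymEq p ζ v (x ^ m * β ^ p) (m * i) := by
  have := (hi.pow hζ m).mul hζ (symEq_pow_self hζ v hβ)
  rwa [add_zero] at this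

/-- eigen-elements: if `σ x = x ^ m * β ^ p` and `σ ζ = ζ ^ c` then
`c * sym (σ⁻¹ v) x = m * sym v x`.  (`hx`: the symbol of `x` at `v` is defined, i.e.
`p ∣ ordv v x`, WP0d.) -/
theorem sym_pull_of_eigen (hζ : IsPrimitiveRoot ζ p) (σ : k ≃+* k) {c m : ℕ} (hc : σ ζ = ζ ^ c)
    {v : Pl k} (hv : ¬ Above p v) {x β : k} (hβ : β ≠ 0) (hx : ∃ i, SymEq p ζ v x i)
    (h : σ x = x ^ m * β ^ p) :
    (c : ZMod p) * sym p ζ (pull σ v) x = m * sym p ζ v x := by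
  obtain ⟨i, hi⟩ := hx
  rw [← sym_apply_gen hζ σ hc hv x, h, SymEq.sym_eq hζ hv hi,
    SymEq.sym_eq hζ hv (hi.pow_mul_pow hζ m hβ)]

/-- a place fixed by `σ` with `σ ζ = ζ ^ c`, `σ x = x ^ m * β ^ p`, `c ≢ m mod p`,
has trivial symbol -/
theorem sym_eq_zero_of_pull_eq (hζ : IsPrimitiveRoot ζ p) (σ : k ≃+* k) {c m : ℕ}
    (hc : σ ζ = ζ ^ c) {v : Pl k} (hv : ¬ Above p v) (hσv : pull σ v = v) {x β : k} (hβ : β ≠ 0)
    (h : σ x = x ^ m * β ^ p) (hcm : (c : ZMod p) ≠ m) : sym p ζ v x = 0 := by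
  by_cases hx : ∃ i, SymEq p ζ v x i
  · have h1 := sym_pull_of_eigen hζ σ hc hv hβ hx h
    rw [hσv] at h1
    have h2 : ((c : ZMod p) - m) * sym p ζ v x = 0 := by rw [sub_mul, h1, sub_self]
    rcases mul_eq_zero.1 h2 with h3 | h3
    · exact absurd (sub_eq_zero.1 h3) hcm
    · exact h3
  · rw [sym, dif_neg hx]

/-- equivariance of `InPN` -/
theorem inPN_apply (hζ : IsPrimitiveRoot ζ p) (σ : k ≃+* k) (Sg : Set (Pl k)) (x : k)
    (D : Pl k → ℤ) :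
    InPN p ζ (pull σ ⁻¹' Sg) (σ x) (D ∘ pull σ) ↔ InPN p ζ Sg x D := by
  unfold InPN
  rw [σ.surjective.exists]
  refine exists_congr fun z => ?_
  refine and_congr (by simp) (and_congr ?_ (and_congr ?_ ?_))
  · rw [(pull_surjective σ).forall (p := fun v => v ∈ Sg → ordv v z = 0)]
    refine forall_congr' fun v => ?_
    rw [Set.mem_preimage, ordv_pull]
  · rw [(pull_surjective σ).forall (p := fun v => ¬ (p : ℤ) ∣ ordv v x →
      ordv v z = 0 ∧ LocPow p ζ v z)]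
    refine forall_congr' fun v => ?_
    rw [ordv_pull, ordv_pull, locPow_pull hζ]
  · rw [(pull_surjective σ).forall (p := fun v => (p : ℤ) ∣ ordv v x → ¬ LocPow p ζ v x →
      (p : ℤ) ∣ D v - ordv v z)]
    refine forall_congr' fun v => ?_
    rw [ordv_pull, ordv_pull, locPow_pull hζ, Function.comp_apply]

end zeta

end general

section galois

open scoped Pointwise

variable {K : Type*} [Field K] [NumberField K]

theorem pull_one (v : Pl K) : pull ((1 : K ≃ₐ[ℚ] K) : K ≃+* K) v = v := by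
  apply HeightOneSpectrum.ext
  ext a
  exact Iff.rfl

theorem pull_mul (σ τ : K ≃ₐ[ℚ] K) (v : Pl K) :
    pull ((σ * τ : K ≃ₐ[ℚ] K) : K ≃+* K) v = pull (τ : K ≃+* K) (pull (σ : K ≃+* K) v) := by
  apply HeightOneSpectrum.ext
  ext a
  exact Iff.rfl

theorem pull_inv_pull (σ : K ≃ₐ[ℚ] K) (v : Pl K) :
    pull ((σ⁻¹ : K ≃ₐ[ℚ] K) : K ≃+* K) (pull (σ : K ≃+* K) v) = v := by
  rw [← pull_mul, mul_inv_cancel, pull_one]

theorem pull_pull_inv (σ : K ≃ₐ[ℚ] K) (v : Pl K) :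
    pull (σ : K ≃+* K) (pull ((σ⁻¹ : K ≃ₐ[ℚ] K) : K ≃+* K) v) = v := by
  rw [← pull_mul, inv_mul_cancel, pull_one]

theorem liesOver_of_above {l : ℕ} (hl : l.Prime) {v : Pl K} (hv : Above l v) :
    v.asIdeal.LiesOver (Ideal.span {(l : ℤ)}) := by
  have hl0 : (l : ℤ) ≠ 0 := by exact_mod_cast hl.ne_zero
  have hmax : (Ideal.span {(l : ℤ)}).IsMaximal :=
    ((Ideal.span_singleton_prime hl0).2 (Nat.prime_iff_prime_int.1 hl)).isMaximal (by simpa using hl0)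
  refine ⟨hmax.eq_of_le ?_ ?_⟩
  · exact (Ideal.comap_ne_top _ v.isPrime.ne_top)
  · rw [Ideal.span_singleton_le_iff_mem, Ideal.mem_comap]
    have hv' : (l : 𝓞 K) ∈ v.asIdeal := hv
    simpa using hv'

theorem smul_asIdeal_eq (σ : K ≃ₐ[ℚ] K) (v : Pl K) :
    σ • v.asIdeal = (pull ((σ⁻¹ : K ≃ₐ[ℚ] K) : K ≃+* K) v).asIdeal := by
  ext x
  rw [Ideal.mem_pointwise_smul_iff_inv_smul_mem]
  exact Iff.rfl

theorem exists_pull_eq [IsGalois ℚ K] {l : ℕ} (hl : l.Prime) {v w : Pl K} (hv : Above l v)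
    (hw : Above l w) : ∃ σ : K ≃ₐ[ℚ] K, pull (σ : K ≃+* K) v = w := by
  haveI := liesOver_of_above hl hv
  haveI := liesOver_of_above hl hw
  obtain ⟨σ, hσ⟩ := Ideal.exists_smul_eq_of_isGaloisGroup (Ideal.span {(l : ℤ)}) v.asIdeal w.asIdeal
    (K ≃ₐ[ℚ] K)
  refine ⟨σ⁻¹, ?_⟩
  apply HeightOneSpectrum.ext
  rw [← hσ, smul_asIdeal_eq]

theorem nrm_eq_of_stabilizer_trivial [IsGalois ℚ K] {l : ℕ} (hl : l.Prime) {v : Pl K}
    (hv : Above l v) (h : ∀ σ : K ≃ₐ[ℚ] K, pull (σ : K ≃+* K) v = v → σ = 1) : nrm v = l := by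
  haveI : Fact l.Prime := ⟨hl⟩
  haveI := liesOver_of_above hl hv
  haveI : v.asIdeal.IsMaximal := v.isMaximal
  have h1 := Ideal.card_stabilizer_eq_card_inertia_mul_finrank (G := K ≃ₐ[ℚ] K)
    (Ideal.span {(l : ℤ)}) v.asIdeal
  have h2 : MulAction.stabilizer (K ≃ₐ[ℚ] K) v.asIdeal = ⊥ := by
    rw [Subgroup.eq_bot_iff_forall]
    intro σ hσ
    rw [MulAction.mem_stabilizer_iff, smul_asIdeal_eq] at hσ
    have := h σ⁻¹ (HeightOneSpectrum.ext hσ)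
    rwa [inv_eq_one] at this
  rw [h2, Subgroup.card_bot] at h1
  have h3 : v.asIdeal.inertiaDeg ℤ = 1 := Nat.eq_one_of_mul_eq_one_left h1.symm
  rw [nrm, Ideal.absNorm_eq_pow_inertiaDeg' v.asIdeal hl, Ideal.inertiaDeg'_eq_inertiaDeg, h3,
    pow_one]

end galois

section cyclotomic

open scoped Pointwise

variable {K : Type*} [Field K] [NumberField K] {p : ℕ} [Fact p.Prime]
  [IsCyclotomicExtension {p} ℚ K] {ζ : K}

theorem exists_sigma (hζ : IsPrimitiveRoot ζ p) (c : ℕ) (hc : ¬ p ∣ c) :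
    ∃ σ : K ≃ₐ[ℚ] K, σ ζ = ζ ^ c := by
  have hp : p.Prime := Fact.out
  have hcop : c.Coprime p := ((Nat.Prime.coprime_iff_not_dvd hp).2 hc).symm
  refine ⟨(IsCyclotomicExtension.Rat.galEquivZMod p K).symm (ZMod.unitOfCoprime c hcop), ?_⟩
  rw [IsCyclotomicExtension.Rat.galEquivZMod_apply_of_pow_eq p K _ hζ.pow_eq_one,
    MulEquiv.apply_symm_apply, ZMod.coe_unitOfCoprime, ZMod.val_natCast,
    ← pow_eq_pow_mod c hζ.pow_eq_one]

omit [IsCyclotomicExtension {p} ℚ K] in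
theorem exists_pow_of_sigma (hζ : IsPrimitiveRoot ζ p) (σ : K ≃ₐ[ℚ] K) :
    ∃ c : ℕ, ¬ p ∣ c ∧ σ ζ = ζ ^ c := by
  obtain ⟨c, -, -, hc⟩ := exists_pow_eq_apply hζ (σ : K ≃+* K)
  exact ⟨c, not_dvd_of_apply_eq_pow hζ (σ : K ≃+* K) hc, hc⟩

theorem sigma_ext (hζ : IsPrimitiveRoot ζ p) {σ τ : K ≃ₐ[ℚ] K} (h : σ ζ = τ ζ) : σ = τ := by
  have : (σ : K →ₐ[ℚ] K) = τ := (hζ.powerBasis ℚ).algHom_ext (by simpa using h)
  exact AlgEquiv.coe_toAlgHom_injective this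

omit [IsCyclotomicExtension {p} ℚ K] in
theorem exists_exponent (hζ : IsPrimitiveRoot ζ p) (σ : K ≃ₐ[ℚ] K) :
    ∃ c : ℕ, 1 ≤ c ∧ c < p ∧ σ ζ = ζ ^ c :=
  exists_pow_eq_apply hζ (σ : K ≃+* K)

theorem sigma_eq_one_iff (hζ : IsPrimitiveRoot ζ p) {σ : K ≃ₐ[ℚ] K} {c : ℕ} (hc : σ ζ = ζ ^ c) :
    σ = 1 ↔ (c : ZMod p) = 1 := by
  have hp : p.Prime := Fact.out
  have key : ζ ^ c = ζ ^ 1 ↔ (c : ZMod p) = 1 := by
    rw [(hζ.isOfFinOrder hp.ne_zero).pow_inj_mod, ← hζ.eq_orderOf,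
      ← ZMod.natCast_eq_natCast_iff', Nat.cast_one]
  rw [← key, pow_one]
  constructor
  · rintro rfl
    exact hc.symm
  · intro h
    exact sigma_ext hζ (by rw [hc, h]; rfl)

theorem nrm_prime_of_stabiliser (hζ : IsPrimitiveRoot ζ p) {v : Pl K} (_hv : ¬ Above p v)
    (h : ∀ (σ : K ≃ₐ[ℚ] K) (c : ℕ), σ ζ = ζ ^ c → pull (σ : K ≃+* K) v = v → (c : ZMod p) = 1) :
    (nrm v).Prime := by
  haveI : IsGalois ℚ K := IsCyclotomicExtension.isGalois {p} ℚ K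
  obtain ⟨l, hl, hlv⟩ := exists_prime_above v
  rw [nrm_eq_of_stabilizer_trivial hl hlv fun σ hσ => by
    obtain ⟨c, -, hc⟩ := exists_pow_of_sigma hζ σ
    exact (sigma_eq_one_iff hζ hc).2 (h σ c hc hσ)]
  exact hl

theorem eq_one_of_pull_eq_of_nrm (_hζ : IsPrimitiveRoot ζ p) {l : ℕ} (hl : l.Prime) (hlp : l ≠ p)
    {v : Pl K} (hv : nrm v = l) {σ : K ≃ₐ[ℚ] K} (h : pull (σ : K ≃+* K) v = v) : σ = 1 := by
  have hp : p.Prime := Fact.out
  haveI : IsGalois ℚ K := IsCyclotomicExtension.isGalois {p} ℚ K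
  haveI : Fact l.Prime := ⟨hl⟩
  have hlv : Above l v := above_of_nrm_eq hl hv
  haveI := liesOver_of_above hl hlv
  haveI : v.asIdeal.IsMaximal := v.isMaximal
  have hnd : ¬ l ∣ p := fun h => hlp ((Nat.prime_dvd_prime_iff_eq hl hp).1 h)
  have h1 := Ideal.card_stabilizer_eq (G := K ≃ₐ[ℚ] K) (Ideal.span {(l : ℤ)}) v.asIdeal
  have h3 : v.asIdeal.inertiaDeg ℤ = 1 := by
    have h4 : nrm v = l ^ (v.asIdeal.inertiaDeg ℤ) := by
      rw [nrm, Ideal.absNorm_eq_pow_inertiaDeg' v.asIdeal hl, Ideal.inertiaDeg'_eq_inertiaDeg]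
    rw [hv] at h4
    exact (Nat.pow_right_injective hl.two_le (by simpa using h4.symm))
  rw [IsCyclotomicExtension.Rat.ramificationIdxIn_eq_of_not_dvd l K hnd,
    Ideal.inertiaDegIn_eq_inertiaDeg (Ideal.span {(l : ℤ)}) v.asIdeal (K ≃ₐ[ℚ] K), h3, one_mul] at h1
  have h5 : σ⁻¹ ∈ MulAction.stabilizer (K ≃ₐ[ℚ] K) v.asIdeal := by
    rw [MulAction.mem_stabilizer_iff, smul_asIdeal_eq, inv_inv, h]
  have h6 := (Subgroup.card_eq_one.1 h1)
  rw [h6, Subgroup.mem_bot, inv_eq_one] at h5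
  exact h5

theorem eq_of_pull_eq_pull_of_nrm (hζ : IsPrimitiveRoot ζ p) {l : ℕ} (hl : l.Prime) (hlp : l ≠ p)
    {v : Pl K} (hv : nrm v = l) {σ τ : K ≃ₐ[ℚ] K}
    (h : pull (σ : K ≃+* K) v = pull (τ : K ≃+* K) v) : σ = τ := by
  have h1 : pull ((σ * τ⁻¹ : K ≃ₐ[ℚ] K) : K ≃+* K) v = v := by
    rw [pull_mul, h, pull_inv_pull]
  have h2 := eq_one_of_pull_eq_of_nrm hζ hl hlp hv h1
  exact mul_inv_eq_one.1 h2

theorem exists_pull_sigma_eq (hζ : IsPrimitiveRoot ζ p) {l : ℕ} (hl : l.Prime) {v w : Pl K}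
    (hv : Above l v) (hw : Above l w) :
    ∃ (c : ℕ) (σ : K ≃ₐ[ℚ] K), 1 ≤ c ∧ c < p ∧ σ ζ = ζ ^ c ∧ pull (σ : K ≃+* K) v = w := by
  haveI : IsGalois ℚ K := IsCyclotomicExtension.isGalois {p} ℚ K
  obtain ⟨σ, hσ⟩ := exists_pull_eq hl hv hw
  obtain ⟨c, h1, h2, h3⟩ := exists_exponent hζ σ
  exact ⟨c, σ, h1, h2, h3, hσ⟩

theorem nrm_eq_of_sym_ne_zero (hζ : IsPrimitiveRoot ζ p) {l : ℕ} (hl : l.Prime) {v : Pl K}
    (hv : Above l v) (hvp : ¬ Above p v) {x : K} (m : ℕ → ℕ)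
    (hm : ∀ c : ℕ, (c : ZMod p) ≠ 0 → (c : ZMod p) ≠ 1 → (c : ZMod p) ≠ m c)
    (hx : ∀ (σ : K ≃ₐ[ℚ] K) (c : ℕ), σ ζ = ζ ^ c → ∃ β : K, β ≠ 0 ∧ σ x = x ^ m c * β ^ p)
    (hs : sym p ζ v x ≠ 0) : nrm v = l := by
  haveI : IsGalois ℚ K := IsCyclotomicExtension.isGalois {p} ℚ K
  refine nrm_eq_of_stabilizer_trivial hl hv fun σ hσ => ?_
  obtain ⟨c, hcp, hc⟩ := exists_pow_of_sigma hζ σ
  by_contra hne
  have h1 : (c : ZMod p) ≠ 1 := fun h => hne ((sigma_eq_one_iff hζ hc).2 h)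
  have h0 : (c : ZMod p) ≠ 0 := fun h => hcp ((ZMod.natCast_eq_zero_iff c p).1 h)
  obtain ⟨β, hβ, hxβ⟩ := hx σ c hc
  exact hs (sym_eq_zero_of_pull_eq hζ (σ : K ≃+* K) hc hvp hσ hβ hxβ (hm c h0 h1))

theorem nrm_eq_of_sym_ratCast_ne_zero (hζ : IsPrimitiveRoot ζ p) {l : ℕ} (hl : l.Prime) {v : Pl K}
    (hv : Above l v) (hvp : ¬ Above p v) {x : ℚ} (hs : sym p ζ v (x : K) ≠ 0) : nrm v = l := by
  refine nrm_eq_of_sym_ne_zero hζ hl hv hvp (fun _ => 1) (fun c _ h1 => by simpa using h1)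
    (fun σ c _ => ⟨1, one_ne_zero, by simp⟩) hs

end cyclotomic

end Fermat.Agent.S14lib
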