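import Fermat.Agent.S14.CK_A
import Fermat.Agent.S14.CK_B
import Fermat.Agent.S14.Equiv

/-!
# T-S14, WP6: (CK) Chebotarev + Kummer
-/

set_option autoImplicit false
set_option linter.unusedSectionVars false

open NumberField IsDedekindDomain

namespace Fermat.Agent.S14lib

variable {k : Type} [Field k] [NumberField k] {p : ℕ} [Fact p.Prime]

theorem natCast_absNorm_span_mem_of_mem (v : Pl k) {a : 𝓞 k} (ha : a ∈ v.asIdeal) :
    ((Ideal.absNorm (Ideal.span {a}) : ℕ) : 𝓞 k) ∈ v.asIdeal :=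
  (Ideal.span_singleton_le_iff_mem _).2 ha (Ideal.absNorm_mem _)

/-- **(CK)** Chebotarev + Kummer (WP6) -/
theorem CK (hp2 : p ≠ 2) {ζ : k} (hζ : IsPrimitiveRoot ζ p) {n : ℕ} (u : Fin n → k)
    (hu0 : ∀ i, u i ≠ 0)
    (hind : ∀ e : Fin n → ℤ, (∃ y : k, y ^ p = ∏ i, u i ^ e i) → ∀ i, (p : ℤ) ∣ e i)
    (a : Fin n → ZMod p) (ha : a ≠ 0) (Sg : Finset (Pl k)) :
    ∃ v : Pl k, v ∉ Sg ∧ ¬ Above p v ∧ (∀ i, ordv v (u i) = 0) ∧
      ∃ c : ZMod p, c ≠ 0 ∧ ∀ i, sym p ζ v (u i) = c * a i := by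
  classical
  have hp : p.Prime := Fact.out
  have : NeZero p := ⟨hp.ne_zero⟩
  -- numerators and denominators
  have hfrac : ∀ i, ∃ r s : 𝓞 k, r ≠ 0 ∧ s ≠ 0 ∧ u i = (r : k) / (s : k) := by
    intro i
    obtain ⟨r, s, hs, h⟩ := IsFractionRing.div_surjective (A := 𝓞 k) (u i)
    have hs0 : s ≠ 0 := nonZeroDivisors.ne_zero hs
    refine ⟨r, s, ?_, hs0, h.symm⟩
    rintro rfl
    apply hu0 i
    rw [← h]
    simp
  choose r s hr0 hs0 hrs using hfrac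
  have hs0' : ∀ i, ((s i : 𝓞 k) : k) ≠ 0 := fun i => by
    simpa using hs0 i
  let w : Fin n → 𝓞 k := fun i => r i * s i ^ (p - 1)
  have hw : ∀ i, ((w i : 𝓞 k) : k) = u i * (s i : k) ^ p := by
    intro i
    have h1 : p = (p - 1) + 1 := by have := hp.pos; omega
    show ((r i * s i ^ (p - 1) : 𝓞 k) : k) = _
    rw [hrs i]
    push_cast
    conv_rhs => rw [h1, pow_succ]
    rw [div_mul_eq_mul_div, ← mul_assoc, mul_div_assoc, div_self (hs0' i), mul_one]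
  have hw0 : ∀ i, ((w i : 𝓞 k) : k) ≠ 0 := fun i => by
    rw [hw]; exact mul_ne_zero (hu0 i) (pow_ne_zero _ (hs0' i))
  have hindw : ∀ e : Fin n → ℤ, (∃ y : k, y ^ p = ∏ i, ((w i : 𝓞 k) : k) ^ e i) →
      ∀ i, (p : ℤ) ∣ e i := by
    rintro e ⟨y, hy⟩
    apply hind e
    refine ⟨y / ∏ i, ((s i : 𝓞 k) : k) ^ e i, ?_⟩
    rw [div_pow, hy, ← Finset.prod_pow, ← Finset.prod_div_distrib]
    refine Finset.prod_congr rfl fun i _ => ?_
    rw [hw, mul_zpow, ← zpow_natCast, ← zpow_natCast, ← zpow_mul, ← zpow_mul, mul_comm (p : ℤ),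
      mul_div_assoc, div_self (zpow_ne_zero _ (hs0' i)), mul_one]
  obtain ⟨L, _, _, _, ι, θ, g, hθ, hg, hgθ⟩ :=
    exists_kummer_data hζ (fun i => ((w i : 𝓞 k) : k)) hw0 hindw a
  -- the bad integer
  let B : ℕ := p * (∏ v ∈ Sg, nrm v) *
    ∏ i, (Ideal.absNorm (Ideal.span {r i}) * Ideal.absNorm (Ideal.span {s i}))
  have hB : B ≠ 0 := by
    refine mul_ne_zero (mul_ne_zero hp.ne_zero (Finset.prod_ne_zero_iff.2 fun v _ => ?_))
      (Finset.prod_ne_zero_iff.2 fun i _ => mul_ne_zero ?_ ?_)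
    · exact (one_lt_nrm v).ne_bot
    · rw [Ne, Ideal.absNorm_eq_zero_iff, Ideal.span_singleton_eq_bot]; exact hr0 i
    · rw [Ne, Ideal.absNorm_eq_zero_iff, Ideal.span_singleton_eq_bot]; exact hs0 i
  have hpB : p ∣ B := Dvd.dvd.mul_right (Dvd.intro _ rfl) _
  have hBmem : ∀ (v : Pl k) (d : ℕ), d ∣ B → (d : 𝓞 k) ∈ v.asIdeal → (B : 𝓞 k) ∈ v.asIdeal := by
    rintro v d ⟨t, ht⟩ hd
    rw [ht]
    push_cast
    exact Ideal.mul_mem_right _ _ hd
  have hrB : ∀ i, ∀ v : Pl k, r i ∈ v.asIdeal → (B : 𝓞 k) ∈ v.asIdeal := by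
    intro i v h
    refine hBmem v _ ?_ (natCast_absNorm_span_mem_of_mem v h)
    exact Dvd.dvd.mul_left ((Dvd.intro _ rfl).trans
      (Finset.dvd_prod_of_mem (fun i => Ideal.absNorm (Ideal.span {r i}) *
        Ideal.absNorm (Ideal.span {s i})) (Finset.mem_univ i))) _
  have hsB : ∀ i, ∀ v : Pl k, s i ∈ v.asIdeal → (B : 𝓞 k) ∈ v.asIdeal := by
    intro i v h
    refine hBmem v _ ?_ (natCast_absNorm_span_mem_of_mem v h)
    exact Dvd.dvd.mul_left ((Dvd.intro_left _ rfl).trans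
      (Finset.dvd_prod_of_mem (fun i => Ideal.absNorm (Ideal.span {r i}) *
        Ideal.absNorm (Ideal.span {s i})) (Finset.mem_univ i))) _
  have hwB : ∀ i, ∀ v : Pl k, w i ∈ v.asIdeal → (B : 𝓞 k) ∈ v.asIdeal := by
    intro i v h
    rcases v.isPrime.mem_or_mem h with h1 | h1
    · exact hrB i v h1
    · exact hsB i v (v.isPrime.mem_of_pow_mem _ h1)
  obtain ⟨v, hBv, c, hc, hsym⟩ := CK_core (ζ := hζ.toInteger) hζ.toInteger_isPrimitiveRoot w ι θ g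
    hθ hg a ha hgθ B hB hpB hwB
  have hpv : ¬ Above p v := fun h => hBv (hBmem v p hpB h)
  refine ⟨v, ?_, hpv, ?_, c, hc, ?_⟩
  · intro hv
    refine hBv (hBmem v (nrm v) ?_ (natCast_nrm_mem v))
    exact Dvd.dvd.mul_right (Dvd.dvd.mul_left (Finset.dvd_prod_of_mem _ hv) _) _
  · intro i
    have h1 : ordv v ((r i : 𝓞 k) : k) = 0 :=
      (ordv_algebraMap_eq_zero_iff v (hr0 i)).2 fun h => hBv (hrB i v h)
    have h2 : ordv v ((s i : 𝓞 k) : k) = 0 :=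
      (ordv_algebraMap_eq_zero_iff v (hs0 i)).2 fun h => hBv (hsB i v h)
    rw [hrs i, ordv_div v (by simpa using hr0 i) (hs0' i), h1, h2, sub_zero]
  · intro i
    apply equiv_sym_eq hζ hpv
    refine ⟨((s i : 𝓞 k) : k)⁻¹, inv_ne_zero (hs0' i), ?_⟩
    have h1 : u i / (((s i : 𝓞 k) : k)⁻¹) ^ p = ((w i : 𝓞 k) : k) := by
      rw [hw, inv_pow, div_inv_eq_mul]
    rw [h1]
    have h2 := (v.valuation_lt_one_iff_mem (K := k) _).2 (hsym i)
    convert h2 using 2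
    push_cast
    rfl
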