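import Fermat.Agent.S14.GaussDefs

/-!
# T-S14, WP8b (c): the power residue symbol of `ρ = g(χ)^p`

`(ρ / w) = χ(N w)⁻¹` for every place `w ∤ p r` of every number field `F ⊇ K`.
-/

set_option autoImplicit false
set_option linter.style.haveILetI false

open NumberField IsDedekindDomain Finset

namespace Fermat.Agent.S14lib

section finite

variable {r p ℓ : ℕ} [Fact r.Prime] [Fact ℓ.Prime] {κ : Type*} [Field κ] [CharP κ ℓ]

theorem gaussSum_frob_iter (χ : MulChar (ZMod r) κ) (ψ : AddChar (ZMod r) κ) (f : ℕ) :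
    gaussSum χ ψ ^ (ℓ ^ f) = gaussSum (χ ^ (ℓ ^ f)) (ψ ^ (ℓ ^ f)) := by
  induction f with
  | zero => simp
  | succ f ih => rw [pow_succ, pow_mul, ih, gaussSum_frob ℓ, ← pow_mul, ← pow_mul]

/-- the Frobenius trick: `ρ ^ ((n - 1) / p) * χ n = 1`, `n = ℓ ^ f ≡ 1 mod p` -/
theorem rho0_pow_mul_chi (hp : 2 ≤ p) (χ : MulChar (ZMod r) κ) (hχ : orderOf χ = p)
    (ψ : AddChar (ZMod r) κ) (hψ : ψ.IsPrimitive) (f : ℕ) (hn : p ∣ ℓ ^ f - 1) (hℓr : ℓ ≠ r) :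
    rho0 p χ ^ ((ℓ ^ f - 1) / p) * χ ((ℓ ^ f : ℕ) : ZMod r) = 1 := by
  have hr : r.Prime := Fact.out
  have hℓ : ℓ.Prime := Fact.out
  set g := gaussSum χ ψ with hg
  have hgp : g ^ p = rho0 p χ := by
    have := gaussSum_pow_eq_prod_jacobiSum (χ := χ) (ψ := ψ) (by rw [hχ]; exact hp) hψ
    rw [hχ, ZMod.card] at this
    exact this
  have hχ1 : χ ≠ 1 := by
    intro h
    rw [h, orderOf_one] at hχ
    omega
  have hr0 : ((Fintype.card (ZMod r) : ℕ) : κ) ≠ 0 := by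
    rw [ZMod.card, Ne, CharP.cast_eq_zero_iff κ ℓ]
    intro h
    exact hℓr ((Nat.prime_dvd_prime_iff_eq hℓ hr).1 h)
  have hg0 : g ≠ 0 := gaussSum_ne_zero_of_nontrivial hr0 hχ1 hψ
  obtain ⟨k, hk⟩ := hn
  have hpos : 0 < ℓ ^ f := pow_pos hℓ.pos f
  have hn1 : ℓ ^ f = p * k + 1 := by omega
  have hχn : χ ^ (ℓ ^ f) = χ := by
    rw [hn1, pow_succ, pow_mul, ← hχ, pow_orderOf_eq_one, one_pow, one_mul]
  have hunit : IsUnit ((ℓ ^ f : ℕ) : ZMod r) := by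
    rw [ZMod.isUnit_iff_coprime]
    exact Nat.Coprime.pow_left f ((Nat.coprime_primes hℓ hr).2 hℓr)
  have h1 := gaussSum_frob_iter (ℓ := ℓ) χ ψ f
  rw [hχn, AddChar.pow_mulShift] at h1
  have h2 := gaussSum_mulShift χ ψ hunit.unit
  rw [IsUnit.unit_spec, ← h1, ← hg] at h2
  have hdiv : (ℓ ^ f - 1) / p = k := by rw [hk, Nat.mul_div_cancel_left _ (by omega)]
  rw [hdiv, ← hgp, ← pow_mul]
  apply mul_right_cancel₀ hg0
  rw [one_mul, mul_assoc, mul_comm, mul_assoc, ← pow_succ', ← hn1]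
  exact h2

end finite

section numberfield

variable {K : Type*} [Field K] [NumberField K] {p : ℕ} [Fact p.Prime]

theorem pow_eq_pow_of_natCast_eq {R : Type*} [Monoid R] {ζ : R} (hζ : ζ ^ p = 1) {a b : ℕ}
    (h : (a : ZMod p) = (b : ZMod p)) : ζ ^ a = ζ ^ b := by
  rw [pow_eq_pow_mod a hζ, pow_eq_pow_mod b hζ, (ZMod.natCast_eq_natCast_iff' a b p).1 h]

/-- **(GS c)** -/
theorem symEq_rho0 {ζ₀ : 𝓞 K} (hζ₀ : IsPrimitiveRoot ζ₀ p) {rr : Pl K} {r : ℕ} [Fact r.Prime]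
    (hrr : nrm rr = r) (χ : MulChar (ZMod r) (𝓞 K)) (hχ : orderOf χ = p)
    (hval : ∀ t : (ZMod r)ˣ, ∃ i : ℕ, χ t = ζ₀ ^ i)
    (hcong : ∀ t : ZMod r, χ t - ((t.val : ℕ) : 𝓞 K) ^ ((r - 1) / p) ∈ rr.asIdeal)
    {F : Type*} [Field F] [NumberField F] [Algebra K F] (w : Pl F) (hwp : ¬ Above p w)
    (hwr : ¬ Above r w) :
    ∃ j : ZMod p, SymEq p (ζ₀ : K) rr ((nrm w : ℕ) : K) j ∧
      SymEq p (algebraMap K F (ζ₀ : K)) w (algebraMap K F ((rho0 p χ : 𝓞 K) : K)) (-j) := by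
  classical
  have hp : p.Prime := Fact.out
  have hr : r.Prime := Fact.out
  have hrmem : (r : 𝓞 K) ∈ rr.asIdeal := hrr ▸ nrm_mem rr
  -- the residue field of `w`
  have := w.isMaximal
  letI := Ideal.Quotient.field w.asIdeal
  set mk := Ideal.Quotient.mk w.asIdeal with hmk
  set n := nrm w with hn
  have hcard : Nat.card (𝓞 F ⧸ w.asIdeal) = n := by
    rw [hn, nrm, Ideal.absNorm_apply, Submodule.cardQuot_apply]
  have hn0 : n ≠ 0 := by
    rw [hn, nrm, Ne, Ideal.absNorm_eq_zero_iff]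
    exact w.ne_bot
  have hfin : Finite (𝓞 F ⧸ w.asIdeal) := Nat.finite_of_card_ne_zero (by rw [hcard]; exact hn0)
  letI := Fintype.ofFinite (𝓞 F ⧸ w.asIdeal)
  set ℓ := ringChar (𝓞 F ⧸ w.asIdeal) with hℓdef
  have hchar : CharP (𝓞 F ⧸ w.asIdeal) ℓ := ringChar.charP _
  obtain ⟨f, hℓ, hf⟩ := FiniteField.card (𝓞 F ⧸ w.asIdeal) ℓ
  rw [← Nat.card_eq_fintype_card, hcard] at hf
  have : Fact ℓ.Prime := ⟨hℓ⟩
  have hℓr : ℓ ≠ r := by
    intro h
    apply hwr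
    show (r : 𝓞 F) ∈ w.asIdeal
    rw [← Ideal.Quotient.eq_zero_iff_mem, map_natCast, ← h]
    exact CharP.cast_eq_zero _ ℓ
  set a : 𝓞 K →+* 𝓞 F := algebraMap (𝓞 K) (𝓞 F) with ha
  have hainj : Function.Injective a := FaithfulSMul.algebraMap_injective (𝓞 K) (𝓞 F)
  have hζF : IsPrimitiveRoot (a ζ₀) p := hζ₀.map_of_injective hainj
  have hζb : IsPrimitiveRoot (mk (a ζ₀)) p := isPrimitiveRoot_mk hζF hwp
  have hdvd : p ∣ ℓ ^ (f : ℕ) - 1 := by
    apply hζb.dvd_of_pow_eq_one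
    have := FiniteField.pow_card_sub_one_eq_one (mk (a ζ₀)) (hζb.ne_zero hp.ne_zero)
    rwa [← Nat.card_eq_fintype_card, hcard, hf] at this
  -- the big field
  set κ' := AlgebraicClosure (𝓞 F ⧸ w.asIdeal) with hκ'
  have hchar' : CharP κ' ℓ := charP_of_injective_algebraMap (algebraMap (𝓞 F ⧸ w.asIdeal) κ').injective ℓ
  set f₀ : 𝓞 K →+* κ' := (algebraMap (𝓞 F ⧸ w.asIdeal) κ').comp (mk.comp a) with hf₀
  have hζ' : IsPrimitiveRoot (f₀ ζ₀) p :=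
    hζb.map_of_injective (algebraMap (𝓞 F ⧸ w.asIdeal) κ').injective
  have hχ' : orderOf (χ.ringHomComp f₀) = p := by
    apply orderOf_eq_prime
    · rw [MulChar.ringHomComp_pow, ← hχ, pow_orderOf_eq_one, MulChar.ringHomComp_one]
    · intro h1
      have hχ1 : χ ≠ 1 := by
        intro h
        rw [h, orderOf_one] at hχ
        exact hp.one_lt.ne hχ
      obtain ⟨t, ht⟩ := MulChar.ne_one_iff.1 hχ1
      obtain ⟨i, hi⟩ := hval t
      have h2 : f₀ (χ t) = 1 := by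
        rw [← MulChar.ringHomComp_apply, h1, MulChar.one_apply_coe]
      rw [hi, map_pow] at h2
      obtain ⟨k, rfl⟩ := hζ'.dvd_of_pow_eq_one _ h2
      apply ht
      rw [hi, pow_mul, hζ₀.pow_eq_one, one_pow]
  have hr0 : NeZero ((r : ℕ) : κ') := ⟨by
    rw [Ne, CharP.cast_eq_zero_iff κ' ℓ]
    intro h
    exact hℓr ((Nat.prime_dvd_prime_iff_eq hℓ hr).1 h)⟩
  obtain ⟨ξ, hξ⟩ := HasEnoughRootsOfUnity.exists_primitiveRoot κ' r
  have key := rho0_pow_mul_chi (ℓ := ℓ) hp.two_le (χ.ringHomComp f₀) hχ' _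
    (AddChar.zmodChar_primitive_of_primitive_root r hξ) f hdvd hℓr
  rw [rho0_ringHomComp, MulChar.ringHomComp_apply, ← hf, ← map_pow, ← map_mul] at key
  have hunit : IsUnit ((n : ℕ) : ZMod r) := by
    rw [ZMod.isUnit_iff_coprime, hf]
    exact Nat.Coprime.pow_left f ((Nat.coprime_primes hℓ hr).2 hℓr)
  obtain ⟨i, hi⟩ := hval hunit.unit
  rw [IsUnit.unit_spec] at hi
  have key2 : mk (a (rho0 p χ)) ^ ((n - 1) / p) * mk (a ζ₀) ^ i = 1 := by
    apply (algebraMap (𝓞 F ⧸ w.asIdeal) κ').injective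
    rw [map_one, ← key, hi, hf₀]
    simp only [RingHom.comp_apply, map_mul, map_pow]
  refine ⟨(i : ZMod p), ⟨1, one_ne_zero, ?_⟩, ⟨1, one_ne_zero, ?_⟩⟩
  · have h1 : (((n : ℕ) : K) / 1 ^ p) ^ ((nrm rr - 1) / p) - (ζ₀ : K) ^ ((i : ZMod p)).val =
        algebraMap (𝓞 K) K (((n : ℕ) : 𝓞 K) ^ ((r - 1) / p) - ζ₀ ^ ((i : ZMod p)).val) := by
      rw [hrr, one_pow, div_one, map_sub, map_pow, map_pow, map_natCast]
    rw [h1, HeightOneSpectrum.valuation_lt_one_iff_mem]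
    have h2 := hcong ((n : ℕ) : ZMod r)
    rw [hi, ZMod.val_natCast] at h2
    have h3 : ζ₀ ^ ((i : ZMod p)).val = ζ₀ ^ i :=
      pow_eq_pow_of_natCast_eq hζ₀.pow_eq_one (by rw [ZMod.natCast_val, ZMod.cast_id', id])
    rw [h3]
    rw [← Ideal.Quotient.eq_zero_iff_mem, map_sub, sub_eq_zero] at h2 ⊢
    rw [h2, map_pow, map_pow]
    congr 1
    rw [Ideal.Quotient.eq, ← Nat.cast_sub (Nat.mod_le n r)]
    have h4 : n - n % r = r * (n / r) := by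
      have := Nat.div_add_mod n r
      omega
    rw [h4, Nat.cast_mul]
    exact Ideal.mul_mem_right _ _ hrmem
  · have hcoe : ∀ x : 𝓞 K, algebraMap K F (x : K) = algebraMap (𝓞 F) F (a x) := fun x =>
      (IsScalarTower.algebraMap_apply (𝓞 K) K F x).symm.trans
        (IsScalarTower.algebraMap_apply (𝓞 K) (𝓞 F) F x)
    have h1 : (algebraMap K F ((rho0 p χ : 𝓞 K) : K) / 1 ^ p) ^ ((nrm w - 1) / p) -
        (algebraMap K F (ζ₀ : K)) ^ (-(i : ZMod p)).val =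
        algebraMap (𝓞 F) F (a (rho0 p χ) ^ ((n - 1) / p) - a ζ₀ ^ (-(i : ZMod p)).val) := by
      rw [one_pow, div_one, map_sub, map_pow, map_pow, hcoe, hcoe]
    rw [h1, HeightOneSpectrum.valuation_lt_one_iff_mem, ← Ideal.Quotient.eq_zero_iff_mem, map_sub,
      sub_eq_zero, map_pow, map_pow]
    have h5 : mk (a ζ₀) ^ (-(i : ZMod p)).val * mk (a ζ₀) ^ i = 1 := by
      rw [← pow_add, ← pow_zero (mk (a ζ₀))]
      apply pow_eq_pow_of_natCast_eq hζb.pow_eq_one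
      rw [Nat.cast_add, ZMod.natCast_val, ZMod.cast_id', id, Nat.cast_zero, neg_add_cancel]
    have h6 : mk (a ζ₀) ^ i ≠ 0 := pow_ne_zero _ (hζb.ne_zero hp.ne_zero)
    exact mul_right_cancel₀ h6 (key2.trans h5.symm)

end numberfield

end Fermat.Agent.S14lib
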