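import Fermat.Agent.S14.GaussOrd2
import Fermat.Agent.S14.GaussSym

/-!
# T-S14, WP8b: the Gauss sum package `exists_gauss` (assembly)
-/

set_option autoImplicit false

open NumberField IsDedekindDomain Finset

namespace Fermat.Agent.S14lib

variable {K : Type} [Field K] [NumberField K] {p : ℕ} [Fact p.Prime]
  [IsCyclotomicExtension {p} ℚ K]

/-- **(GS b, c)**, with the weak form (b1w) as a fifth conjunct. -/
theorem exists_gauss' {ζ : K} (hζ : IsPrimitiveRoot ζ p) {rr : Pl K} {r : ℕ}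
    (hr : r.Prime) (hrr : nrm rr = r) (hrp : r ≠ p) :
    ∃ ρ : K, ρ ≠ 0 ∧
      (∀ (c : ℕ) (σ : K ≃ₐ[ℚ] K), 1 ≤ c → c < p → σ ζ = ζ ^ c →
        ordv (pull (σ : K ≃+* K) rr) ρ = p - c) ∧
      (∀ v : Pl K, ¬ Above r v → ordv v ρ = 0) ∧
      (∀ (F : Type) [Field F] [NumberField F] [Algebra K F] (w : Pl F), ¬ Above p w →
        ¬ Above r w → ∃ j : ZMod p, SymEq p ζ rr ((nrm w : ℕ) : K) j ∧
          SymEq p (algebraMap K F ζ) w (algebraMap K F ρ) (-j)) ∧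
      (∀ v : Pl K, Above r v → ¬ (p : ℤ) ∣ ordv v ρ) := by
  have : Fact r.Prime := ⟨hr⟩
  have hζ₀ : IsPrimitiveRoot hζ.toInteger p := hζ.toInteger_isPrimitiveRoot
  have hcoe : ((hζ.toInteger : 𝓞 K) : K) = ζ := hζ.coe_toInteger
  obtain ⟨-, χ, hχ, hval, hcong⟩ := exists_chi hζ₀ hrr hrp
  have habove : Above r rr := above_of_nrm_eq hr hrr
  refine ⟨algebraMap (𝓞 K) K (rho0 p χ), by simpa using rho0_ne_zero hχ, ?_, ?_, ?_, ?_⟩
  · intro c σ hc1 hc2 hσ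
    exact ordv_pull_rho0 hrp habove hχ hval hcong hc1 hc2 (σ : K ≃+* K)
      (by rw [hcoe]; exact hσ)
  · intro v hv
    exact ordv_rho0_eq_zero hχ hv
  · intro F _ _ _ w hwp hwr
    have := symEq_rho0 hζ₀ hrr χ hχ hval hcong w hwp hwr
    rwa [hcoe] at this
  · intro v hv
    exact not_dvd_ordv_rho0 hrp hχ hv

/-- **(GS b, c)** in the shape announced in report #618. -/
theorem exists_gauss (_hp2 : p ≠ 2) {ζ : K} (hζ : IsPrimitiveRoot ζ p) {rr : Pl K} {r : ℕ}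
    (hr : r.Prime) (hrr : nrm rr = r) (hrp : r ≠ p) :
    ∃ ρ : K, ρ ≠ 0 ∧
      (∀ (c : ℕ) (σ : K ≃ₐ[ℚ] K), 1 ≤ c → c < p → σ ζ = ζ ^ c →
        ordv (pull (σ : K ≃+* K) rr) ρ = p - c) ∧
      (∀ v : Pl K, ¬ Above r v → ordv v ρ = 0) ∧
      (∀ (F : Type) [Field F] [NumberField F] [Algebra K F] (w : Pl F), ¬ Above p w →
        ¬ Above r w → ∃ j : ZMod p, SymEq p ζ rr ((nrm w : ℕ) : K) j ∧
          SymEq p (algebraMap K F ζ) w (algebraMap K F ρ) (-j)) := by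
  obtain ⟨ρ, h0, h1, h2, h3, -⟩ := exists_gauss' hζ hr hrr hrp
  exact ⟨ρ, h0, h1, h2, h3⟩

end Fermat.Agent.S14lib
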