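import Fermat.Agent.S14.Defs

/-!
# T-S14, WP3 (field part): the Kummer extension `N = k(θ)`, `θ ^ p = x`.
-/

set_option autoImplicit false
set_option linter.style.haveILetI false
set_option linter.unusedSectionVars false

open NumberField IsDedekindDomain Polynomial

namespace Fermat.Agent.S14lib

/-- `N = k(θ)`, `θ ^ p = x`, is cyclic of degree `p` over `k` with generator `s`, `s θ = ζ θ`. -/
structure IsKum (p : ℕ) {k : Type*} [Field k] (ζ x : k) (N : Type*) [Field N] [Algebra k N]
    (θ : N) (s : N ≃ₐ[k] N) : Prop where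
  pow : θ ^ p = algebraMap k N x
  map : s θ = algebraMap k N ζ * θ
  gen : ∀ τ : N ≃ₐ[k] N, τ ∈ Subgroup.zpowers s
  finrank : Module.finrank k N = p
  galois : IsGalois k N

section exist

variable {k : Type} [Field k] [NumberField k] {p : ℕ} [Fact p.Prime]

theorem irreducible_X_pow_sub_C_of_forall_ne {x : k} (hx : ∀ y : k, y ^ p ≠ x) :
    Irreducible (X ^ p - C x : k[X]) :=
  X_pow_sub_C_irreducible_of_prime (Fact.out : p.Prime) hx

theorem exists_isKum {ζ : k} (hζ : IsPrimitiveRoot ζ p) {x : k} (hx : ∀ y : k, y ^ p ≠ x) :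
    ∃ (N : Type) (_ : Field N) (_ : Algebra k N) (_ : NumberField N) (θ : N) (s : N ≃ₐ[k] N),
      IsKum p ζ x N θ s := by
  have hp : p.Prime := Fact.out
  haveI : NeZero p := ⟨hp.ne_zero⟩
  have H : Irreducible (X ^ p - C x : k[X]) := irreducible_X_pow_sub_C_of_forall_ne hx
  haveI : Fact (Irreducible (X ^ p - C x : k[X])) := ⟨H⟩
  have hζ' : (primitiveRoots p k).Nonempty := ⟨ζ, (mem_primitiveRoots hp.pos).mpr hζ⟩
  let N := AdjoinRoot (X ^ p - C x : k[X])
  haveI : IsSplittingField k N (X ^ p - C x) := isSplittingField_AdjoinRoot_X_pow_sub_C hζ' H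
  haveI : FiniteDimensional k N := Polynomial.IsSplittingField.finiteDimensional N (X ^ p - C x)
  haveI : NumberField N := NumberField.of_module_finite k N
  have hθ : (AdjoinRoot.root (X ^ p - C x : k[X])) ^ p = algebraMap k N x := by
    have := AdjoinRoot.eval₂_root (X ^ p - C x : k[X])
    simp only [eval₂_sub, eval₂_X_pow, eval₂_C, sub_eq_zero] at this
    exact this
  let e := autEquivZmod H N hζ
  refine ⟨N, inferInstance, inferInstance, inferInstance, AdjoinRoot.root _,
    e.symm (Multiplicative.ofAdd ((1 : ℕ) : ZMod p)), hθ, ?_, ?_, ?_, ?_⟩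
  · rw [autEquivZmod_symm_apply_natCast H N hθ hζ 1, pow_one, Algebra.smul_def]
  · intro τ
    obtain ⟨m, hm⟩ : ∃ m : ℕ, (m : ZMod p) = Multiplicative.toAdd (e τ) :=
      ⟨(Multiplicative.toAdd (e τ)).val, by simp⟩
    refine ⟨m, ?_⟩
    apply e.injective
    simp only [zpow_natCast, map_pow, MulEquiv.apply_symm_apply]
    rw [← ofAdd_nsmul]
    simp [hm]
  · exact finrank_of_isSplittingField_X_pow_sub_C hζ' H N
  · exact isGalois_of_isSplittingField_X_pow_sub_C hζ' H N

end exist

namespace IsKum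

variable {k : Type*} [Field k] {N : Type*} [Field N] [Algebra k N] {p : ℕ} [Fact p.Prime]
  {ζ x : k} {θ : N} {s : N ≃ₐ[k] N}

theorem finiteDimensional (H : IsKum p ζ x N θ s) : FiniteDimensional k N :=
  Module.finite_of_finrank_pos (by rw [H.finrank]; exact (Fact.out : p.Prime).pos)

theorem isCyclic (H : IsKum p ζ x N θ s) : IsCyclic (N ≃ₐ[k] N) := ⟨s, H.gen⟩

theorem card_aut (H : IsKum p ζ x N θ s) : Nat.card (N ≃ₐ[k] N) = p := by
  haveI := H.finiteDimensional
  haveI := H.galois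
  rw [IsGalois.card_aut_eq_finrank, H.finrank]

theorem orderOf_eq (H : IsKum p ζ x N θ s) : orderOf s = p := by
  rw [orderOf_eq_card_of_forall_mem_zpowers H.gen, H.card_aut]

theorem pow_p (H : IsKum p ζ x N θ s) : s ^ p = 1 := by
  rw [← H.orderOf_eq]; exact pow_orderOf_eq_one s

theorem pow_apply (H : IsKum p ζ x N θ s) (i : ℕ) :
    (s ^ i) θ = algebraMap k N ζ ^ i * θ := by
  induction i with
  | zero => simp
  | succ n ih =>
    rw [pow_succ', AlgEquiv.mul_apply, ih, map_mul, map_pow, AlgEquiv.commutes, H.map]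
    ring

theorem theta_ne_zero (H : IsKum p ζ x N θ s) (hx0 : x ≠ 0) : θ ≠ 0 := by
  rintro rfl
  have := H.pow
  rw [zero_pow (Fact.out : p.Prime).ne_zero] at this
  exact hx0 ((map_eq_zero (algebraMap k N)).mp this.symm)

theorem exists_pow_eq (H : IsKum p ζ x N θ s) (τ : N ≃ₐ[k] N) :
    ∃ i : ℕ, i < p ∧ τ = s ^ i := by
  obtain ⟨z, hz⟩ := H.gen τ
  have hp : (0 : ℤ) < p := by exact_mod_cast (Fact.out : p.Prime).pos
  refine ⟨(z % p).toNat, ?_, ?_⟩
  · have := Int.emod_lt_of_pos z hp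
    have h0 := Int.emod_nonneg z hp.ne'
    omega
  · have h0 := Int.emod_nonneg z hp.ne'
    rw [← zpow_natCast, Int.toNat_of_nonneg h0, ← H.orderOf_eq, zpow_mod_orderOf]
    exact hz.symm

theorem fixed (H : IsKum p ζ x N θ s) {y : N} (hy : s y = y) :
    y ∈ (algebraMap k N).range := by
  haveI := H.finiteDimensional
  haveI := H.galois
  apply (IsGalois.mem_range_algebraMap_iff_fixed y).mpr
  intro τ
  obtain ⟨i, -, rfl⟩ := H.exists_pow_eq τ
  induction i with
  | zero => simp
  | succ n ih => rw [pow_succ, AlgEquiv.mul_apply, hy, ih]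

theorem norm_eq_prod (H : IsKum p ζ x N θ s) (y : N) :
    algebraMap k N (Algebra.norm k y) = ∏ i ∈ Finset.range p, (s ^ i) y := by
  haveI := H.finiteDimensional
  haveI := H.galois
  classical
  rw [Algebra.norm_eq_prod_automorphisms]
  symm
  refine Finset.prod_bij (fun i _ => s ^ i) (fun _ _ => Finset.mem_univ _) ?_ ?_ (fun _ _ => rfl)
  · intro i hi j hj hij
    rw [Finset.mem_range, ← H.orderOf_eq] at hi hj
    exact pow_injOn_Iio_orderOf hi hj hij
  · intro τ _
    obtain ⟨i, hi, rfl⟩ := H.exists_pow_eq τ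
    exact ⟨i, Finset.mem_range.mpr hi, rfl⟩

theorem norm_algebraMap (H : IsKum p ζ x N θ s) (a : k) :
    Algebra.norm k (algebraMap k N a) = a ^ p := by
  rw [Algebra.norm_algebraMap, H.finrank]

theorem norm_theta (H : IsKum p ζ x N θ s) (hp2 : p ≠ 2) (hζ : IsPrimitiveRoot ζ p) :
    Algebra.norm k θ = x := by
  apply (algebraMap k N).injective
  rw [H.norm_eq_prod]
  simp only [H.pow_apply]
  rw [Finset.prod_mul_distrib, Finset.prod_const, Finset.card_range, H.pow,
    Finset.prod_pow_eq_pow_sum, Finset.sum_range_id]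
  have hodd : Odd p := (Fact.out : p.Prime).odd_of_ne_two hp2
  obtain ⟨m, hm⟩ := hodd
  have : p * (p - 1) / 2 = p * m := by
    rw [hm]
    have : (2 * m + 1) * (2 * m + 1 - 1) = 2 * ((2 * m + 1) * m) := by
      simp; ring
    rw [this, Nat.mul_div_cancel_left _ (by norm_num)]
  rw [this, pow_mul, ← map_pow, hζ.pow_eq_one]
  simp

theorem hilbert90 {k : Type} [Field k] {N : Type} [Field N] [Algebra k N] {ζ x : k} {θ : N}
    {s : N ≃ₐ[k] N} (H : IsKum p ζ x N θ s) {u : N} (hu : Algebra.norm k u = 1) :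
    ∃ y : N, y ≠ 0 ∧ u = s y / y := by
  haveI := H.finiteDimensional
  haveI := H.galois
  haveI := H.isCyclic
  have hu' : Algebra.norm k u⁻¹ = 1 := by simp [Algebra.norm_inv, hu]
  obtain ⟨y, hy⟩ := groupCohomology.exists_div_of_norm_eq_one (g := s) H.gen hu'
  refine ⟨y, y.ne_zero, ?_⟩
  have : u = ((y : N) / s y)⁻¹ := by rw [hy, inv_inv]
  rw [this, inv_div]

end IsKum

end Fermat.Agent.S14lib
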