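import Fermat.Agent.S14.Rel
import Fermat.Agent.S14.Equiv
import Fermat.Agent.S14.InPN
import Fermat.Agent.S14.KumExt

/-!
# T-S14, WP9: genus reciprocity

`F = K(θ)`, `θ ^ p = μ`, all the places of `K` above `r` totally ramified in `F`.  Then the absolute
norm of an element of `F` which is a unit above `r` is a local `p`-th power at every place of `K`
above `r`.
-/

set_option autoImplicit false
set_option linter.unusedSectionVars false
set_option linter.style.haveILetI false

open NumberField IsDedekindDomain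

namespace Fermat.Agent.S14lib

section ram

variable {K F : Type*} [Field K] [NumberField K] [Field F] [NumberField F] [Algebra K F]
  {p : ℕ} [Fact p.Prime]

/-- (G0) total ramification of the places with `p ∤ ord_v μ` -/
theorem gn_ram (hdeg : Module.finrank K F = p) {μ : K} {θ : F} (hθ : θ ^ p = algebraMap K F μ)
    {v : Pl K} (hv : ¬ (p : ℤ) ∣ ordv v μ) {w : Pl F} (hw : Over w v) :
    eRel K w = p ∧ fRel K w = 1 ∧ ∀ w' : Pl F, Over w' v → w' = w := by
  classical
  have hp : p.Prime := Fact.out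
  have key : ∀ w' : Pl F, Over w' v → p ≤ eRel K w' := by
    intro w' hw'
    have h1 : (p : ℤ) * ordv w' θ = eRel K w' * ordv v μ := by
      rw [← ordv_pow, hθ, ordv_over hw']
    have h2 : (p : ℤ) ∣ eRel K w' * ordv v μ := ⟨_, h1.symm⟩
    have h3 : (p : ℤ) ∣ (eRel K w' : ℤ) :=
      ((Nat.prime_iff_prime_int.1 hp).dvd_or_dvd h2).resolve_right hv
    exact Nat.le_of_dvd (eRel_pos w') (Int.natCast_dvd_natCast.1 h3)
  have hsum := sum_eRel_mul_fRel (F := F) v
  rw [hdeg] at hsum
  have hmem : w ∈ placesOver F v := mem_placesOver.2 hw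
  have h1 : eRel K w * fRel K w ≤ p := by
    rw [← hsum]
    exact Finset.single_le_sum (f := fun u => eRel K u * fRel K u) (fun _ _ => Nat.zero_le _) hmem
  have he := key w hw
  have hf := fRel_pos (K := K) w
  have hf1 : fRel K w = 1 := by
    by_contra hne
    have : 2 ≤ fRel K w := by omega
    have : p * 2 ≤ eRel K w * fRel K w := Nat.mul_le_mul he this
    have := hp.pos
    omega
  have he1 : eRel K w = p := by
    rw [hf1, mul_one] at h1
    omega
  refine ⟨he1, hf1, ?_⟩
  intro w' hw'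
  by_contra hne
  have hmem' : w' ∈ placesOver F v := mem_placesOver.2 hw'
  have hsub : ({w, w'} : Finset (Pl F)) ⊆ placesOver F v := by
    intro u hu
    rcases Finset.mem_insert.1 hu with rfl | hu
    · exact hmem
    · rw [Finset.mem_singleton.1 hu]; exact hmem'
  have h2 : eRel K w * fRel K w + eRel K w' * fRel K w' ≤ p := by
    rw [← hsum, ← Finset.sum_pair (f := fun u => eRel K u * fRel K u) (Ne.symm hne)]
    exact Finset.sum_le_sum_of_subset hsub
  have h3 : 1 ≤ eRel K w' * fRel K w' := Nat.mul_pos (eRel_pos w') (fRel_pos w')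
  rw [he1, hf1] at h2
  omega

/-- residue degree one: approximation by an integer of `K` -/
theorem gn_approx {w : Pl F} {v : Pl K} (hw : Over w v) (hf : fRel K w = 1) {z : F}
    (hz : w.valuation F z ≤ 1) :
    ∃ c : 𝓞 K, w.valuation F (z - algebraMap K F (c : K)) < 1 := by
  obtain ⟨a, ha⟩ := exists_integer_valuation_sub_lt w hz 0
  have ha' : w.valuation F (z - algebraMap (𝓞 F) F a) < 1 := by simpa using ha
  haveI : w.asIdeal.LiesOver v.asIdeal := hw
  haveI := v.isMaximal
  haveI := w.isMaximal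
  have h1 : Module.finrank (𝓞 K ⧸ v.asIdeal) (𝓞 F ⧸ w.asIdeal) = 1 := by
    rw [← Ideal.inertiaDeg_eq_of_isMaximal]; exact hf
  letI := Ideal.Quotient.field v.asIdeal
  letI := Ideal.Quotient.field w.asIdeal
  obtain ⟨cb, hcb⟩ := (finrank_eq_one_iff_of_nonzero' (1 : 𝓞 F ⧸ w.asIdeal) one_ne_zero).1 h1
    (Ideal.Quotient.mk _ a)
  obtain ⟨c, rfl⟩ := Ideal.Quotient.mk_surjective cb
  have h2 : a - algebraMap (𝓞 K) (𝓞 F) c ∈ w.asIdeal := by
    rw [← Ideal.Quotient.eq_zero_iff_mem, map_sub, ← hcb, Algebra.smul_def, mul_one, sub_eq_zero]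
    rfl
  refine ⟨c, ?_⟩
  have h3 : w.valuation F (algebraMap (𝓞 F) F (a - algebraMap (𝓞 K) (𝓞 F) c)) < 1 :=
    (HeightOneSpectrum.valuation_lt_one_iff_mem w _).2 h2
  have e : z - algebraMap K F (c : K) =
      (z - algebraMap (𝓞 F) F a) + algebraMap (𝓞 F) F (a - algebraMap (𝓞 K) (𝓞 F) c) := by
    rw [map_sub]
    have : algebraMap (𝓞 F) F (algebraMap (𝓞 K) (𝓞 F) c) = algebraMap K F (c : K) := rfl
    rw [this]
    ring
  rw [e]
  exact lt_of_le_of_lt ((w.valuation F).map_add _ _) (max_lt ha' h3)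

/-- the Galois group of `F / K` permutes the places above `v` -/
theorem gn_over_pull (σ : F ≃ₐ[K] F) {w : Pl F} {v : Pl K} (hw : Over w v) :
    Over (pull (σ : F ≃+* F) w) v := by
  rw [over_iff] at hw ⊢
  intro x
  rw [mem_pull_asIdeal, ← hw x]
  have : RingOfIntegers.mapRingEquiv (σ : F ≃+* F) (algebraMap (𝓞 K) (𝓞 F) x) =
      algebraMap (𝓞 K) (𝓞 F) x := by
    apply RingOfIntegers.ext
    exact σ.commutes (x : K)
  rw [this]

/-- a product of elements `≡ b` is `≡ b ^ n` -/
theorem gn_prod_sub_pow_lt (w : Pl F) {ι : Type*} (t : Finset ι) (x : ι → F) {b : F}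
    (hb : w.valuation F b ≤ 1) (hx : ∀ i ∈ t, w.valuation F (x i - b) < 1) :
    w.valuation F (∏ i ∈ t, x i - b ^ t.card) < 1 ∧ w.valuation F (∏ i ∈ t, x i) ≤ 1 := by
  classical
  induction t using Finset.induction_on with
  | empty => simp
  | insert a t ha ih =>
    obtain ⟨h1, h2⟩ := ih fun i hi => hx i (Finset.mem_insert_of_mem hi)
    have h3 := hx a (Finset.mem_insert_self a t)
    have h4 : w.valuation F (x a) ≤ 1 := by
      have e : x a = (x a - b) + b := by ring
      rw [e]
      exact le_trans ((w.valuation F).map_add _ _) (max_le h3.le hb)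
    rw [Finset.prod_insert ha, Finset.card_insert_of_notMem ha]
    constructor
    · have e : x a * ∏ i ∈ t, x i - b ^ (t.card + 1) =
          (x a - b) * ∏ i ∈ t, x i + b * (∏ i ∈ t, x i - b ^ t.card) := by ring
      rw [e]
      refine lt_of_le_of_lt ((w.valuation F).map_add _ _) (max_lt ?_ ?_)
      · rw [map_mul]
        exact lt_of_le_of_lt (mul_le_of_le_one_right' h2) h3
      · rw [map_mul]
        exact lt_of_le_of_lt (mul_le_of_le_one_left' hb) h1
    · rw [map_mul]
      exact mul_le_one' h4 h2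

/-- (G1) the relative norm of a unit at a totally ramified place is a local `p`-th power -/
theorem gn_locPow_norm {ζ μ : K} {θ : F} {s : F ≃ₐ[K] F} (H : IsKum p ζ μ F θ s)
    (hζ : IsPrimitiveRoot ζ p) {v : Pl K} (hvp : ¬ Above p v) (hv : ¬ (p : ℤ) ∣ ordv v μ)
    {z : F} (hz0 : z ≠ 0) (hz : ∀ w : Pl F, Over w v → ordv w z = 0) :
    LocPow p ζ v (Algebra.norm K z) := by
  obtain ⟨w, hw⟩ := exists_over (F := F) v
  obtain ⟨he, hf, huniq⟩ := gn_ram H.finrank H.pow hv hw
  have hzw : w.valuation F z = 1 := (valuation_eq_one_iff w hz0).2 (hz w hw)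
  obtain ⟨c, hc⟩ := gn_approx hw hf hzw.le
  set b : K := (c : K) with hb
  have hb1 : w.valuation F (algebraMap K F b) = 1 := by
    have e : algebraMap K F b = z - (z - algebraMap K F b) := by ring
    rw [e, Valuation.map_sub_eq_of_lt_left _ (by rw [hzw]; exact hc), hzw]
  have hb0 : b ≠ 0 := by
    intro h0
    rw [h0, map_zero, map_zero] at hb1
    exact zero_ne_one hb1
  have hconj : ∀ i ∈ Finset.range p, w.valuation F ((s ^ i) z - algebraMap K F b) < 1 := by
    intro i _
    have e : (s ^ i) z - algebraMap K F b = ((s ^ i : F ≃ₐ[K] F) : F ≃+* F) (z - algebraMap K F b) := by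
      rw [map_sub]
      congr 1
      exact ((s ^ i).commutes b).symm
    rw [e, ← valuation_pull, huniq _ (gn_over_pull (s ^ i) hw)]
    exact hc
  have hprod := (gn_prod_sub_pow_lt w (Finset.range p) (fun i => (s ^ i) z) hb1.le hconj).1
  rw [← H.norm_eq_prod, Finset.card_range, ← map_pow, ← map_sub, valuation_over hw] at hprod
  have hlt : v.valuation K (Algebra.norm K z - b ^ p) < 1 := by
    by_contra hcon
    exact absurd hprod (not_lt.2 (one_le_pow₀ (not_lt.1 hcon)))
  have hbv : v.valuation K b = 1 := by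
    rw [valuation_over hw] at hb1
    exact (pow_eq_one_iff_of_nonneg zero_le (by rw [he]; exact (Fact.out : p.Prime).ne_zero)).1 hb1
  rw [locPow_iff_of_not_above hζ hvp]
  refine ⟨b, hb0, ?_⟩
  have e : Algebra.norm K z / b ^ p - 1 = (Algebra.norm K z - b ^ p) / b ^ p := by
    field_simp
  rw [e, map_div₀, map_pow, hbv, one_pow, div_one]
  exact hlt

end ram

section rat

variable {K : Type*} [Field K] [NumberField K] {p : ℕ} [Fact p.Prime]

theorem gn_locPow_prod {ζ : K} (hζ : IsPrimitiveRoot ζ p) (v : Pl K) {ι : Type*} (t : Finset ι)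
    (x : ι → K) (hx : ∀ i ∈ t, LocPow p ζ v (x i)) : LocPow p ζ v (∏ i ∈ t, x i) := by
  classical
  have hp : p.Prime := Fact.out
  induction t using Finset.induction_on with
  | empty => rw [Finset.prod_empty]; exact InPN.aux_locPow_one hζ hp.one_lt v
  | insert a t ha ih =>
    rw [Finset.prod_insert ha]
    exact InPN.aux_locPow_mul hζ hp.pos (hx a (Finset.mem_insert_self a t))
      (ih fun i hi => hx i (Finset.mem_insert_of_mem hi))

/-- (G2) -/
theorem gn_locPow_norm_rat [IsGalois ℚ K] {ζ : K} (hζ : IsPrimitiveRoot ζ p) {r : ℕ} {y : K}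
    (hy : ∀ v : Pl K, Above r v → LocPow p ζ v y) {rr : Pl K} (hrr : Above r rr) :
    LocPow p ζ rr (algebraMap ℚ K (Algebra.norm ℚ y)) := by
  classical
  rw [Algebra.norm_eq_prod_automorphisms]
  refine gn_locPow_prod hζ rr _ _ fun σ _ => ?_
  have h1 := hy (pull (σ : K ≃+* K) rr) ((above_pull r (σ : K ≃+* K) rr).2 hrr)
  exact (locPow_pull hζ (σ : K ≃+* K) rr y).1 h1

end rat

section main

variable {K F : Type*} [Field K] [NumberField K] [Field F] [NumberField F] [Algebra K F]
  {p : ℕ} [Fact p.Prime]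

/-- **(GR)** genus reciprocity -/
theorem genus_locPow [IsGalois ℚ K] {ζ μ : K} {θ : F} {s : F ≃ₐ[K] F} (H : IsKum p ζ μ F θ s)
    (hζ : IsPrimitiveRoot ζ p) {r : ℕ} (hr : r.Prime) (hrp : r ≠ p)
    (hμ : ∀ v : Pl K, Above r v → ¬ (p : ℤ) ∣ ordv v μ) {z : F} (hz0 : z ≠ 0)
    (hz : ∀ w : Pl F, Above r w → ordv w z = 0) {rr : Pl K} (hrr : Above r rr) :
    LocPow p ζ rr (algebraMap ℚ K (Algebra.norm ℚ z)) := by
  have hp : p.Prime := Fact.out
  rw [← Algebra.norm_norm (R := ℚ) (S := K) (A := F) (a := z)]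
  refine gn_locPow_norm_rat hζ (r := r) (fun v hv => ?_) hrr
  refine gn_locPow_norm H hζ (fun hvp => hrp (above_unique hr hp hv hvp)) (hμ v hv) hz0 ?_
  intro w hw
  exact hz w ((above_over_iff hw r).2 hv)

end main

end Fermat.Agent.S14lib
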