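import Fermat.Agent.S14.Defs

/-!
# T-S14, WP0a: API for `ordv`, `dv`, `Above`, `nrm`
-/

set_option autoImplicit false
set_option linter.style.haveILetI false
set_option linter.unusedSectionVars false
set_option linter.deprecated false

open NumberField IsDedekindDomain

namespace Fermat.Agent.S14lib

variable {k : Type*} [Field k] [NumberField k]

/-! ### `ordv` versus the multiplicative valuation -/

theorem valuation_ne_zero (v : Pl k) {x : k} (hx : x ≠ 0) : v.valuation k x ≠ 0 :=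
  (Valuation.ne_zero_iff _).2 hx

theorem valuation_eq_exp (v : Pl k) {x : k} (hx : x ≠ 0) :
    v.valuation k x = WithZero.exp (- ordv v x) := by
  rw [ordv, neg_neg, WithZero.exp_log (valuation_ne_zero v hx)]

@[simp] theorem ordv_zero (v : Pl k) : ordv v (0 : k) = 0 := by simp [ordv]

@[simp] theorem ordv_one (v : Pl k) : ordv v (1 : k) = 0 := by simp [ordv]

theorem ordv_mul (v : Pl k) {x y : k} (hx : x ≠ 0) (hy : y ≠ 0) :
    ordv v (x * y) = ordv v x + ordv v y := by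
  rw [ordv, map_mul, WithZero.log_mul (valuation_ne_zero v hx) (valuation_ne_zero v hy), ordv, ordv]
  ring

theorem ordv_inv (v : Pl k) (x : k) : ordv v x⁻¹ = - ordv v x := by
  rw [ordv, map_inv₀, WithZero.log_inv, ordv]

theorem ordv_div (v : Pl k) {x y : k} (hx : x ≠ 0) (hy : y ≠ 0) :
    ordv v (x / y) = ordv v x - ordv v y := by
  rw [div_eq_mul_inv, ordv_mul v hx (inv_ne_zero hy), ordv_inv]; ring

theorem ordv_pow (v : Pl k) (x : k) (n : ℕ) : ordv v (x ^ n) = n * ordv v x := by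
  rw [ordv, map_pow, WithZero.log_pow, ordv]; simp

theorem ordv_zpow (v : Pl k) (x : k) (n : ℤ) : ordv v (x ^ n) = n * ordv v x := by
  rw [ordv, map_zpow₀, WithZero.log_zpow, ordv]; simp

theorem ordv_neg (v : Pl k) (x : k) : ordv v (-x) = ordv v x := by
  rw [ordv, Valuation.map_neg, ordv]

theorem ordv_sub_comm (v : Pl k) (x y : k) : ordv v (x - y) = ordv v (y - x) := by
  rw [← ordv_neg, neg_sub]

theorem ordv_prod (v : Pl k) {ι : Type*} (s : Finset ι) (f : ι → k) (hf : ∀ i ∈ s, f i ≠ 0) :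
    ordv v (∏ i ∈ s, f i) = ∑ i ∈ s, ordv v (f i) := by
  classical
  induction s using Finset.induction_on with
  | empty => simp
  | insert a s ha ih =>
    rw [Finset.prod_insert ha, Finset.sum_insert ha,
      ordv_mul v (hf a (Finset.mem_insert_self a s))
        (Finset.prod_ne_zero_iff.2 fun i hi => hf i (Finset.mem_insert_of_mem hi)),
      ih fun i hi => hf i (Finset.mem_insert_of_mem hi)]

theorem valuation_le_iff (v : Pl k) {x y : k} (hx : x ≠ 0) (hy : y ≠ 0) :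
    v.valuation k x ≤ v.valuation k y ↔ ordv v y ≤ ordv v x := by
  rw [valuation_eq_exp v hx, valuation_eq_exp v hy, WithZero.exp_le_exp]; omega

theorem valuation_lt_iff (v : Pl k) {x y : k} (hx : x ≠ 0) (hy : y ≠ 0) :
    v.valuation k x < v.valuation k y ↔ ordv v y < ordv v x := by
  rw [valuation_eq_exp v hx, valuation_eq_exp v hy, WithZero.exp_lt_exp]; omega

theorem valuation_eq_iff (v : Pl k) {x y : k} (hx : x ≠ 0) (hy : y ≠ 0) :
    v.valuation k x = v.valuation k y ↔ ordv v x = ordv v y := by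
  rw [valuation_eq_exp v hx, valuation_eq_exp v hy, WithZero.exp_inj]; omega

theorem valuation_le_one_iff (v : Pl k) {x : k} (hx : x ≠ 0) :
    v.valuation k x ≤ 1 ↔ 0 ≤ ordv v x := by
  have := valuation_le_iff v hx (one_ne_zero (α := k))
  rwa [map_one, ordv_one] at this

theorem valuation_lt_one_iff (v : Pl k) {x : k} (hx : x ≠ 0) :
    v.valuation k x < 1 ↔ 0 < ordv v x := by
  have := valuation_lt_iff v hx (one_ne_zero (α := k))
  rwa [map_one, ordv_one] at this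

theorem valuation_eq_one_iff (v : Pl k) {x : k} (hx : x ≠ 0) :
    v.valuation k x = 1 ↔ ordv v x = 0 := by
  have := valuation_eq_iff v hx (one_ne_zero (α := k))
  rwa [map_one, ordv_one] at this

/-- `x ≡ 0 mod v ^ n` in valuation form, `x = 0` allowed -/
theorem valuation_le_exp_iff (v : Pl k) {x : k} (hx : x ≠ 0) (n : ℤ) :
    v.valuation k x ≤ WithZero.exp (-n) ↔ n ≤ ordv v x := by
  rw [valuation_eq_exp v hx, WithZero.exp_le_exp]; omega

theorem valuation_lt_exp_iff (v : Pl k) {x : k} (hx : x ≠ 0) (n : ℤ) :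
    v.valuation k x < WithZero.exp (-n) ↔ n < ordv v x := by
  rw [valuation_eq_exp v hx, WithZero.exp_lt_exp]; omega

/-- comparison with a nonzero element, `x = 0` allowed -/
theorem valuation_lt_valuation_iff (v : Pl k) (x : k) {y : k} (hy : y ≠ 0) :
    v.valuation k x < v.valuation k y ↔ x = 0 ∨ ordv v y < ordv v x := by
  rcases eq_or_ne x 0 with rfl | hx
  · simp [zero_lt_iff, valuation_ne_zero v hy]
  · simp [hx, valuation_lt_iff v hx hy]

theorem ordv_add_ge (v : Pl k) {x y : k} (hx : x ≠ 0) (hy : y ≠ 0) (hxy : x + y ≠ 0) :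
    min (ordv v x) (ordv v y) ≤ ordv v (x + y) := by
  have h := (v.valuation k).map_add x y
  rcases le_max_iff.1 h with h | h
  · exact (min_le_left _ _).trans ((valuation_le_iff v hxy hx).1 h)
  · exact (min_le_right _ _).trans ((valuation_le_iff v hxy hy).1 h)

theorem ordv_add_eq_of_lt (v : Pl k) {x y : k} (hx : x ≠ 0) (hy : y ≠ 0)
    (h : ordv v x < ordv v y) : ordv v (x + y) = ordv v x := by
  have h1 : v.valuation k y < v.valuation k x := (valuation_lt_iff v hy hx).2 h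
  have h2 := (v.valuation k).map_add_eq_of_lt_left h1
  have hxy : x + y ≠ 0 := by
    intro h0
    rw [h0, map_zero] at h2
    exact valuation_ne_zero v hx h2.symm
  exact (valuation_eq_iff v hxy hx).1 h2

/-- `x ≡ 1 mod v` implies that `x` is a unit at `v` -/
theorem valuation_eq_one_of_sub_one_lt (v : Pl k) {x : k} (h : v.valuation k (x - 1) < 1) :
    v.valuation k x = 1 := by
  have h2 := (v.valuation k).map_add_eq_of_lt_left (x := 1) (y := x - 1) (by rwa [map_one])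
  rwa [add_sub_cancel, map_one] at h2

theorem ne_zero_of_sub_one_lt (v : Pl k) {x : k} (h : v.valuation k (x - 1) < 1) : x ≠ 0 := by
  intro h0
  have := valuation_eq_one_of_sub_one_lt v h
  rw [h0, map_zero] at this
  exact zero_ne_one this

theorem ordv_eq_zero_of_sub_one_lt (v : Pl k) {x : k} (h : v.valuation k (x - 1) < 1) :
    ordv v x = 0 :=
  (valuation_eq_one_iff v (ne_zero_of_sub_one_lt v h)).1 (valuation_eq_one_of_sub_one_lt v h)

/-! ### integers -/

theorem ordv_algebraMap_nonneg (v : Pl k) (a : 𝓞 k) : 0 ≤ ordv v (algebraMap (𝓞 k) k a) := by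
  rcases eq_or_ne a 0 with rfl | ha
  · simp
  · exact (valuation_le_one_iff v (by simpa using ha)).1 (v.valuation_le_one a)

theorem ordv_algebraMap_pos_iff (v : Pl k) {a : 𝓞 k} (ha : a ≠ 0) :
    0 < ordv v (algebraMap (𝓞 k) k a) ↔ a ∈ v.asIdeal := by
  rw [← valuation_lt_one_iff v (by simpa using ha), HeightOneSpectrum.valuation_lt_one_iff_mem]

theorem ordv_algebraMap_eq_zero_iff (v : Pl k) {a : 𝓞 k} (ha : a ≠ 0) :
    ordv v (algebraMap (𝓞 k) k a) = 0 ↔ a ∉ v.asIdeal := by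
  rw [← ordv_algebraMap_pos_iff v ha]
  have := ordv_algebraMap_nonneg v a
  omega

theorem le_ordv_algebraMap_iff (v : Pl k) {a : 𝓞 k} (ha : a ≠ 0) (n : ℕ) :
    (n : ℤ) ≤ ordv v (algebraMap (𝓞 k) k a) ↔ a ∈ v.asIdeal ^ n := by
  rw [← valuation_le_exp_iff v (by simpa using ha), HeightOneSpectrum.valuation_of_algebraMap,
    HeightOneSpectrum.intValuation_le_pow_iff_mem]

/-- valuation form, `a = 0` allowed -/
theorem valuation_algebraMap_le_exp_iff (v : Pl k) (a : 𝓞 k) (n : ℕ) :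
    v.valuation k (algebraMap (𝓞 k) k a) ≤ WithZero.exp (-(n : ℤ)) ↔ a ∈ v.asIdeal ^ n := by
  rw [HeightOneSpectrum.valuation_of_algebraMap, HeightOneSpectrum.intValuation_le_pow_iff_mem]

theorem exists_algebraMap_of_ordv_nonneg {x : k} (h : ∀ v : Pl k, 0 ≤ ordv v x) :
    ∃ a : 𝓞 k, algebraMap (𝓞 k) k a = x := by
  rcases eq_or_ne x 0 with rfl | hx
  · exact ⟨0, map_zero _⟩
  · exact HeightOneSpectrum.mem_integers_of_valuation_le_one k x
      fun v => (valuation_le_one_iff v hx).2 (h v)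

theorem forall_ordv_nonneg_iff {x : k} :
    (∀ v : Pl k, 0 ≤ ordv v x) ↔ ∃ a : 𝓞 k, algebraMap (𝓞 k) k a = x :=
  ⟨exists_algebraMap_of_ordv_nonneg, by rintro ⟨a, rfl⟩ v; exact ordv_algebraMap_nonneg v a⟩

theorem forall_ordv_nonneg_iff_isIntegral {x : k} :
    (∀ v : Pl k, 0 ≤ ordv v x) ↔ IsIntegral ℤ x := by
  rw [forall_ordv_nonneg_iff]
  constructor
  · rintro ⟨a, rfl⟩; exact a.isIntegral_coe
  · intro h; exact ⟨⟨x, h⟩, rfl⟩

/-- units -/
theorem forall_ordv_eq_zero_iff {x : k} (hx : x ≠ 0) :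
    (∀ v : Pl k, ordv v x = 0) ↔ ∃ u : (𝓞 k)ˣ, algebraMap (𝓞 k) k u = x := by
  constructor
  · intro h
    obtain ⟨a, ha⟩ := exists_algebraMap_of_ordv_nonneg (x := x) fun v => (h v).ge
    obtain ⟨b, hb⟩ := exists_algebraMap_of_ordv_nonneg (x := x⁻¹) fun v => by
      rw [ordv_inv, h v]; simp
    have hab : a * b = 1 := by
      apply FaithfulSMul.algebraMap_injective (𝓞 k) k
      rw [map_mul, ha, hb, map_one, mul_inv_cancel₀ hx]
    exact ⟨⟨a, b, hab, by rw [mul_comm]; exact hab⟩, ha⟩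
  · rintro ⟨u, rfl⟩ v
    have h1 := ordv_algebraMap_nonneg v (u : 𝓞 k)
    have h2 := ordv_algebraMap_nonneg v ((u⁻¹ : (𝓞 k)ˣ) : 𝓞 k)
    have h3 : algebraMap (𝓞 k) k ((u⁻¹ : (𝓞 k)ˣ) : 𝓞 k) = (algebraMap (𝓞 k) k (u : 𝓞 k))⁻¹ := by
      exact eq_inv_of_mul_eq_one_left (by rw [← map_mul, Units.inv_mul, map_one])
    rw [h3, ordv_inv] at h2
    omega

/-! ### finite support, the divisor as a finitely supported function -/

theorem finite_ordv_ne_zero (x : k) : {v : Pl k | ordv v x ≠ 0}.Finite := by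
  rcases eq_or_ne x 0 with rfl | hx
  · simp
  · refine ((HeightOneSpectrum.Support.finite (𝓞 k) x).union
      (HeightOneSpectrum.Support.finite (𝓞 k) x⁻¹)).subset fun v hv => ?_
    have hv' : ordv v x ≠ 0 := hv
    rcases lt_or_gt_of_ne hv' with h | h
    · left
      show 1 < v.valuation k x
      rw [← not_le, valuation_le_one_iff v hx]; omega
    · right
      show 1 < v.valuation k x⁻¹
      rw [← not_le, valuation_le_one_iff v (inv_ne_zero hx), ordv_inv]; omega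

/-- the divisor of `x` as a finitely supported function -/
noncomputable def dvf (x : k) : Pl k →₀ ℤ :=
  Finsupp.ofSupportFinite (dv x) (finite_ordv_ne_zero x)

@[simp] theorem dvf_apply (x : k) (v : Pl k) : dvf x v = ordv v x := rfl

theorem coe_dvf (x : k) : (dvf x : Pl k → ℤ) = dv x := rfl

@[simp] theorem dv_apply (x : k) (v : Pl k) : dv x v = ordv v x := rfl

theorem dvf_mul {x y : k} (hx : x ≠ 0) (hy : y ≠ 0) : dvf (x * y) = dvf x + dvf y := by
  ext v; simp [ordv_mul v hx hy]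

theorem dvf_inv (x : k) : dvf x⁻¹ = - dvf x := by
  ext v; simp [ordv_inv]

theorem dvf_div {x y : k} (hx : x ≠ 0) (hy : y ≠ 0) : dvf (x / y) = dvf x - dvf y := by
  ext v; simp [ordv_div v hx hy]

theorem dvf_pow (x : k) (n : ℕ) : dvf (x ^ n) = n • dvf x := by
  ext v; simp [ordv_pow]

theorem dvf_zpow (x : k) (n : ℤ) : dvf (x ^ n) = n • dvf x := by
  ext v; simp [ordv_zpow]

@[simp] theorem dvf_one : dvf (1 : k) = 0 := by ext v; simp

/-! ### `Above`, `nrm` -/

theorem above_iff_ordv_pos {p : ℕ} (hp : p ≠ 0) (v : Pl k) : Above p v ↔ 0 < ordv v (p : k) := by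
  have h := ordv_algebraMap_pos_iff v (a := (p : 𝓞 k)) (by exact_mod_cast hp)
  rw [map_natCast] at h
  exact h.symm

theorem not_above_iff_ordv_eq_zero {p : ℕ} (hp : p ≠ 0) (v : Pl k) :
    ¬ Above p v ↔ ordv v (p : k) = 0 := by
  have h := ordv_algebraMap_eq_zero_iff v (a := (p : 𝓞 k)) (by exact_mod_cast hp)
  rw [map_natCast] at h
  exact h.symm

theorem finite_above {p : ℕ} (hp : p ≠ 0) : {v : Pl k | Above p v}.Finite :=
  (finite_ordv_ne_zero (p : k)).subset fun v hv => ((above_iff_ordv_pos hp v).1 hv).ne'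

theorem card_quot_eq_nrm (v : Pl k) : Nat.card (𝓞 k ⧸ v.asIdeal) = nrm v := by
  rw [nrm, Ideal.absNorm_apply, Submodule.cardQuot_apply]

theorem finite_quot (v : Pl k) : Finite (𝓞 k ⧸ v.asIdeal) :=
  v.asIdeal.finiteQuotientOfFreeOfNeBot v.ne_bot

theorem one_lt_nrm (v : Pl k) : 1 < nrm v := by
  have h0 : nrm v ≠ 0 := fun h => v.ne_bot (Ideal.absNorm_eq_zero_iff.1 h)
  have h1 : nrm v ≠ 1 := fun h => v.isPrime.ne_top (Ideal.absNorm_eq_one_iff.1 h)
  omega

theorem natCast_nrm_mem (v : Pl k) : (nrm v : 𝓞 k) ∈ v.asIdeal := Ideal.absNorm_mem _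

theorem not_mem_of_coprime (v : Pl k) {m n : ℕ} (h : m.Coprime n) (hm : (m : 𝓞 k) ∈ v.asIdeal) :
    (n : 𝓞 k) ∉ v.asIdeal := by
  intro hn
  obtain ⟨a, b, hab⟩ := Nat.isCoprime_iff_coprime.2 h
  apply v.isPrime.ne_top
  rw [Ideal.eq_top_iff_one]
  have h1 : ((a : 𝓞 k)) * (m : 𝓞 k) + (b : 𝓞 k) * (n : 𝓞 k) = 1 := by exact_mod_cast congrArg (Int.cast : ℤ → 𝓞 k) hab
  rw [← h1]
  exact v.asIdeal.add_mem (v.asIdeal.mul_mem_left _ hm) (v.asIdeal.mul_mem_left _ hn)

/-- the residue characteristic, with the shape of the norm -/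
theorem exists_prime_above_nrm (v : Pl k) :
    ∃ l : ℕ, l.Prime ∧ Above l v ∧ ∃ f : ℕ, 0 < f ∧ nrm v = l ^ f := by
  haveI : v.asIdeal.IsMaximal := v.isMaximal
  letI := Ideal.Quotient.field v.asIdeal
  haveI : Finite (𝓞 k ⧸ v.asIdeal) := finite_quot v
  letI := Fintype.ofFinite (𝓞 k ⧸ v.asIdeal)
  obtain ⟨l, hl⟩ := CharP.exists (𝓞 k ⧸ v.asIdeal)
  obtain ⟨n, hlp, hn⟩ := FiniteField.card (𝓞 k ⧸ v.asIdeal) l
  refine ⟨l, hlp, ?_, n, n.pos, ?_⟩
  · rw [Above, ← Ideal.Quotient.eq_zero_iff_mem, map_natCast]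
    exact (CharP.cast_eq_zero_iff _ l l).2 dvd_rfl
  · rw [← card_quot_eq_nrm, Nat.card_eq_fintype_card, hn]

theorem exists_prime_above (v : Pl k) : ∃ l : ℕ, l.Prime ∧ Above l v := by
  obtain ⟨l, h1, h2, -⟩ := exists_prime_above_nrm v
  exact ⟨l, h1, h2⟩

theorem above_unique {l l' : ℕ} (hl : l.Prime) (hl' : l'.Prime) {v : Pl k} (h : Above l v)
    (h' : Above l' v) : l = l' := by
  by_contra hne
  exact not_mem_of_coprime v ((Nat.coprime_primes hl hl').2 hne) h h'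

theorem nrm_eq_pow {l : ℕ} (hl : l.Prime) {v : Pl k} (h : Above l v) :
    ∃ f : ℕ, 0 < f ∧ nrm v = l ^ f := by
  obtain ⟨l', h1, h2, h3⟩ := exists_prime_above_nrm v
  rw [above_unique hl h1 h h2]
  exact h3

theorem above_of_dvd_nrm {l : ℕ} (hl : l.Prime) {v : Pl k} (h : l ∣ nrm v) : Above l v := by
  obtain ⟨l', h1, h2, f, -, h3⟩ := exists_prime_above_nrm v
  rw [h3] at h
  rw [(Nat.prime_dvd_prime_iff_eq hl h1).1 (hl.dvd_of_dvd_pow h)]
  exact h2

theorem above_of_nrm_eq {l : ℕ} (hl : l.Prime) {v : Pl k} (h : nrm v = l) : Above l v :=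
  above_of_dvd_nrm hl (h ▸ dvd_rfl)

theorem above_iff_dvd_nrm {l : ℕ} (hl : l.Prime) (v : Pl k) : Above l v ↔ l ∣ nrm v := by
  refine ⟨fun h => ?_, above_of_dvd_nrm hl⟩
  obtain ⟨f, hf, h1⟩ := nrm_eq_pow hl h
  rw [h1]
  exact dvd_pow_self l hf.ne'

theorem ordv_natCast_eq_zero (v : Pl k) {n : ℕ} (hn : n.Coprime (nrm v)) : ordv v (n : k) = 0 := by
  have hn0 : n ≠ 0 := by
    rintro rfl
    rw [Nat.coprime_zero_left] at hn
    exact (one_lt_nrm v).ne' hn
  have h := ordv_algebraMap_eq_zero_iff v (a := (n : 𝓞 k)) (by exact_mod_cast hn0)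
  rw [map_natCast] at h
  exact h.2 (not_mem_of_coprime v hn.symm (natCast_nrm_mem v))

/-- a uniformizer -/
theorem exists_ordv_eq_one (v : Pl k) : ∃ ϖ : k, ϖ ≠ 0 ∧ ordv v ϖ = 1 := by
  obtain ⟨ϖ, h⟩ := v.valuation_exists_uniformizer k
  refine ⟨ϖ, ?_, ?_⟩
  · rintro rfl
    rw [map_zero] at h
    exact WithZero.exp_ne_zero h.symm
  · rw [ordv, h, WithZero.log_exp]; simp

/-- every `v`-integral element is congruent to an algebraic integer modulo any power of `v` -/
theorem exists_integer_valuation_sub_lt (v : Pl k) {x : k} (hx : v.valuation k x ≤ 1) (n : ℕ) :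
    ∃ a : 𝓞 k, v.valuation k (x - algebraMap (𝓞 k) k a) < WithZero.exp (-(n : ℤ)) := by
  obtain ⟨a, ha⟩ := v.exists_valuation_sub_lt_of_integer hx
    (Units.mk0 (WithZero.exp (-(n : ℤ))) WithZero.exp_ne_zero)
  refine ⟨a, ?_⟩
  rw [Valuation.map_sub_swap]
  exact ha

/-- `x ≡ y mod γ` implies `x ^ m ≡ y ^ m mod γ` for `v`-integral `x`, `y` -/
theorem valuation_pow_sub_pow_lt (v : Pl k) {x y : k} (hx : v.valuation k x ≤ 1)
    (hy : v.valuation k y ≤ 1) {γ : WithZero (Multiplicative ℤ)} (h : v.valuation k (x - y) < γ)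
    (m : ℕ) : v.valuation k (x ^ m - y ^ m) < γ := by
  induction m with
  | zero => simpa using lt_of_le_of_lt zero_le' h
  | succ m ih =>
    have e : x ^ (m + 1) - y ^ (m + 1) = x ^ m * (x - y) + (x ^ m - y ^ m) * y := by ring
    rw [e]
    refine lt_of_le_of_lt ((v.valuation k).map_add _ _) (max_lt ?_ ?_)
    · rw [map_mul, map_pow]
      exact lt_of_le_of_lt (mul_le_of_le_one_left' (pow_le_one₀ zero_le' hx)) h
    · rw [map_mul]
      exact lt_of_le_of_lt (mul_le_of_le_one_right' hy) ih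

/-- Fermat's little theorem at `v` -/
theorem pow_nrm_sub_one_sub_one_mem (v : Pl k) {a : 𝓞 k} (ha : a ∉ v.asIdeal) :
    a ^ (nrm v - 1) - 1 ∈ v.asIdeal := by
  haveI : v.asIdeal.IsMaximal := v.isMaximal
  letI := Ideal.Quotient.field v.asIdeal
  haveI : Finite (𝓞 k ⧸ v.asIdeal) := finite_quot v
  letI := Fintype.ofFinite (𝓞 k ⧸ v.asIdeal)
  have h := FiniteField.pow_card_sub_one_eq_one (Ideal.Quotient.mk v.asIdeal a)
    (fun h => ha (Ideal.Quotient.eq_zero_iff_mem.1 h))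
  rw [← Nat.card_eq_fintype_card, card_quot_eq_nrm] at h
  rw [← Ideal.Quotient.eq_zero_iff_mem, map_sub, map_pow, h, map_one, sub_self]

theorem valuation_pow_nrm_sub_one_sub_one_lt (v : Pl k) {x : k} (hx : v.valuation k x = 1) :
    v.valuation k (x ^ (nrm v - 1) - 1) < 1 := by
  obtain ⟨a, ha⟩ := exists_integer_valuation_sub_lt v hx.le 0
  simp only [CharP.cast_eq_zero, neg_zero, WithZero.exp_zero] at ha
  have ha' : a ∉ v.asIdeal := by
    intro h
    have h1 : v.valuation k (algebraMap (𝓞 k) k a) < 1 := (v.valuation_lt_one_iff_mem a).2 h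
    have h2 := (v.valuation k).map_add (x - algebraMap (𝓞 k) k a) (algebraMap (𝓞 k) k a)
    rw [sub_add_cancel, hx] at h2
    exact absurd h2 (not_le.2 (max_lt ha h1))
  have h1 := valuation_pow_sub_pow_lt v hx.le (v.valuation_le_one a) ha (nrm v - 1)
  have h2 : v.valuation k (algebraMap (𝓞 k) k a ^ (nrm v - 1) - 1) < 1 := by
    have := (v.valuation_lt_one_iff_mem (K := k) _).2 (pow_nrm_sub_one_sub_one_mem v ha')
    have e : algebraMap (𝓞 k) k (a ^ (nrm v - 1) - 1) = algebraMap (𝓞 k) k a ^ (nrm v - 1) - 1 := by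
      rw [map_sub, map_pow, map_one]
    rw [← e]
    exact this
  have e : x ^ (nrm v - 1) - 1 = (x ^ (nrm v - 1) - algebraMap (𝓞 k) k a ^ (nrm v - 1)) +
      (algebraMap (𝓞 k) k a ^ (nrm v - 1) - 1) := by ring
  rw [e]
  exact lt_of_le_of_lt ((v.valuation k).map_add _ _) (max_lt h1 h2)

/-! ### the root of unity `ζ` -/

theorem ordv_eq_zero_of_pow_eq_one (v : Pl k) {x : k} {n : ℕ} (hn : n ≠ 0) (h : x ^ n = 1) :
    ordv v x = 0 := by
  have h1 := ordv_pow v x n
  rw [h, ordv_one] at h1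
  rcases mul_eq_zero.1 h1.symm with h2 | h2
  · exact absurd (by exact_mod_cast h2) hn
  · exact h2

/-- `1 - y` divides `1 - y ^ n` -/
theorem valuation_one_sub_pow_le (v : Pl k) {y : k} (hy : v.valuation k y ≤ 1) (n : ℕ) :
    v.valuation k (1 - y ^ n) ≤ v.valuation k (1 - y) := by
  rw [← geom_sum_mul_neg, map_mul]
  exact mul_le_of_le_one_left' ((v.valuation k).map_sum_le fun i _ => by
    rw [map_pow]; exact pow_le_one₀ zero_le' hy)

section zeta

variable {p : ℕ} [Fact p.Prime] {ζ : k}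

theorem ordv_zeta (hζ : IsPrimitiveRoot ζ p) (v : Pl k) : ordv v ζ = 0 :=
  ordv_eq_zero_of_pow_eq_one v (Fact.out : p.Prime).ne_zero hζ.pow_eq_one

theorem valuation_zeta (hζ : IsPrimitiveRoot ζ p) (v : Pl k) : v.valuation k ζ = 1 :=
  (valuation_eq_one_iff v (hζ.ne_zero (Fact.out : p.Prime).ne_zero)).2 (ordv_zeta hζ v)

omit [NumberField k] in
theorem one_sub_zeta_ne_zero (hζ : IsPrimitiveRoot ζ p) : (1 : k) - ζ ≠ 0 :=
  sub_ne_zero.2 (hζ.ne_one (Fact.out : p.Prime).one_lt).symm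

omit [NumberField k] in
theorem one_sub_zeta_pow_ne_zero (hζ : IsPrimitiveRoot ζ p) {i : ℕ} (hi : ¬ p ∣ i) :
    (1 : k) - ζ ^ i ≠ 0 := by
  intro h
  exact hi ((hζ.pow_eq_one_iff_dvd i).1 (sub_eq_zero.1 h).symm)

theorem ordv_one_sub_zeta_nonneg (hζ : IsPrimitiveRoot ζ p) (v : Pl k) : 0 ≤ ordv v (1 - ζ) :=
  forall_ordv_nonneg_iff_isIntegral.2
    (isIntegral_one.sub (hζ.isIntegral (Fact.out : p.Prime).pos)) v

/-- `1 - ζ ^ i` is associated to `1 - ζ` -/
theorem ordv_one_sub_zeta_pow (hζ : IsPrimitiveRoot ζ p) (v : Pl k) {i : ℕ} (hi : ¬ p ∣ i) :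
    ordv v (1 - ζ ^ i) = ordv v (1 - ζ) := by
  have hp : p.Prime := Fact.out
  have h1 := valuation_one_sub_pow_le v (valuation_zeta hζ v).le i
  have hcop : Nat.Coprime i p := ((Nat.Prime.coprime_iff_not_dvd hp).2 hi).symm
  obtain ⟨j, -, hj⟩ := Nat.exists_mul_mod_eq_one_of_coprime hcop hp.one_lt
  have h2 := valuation_one_sub_pow_le v (y := ζ ^ i)
    (by rw [map_pow, valuation_zeta hζ v, one_pow]) j
  have h3 : (ζ ^ i) ^ j = ζ := by
    rw [← pow_mul, ← Nat.div_add_mod (i * j) p, hj, pow_add, pow_mul, hζ.pow_eq_one, one_pow,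
      one_mul, pow_one]
  rw [h3] at h2
  have hz := one_sub_zeta_ne_zero hζ
  have hz' := one_sub_zeta_pow_ne_zero hζ hi
  exact le_antisymm ((valuation_le_iff v hz hz').1 h2) ((valuation_le_iff v hz' hz).1 h1)

/-- `p = unit * (1 - ζ) ^ (p - 1)` -/
theorem ordv_p_eq (hζ : IsPrimitiveRoot ζ p) (v : Pl k) :
    ordv v (p : k) = (p - 1 : ℕ) * ordv v (1 - ζ) := by
  have hp : p.Prime := Fact.out
  haveI : NeZero p := ⟨hp.ne_zero⟩
  have h1 : (p : k) = ∏ μ ∈ primitiveRoots p k, (1 - μ) := by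
    rw [← Polynomial.eval_one_cyclotomic_prime (R := k) (p := p),
      Polynomial.cyclotomic_eq_prod_X_sub_primitiveRoots hζ, Polynomial.eval_prod]
    simp
  have h2 : ∀ μ ∈ primitiveRoots p k, (1 - μ ≠ 0 ∧ ordv v (1 - μ) = ordv v (1 - ζ)) := by
    intro μ hμ
    obtain ⟨i, -, hi, rfl⟩ := hζ.isPrimitiveRoot_iff.1 (isPrimitiveRoot_of_mem_primitiveRoots hμ)
    have hi' : ¬ p ∣ i := (Nat.Prime.coprime_iff_not_dvd hp).1 hi.symm
    exact ⟨one_sub_zeta_pow_ne_zero hζ hi', ordv_one_sub_zeta_pow hζ v hi'⟩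
  rw [h1, ordv_prod v _ _ fun μ hμ => (h2 μ hμ).1, Finset.sum_congr rfl fun μ hμ => (h2 μ hμ).2,
    Finset.sum_const, hζ.card_primitiveRoots, Nat.totient_prime hp]
  simp

theorem ordv_one_sub_zeta_pos_iff (hζ : IsPrimitiveRoot ζ p) (v : Pl k) :
    0 < ordv v (1 - ζ) ↔ Above p v := by
  have hp : p.Prime := Fact.out
  rw [above_iff_ordv_pos hp.ne_zero, ordv_p_eq hζ]
  have h1 : (0 : ℤ) < (p - 1 : ℕ) := by have := hp.one_lt; omega
  constructor
  · intro h; positivity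
  · intro h; exact (pos_iff_pos_of_mul_pos h).1 h1

theorem ordv_one_sub_zeta_eq_zero_iff (hζ : IsPrimitiveRoot ζ p) (v : Pl k) :
    ordv v (1 - ζ) = 0 ↔ ¬ Above p v := by
  rw [← ordv_one_sub_zeta_pos_iff hζ]
  have := ordv_one_sub_zeta_nonneg hζ v
  omega

theorem valuation_one_sub_zeta_pow_eq_one (hζ : IsPrimitiveRoot ζ p) {v : Pl k} (hv : ¬ Above p v) :
    v.valuation k ((1 - ζ) ^ p) = 1 := by
  rw [map_pow, (valuation_eq_one_iff v (one_sub_zeta_ne_zero hζ)).2
    ((ordv_one_sub_zeta_eq_zero_iff hζ v).2 hv), one_pow]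

/-- the powers of `ζ` are distinct modulo `v ∤ p` -/
theorem dvd_sub_of_valuation_zeta_pow_sub_lt (hζ : IsPrimitiveRoot ζ p) {v : Pl k}
    (hv : ¬ Above p v) {i j : ℕ} (h : v.valuation k (ζ ^ i - ζ ^ j) < 1) : (p : ℤ) ∣ (i : ℤ) - j := by
  wlog hij : i ≤ j generalizing i j
  · have := this (i := j) (j := i) (by rwa [Valuation.map_sub_swap]) (by omega)
    rw [← neg_sub]
    exact (dvd_neg).2 this
  obtain ⟨d, rfl⟩ := Nat.exists_eq_add_of_le hij
  have e : ζ ^ i - ζ ^ (i + d) = ζ ^ i * (1 - ζ ^ d) := by ring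
  rw [e, map_mul, map_pow, valuation_zeta hζ v, one_pow, one_mul] at h
  by_contra hd
  have hd' : ¬ p ∣ d := by
    intro h'
    apply hd
    have : (p : ℤ) ∣ (d : ℤ) := by exact_mod_cast h'
    push_cast
    rw [show (i : ℤ) - (i + d) = -d by ring]
    exact (dvd_neg).2 this
  have h1 := ordv_one_sub_zeta_pow hζ v hd'
  rw [(ordv_one_sub_zeta_eq_zero_iff hζ v).2 hv] at h1
  rw [(valuation_eq_one_iff v (one_sub_zeta_pow_ne_zero hζ hd')).2 h1] at h
  exact lt_irrefl _ h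

theorem dvd_nrm_sub_one (hζ : IsPrimitiveRoot ζ p) {v : Pl k} (hv : ¬ Above p v) :
    p ∣ nrm v - 1 := by
  have h := valuation_pow_nrm_sub_one_sub_one_lt v (valuation_zeta hζ v)
  have h1 := dvd_sub_of_valuation_zeta_pow_sub_lt hζ hv (i := nrm v - 1) (j := 0) (by simpa using h)
  have h2 : (p : ℤ) ∣ ((nrm v - 1 : ℕ) : ℤ) := by simpa using h1
  exact_mod_cast h2

/-- for `v ∤ p`, `LocPow` is the congruence modulo `v` -/
theorem locPow_iff_of_not_above (hζ : IsPrimitiveRoot ζ p) {v : Pl k} (hv : ¬ Above p v) (x : k) :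
    LocPow p ζ v x ↔ ∃ z : k, z ≠ 0 ∧ v.valuation k (x / z ^ p - 1) < 1 := by
  rw [LocPow, valuation_one_sub_zeta_pow_eq_one hζ hv]

end zeta

end Fermat.Agent.S14lib
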