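import Fermat.Agent.S14.RelDefs
import Fermat.Agent.S14.Ord

/-!
# T-S14, WP0f, part A (helper7): valuations, `LocPow`, places above a place, relative norm
-/

set_option autoImplicit false

open NumberField IsDedekindDomain

namespace Fermat.Agent.S14lib

variable {K F : Type*} [Field K] [NumberField K] [Field F] [NumberField F] [Algebra K F]

theorem over_iff {w : Pl F} {v : Pl K} :
    Over w v ↔ ∀ x : 𝓞 K, algebraMap (𝓞 K) (𝓞 F) x ∈ w.asIdeal ↔ x ∈ v.asIdeal := by
  unfold Over
  rw [Ideal.liesOver_iff]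
  constructor
  · intro h x
    rw [h]
    exact Iff.rfl
  · intro h
    ext x
    exact (h x).symm

theorem exists_over (v : Pl K) : ∃ w : Pl F, Over w v := by
  have := v.isMaximal
  obtain ⟨Q, hQ, hQv⟩ := Ideal.exists_maximal_ideal_liesOver_of_isIntegral (S := 𝓞 F) v.asIdeal
  exact ⟨⟨Q, hQ.isPrime, Ideal.ne_bot_of_liesOver_of_ne_bot v.ne_bot Q⟩, hQv⟩

theorem over_under (w : Pl F) : Over w (w.under (𝓞 K)) :=
  (Ideal.liesOver_iff _ _).2 rfl

theorem Over.eq_under {w : Pl F} {v : Pl K} (h : Over w v) : v = w.under (𝓞 K) :=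
  HeightOneSpectrum.ext ((Ideal.liesOver_iff _ _).1 h)

theorem existsUnique_under (w : Pl F) : ∃! v : Pl K, Over w v :=
  ⟨w.under (𝓞 K), over_under w, fun _ h => h.eq_under⟩

theorem Over.unique {w : Pl F} {v v' : Pl K} (h : Over w v) (h' : Over w v') : v = v' :=
  h.eq_under.trans h'.eq_under.symm

theorem eRel_pos (w : Pl F) : 0 < eRel K w := by
  have := w.isPrime
  exact Ideal.ramificationIdx_pos _ _

theorem fRel_pos (w : Pl F) : 0 < fRel K w := by
  have := w.isPrime
  exact Ideal.inertiaDeg_pos _ _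

/-- (R1) -/
theorem valuation_over {w : Pl F} {v : Pl K} (h : Over w v) (x : K) :
    w.valuation F (algebraMap K F x) = v.valuation K x ^ eRel K w := by
  have : w.asIdeal.LiesOver v.asIdeal := h
  have := w.isPrime
  rw [← HeightOneSpectrum.valuation_liesOver F v w x, eRel,
    Ideal.ramificationIdx'_eq_ramificationIdx v.asIdeal w.asIdeal v.ne_bot]

/-- (R1) -/
theorem ordv_over {w : Pl F} {v : Pl K} (h : Over w v) (x : K) :
    ordv w (algebraMap K F x) = eRel K w * ordv v x := by
  unfold ordv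
  rw [valuation_over h, WithZero.log_pow]
  simp

theorem valuation_over_lt_iff {w : Pl F} {v : Pl K} (h : Over w v) (x y : K) :
    w.valuation F (algebraMap K F x) < w.valuation F (algebraMap K F y) ↔
      v.valuation K x < v.valuation K y := by
  rw [valuation_over h, valuation_over h]
  exact pow_lt_pow_iff_left₀ zero_le zero_le (eRel_pos w).ne'

theorem valuation_over_le_iff {w : Pl F} {v : Pl K} (h : Over w v) (x y : K) :
    w.valuation F (algebraMap K F x) ≤ w.valuation F (algebraMap K F y) ↔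
      v.valuation K x ≤ v.valuation K y := by
  rw [valuation_over h, valuation_over h]
  exact pow_le_pow_iff_left₀ zero_le zero_le (eRel_pos w).ne'

theorem valuation_over_lt_one_iff {w : Pl F} {v : Pl K} (h : Over w v) (x : K) :
    w.valuation F (algebraMap K F x) < 1 ↔ v.valuation K x < 1 := by
  have := valuation_over_lt_iff h x 1
  simpa using this

theorem valuation_over_le_one_iff {w : Pl F} {v : Pl K} (h : Over w v) (x : K) :
    w.valuation F (algebraMap K F x) ≤ 1 ↔ v.valuation K x ≤ 1 := by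
  have := valuation_over_le_iff h x 1
  simpa using this

/-- (R3) -/
theorem LocPow.over {p : ℕ} {ζ : K} {w : Pl F} {v : Pl K} (h : Over w v) {x : K}
    (hx : LocPow p ζ v x) : LocPow p (algebraMap K F ζ) w (algebraMap K F x) := by
  obtain ⟨z, hz, hlt⟩ := hx
  refine ⟨algebraMap K F z, (map_ne_zero _).2 hz, ?_⟩
  have := (valuation_over_lt_iff h (x / z ^ p - 1) ((1 - ζ) ^ p)).2 hlt
  simpa using this

theorem finite_over (v : Pl K) : {w : Pl F | Over w v}.Finite := by
  have := v.isMaximal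
  refine Set.Finite.of_finite_image (f := HeightOneSpectrum.asIdeal)
    ((IsDedekindDomain.primesOver_finite v.asIdeal (𝓞 F)).subset ?_)
    (fun _ _ _ _ h => HeightOneSpectrum.ext h)
  rintro _ ⟨w, hw, rfl⟩
  exact ⟨w.isPrime, hw⟩

variable (F) in
/-- the places of `F` above `v` -/
noncomputable def placesOver (v : Pl K) : Finset (Pl F) := (finite_over (F := F) v).toFinset

@[simp]
theorem mem_placesOver {v : Pl K} {w : Pl F} : w ∈ placesOver F v ↔ Over w v := by
  simp [placesOver]

theorem placesOver_nonempty (v : Pl K) : (placesOver F v).Nonempty := by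
  obtain ⟨w, hw⟩ := exists_over (F := F) v
  exact ⟨w, mem_placesOver.2 hw⟩

/-- `∑ e f = [F : K]` -/
theorem sum_eRel_mul_fRel (v : Pl K) :
    ∑ w ∈ placesOver F v, eRel K w * fRel K w = Module.finrank K F := by
  have := v.isPrime
  have := v.isMaximal
  let _ : Fintype (v.asIdeal.primesOver (𝓞 F)) :=
    (IsDedekindDomain.primesOver_finite v.asIdeal (𝓞 F)).fintype
  have h1 := Ideal.sum_ramification_inertia_eq_finrank v.asIdeal (𝓞 F)
  have h2 : Module.finrank (𝓞 K) (𝓞 F) = Module.finrank K F := by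
    exact (IsFractionRing.finrank_eq (𝓞 K) K (𝓞 F) F).symm
  rw [← h2, ← h1]
  refine Finset.sum_bij' (fun w hw => (⟨w.asIdeal, w.isPrime, mem_placesOver.1 hw⟩ :
      v.asIdeal.primesOver (𝓞 F)))
    (fun Q _ => (⟨Q.1, Q.2.1, Ideal.ne_bot_of_mem_primesOver v.ne_bot Q.2⟩ : Pl F)) ?_ ?_ ?_ ?_ ?_
  · intro w hw; exact Finset.mem_univ _
  · intro Q _; exact mem_placesOver.2 Q.2.2
  · intro w hw; rfl
  · intro Q _; rfl
  · intro w hw; rfl
theorem ordv_algebraMap_eq_multiplicity {k : Type*} [Field k] [NumberField k] (v : Pl k) {a : 𝓞 k}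
    (ha : a ≠ 0) :
    ordv v (algebraMap (𝓞 k) k a) = (multiplicity v.asIdeal (Ideal.span {a}) : ℤ) := by
  unfold ordv
  rw [HeightOneSpectrum.valuation_of_algebraMap, v.intValuation_eq_exp_neg_multiplicity ha]
  simp

theorem emultiplicity_asIdeal_eq {k : Type*} [Field k] [NumberField k] (v : Pl k) {I : Ideal (𝓞 k)}
    (hI : I ≠ ⊥) : emultiplicity v.asIdeal I = (multiplicity v.asIdeal I : ℕ∞) :=
  (FiniteMultiplicity.of_prime_left v.prime hI).emultiplicity_eq_multiplicity

theorem emultiplicity_asIdeal_self {k : Type*} [Field k] [NumberField k] (v : Pl k) :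
    emultiplicity v.asIdeal v.asIdeal = 1 :=
  (FiniteMultiplicity.of_prime_left v.prime v.ne_bot).emultiplicity_self

theorem emultiplicity_asIdeal_of_ne {k : Type*} [Field k] [NumberField k] {v w : Pl k}
    (h : v ≠ w) : emultiplicity v.asIdeal w.asIdeal = 0 :=
  emultiplicity_eq_zero_of_irreducible_ne v.irreducible w.irreducible
    (fun h' => h (HeightOneSpectrum.ext h'))

theorem emultiplicity_asIdeal_top {k : Type*} [Field k] [NumberField k] (u : Pl k) :
    emultiplicity u.asIdeal (⊤ : Ideal (𝓞 k)) = 0 := by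
  rw [emultiplicity_eq_zero, Ideal.dvd_iff_le, top_le_iff]
  exact u.isPrime.ne_top

/-- the multiplicity of `v` in the relative norm of an ideal -/
theorem emultiplicity_relNorm (v : Pl K) (I : Ideal (𝓞 F)) (hI : I ≠ 0) :
    emultiplicity v.asIdeal (Ideal.relNorm (𝓞 K) I) =
      ∑ w ∈ placesOver F v, (fRel K w : ℕ∞) * emultiplicity w.asIdeal I := by
  classical
  induction I using UniqueFactorizationMonoid.induction_on_prime with
  | h₁ => exact absurd rfl hI
  | h₂ x hx =>
    have hx1 : x = ⊤ := by rwa [Ideal.isUnit_iff] at hx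
    subst hx1
    rw [Ideal.relNorm_top]
    rw [emultiplicity_asIdeal_top]
    simp [emultiplicity_asIdeal_top]
  | h₃ a Q ha hQ ih =>
    have hQ0 : Q ≠ ⊥ := hQ.ne_zero
    have hQp : Q.IsPrime := Ideal.isPrime_of_prime hQ
    have hQm : Q.IsMaximal := hQp.isMaximal hQ0
    let wQ : Pl F := ⟨Q, hQp, hQ0⟩
    let vQ : Pl K := wQ.under (𝓞 K)
    have hover : Over wQ vQ := over_under wQ
    have : Q.LiesOver vQ.asIdeal := hover
    have := vQ.isMaximal
    have hrel : Ideal.relNorm (𝓞 K) Q = vQ.asIdeal ^ fRel K wQ :=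
      Ideal.relNorm_eq_pow_of_isMaximal Q vQ.asIdeal
    rw [map_mul, emultiplicity_mul v.prime, ih ha, hrel, emultiplicity_pow v.prime]
    have h1 : ∀ w ∈ placesOver F v, (fRel K w : ℕ∞) * emultiplicity w.asIdeal (Q * a) =
        (fRel K w : ℕ∞) * emultiplicity w.asIdeal Q +
          (fRel K w : ℕ∞) * emultiplicity w.asIdeal a := by
      intro w _
      rw [emultiplicity_mul w.prime, mul_add]
    rw [Finset.sum_congr rfl h1, Finset.sum_add_distrib]
    congr 1
    by_cases hv : v = vQ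
    · subst hv
      rw [emultiplicity_asIdeal_self, Finset.sum_eq_single wQ]
      · rw [show wQ.asIdeal = Q from rfl]
        have := emultiplicity_asIdeal_self wQ
        rw [show emultiplicity Q Q = 1 from this]
      · intro w _ hw
        rw [show Q = wQ.asIdeal from rfl, emultiplicity_asIdeal_of_ne hw, mul_zero]
      · intro h
        exact absurd (mem_placesOver.2 hover) h
    · rw [emultiplicity_asIdeal_of_ne hv, mul_zero]
      symm
      refine Finset.sum_eq_zero fun w hw => ?_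
      have hw' : w ≠ wQ := by
        rintro rfl
        exact hv ((mem_placesOver.1 hw).unique hover)
      rw [show Q = wQ.asIdeal from rfl, emultiplicity_asIdeal_of_ne hw', mul_zero]

theorem ordv_norm_int (v : Pl K) {a : 𝓞 F} (ha : a ≠ 0) :
    ordv v (Algebra.norm K (algebraMap (𝓞 F) F a)) =
      ∑ w ∈ placesOver F v, (fRel K w : ℤ) * ordv w (algebraMap (𝓞 F) F a) := by
  have hn : Algebra.intNorm (𝓞 K) (𝓞 F) a ≠ 0 := by
    rwa [Ne, Algebra.intNorm_eq_zero]
  have hs : Ideal.span {a} ≠ (0 : Ideal (𝓞 F)) := by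
    rwa [Ne, Ideal.zero_eq_bot, Ideal.span_singleton_eq_bot]
  have hs' : Ideal.span {Algebra.intNorm (𝓞 K) (𝓞 F) a} ≠ (⊥ : Ideal (𝓞 K)) := by
    rwa [Ne, Ideal.span_singleton_eq_bot]
  rw [← Algebra.algebraMap_intNorm (A := 𝓞 K) (K := K) (L := F) (B := 𝓞 F) a,
    ordv_algebraMap_eq_multiplicity v hn]
  have h := emultiplicity_relNorm v (Ideal.span {a}) hs
  rw [Ideal.relNorm_singleton, emultiplicity_asIdeal_eq v hs'] at h
  have h2 : ∀ w ∈ placesOver F v, (fRel K w : ℕ∞) * emultiplicity w.asIdeal (Ideal.span {a}) =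
      ((fRel K w * multiplicity w.asIdeal (Ideal.span {a}) : ℕ) : ℕ∞) := by
    intro w _
    rw [emultiplicity_asIdeal_eq w hs]
    push_cast
    rfl
  rw [Finset.sum_congr rfl h2, ← Nat.cast_sum, Nat.cast_inj] at h
  rw [h]
  push_cast
  refine Finset.sum_congr rfl fun w _ => ?_
  rw [ordv_algebraMap_eq_multiplicity w ha]

/-- (R4) `ord_v (N_{F/K} z) = ∑_{w ∣ v} f(w ∣ v) ord_w z` -/
theorem ordv_norm (v : Pl K) {z : F} (hz : z ≠ 0) :
    ordv v (Algebra.norm K z) = ∑ w ∈ placesOver F v, (fRel K w : ℤ) * ordv w z := by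
  obtain ⟨a, b, hb, rfl⟩ := IsFractionRing.div_surjective (A := 𝓞 F) z
  have hb0 : b ≠ 0 := nonZeroDivisors.ne_zero hb
  have ha0 : a ≠ 0 := by
    rintro rfl
    simp at hz
  have ha' : algebraMap (𝓞 F) F a ≠ 0 := by simpa using ha0
  have hb' : algebraMap (𝓞 F) F b ≠ 0 := by simpa using hb0
  have hmul : algebraMap (𝓞 F) F a / algebraMap (𝓞 F) F b * algebraMap (𝓞 F) F b =
      algebraMap (𝓞 F) F a := div_mul_cancel₀ _ hb'
  have hn := congrArg (Algebra.norm K) hmul
  rw [map_mul] at hn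
  have h1 := ordv_mul v (x := Algebra.norm K (algebraMap (𝓞 F) F a / algebraMap (𝓞 F) F b))
    (y := Algebra.norm K (algebraMap (𝓞 F) F b)) (by rwa [Ne, Algebra.norm_eq_zero_iff])
    (by rwa [Ne, Algebra.norm_eq_zero_iff])
  rw [hn, ordv_norm_int v ha0, ordv_norm_int v hb0] at h1
  have h2 : ∑ w ∈ placesOver F v, (fRel K w : ℤ) *
      ordv w (algebraMap (𝓞 F) F a / algebraMap (𝓞 F) F b) =
      ∑ w ∈ placesOver F v, (fRel K w : ℤ) * ordv w (algebraMap (𝓞 F) F a) -
      ∑ w ∈ placesOver F v, (fRel K w : ℤ) * ordv w (algebraMap (𝓞 F) F b) := by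
    rw [← Finset.sum_sub_distrib]
    refine Finset.sum_congr rfl fun w _ => ?_
    rw [ordv_div w ha' hb', mul_sub]
  rw [h2, h1]
  ring

end Fermat.Agent.S14lib
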