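import Fermat.Agent.S14.KumExt
import Fermat.Agent.S14.RelA

/-!
# T-S14, WP3 (second half): splitting of places in a Kummer extension `N = k(θ)`, `θ ^ p = x`

`N / k` is a Galois extension of number fields of prime degree `p`, `ζ ∈ k` a primitive `p`-th root
of unity, `θ ∈ N` with `θ ^ p = x ∈ k`, `θ ∉ k`.
* `p ∤ ord_v x`  : totally ramified (`g = 1, e = p, f = 1`);
* `LocPow v x`   : totally split (`g = p, e = f = 1`);
* `p ∣ ord_v x`, not `LocPow`, `v ∤ p` : inert (`g = 1, e = 1, f = p`).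
-/

set_option autoImplicit false

open NumberField IsDedekindDomain

namespace Fermat.Agent.S14lib

section general

variable {k N : Type*} [Field k] [NumberField k] [Field N] [NumberField N] [Algebra k N]

/-- the (old style) ramification index is non zero -/
theorem ks_e'_ne_zero (v : Pl k) (w : Pl N) [w.asIdeal.LiesOver v.asIdeal] :
    v.asIdeal.ramificationIdx' w.asIdeal ≠ 0 :=
  Ideal.IsDedekindDomain.ramificationIdx'_ne_zero_of_liesOver w.asIdeal v.ne_bot

theorem ks_val_up (v : Pl k) (w : Pl N) [w.asIdeal.LiesOver v.asIdeal] (y : k) :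
    w.valuation N (algebraMap k N y) =
      v.valuation k y ^ v.asIdeal.ramificationIdx' w.asIdeal :=
  (HeightOneSpectrum.valuation_liesOver N v w y).symm

theorem ks_val_up_lt_iff (v : Pl k) (w : Pl N) [w.asIdeal.LiesOver v.asIdeal] (a b : k) :
    w.valuation N (algebraMap k N a) < w.valuation N (algebraMap k N b) ↔
      v.valuation k a < v.valuation k b := by
  rw [ks_val_up v w, ks_val_up v w]
  exact pow_lt_pow_iff_left₀ zero_le zero_le (ks_e'_ne_zero v w)

theorem ks_val_up_lt_one_iff (v : Pl k) (w : Pl N) [w.asIdeal.LiesOver v.asIdeal] (a : k) :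
    w.valuation N (algebraMap k N a) < 1 ↔ v.valuation k a < 1 := by
  have := ks_val_up_lt_iff v w a 1
  simpa using this

theorem ks_val_up_eq_one_iff (v : Pl k) (w : Pl N) [w.asIdeal.LiesOver v.asIdeal] (a : k) :
    w.valuation N (algebraMap k N a) = 1 ↔ v.valuation k a = 1 := by
  rw [ks_val_up v w]
  exact pow_eq_one_iff_of_nonneg zero_le (ks_e'_ne_zero v w)

theorem ks_ordv_up (v : Pl k) (w : Pl N) [w.asIdeal.LiesOver v.asIdeal] (y : k) :
    ordv w (algebraMap k N y) = (v.asIdeal.ramificationIdx' w.asIdeal : ℤ) * ordv v y := by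
  unfold ordv
  rw [ks_val_up v w, WithZero.log_pow]
  simp

theorem ks_e'_eq (v : Pl k) (w : Pl N) [w.asIdeal.LiesOver v.asIdeal] :
    v.asIdeal.ramificationIdx' w.asIdeal = w.asIdeal.ramificationIdx (𝓞 k) :=
  Ideal.ramificationIdx'_eq_ramificationIdx v.asIdeal w.asIdeal v.ne_bot

/-- there is a place above every place -/
theorem ks_exists_over (v : Pl k) : ∃ w : Pl N, w.asIdeal.LiesOver v.asIdeal := by
  obtain ⟨⟨P, hP1, hP2⟩⟩ := (inferInstance : Nonempty (Ideal.primesOver v.asIdeal (𝓞 N)))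
  refine ⟨⟨P, hP1, ?_⟩, hP2⟩
  exact Ideal.ne_bot_of_liesOver_of_ne_bot v.ne_bot P

end general

section val
variable {F Γ : Type*} [Field F] [LinearOrderedCommGroupWithZero Γ] (V : Valuation F Γ)

theorem ks_val_pow_sub_pow_lt {a b : F} {γ : Γ} (ha : V a ≤ 1) (hb : V b ≤ 1) (h : V (a - b) < γ)
    (n : ℕ) : V (a ^ n - b ^ n) < γ := by
  have hγ : 0 < γ := lt_of_le_of_lt zero_le h
  induction n with
  | zero => simpa using hγ
  | succ n ih =>
    have : a ^ (n + 1) - b ^ (n + 1) = a ^ n * (a - b) + (a ^ n - b ^ n) * b := by ring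
    rw [this]
    refine V.map_add_lt ?_ ?_
    · rw [map_mul, map_pow]
      exact lt_of_le_of_lt (mul_le_of_le_one_left zero_le (pow_le_one₀ zero_le ha)) h
    · rw [map_mul]
      exact lt_of_le_of_lt (mul_le_of_le_one_right zero_le hb) ih

theorem ks_val_eq_one_of_pow {a : F} {n : ℕ} (hn : n ≠ 0) (h : V (a ^ n) = 1) : V a = 1 := by
  rw [map_pow] at h
  exact (pow_eq_one_iff_of_nonneg zero_le hn).mp h

end val

section zeta
variable {k : Type*} [Field k] [NumberField k] {p : ℕ} [Fact p.Prime]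

theorem ks_val_zeta {ζ : k} (hζ : IsPrimitiveRoot ζ p) (v : Pl k) : v.valuation k ζ = 1 :=
  ks_val_eq_one_of_pow _ (Fact.out : p.Prime).ne_zero (by rw [hζ.pow_eq_one, map_one])

theorem ks_val_one_sub_zeta {ζ : k} (hζ : IsPrimitiveRoot ζ p) (v : Pl k) (hvp : ¬ Above p v) :
    v.valuation k (1 - ζ) = 1 := by
  have hp : p.Prime := Fact.out
  have hz := ks_val_zeta hζ v
  have hle : v.valuation k (1 - ζ) ≤ 1 := by
    refine le_trans (Valuation.map_sub _ _ _) ?_
    simp [hz]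
  refine le_antisymm hle (not_lt.mp fun hlt => hvp ?_)
  have h1 : ∀ i : ℕ, v.valuation k (1 ^ i - ζ ^ i) < 1 := fun i =>
    ks_val_pow_sub_pow_lt _ (by simp) hz.le hlt i
  have h2 : ∑ i ∈ Finset.range p, ((1 : k) ^ i - ζ ^ i) = (p : k) := by
    rw [Finset.sum_sub_distrib, hζ.geom_sum_eq_zero hp.one_lt]
    simp
  have h3 : v.valuation k (p : k) < 1 := by
    rw [← h2]
    exact Valuation.map_sum_lt _ one_ne_zero fun i _ => h1 i
  have h4 : (p : k) = algebraMap (𝓞 k) k (p : 𝓞 k) := by simp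
  rw [h4, HeightOneSpectrum.valuation_lt_one_iff_mem] at h3
  exact h3

end zeta

section res
variable {k N : Type*} [Field k] [NumberField k] [Field N] [NumberField N] [Algebra k N]

theorem ks_residue_of_f_one (v : Pl k) (w : Pl N) [w.asIdeal.LiesOver v.asIdeal]
    (hf : w.asIdeal.inertiaDeg (𝓞 k) = 1) (y : N) (hy : w.valuation N y ≤ 1) :
    ∃ c : 𝓞 k, w.valuation N (algebraMap k N (c : k) - y) < 1 := by
  obtain ⟨t, ht⟩ := HeightOneSpectrum.exists_valuation_sub_lt_of_integer w hy 1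
  have : v.asIdeal.IsMaximal := v.isMaximal
  have : w.asIdeal.IsMaximal := w.isMaximal
  rw [Ideal.inertiaDeg_eq_of_isMaximal v.asIdeal w.asIdeal] at hf
  let : Field (𝓞 k ⧸ v.asIdeal) := Ideal.Quotient.field v.asIdeal
  let : Field (𝓞 N ⧸ w.asIdeal) := Ideal.Quotient.field w.asIdeal
  have h1 := Subalgebra.bot_eq_top_of_finrank_eq_one hf
  have h2 : Ideal.Quotient.mk w.asIdeal t ∈ (⊥ : Subalgebra (𝓞 k ⧸ v.asIdeal) (𝓞 N ⧸ w.asIdeal)) := by
    rw [h1]; trivial
  obtain ⟨c', hc'⟩ := Algebra.mem_bot.mp h2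
  obtain ⟨c, rfl⟩ := Ideal.Quotient.mk_surjective c'
  refine ⟨c, ?_⟩
  have h3 : algebraMap (𝓞 k) (𝓞 N) c - t ∈ w.asIdeal := by
    rw [← Ideal.Quotient.eq]
    exact hc'
  rw [← HeightOneSpectrum.valuation_lt_one_iff_mem (K := N)] at h3
  have h4 : algebraMap k N (c : k) - y =
      algebraMap (𝓞 N) N (algebraMap (𝓞 k) (𝓞 N) c - t) + (algebraMap (𝓞 N) N t - y) := by
    rw [map_sub]
    have : algebraMap (𝓞 N) N (algebraMap (𝓞 k) (𝓞 N) c) = algebraMap k N (c : k) := rfl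
    rw [this]; ring
  rw [h4]
  exact Valuation.map_add_lt _ h3 (by simpa using ht)

end res

section inert
variable {k N : Type*} [Field k] [NumberField k] [Field N] [NumberField N] [Algebra k N]
  {p : ℕ} [Fact p.Prime]

omit [Fact p.Prime] in
/-- normalisation: if `p ∣ ord_v x` then `x / z ^ p` is a `v`-unit for some `z` -/
theorem ks_exists_unit_div_pow {x : k} (hx0 : x ≠ 0) (v : Pl k) (hord : (p : ℤ) ∣ ordv v x) :
    ∃ z : k, z ≠ 0 ∧ v.valuation k (x / z ^ p) = 1 := by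
  obtain ⟨m, hm⟩ := hord
  obtain ⟨π, hπ⟩ := v.valuation_exists_uniformizer k
  have hπ0 : π ≠ 0 := by
    rintro rfl
    rw [map_zero] at hπ
    exact WithZero.exp_ne_zero hπ.symm
  refine ⟨π ^ m, zpow_ne_zero _ hπ0, ?_⟩
  have hvx : v.valuation k x ≠ 0 := (Valuation.ne_zero_iff _).mpr hx0
  have h1 : v.valuation k x = WithZero.exp (-(p * m : ℤ)) := by
    rw [← hm]; unfold ordv; rw [neg_neg, WithZero.exp_log hvx]
  rw [map_div₀, map_pow, map_zpow₀, hπ, h1, ← WithZero.exp_zsmul, ← WithZero.exp_nsmul,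
    ← WithZero.exp_sub]
  simp

theorem ks_locPow_of_f_one {ζ x : k} (hζ : IsPrimitiveRoot ζ p) (hx0 : x ≠ 0) {θ : N}
    (hθ : θ ^ p = algebraMap k N x) (v : Pl k) (w : Pl N) [w.asIdeal.LiesOver v.asIdeal]
    (hf : w.asIdeal.inertiaDeg (𝓞 k) = 1) (hord : (p : ℤ) ∣ ordv v x) (hvp : ¬ Above p v) :
    LocPow p ζ v x := by
  have hp : p.Prime := Fact.out
  obtain ⟨z, hz0, hz⟩ := ks_exists_unit_div_pow (p := p) hx0 v hord
  have hθ1 : (θ / algebraMap k N z) ^ p = algebraMap k N (x / z ^ p) := by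
    rw [div_pow, hθ, map_div₀, map_pow]
  have hvθ : w.valuation N (θ / algebraMap k N z) = 1 := by
    apply ks_val_eq_one_of_pow _ hp.ne_zero
    rw [hθ1, ks_val_up_eq_one_iff v w]
    exact hz
  obtain ⟨c, hc⟩ := ks_residue_of_f_one v w hf _ hvθ.le
  have hcle : w.valuation N (algebraMap k N (c : k)) ≤ 1 :=
    HeightOneSpectrum.valuation_le_one w (algebraMap (𝓞 k) (𝓞 N) c)
  have h1 := ks_val_pow_sub_pow_lt _ hcle hvθ.le hc p
  rw [hθ1, ← map_pow, ← map_sub, ks_val_up_lt_one_iff v w] at h1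
  have hcp : v.valuation k ((c : k) ^ p) = 1 := by
    rw [← hz]
    exact Valuation.map_eq_of_sub_lt _ (by rw [hz]; exact h1)
  have hc0 : (c : k) ≠ 0 := by
    rintro h
    rw [h, zero_pow hp.ne_zero, map_zero] at hcp
    exact zero_ne_one hcp
  refine ⟨z * c, mul_ne_zero hz0 hc0, ?_⟩
  rw [map_pow, ks_val_one_sub_zeta hζ v hvp, one_pow]
  have h2 : x / (z * (c : k)) ^ p - 1 = (x / z ^ p - (c : k) ^ p) / (c : k) ^ p := by
    field_simp
    ring
  rw [h2, map_div₀, hcp, div_one, Valuation.map_sub_swap]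
  exact h1

end inert

section stab
variable {k N : Type*} [Field k] [Field N] [NumberField N] [Algebra k N]

open Pointwise in
theorem ks_intVal_smul_le (w : Pl N) (σ : Gal(N/k)) (h : σ • w.asIdeal = w.asIdeal) (r : 𝓞 N) :
    w.intValuation (σ • r) ≤ w.intValuation r := by
  rcases eq_or_ne r 0 with rfl | hr
  · simp
  rw [w.intValuation_eq_exp_neg_multiplicity hr, HeightOneSpectrum.intValuation_le_pow_iff_mem]
  have h1 : r ∈ w.asIdeal ^ multiplicity w.asIdeal (Ideal.span {r}) := by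
    rw [← HeightOneSpectrum.intValuation_le_pow_iff_mem, w.intValuation_eq_exp_neg_multiplicity hr]
  have h2 : σ • r ∈ σ • (w.asIdeal ^ multiplicity w.asIdeal (Ideal.span {r})) :=
    Ideal.smul_mem_pointwise_smul _ _ _ h1
  rwa [smul_pow', h] at h2

open Pointwise in
theorem ks_intVal_smul (w : Pl N) (σ : Gal(N/k)) (h : σ • w.asIdeal = w.asIdeal) (r : 𝓞 N) :
    w.intValuation (σ • r) = w.intValuation r := by
  refine le_antisymm (ks_intVal_smul_le w σ h r) ?_
  have h' : σ⁻¹ • w.asIdeal = w.asIdeal := by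
    rw [inv_smul_eq_iff, h]
  have := ks_intVal_smul_le w σ⁻¹ h' (σ • r)
  rwa [inv_smul_smul] at this

open Pointwise in
theorem ks_val_smul (w : Pl N) (σ : Gal(N/k)) (h : σ • w.asIdeal = w.asIdeal) (y : N) :
    w.valuation N (σ y) = w.valuation N y := by
  obtain ⟨a, b, hb, rfl⟩ := IsFractionRing.div_surjective (A := 𝓞 N) y
  have ha' : σ (algebraMap (𝓞 N) N a) = algebraMap (𝓞 N) N (σ • a) := rfl
  have hb' : σ (algebraMap (𝓞 N) N b) = algebraMap (𝓞 N) N (σ • b) := rfl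
  rw [map_div₀, ha', hb', map_div₀, map_div₀, HeightOneSpectrum.valuation_of_algebraMap,
    HeightOneSpectrum.valuation_of_algebraMap, HeightOneSpectrum.valuation_of_algebraMap,
    HeightOneSpectrum.valuation_of_algebraMap, ks_intVal_smul w σ h, ks_intVal_smul w σ h]

end stab

section val2
variable {F Γ : Type*} [Field F] [LinearOrderedCommGroupWithZero Γ] (V : Valuation F Γ)

theorem ks_val_one_sub_pow_le {a : F} (ha : V a ≤ 1) (n : ℕ) : V (1 - a ^ n) ≤ V (1 - a) := by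
  rw [← geom_sum_mul_neg, map_mul]
  refine mul_le_of_le_one_left zero_le ?_
  refine Valuation.map_sum_le _ fun i _ => ?_
  rw [map_pow]
  exact pow_le_one₀ zero_le ha

theorem ks_val_one_sub_prim {p : ℕ} [Fact p.Prime] {ζ ν : F} (hζ : IsPrimitiveRoot ζ p)
    (hν : IsPrimitiveRoot ν p) : V (1 - ν) = V (1 - ζ) := by
  have hp : p.Prime := Fact.out
  have : NeZero p := ⟨hp.ne_zero⟩
  have h1 : ∀ {a b : F}, IsPrimitiveRoot a p → IsPrimitiveRoot b p → V (1 - b) ≤ V (1 - a) := by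
    intro a b ha hb
    obtain ⟨i, -, rfl⟩ := ha.eq_pow_of_pow_eq_one hb.pow_eq_one
    exact ks_val_one_sub_pow_le V
      (ks_val_eq_one_of_pow V hp.ne_zero (by rw [ha.pow_eq_one, map_one])).le i
  exact le_antisymm (h1 hζ hν) (h1 hν hζ)

end val2

section split
variable {k N : Type*} [Field k] [NumberField k] [Field N] [NumberField N] [Algebra k N]
  {p : ℕ} [Fact p.Prime]

open Pointwise in
theorem ks_stab_trivial {ζ x : k} (hζ : IsPrimitiveRoot ζ p) {θ : N}
    (hθ : θ ^ p = algebraMap k N x) (hgen : ∀ σ : Gal(N/k), σ θ = θ → σ = 1)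
    (v : Pl k) (w : Pl N) [w.asIdeal.LiesOver v.asIdeal] (hloc : LocPow p ζ v x)
    (σ : Gal(N/k)) (hσ : σ • w.asIdeal = w.asIdeal) : σ = 1 := by
  have hp : p.Prime := Fact.out
  have : NeZero p := ⟨hp.ne_zero⟩
  obtain ⟨z, hz0, hz⟩ := hloc
  have hζN : IsPrimitiveRoot (algebraMap k N ζ) p :=
    hζ.map_of_injective (algebraMap k N).injective
  set V := w.valuation N with hV
  set t : N := θ / algebraMap k N z with ht
  have ht1 : t ^ p = algebraMap k N (x / z ^ p) := by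
    rw [ht, div_pow, hθ, map_div₀, map_pow]
  -- the basic inequality upstairs
  have h1 : V (1 - t ^ p) < V (1 - algebraMap k N ζ) ^ p := by
    have := (ks_val_up_lt_iff v w _ _).mpr hz
    rw [(algebraMap k N).map_sub, (algebraMap k N).map_one, ← ht1, (algebraMap k N).map_pow,
      (algebraMap k N).map_sub, (algebraMap k N).map_one, Valuation.map_pow,
      Valuation.map_sub_swap] at this
    exact this
  have hle : V (1 - algebraMap k N ζ) ≤ 1 := by
    refine le_trans (Valuation.map_sub _ _ _) ?_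
    rw [map_one, ks_val_eq_one_of_pow V hp.ne_zero (by rw [hζN.pow_eq_one, map_one])]
    simp
  have hvt : V t = 1 := by
    apply ks_val_eq_one_of_pow V hp.ne_zero
    have h2 : V (1 - t ^ p) < 1 := lt_of_lt_of_le h1 (pow_le_one₀ zero_le hle)
    have := Valuation.map_one_sub_of_lt V h2
    rwa [sub_sub_cancel] at this
  have ht0 : t ≠ 0 := by
    rintro h
    rw [h, map_zero] at hvt
    exact zero_ne_one hvt
  -- some factor is small
  obtain ⟨μ, hμ, hμ1⟩ : ∃ μ ∈ Polynomial.nthRootsFinset p (1 : N),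
      V (1 - μ * t) < V (1 - algebraMap k N ζ) := by
    by_contra hcon
    push Not at hcon
    have h3 := hζN.pow_sub_pow_eq_prod_sub_mul 1 t hp.pos
    rw [one_pow] at h3
    rw [h3, map_prod] at h1
    have h4 : V (1 - algebraMap k N ζ) ^ p ≤
        ∏ μ ∈ Polynomial.nthRootsFinset p (1 : N), V (1 - μ * t) := by
      have h5 := Finset.prod_le_prod (s := Polynomial.nthRootsFinset p (1 : N))
        (f := fun _ => V (1 - algebraMap k N ζ)) (fun _ _ => zero_le) hcon
      rwa [Finset.prod_const, hζN.card_nthRootsFinset] at h5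
    exact absurd h1 (not_lt.mpr h4)
  have hμp : μ ^ p = 1 := (Polynomial.mem_nthRootsFinset hp.pos 1).mp hμ
  obtain ⟨i, -, rfl⟩ := hζN.eq_pow_of_pow_eq_one hμp
  -- apply σ
  have hσt : σ t = (σ θ / θ) * t := by
    have hθ0 : θ ≠ 0 := by
      rintro rfl
      simp [ht] at ht0
    rw [ht, map_div₀, AlgEquiv.commutes]
    field_simp
  set ν : N := σ θ / θ with hν
  have hνp : ν ^ p = 1 := by
    have hθ0 : θ ≠ 0 := by
      rintro rfl
      simp [ht] at ht0
    rw [hν, div_pow, ← map_pow, hθ, AlgEquiv.commutes, div_self]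
    rw [← hθ]; exact pow_ne_zero _ hθ0
  have h5 : V (1 - algebraMap k N ζ ^ i * (ν * t)) < V (1 - algebraMap k N ζ) := by
    have := ks_val_smul w σ hσ (1 - algebraMap k N ζ ^ i * t)
    rw [map_sub, map_one, map_mul, map_pow, AlgEquiv.commutes, hσt] at this
    rw [← hV] at this
    rw [this]; exact hμ1
  have h6 : V (1 - ν) < V (1 - algebraMap k N ζ) := by
    have h7 : algebraMap k N ζ ^ i * t * (1 - ν) =
        (1 - algebraMap k N ζ ^ i * (ν * t)) - (1 - algebraMap k N ζ ^ i * t) := by ring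
    have h8 : V (algebraMap k N ζ ^ i * t * (1 - ν)) = V (1 - ν) := by
      rw [map_mul, map_mul, hvt, map_pow,
        ks_val_eq_one_of_pow V hp.ne_zero (by rw [hζN.pow_eq_one, map_one])]
      simp
    rw [← h8, h7]
    exact Valuation.map_sub_lt _ h5 hμ1
  apply hgen
  have hν1 : ν = 1 := by
    have := (_root_.mem_nthRootsFinset_iff_of_prime hp).mp
      ((Polynomial.mem_nthRootsFinset hp.pos 1).mpr hνp)
    rcases this with h | h
    · exact absurd (ks_val_one_sub_prim V hζN h) (ne_of_lt h6)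
    · exact h
  have hθ0 : θ ≠ 0 := by
    rintro rfl
    simp [ht] at ht0
  rw [hν, div_eq_one_iff_eq hθ0] at hν1
  exact hν1

end split

section galois

variable {k N : Type*} [Field k] [NumberField k] [Field N] [NumberField N] [Algebra k N]
  [IsGalois k N] {p : ℕ} [Fact p.Prime]

omit [Fact p.Prime] in
theorem ks_efg (hdeg : Module.finrank k N = p) (v : Pl k) :
    (Ideal.primesOver v.asIdeal (𝓞 N)).ncard *
      (v.asIdeal.ramificationIdxIn (𝓞 N) * v.asIdeal.inertiaDegIn (𝓞 N)) = p := by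
  rw [Ideal.ncard_primesOver_mul_ramificationIdxIn_mul_inertiaDegIn v.asIdeal (𝓞 N) Gal(N/k),
    IsGalois.card_aut_eq_finrank, hdeg]

theorem ks_eIn (v : Pl k) (w : Pl N) [w.asIdeal.LiesOver v.asIdeal] :
    v.asIdeal.ramificationIdxIn (𝓞 N) = w.asIdeal.ramificationIdx (𝓞 k) :=
  Ideal.ramificationIdxIn_eq_ramificationIdx v.asIdeal w.asIdeal Gal(N/k)

theorem ks_fIn (v : Pl k) (w : Pl N) [w.asIdeal.LiesOver v.asIdeal] :
    v.asIdeal.inertiaDegIn (𝓞 N) = w.asIdeal.inertiaDeg (𝓞 k) :=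
  Ideal.inertiaDegIn_eq_inertiaDeg v.asIdeal w.asIdeal Gal(N/k)

/-- **ramified case** -/
theorem ks_ram (hdeg : Module.finrank k N = p) {x : k} {θ : N}
    (hθ : θ ^ p = algebraMap k N x) (v : Pl k) (hv : ¬ (p : ℤ) ∣ ordv v x) :
    (Ideal.primesOver v.asIdeal (𝓞 N)).ncard = 1 ∧ v.asIdeal.ramificationIdxIn (𝓞 N) = p ∧
      v.asIdeal.inertiaDegIn (𝓞 N) = 1 := by
  have hp : p.Prime := Fact.out
  obtain ⟨w, hw⟩ := ks_exists_over (N := N) v
  have h1 : ordv w (algebraMap k N x) = (p : ℤ) * ordv w θ := by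
    rw [← hθ]; unfold ordv; rw [map_pow, WithZero.log_pow]; simp
  rw [ks_ordv_up v w, ks_e'_eq v w, ← ks_eIn v w] at h1
  have h2 : (p : ℤ) ∣ (v.asIdeal.ramificationIdxIn (𝓞 N) : ℤ) := by
    have : (p : ℤ) ∣ (v.asIdeal.ramificationIdxIn (𝓞 N) : ℤ) * ordv v x := ⟨_, h1⟩
    exact ((Nat.prime_iff_prime_int.mp hp).dvd_or_dvd this).resolve_right hv
  obtain ⟨t, ht⟩ := Int.natCast_dvd_natCast.mp h2
  have h3 := ks_efg hdeg v
  rw [ht] at h3 ⊢
  have h4 : (Ideal.primesOver v.asIdeal (𝓞 N)).ncard * (t * v.asIdeal.inertiaDegIn (𝓞 N)) = 1 := by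
    have : p * ((Ideal.primesOver v.asIdeal (𝓞 N)).ncard *
        (t * v.asIdeal.inertiaDegIn (𝓞 N))) = p * 1 := by
      rw [mul_one]; exact Eq.trans (by ring) h3
    exact Nat.eq_of_mul_eq_mul_left hp.pos this
  have h5 := Nat.eq_one_of_mul_eq_one_right h4
  have h6 := Nat.eq_one_of_mul_eq_one_left h4
  have h7 := Nat.eq_one_of_mul_eq_one_right h6
  have h8 := Nat.eq_one_of_mul_eq_one_left h6
  exact ⟨h5, by rw [h7, mul_one], h8⟩

end galois

section fin
variable {k N : Type*} [Field k] [NumberField k] [Field N] [NumberField N] [Algebra k N]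
  {p : ℕ} [Fact p.Prime]

omit [NumberField k] [NumberField N] in
theorem ks_gen (hdeg : Module.finrank k N = p) {x : k} (hx : ∀ y : k, y ^ p ≠ x) {θ : N}
    (hθ : θ ^ p = algebraMap k N x) (σ : Gal(N/k)) (hσ : σ θ = θ) : σ = 1 := by
  have hp : p.Prime := Fact.out
  have hs := IntermediateField.isSimpleOrder_of_finrank_prime k N (hdeg ▸ hp)
  have hθm : θ ∈ IntermediateField.fixedField (Subgroup.zpowers σ) := by
    rw [IntermediateField.mem_fixedField_iff]
    rintro f hf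
    obtain ⟨n, rfl⟩ := Subgroup.mem_zpowers_iff.mp hf
    have : σ ∈ MulAction.stabilizer Gal(N/k) θ := hσ
    exact (MulAction.stabilizer Gal(N/k) θ).zpow_mem this n
  rcases hs.eq_bot_or_eq_top (IntermediateField.fixedField (Subgroup.zpowers σ)) with h | h
  · rw [h, IntermediateField.mem_bot] at hθm
    obtain ⟨y, rfl⟩ := hθm
    rw [← map_pow] at hθ
    exact absurd ((algebraMap k N).injective hθ) (hx y)
  · ext y
    have hy : y ∈ IntermediateField.fixedField (Subgroup.zpowers σ) := by rw [h]; trivial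
    rw [IntermediateField.mem_fixedField_iff] at hy
    exact hy σ (Subgroup.mem_zpowers σ)

variable [IsGalois k N]

open Pointwise in
/-- **split case**, with the hypothesis `hgen` (`θ` generates) -/
theorem ks_split' (hdeg : Module.finrank k N = p) {ζ x : k} (hζ : IsPrimitiveRoot ζ p)
    {θ : N} (hθ : θ ^ p = algebraMap k N x) (hgen : ∀ σ : Gal(N/k), σ θ = θ → σ = 1) (v : Pl k)
    (hloc : LocPow p ζ v x) :
    (Ideal.primesOver v.asIdeal (𝓞 N)).ncard = p ∧ v.asIdeal.ramificationIdxIn (𝓞 N) = 1 ∧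
      v.asIdeal.inertiaDegIn (𝓞 N) = 1 := by
  obtain ⟨w, hw⟩ := ks_exists_over (N := N) v
  have h1 := Ideal.card_stabilizer_eq (G := Gal(N/k)) v.asIdeal w.asIdeal
  have h2 : MulAction.stabilizer Gal(N/k) w.asIdeal = ⊥ := by
    rw [eq_bot_iff]
    intro σ hσ
    exact Subgroup.mem_bot.mpr (ks_stab_trivial hζ hθ hgen v w hloc σ hσ)
  rw [h2, Subgroup.card_bot] at h1
  have h3 := ks_efg hdeg v
  rw [← h1, mul_one] at h3
  exact ⟨h3, Nat.eq_one_of_mul_eq_one_right h1.symm, Nat.eq_one_of_mul_eq_one_left h1.symm⟩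

/-- **split case** -/
theorem ks_split (hdeg : Module.finrank k N = p) {ζ x : k} (hζ : IsPrimitiveRoot ζ p)
    (hx : ∀ y : k, y ^ p ≠ x) {θ : N} (hθ : θ ^ p = algebraMap k N x) (v : Pl k)
    (hloc : LocPow p ζ v x) :
    (Ideal.primesOver v.asIdeal (𝓞 N)).ncard = p ∧ v.asIdeal.ramificationIdxIn (𝓞 N) = 1 ∧
      v.asIdeal.inertiaDegIn (𝓞 N) = 1 :=
  ks_split' hdeg hζ hθ (ks_gen hdeg hx hθ) v hloc

/-- **inert case** -/
theorem ks_inert (hdeg : Module.finrank k N = p) {ζ x : k} (hζ : IsPrimitiveRoot ζ p)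
    (hx0 : x ≠ 0) {θ : N} (hθ : θ ^ p = algebraMap k N x) (v : Pl k)
    (hord : (p : ℤ) ∣ ordv v x) (hloc : ¬ LocPow p ζ v x) (hvp : ¬ Above p v) :
    (Ideal.primesOver v.asIdeal (𝓞 N)).ncard = 1 ∧ v.asIdeal.ramificationIdxIn (𝓞 N) = 1 ∧
      v.asIdeal.inertiaDegIn (𝓞 N) = p := by
  have hp : p.Prime := Fact.out
  obtain ⟨w, hw⟩ := ks_exists_over (N := N) v
  have h1 : v.asIdeal.inertiaDegIn (𝓞 N) ≠ 1 := by
    rw [ks_fIn v w]
    exact fun hf => hloc (ks_locPow_of_f_one hζ hx0 hθ v w hf hord hvp)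
  have h3 := ks_efg hdeg v
  have h4 : v.asIdeal.inertiaDegIn (𝓞 N) ∣ p :=
    ⟨(Ideal.primesOver v.asIdeal (𝓞 N)).ncard * v.asIdeal.ramificationIdxIn (𝓞 N), by
      rw [← h3]; ring⟩
  have h5 := ((Nat.dvd_prime hp).mp h4).resolve_left h1
  rw [h5] at h3 ⊢
  have h6 : (Ideal.primesOver v.asIdeal (𝓞 N)).ncard * v.asIdeal.ramificationIdxIn (𝓞 N) = 1 := by
    have : p * ((Ideal.primesOver v.asIdeal (𝓞 N)).ncard *
        v.asIdeal.ramificationIdxIn (𝓞 N)) = p * 1 := by
      rw [mul_one]; exact Eq.trans (by ring) h3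
    exact Nat.eq_of_mul_eq_mul_left hp.pos this
  exact ⟨Nat.eq_one_of_mul_eq_one_right h6, Nat.eq_one_of_mul_eq_one_left h6, rfl⟩

end fin

section isKum

variable {k N : Type*} [Field k] [NumberField k] [Field N] [NumberField N] [Algebra k N]
  {p : ℕ} [Fact p.Prime] {ζ x : k} {θ : N} {s : N ≃ₐ[k] N}

omit [NumberField k] [NumberField N] in
theorem IsKum.eq_one_of_apply_theta (H : IsKum p ζ x N θ s) (hζ : IsPrimitiveRoot ζ p)
    (hx0 : x ≠ 0) (σ : Gal(N/k)) (hσ : σ θ = θ) : σ = 1 := by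
  obtain ⟨i, hi, rfl⟩ := H.exists_pow_eq σ
  rw [H.pow_apply] at hσ
  have h1 : algebraMap k N ζ ^ i = 1 := mul_right_cancel₀ (H.theta_ne_zero hx0) (by rw [hσ, one_mul])
  have h2 : ζ ^ i = 1 := (algebraMap k N).injective (by rw [map_pow, h1, map_one])
  have h3 := (hζ.pow_eq_one_iff_dvd i).mp h2
  have h4 : i = 0 := Nat.eq_zero_of_dvd_of_lt h3 hi
  rw [h4, pow_zero]

open Pointwise in
/-- a completely split place has trivial stabiliser -/
theorem IsKum.stab_trivial (H : IsKum p ζ x N θ s) (hζ : IsPrimitiveRoot ζ p) (hx0 : x ≠ 0)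
    {v : Pl k} (hv : LocPow p ζ v x) {w : Pl N} (hw : Over w v) (σ : Gal(N/k))
    (hσ : σ • w.asIdeal = w.asIdeal) : σ = 1 :=
  haveI : w.asIdeal.LiesOver v.asIdeal := hw
  ks_stab_trivial hζ H.pow (H.eq_one_of_apply_theta hζ hx0) v w hv σ hσ

/-- (K2), `v ∣ p` included -/
theorem IsKum.split_aux (H : IsKum p ζ x N θ s) (hζ : IsPrimitiveRoot ζ p) (hx0 : x ≠ 0)
    {v : Pl k} (hv : LocPow p ζ v x) :
    (placesOver N v).card = p ∧ ∀ w : Pl N, Over w v → eRel k w = 1 ∧ fRel k w = 1 := by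
  haveI := H.galois
  obtain ⟨-, h2, h3⟩ := ks_split' H.finrank hζ H.pow (H.eq_one_of_apply_theta hζ hx0) v hv
  have h4 : ∀ w : Pl N, Over w v → eRel k w = 1 ∧ fRel k w = 1 := by
    intro w hw
    haveI : w.asIdeal.LiesOver v.asIdeal := hw
    exact ⟨by rw [eRel, ← ks_eIn v w, h2], by rw [fRel, ← ks_fIn v w, h3]⟩
  refine ⟨?_, h4⟩
  have h5 := sum_eRel_mul_fRel (F := N) v
  rw [H.finrank, Finset.sum_congr rfl (fun w hw => by
    rw [(h4 w (mem_placesOver.1 hw)).1, (h4 w (mem_placesOver.1 hw)).2])] at h5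
  simpa using h5

end isKum

end Fermat.Agent.S14lib
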