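import Fermat.Agent.S14.SI
import Fermat.Agent.S14.CK
import Fermat.Agent.S14.Gauss
import Fermat.Agent.S14.Genus
import Fermat.Agent.S14.KumHecke

/-!
# T-S14, WP10: the crossing `cross` (X)

`cross` is proved from `SI`, `CK`, `exists_gauss`, `genus_locPow`, `IsKum.split_aux` and the API
of `Ord`, `Rel`, `Equiv`, `InPN`, `Sym`.
-/

set_option autoImplicit false
set_option linter.unusedSectionVars false

open NumberField IsDedekindDomain

namespace Fermat.Agent.S14lib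

/-! ## The Artin-type functional -/

section art

variable {k : Type} [Field k] [NumberField k]

open Classical in
/-- local weight of the functional: `sym` away from `p`, `0` above `p` -/
noncomputable def artW (p : ℕ) (ζ x : k) (w : Pl k) : ZMod p :=
  if Above p w then 0 else sym p ζ w x

/-- `Art D = ∑ D w * sym w x` -/
noncomputable def art (p : ℕ) (ζ x : k) (D : Pl k →₀ ℤ) : ZMod p :=
  D.sum fun w n => (n : ZMod p) * artW p ζ x w

variable {p : ℕ} {ζ x : k}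

theorem art_add (D D' : Pl k →₀ ℤ) : art p ζ x (D + D') = art p ζ x D + art p ζ x D' := by
  unfold art
  exact Finsupp.sum_add_index' (by simp) (by intro a b c; push_cast; ring)

theorem art_single (w : Pl k) (n : ℤ) : art p ζ x (Finsupp.single w n) = n * artW p ζ x w := by
  unfold art
  exact Finsupp.sum_single_index (by simp)

theorem art_zsmul (j : ℤ) (D : Pl k →₀ ℤ) : art p ζ x (j • D) = j * art p ζ x D := by
  unfold art
  rw [Finsupp.sum_smul_index (by simp), Finsupp.mul_sum]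
  refine Finsupp.sum_congr fun w _ => ?_
  push_cast; ring

theorem art_neg (D : Pl k →₀ ℤ) : art p ζ x (-D) = - art p ζ x D := by
  have := art_zsmul (p := p) (ζ := ζ) (x := x) (-1) D
  simpa using this

theorem art_sub (D D' : Pl k →₀ ℤ) : art p ζ x (D - D') = art p ζ x D - art p ζ x D' := by
  rw [sub_eq_add_neg, art_add, art_neg, sub_eq_add_neg]

theorem art_eq_zero_of_dvd {D : Pl k →₀ ℤ} (h : ∀ w, artW p ζ x w ≠ 0 → (p : ℤ) ∣ D w) :
    art p ζ x D = 0 := by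
  unfold art
  refine Finset.sum_eq_zero fun w _ => ?_
  show ((D w : ℤ) : ZMod p) * artW p ζ x w = 0
  by_cases hw : artW p ζ x w = 0
  · rw [hw, mul_zero]
  · rw [(ZMod.intCast_zmod_eq_zero_iff_dvd _ _).2 (h w hw), zero_mul]

theorem art_congr {D D' : Pl k →₀ ℤ} (h : ∀ w, artW p ζ x w ≠ 0 → (p : ℤ) ∣ D w - D' w) :
    art p ζ x D = art p ζ x D' := by
  have : art p ζ x (D - D') = 0 := art_eq_zero_of_dvd fun w hw => by
    simpa using h w hw
  rw [art_sub] at this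
  exact sub_eq_zero.1 this

theorem art_eq_zero_of_inPN [Fact p.Prime] (hζ : IsPrimitiveRoot ζ p) (hx0 : x ≠ 0)
    (hord : ∀ v : Pl k, (p : ℤ) ∣ ordv v x) {Sg : Set (Pl k)}
    (hArt : ∀ z : k, z ≠ 0 → (∀ w ∈ Sg, ordv w z = 0) → art p ζ x (dvf z) = 0)
    {D : Pl k →₀ ℤ} (hD : InPN p ζ Sg x D) : art p ζ x D = 0 := by
  obtain ⟨z, hz0, hzS, -, hz⟩ := hD
  rw [← hArt z hz0 hzS]
  refine art_congr fun w hw => ?_
  have hwp : ¬ Above p w := by
    intro h; apply hw; simp [artW, h]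
  have hs : sym p ζ w x ≠ 0 := by
    simpa [artW, hwp] using hw
  exact hz w (hord w) fun hl => hs ((sym_eq_zero_iff hζ hwp hx0 (hord w)).2 hl)

end art

/-! ## more `sym` calculus -/

section symcalc

variable {k : Type} [Field k] [NumberField k] {p : ℕ} [Fact p.Prime] {ζ : k}

theorem cross_sym_npow (hζ : IsPrimitiveRoot ζ p) {v : Pl k} (hv : ¬ Above p v) {x : k}
    (hx0 : x ≠ 0) (hx : (p : ℤ) ∣ ordv v x) (n : ℕ) :
    sym p ζ v (x ^ n) = n * sym p ζ v x := by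
  have := sym_zpow hζ hv hx0 hx (n : ℤ)
  simpa using this

theorem cross_sym_one (hζ : IsPrimitiveRoot ζ p) {v : Pl k} (hv : ¬ Above p v) :
    sym p ζ v 1 = 0 := by
  have := sym_zpow hζ hv (one_ne_zero) (by simp) (0 : ℤ)
  simpa using this

theorem cross_sym_pth_pow (hζ : IsPrimitiveRoot ζ p) {v : Pl k} (hv : ¬ Above p v) {y : k}
    (hy : y ≠ 0) : sym p ζ v (y ^ p) = 0 := by
  have hp : p.Prime := Fact.out
  refine (sym_eq_zero_iff hζ hv (pow_ne_zero _ hy) ?_).2 (InPN.aux_locPow_pow hζ hp.one_lt v hy)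
  rw [ordv_pow]; exact Dvd.intro _ rfl

theorem cross_sym_prod_zpow (hζ : IsPrimitiveRoot ζ p) {v : Pl k} (hv : ¬ Above p v) {ι : Type*}
    (s : Finset ι) (f : ι → k) (e : ι → ℤ) (hf0 : ∀ i ∈ s, f i ≠ 0)
    (hf : ∀ i ∈ s, ordv v (f i) = 0) :
    ordv v (∏ i ∈ s, f i ^ e i) = 0 ∧
      sym p ζ v (∏ i ∈ s, f i ^ e i) = ∑ i ∈ s, (e i : ZMod p) * sym p ζ v (f i) := by
  classical
  induction s using Finset.induction_on with
  | empty => simpa using cross_sym_one hζ hv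
  | insert a s ha ih =>
    obtain ⟨ih1, ih2⟩ := ih (fun i hi => hf0 i (Finset.mem_insert_of_mem hi))
      (fun i hi => hf i (Finset.mem_insert_of_mem hi))
    have ha0 : f a ≠ 0 := hf0 a (Finset.mem_insert_self a s)
    have hao : ordv v (f a) = 0 := hf a (Finset.mem_insert_self a s)
    have hP0 : ∏ i ∈ s, f i ^ e i ≠ 0 :=
      Finset.prod_ne_zero_iff.2 fun i hi => zpow_ne_zero _ (hf0 i (Finset.mem_insert_of_mem hi))
    have hz : ordv v (f a ^ e a) = 0 := by rw [ordv_zpow, hao, mul_zero]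
    rw [Finset.prod_insert ha, Finset.sum_insert ha]
    refine ⟨by rw [ordv_mul v (zpow_ne_zero _ ha0) hP0, hz, ih1, add_zero], ?_⟩
    rw [sym_mul hζ hv (zpow_ne_zero _ ha0) (by rw [hz]; exact dvd_zero _) hP0
      (by rw [ih1]; exact dvd_zero _), ih2, sym_zpow hζ hv ha0 (by rw [hao]; exact dvd_zero _)]

end symcalc

/-! ## (X1) the descent from `F` to `K` -/

section core

variable {K : Type} [Field K] [NumberField K] {p : ℕ} [Fact p.Prime]

theorem cross_core (hp2 : p ≠ 2) {ζ : K} (hζ : IsPrimitiveRoot ζ p) {α : K} (hα0 : α ≠ 0)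
    (hord : ∀ v : Pl K, (p : ℤ) ∣ ordv v α) (hloc : ∀ v : Pl K, Above p v → LocPow p ζ v α)
    {q₁ q₂ : Pl K} (hq₁p : ¬ Above p q₁) (hq₂p : ¬ Above p q₂)
    (hs : sym p ζ q₂ α ≠ 0) (κ : ℤ) (hκ : sym p ζ q₁ α = κ * sym p ζ q₂ α)
    {F : Type} [Field F] [NumberField F] [Algebra K F]
    {r : ℕ} (hr : r.Prime) (hrp : r ≠ p) (hq₁r : ¬ Above r q₁) (hq₂r : ¬ Above r q₂)
    {Q₁ Q₂ : Pl F} (hQ₁ : Over Q₁ q₁) (hQ₂ : Over Q₂ q₂) (hf₁ : fRel K Q₁ = 1)
    (hf₂ : fRel K Q₂ = 1)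
    (hArt : ∀ z : F, z ≠ 0 → (∀ w : Pl F, Above r w → ordv w z = 0) →
      art p (algebraMap K F ζ) (algebraMap K F α) (dvf z) = 0) :
    InPN p ζ ∅ α (Finsupp.single q₁ 1 - κ • Finsupp.single q₂ 1 : Pl K →₀ ℤ) := by
  classical
  have hp : p.Prime := Fact.out
  set ζ' : F := algebraMap K F ζ with hζ'def
  set α' : F := algebraMap K F α with hα'def
  have hζ' : IsPrimitiveRoot ζ' p := hζ.map_of_injective (algebraMap K F).injective
  have hα'0 : α' ≠ 0 := by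
    rw [hα'def]; exact (map_ne_zero _).2 hα0
  have hord' : ∀ w : Pl F, (p : ℤ) ∣ ordv w α' := by
    intro w
    obtain ⟨v, hv, -⟩ := existsUnique_under (K := K) w
    rw [hα'def, ordv_over hv]
    exact Dvd.dvd.mul_left (hord v) _
  have hloc' : ∀ w : Pl F, Above p w → LocPow p ζ' w α' := by
    intro w hw
    obtain ⟨v, hv, -⟩ := existsUnique_under (K := K) w
    exact LocPow.over hv (hloc v ((above_over_iff hv p).1 hw))
  set Sg : Finset (Pl F) := (finite_above (k := F) hr.ne_zero).toFinset with hSgdef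
  have hmemSg : ∀ w : Pl F, w ∈ Sg ↔ Above r w := by
    intro w; simp [hSgdef]
  have hSgp : ∀ w ∈ Sg, ¬ Above p w := by
    intro w hw hwp
    exact hrp (above_unique hr hp ((hmemSg w).1 hw) hwp)
  have hQ₁r : ¬ Above r Q₁ := fun h => hq₁r ((above_over_iff hQ₁ r).1 h)
  have hQ₂r : ¬ Above r Q₂ := fun h => hq₂r ((above_over_iff hQ₂ r).1 h)
  have hQ₁p : ¬ Above p Q₁ := fun h => hq₁p ((above_over_iff hQ₁ p).1 h)
  have hQ₂p : ¬ Above p Q₂ := fun h => hq₂p ((above_over_iff hQ₂ p).1 h)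
  have h₁ : ∀ w ∈ Sg, (Finsupp.single Q₁ 1 : Pl F →₀ ℤ) w = 0 := by
    intro w hw
    rw [Finsupp.single_apply, if_neg]
    rintro rfl
    exact hQ₁r ((hmemSg _).1 hw)
  have h₂ : ∀ w ∈ Sg, (Finsupp.single Q₂ 1 : Pl F →₀ ℤ) w = 0 := by
    intro w hw
    rw [Finsupp.single_apply, if_neg]
    rintro rfl
    exact hQ₂r ((hmemSg _).1 hw)
  have hArt' : ∀ z : F, z ≠ 0 → (∀ w ∈ (↑Sg : Set (Pl F)), ordv w z = 0) →
      art p ζ' α' (dvf z) = 0 := by
    intro z hz h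
    exact hArt z hz fun w hw => h w (by simpa using (hmemSg w).2 hw)
  have hW₁ : artW p ζ' α' Q₁ = sym p ζ q₁ α := by
    rw [artW, if_neg hQ₁p, hα'def, hζ'def, sym_over hζ hQ₁ hq₁p hα0 (hord q₁), hf₁]
    simp
  have hW₂ : artW p ζ' α' Q₂ = sym p ζ q₂ α := by
    rw [artW, if_neg hQ₂p, hα'def, hζ'def, sym_over hζ hQ₂ hq₂p hα0 (hord q₂), hf₂]
    simp
  have hD₂ : ¬ InPN p ζ' (↑Sg) α' (Finsupp.single Q₂ 1 : Pl F →₀ ℤ) := by
    intro h
    have := art_eq_zero_of_inPN hζ' hα'0 hord' hArt' h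
    rw [art_single, hW₂] at this
    exact hs (by simpa using this)
  obtain ⟨j, hj⟩ := SI hp2 hζ' hα'0 hord' hloc' Sg hSgp _ _ h₁ h₂ hD₂
  have hjκ : (κ : ZMod p) = j := by
    have := art_eq_zero_of_inPN hζ' hα'0 hord' hArt' hj
    rw [art_sub, art_zsmul, art_single, art_single, hW₁, hW₂, hκ] at this
    have h3 : ((κ : ZMod p) - j) * sym p ζ q₂ α = 0 := by
      rw [← this]; push_cast; ring
    rcases mul_eq_zero.1 h3 with h4 | h4
    · exact sub_eq_zero.1 h4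
    · exact absurd h4 hs
  obtain ⟨z, hz0, -, -, hz⟩ := hj
  refine ⟨Algebra.norm K z, Algebra.norm_ne_zero_iff.2 hz0, by simp,
    fun v hv => absurd (hord v) hv, fun v _ hv => ?_⟩
  have hvp : ¬ Above p v := fun h => hv (hloc v h)
  have hsv : sym p ζ v α ≠ 0 := fun h => hv ((sym_eq_zero_iff hζ hvp hα0 (hord v)).1 h)
  rw [ordv_norm v hz0]
  -- termwise congruence
  have hterm : ∀ w ∈ placesOver F v, (p : ℤ) ∣ (fRel K w : ℤ) *
      ((Finsupp.single Q₁ 1 - j • Finsupp.single Q₂ 1 : Pl F →₀ ℤ) w) -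
      (fRel K w : ℤ) * ordv w z := by
    intro w hw
    have hwv : Over w v := mem_placesOver.1 hw
    rw [← mul_sub]
    by_cases hf : (p : ℤ) ∣ (fRel K w : ℤ)
    · exact Dvd.dvd.mul_right hf _
    · refine Dvd.dvd.mul_left (hz w (hord' w) fun hl => ?_) _
      have hwp : ¬ Above p w := fun h => hvp ((above_over_iff hwv p).1 h)
      have h0 := (sym_eq_zero_iff hζ' hwp hα'0 (hord' w)).2 hl
      rw [hα'def, hζ'def, sym_over hζ hwv hvp hα0 (hord v)] at h0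
      rcases mul_eq_zero.1 h0 with h4 | h4
      · apply hf
        have := (ZMod.natCast_eq_zero_iff _ _).1 h4
        exact_mod_cast this
      · exact hsv h4
  have hsum := Finset.dvd_sum hterm
  rw [Finset.sum_sub_distrib] at hsum
  -- the explicit sum
  have hmem : ∀ (Q : Pl F) (q : Pl K), Over Q q → (Q ∈ placesOver F v ↔ q = v) := by
    intro Q q hQ
    rw [mem_placesOver]
    constructor
    · intro h
      obtain ⟨u, -, hu⟩ := existsUnique_under (K := K) Q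
      rw [hu q hQ, hu v h]
    · rintro rfl; exact hQ
  have hexp : ∑ w ∈ placesOver F v, (fRel K w : ℤ) *
      ((Finsupp.single Q₁ 1 - j • Finsupp.single Q₂ 1 : Pl F →₀ ℤ) w) =
      (Finsupp.single q₁ 1 - j • Finsupp.single q₂ 1 : Pl K →₀ ℤ) v := by
    simp only [Finsupp.coe_sub, Finsupp.coe_smul, Pi.sub_apply, Pi.smul_apply,
      Finsupp.single_apply, smul_eq_mul, mul_sub, Finset.sum_sub_distrib, mul_ite, mul_one,
      mul_zero, Finset.sum_ite_eq, hmem Q₁ q₁ hQ₁, hmem Q₂ q₂ hQ₂, hf₁, hf₂]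
    simp
  rw [hexp] at hsum
  have hκj : (p : ℤ) ∣ κ - j := by
    rw [← ZMod.intCast_zmod_eq_zero_iff_dvd]
    push_cast
    rw [hjκ, sub_self]
  have hdiff : (p : ℤ) ∣ (Finsupp.single q₁ 1 - κ • Finsupp.single q₂ 1 : Pl K →₀ ℤ) v -
      (Finsupp.single q₁ 1 - j • Finsupp.single q₂ 1 : Pl K →₀ ℤ) v := by
    have : (Finsupp.single q₁ 1 - κ • Finsupp.single q₂ 1 : Pl K →₀ ℤ) v -
      (Finsupp.single q₁ 1 - j • Finsupp.single q₂ 1 : Pl K →₀ ℤ) v =
        (κ - j) * (- (Finsupp.single q₂ 1 : Pl K →₀ ℤ) v) := by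
      simp only [Finsupp.coe_sub, Finsupp.coe_smul, Pi.sub_apply, Pi.smul_apply, smul_eq_mul]
      ring
    rw [this]
    exact Dvd.dvd.mul_right hκj _
  have := dvd_add hdiff hsum
  rwa [sub_add_sub_cancel] at this

end core

/-! ## (X2) `Art` kills the principal divisors prime to `r` -/

section principal

variable {K : Type} [Field K] [NumberField K] {p : ℕ} [Fact p.Prime]

theorem art_principal (hp2 : p ≠ 2) {ζ : K} (hζ : IsPrimitiveRoot ζ p) {α ρ : K} (hα0 : α ≠ 0)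
    (hρ0 : ρ ≠ 0) (hord : ∀ v : Pl K, (p : ℤ) ∣ ordv v α)
    {rr : Pl K} {r : ℕ} (hr : r.Prime) (hrr : nrm rr = r) (hrp : r ≠ p)
    (hsp : sym p ζ rr (p : K) = 0)
    (hρ : ∀ v : Pl K, ¬ Above r v → ordv v ρ = 0)
    {F : Type} [Field F] [NumberField F] [Algebra K F]
    (hgauss : ∀ w : Pl F, ¬ Above p w → ¬ Above r w → ∃ j : ZMod p,
      SymEq p ζ rr ((nrm w : ℕ) : K) j ∧ SymEq p (algebraMap K F ζ) w (algebraMap K F ρ) (-j))
    (w₀ : ℕ) {θ : F} (hθ : θ ^ p = algebraMap K F (α * ρ ^ w₀))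
    (hG1 : ∀ z : F, z ≠ 0 → (∀ w : Pl F, Above r w → ordv w z = 0) →
      LocPow p ζ rr (algebraMap ℚ K (Algebra.norm ℚ z)))
    (z : F) (hz : z ≠ 0) (hzr : ∀ w : Pl F, Above r w → ordv w z = 0) :
    art p (algebraMap K F ζ) (algebraMap K F α) (dvf z) = 0 := by
  classical
  have hp : p.Prime := Fact.out
  set ζ' : F := algebraMap K F ζ with hζ'def
  set α' : F := algebraMap K F α with hα'def
  set ρ' : F := algebraMap K F ρ with hρ'def
  have hζ' : IsPrimitiveRoot ζ' p := hζ.map_of_injective (algebraMap K F).injective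
  have hα'0 : α' ≠ 0 := by
    rw [hα'def]; exact (map_ne_zero _).2 hα0
  have hρ'0 : ρ' ≠ 0 := by
    rw [hρ'def]; exact (map_ne_zero _).2 hρ0
  have hθ0 : θ ≠ 0 := by
    rintro rfl
    rw [zero_pow hp.ne_zero] at hθ
    exact (map_ne_zero (algebraMap K F)).2 (mul_ne_zero hα0 (pow_ne_zero _ hρ0)) hθ.symm
  have hrrr : Above r rr := above_of_nrm_eq hr hrr
  have hrrp : ¬ Above p rr := fun h => hrp (above_unique hr hp hrrr h)
  have hpo : ordv rr (p : K) = 0 := (not_above_iff_ordv_eq_zero hp.ne_zero rr).1 hrrp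
  have hp0 : (p : K) ≠ 0 := by exact_mod_cast hp.ne_zero
  have hord' : ∀ w : Pl F, (p : ℤ) ∣ ordv w α' := by
    intro w
    obtain ⟨v, hv, -⟩ := existsUnique_under (K := K) w
    rw [hα'def, ordv_over hv]
    exact Dvd.dvd.mul_left (hord v) _
  -- the weight
  have hW : ∀ w : Pl F, ¬ Above r w →
      artW p ζ' α' w = w₀ * sym p ζ rr ((nrm w : ℕ) : K) := by
    intro w hwr
    by_cases hwp : Above p w
    · obtain ⟨f, -, hf⟩ := nrm_eq_pow hp hwp
      rw [artW, if_pos hwp, hf, Nat.cast_pow, cross_sym_npow hζ hrrp hp0 (by rw [hpo]; exact dvd_zero _),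
        hsp, mul_zero, mul_zero]
    · obtain ⟨j, hj1, hj2⟩ := hgauss w hwp hwr
      have e1 := equiv_sym_eq hζ hrrp hj1
      have e2 := equiv_sym_eq hζ' hwp hj2
      have hρo : ordv w ρ' = 0 := by
        obtain ⟨v, hv, -⟩ := existsUnique_under (K := K) w
        rw [hρ'def, ordv_over hv, hρ v fun h => hwr ((above_over_iff hv r).2 h), mul_zero]
      have e3 : sym p ζ' w (α' * ρ' ^ w₀) = 0 := by
        have : α' * ρ' ^ w₀ = θ ^ p := by
          rw [hθ, map_mul, map_pow]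
        rw [this]
        exact cross_sym_pth_pow hζ' hwp hθ0
      rw [sym_mul hζ' hwp hα'0 (hord' w) (pow_ne_zero _ hρ'0)
        (by rw [ordv_pow, hρo, mul_zero]; exact dvd_zero _),
        cross_sym_npow hζ' hwp hρ'0 (by rw [hρo]; exact dvd_zero _), e2] at e3
      rw [artW, if_neg hwp, e1]
      linear_combination e3
  -- the sum
  have hsupp : ∀ w ∈ (dvf z).support, ¬ Above r w := by
    intro w hw hwr
    rw [Finsupp.mem_support_iff, dvf_apply] at hw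
    exact hw (hzr w hwr)
  have hunit : ∀ w ∈ (dvf z).support, ordv rr ((nrm w : ℕ) : K) = 0 := by
    intro w hw
    apply ordv_natCast_eq_zero
    rw [hrr]
    exact Nat.Coprime.symm ((Nat.Prime.coprime_iff_not_dvd hr).2 fun h =>
      hsupp w hw (above_of_dvd_nrm hr h))
  have hne : ∀ w ∈ (dvf z).support, ((nrm w : ℕ) : K) ≠ 0 := by
    intro w _
    have := one_lt_nrm w
    exact_mod_cast (by omega : nrm w ≠ 0)
  obtain ⟨hPo, hsym⟩ := cross_sym_prod_zpow hζ hrrp (dvf z).support (fun w => ((nrm w : ℕ) : K))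
    (fun w => ordv w z) hne hunit
  have hprod : ∏ w ∈ (dvf z).support, ((nrm w : ℕ) : K) ^ ordv w z =
      algebraMap ℚ K |Algebra.norm ℚ z| := by
    rw [← finprod_nrm_zpow hz, finprod_eq_prod_of_mulSupport_subset _ (s := (dvf z).support) ?_,
      map_prod]
    · refine Finset.prod_congr rfl fun w _ => ?_
      rw [map_zpow₀, map_natCast]
    · intro w hw
      simp only [Function.mem_mulSupport] at hw
      simp only [Finset.mem_coe, Finsupp.mem_support_iff, dvf_apply]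
      intro h; apply hw; rw [h, zpow_zero]
  have hloc : LocPow p ζ rr (algebraMap ℚ K |Algebra.norm ℚ z|) := by
    rcases abs_choice (Algebra.norm ℚ z) with h | h
    · rw [h]; exact hG1 z hz hzr
    · rw [h, map_neg]
      have h1 : -(algebraMap ℚ K (Algebra.norm ℚ z)) =
          (-1) ^ p * algebraMap ℚ K (Algebra.norm ℚ z) := by
        rw [(hp.odd_of_ne_two hp2).neg_one_pow]; ring
      rw [h1]
      exact InPN.aux_locPow_mul hζ hp.pos
        (InPN.aux_locPow_pow hζ hp.one_lt rr (by norm_num)) (hG1 z hz hzr)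
  have hzero : sym p ζ rr (∏ w ∈ (dvf z).support, ((nrm w : ℕ) : K) ^ ordv w z) = 0 := by
    refine (sym_eq_zero_iff hζ hrrp ?_ (by rw [hPo]; exact dvd_zero _)).2 (by rw [hprod]; exact hloc)
    exact Finset.prod_ne_zero_iff.2 fun w hw => zpow_ne_zero _ (hne w hw)
  unfold art
  rw [Finsupp.sum]
  calc ∑ w ∈ (dvf z).support, ((dvf z w : ℤ) : ZMod p) * artW p ζ' α' w
      = ∑ w ∈ (dvf z).support, (w₀ : ZMod p) *
          ((ordv w z : ZMod p) * sym p ζ rr ((nrm w : ℕ) : K)) :=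
        Finset.sum_congr rfl fun w hw => by rw [hW w (hsupp w hw), dvf_apply]; ring
    _ = (w₀ : ZMod p) * ∑ w ∈ (dvf z).support,
          ((ordv w z : ZMod p) * sym p ζ rr ((nrm w : ℕ) : K)) := (Finset.mul_sum _ _ _).symm
    _ = 0 := by rw [← hsym, hzero, mul_zero]

end principal

/-! ## (X3) the choice of the auxiliary prime and the final statement -/

section final

variable {K : Type} [Field K] [NumberField K] {p : ℕ} [Fact p.Prime] [IsCyclotomicExtension {p} ℚ K]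

/-- there is a place above every prime -/
theorem cross_exists_above {k : Type} [Field k] [NumberField k] {l : ℕ} (hl : l.Prime) :
    ∃ v : Pl k, Above l v := by
  have hne : Ideal.span {(l : 𝓞 k)} ≠ ⊤ := by
    intro h
    have h1 := Ideal.absNorm_span_natCast (S := 𝓞 k) l
    rw [h, Ideal.absNorm_top] at h1
    have h2 : 0 < Module.finrank ℤ (𝓞 k) := by
      rw [RingOfIntegers.rank]; exact Module.finrank_pos
    have := Nat.one_lt_pow h2.ne' hl.one_lt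
    omega
  obtain ⟨M, hM, hle⟩ := Ideal.exists_le_maximal _ hne
  have hmem : (l : 𝓞 k) ∈ M := hle (Ideal.mem_span_singleton_self _)
  refine ⟨⟨M, hM.isPrime, ?_⟩, hmem⟩
  rintro rfl
  have : (l : 𝓞 k) = 0 := by simpa using hmem
  exact hl.ne_zero (by exact_mod_cast this)

/-- the ramification index of a rational prime in `ℚ(ζ_p)` is prime to `p` -/
theorem not_dvd_ordv_prime {l : ℕ} (hl : l.Prime) {v : Pl K} (hv : Above l v) :
    ¬ (p : ℤ) ∣ ordv v (l : K) := by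
  have hp : p.Prime := Fact.out
  have hpos : 0 < ordv v (l : K) := (above_iff_ordv_pos hl.ne_zero v).1 hv
  have hl0 : (l : 𝓞 K) ≠ 0 := by exact_mod_cast hl.ne_zero
  obtain ⟨e, he⟩ := Int.eq_ofNat_of_zero_le hpos.le
  have hmem : (l : 𝓞 K) ∈ v.asIdeal ^ e := by
    rw [← le_ordv_algebraMap_iff v hl0 e, map_natCast, he]
  have hle : Ideal.span {(l : 𝓞 K)} ≤ v.asIdeal ^ e := by
    rwa [Ideal.span_singleton_le_iff_mem]
  have hdvd := Ideal.absNorm_dvd_absNorm_of_le hle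
  rw [Ideal.absNorm_span_natCast, map_pow, RingOfIntegers.rank,
    IsCyclotomicExtension.finrank K (Polynomial.cyclotomic.irreducible_rat hp.pos),
    Nat.totient_prime hp] at hdvd
  obtain ⟨f, hf, hnf⟩ := nrm_eq_pow hl hv
  have hnf' : Ideal.absNorm v.asIdeal = l ^ f := hnf
  rw [hnf', ← pow_mul] at hdvd
  have h1 : f * e ≤ p - 1 := (Nat.pow_dvd_pow_iff_le_right hl.one_lt).1 hdvd
  have h2 : e ≤ p - 1 := le_trans (Nat.le_mul_of_pos_left e hf) h1
  intro hd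
  rw [he] at hd hpos
  have h3 : p ∣ e := by exact_mod_cast hd
  have h4 : 0 < e := by exact_mod_cast hpos
  have := Nat.le_of_dvd h4 h3
  have := hp.pos
  omega

theorem dvd_exponent_aux {v : Pl K} {a b c : ℕ} (ha : a.Prime) (hb : b.Prime) (hc : c.Prime)
    (hab : a ≠ b) (hac : a ≠ c) (hv : Above a v) {y : K} {e0 e1 e2 : ℤ}
    (h : y ^ p = (a : K) ^ e0 * (b : K) ^ e1 * (c : K) ^ e2) : (p : ℤ) ∣ e0 := by
  have hp : p.Prime := Fact.out
  have ha0 : (a : K) ≠ 0 := by exact_mod_cast ha.ne_zero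
  have hb0 : (b : K) ≠ 0 := by exact_mod_cast hb.ne_zero
  have hc0 : (c : K) ≠ 0 := by exact_mod_cast hc.ne_zero
  have hbo : ordv v (b : K) = 0 :=
    (not_above_iff_ordv_eq_zero hb.ne_zero v).1 fun h' => hab (above_unique ha hb hv h')
  have hco : ordv v (c : K) = 0 :=
    (not_above_iff_ordv_eq_zero hc.ne_zero v).1 fun h' => hac (above_unique ha hc hv h')
  have h1 := congrArg (ordv v) h
  rw [ordv_pow, ordv_mul v (mul_ne_zero (zpow_ne_zero _ ha0) (zpow_ne_zero _ hb0))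
    (zpow_ne_zero _ hc0), ordv_mul v (zpow_ne_zero _ ha0) (zpow_ne_zero _ hb0), ordv_zpow,
    ordv_zpow, ordv_zpow, hbo, hco, mul_zero, mul_zero, add_zero, add_zero] at h1
  have h2 : (p : ℤ) ∣ e0 * ordv v (a : K) := ⟨_, h1.symm⟩
  rcases (Nat.prime_iff_prime_int.1 hp).dvd_or_dvd h2 with h3 | h3
  · exact h3
  · exact absurd h3 (not_dvd_ordv_prime ha hv)

theorem indep_three {q₁ q₂ : Pl K} {l₁ l₂ : ℕ} (hl₁ : l₁.Prime) (hl₂ : l₂.Prime) (hne : l₁ ≠ l₂)
    (hq₁ : Above l₁ q₁) (hq₂ : Above l₂ q₂) (hp₁ : l₁ ≠ p) (hp₂ : l₂ ≠ p)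
    (e : Fin 3 → ℤ) (h : ∃ y : K, y ^ p = ∏ i, (![(l₁ : K), (l₂ : K), (p : K)] i) ^ e i) :
    ∀ i, (p : ℤ) ∣ e i := by
  have hp : p.Prime := Fact.out
  obtain ⟨y, hy⟩ := h
  obtain ⟨pp, hpp⟩ := cross_exists_above (k := K) hp
  rw [Fin.prod_univ_three] at hy
  simp only [Matrix.cons_val_zero, Matrix.cons_val_one, Matrix.cons_val] at hy
  have h0 : (p : ℤ) ∣ e 0 := dvd_exponent_aux hl₁ hl₂ hp hne hp₁ hq₁ hy
  have h1 : (p : ℤ) ∣ e 1 := by
    refine dvd_exponent_aux (e1 := e 0) (e2 := e 2) hl₂ hl₁ hp hne.symm hp₂ hq₂ (y := y) ?_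
    rw [hy]; ring
  have h2 : (p : ℤ) ∣ e 2 := by
    refine dvd_exponent_aux (e1 := e 0) (e2 := e 1) hp hl₁ hl₂ hp₁.symm hp₂.symm hpp (y := y) ?_
    rw [hy]; ring
  intro i
  fin_cases i
  · exact h0
  · exact h1
  · exact h2

/-- **(X)** the crossing -/
theorem cross (hp2 : p ≠ 2) {ζ : K} (hζ : IsPrimitiveRoot ζ p) {α : K} (hα0 : α ≠ 0)
    (hord : ∀ v : Pl K, (p : ℤ) ∣ ordv v α) (hloc : ∀ v : Pl K, Above p v → LocPow p ζ v α)
    {q₁ q₂ : Pl K} {l₁ l₂ : ℕ} (hl₁ : l₁.Prime) (hl₂ : l₂.Prime) (hne : l₁ ≠ l₂)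
    (hq₁ : nrm q₁ = l₁) (hq₂ : nrm q₂ = l₂) (hp₁ : l₁ ≠ p) (hp₂ : l₂ ≠ p)
    (hs : sym p ζ q₂ α ≠ 0) (κ : ℤ) (hκ : sym p ζ q₁ α = κ * sym p ζ q₂ α) :
    InPN p ζ ∅ α (Finsupp.single q₁ 1 - κ • Finsupp.single q₂ 1 : Pl K →₀ ℤ) := by
  classical
  have hp : p.Prime := Fact.out
  have hq₁l : Above l₁ q₁ := above_of_nrm_eq hl₁ hq₁
  have hq₂l : Above l₂ q₂ := above_of_nrm_eq hl₂ hq₂
  have hq₁p : ¬ Above p q₁ := fun h => hp₁ (above_unique hl₁ hp hq₁l h)
  have hq₂p : ¬ Above p q₂ := fun h => hp₂ (above_unique hl₂ hp hq₂l h)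
  have hl₁0 : (l₁ : K) ≠ 0 := by exact_mod_cast hl₁.ne_zero
  have hl₂0 : (l₂ : K) ≠ 0 := by exact_mod_cast hl₂.ne_zero
  have hp0 : (p : K) ≠ 0 := by exact_mod_cast hp.ne_zero
  -- the auxiliary place
  obtain ⟨rr, -, hrrp, hu, c, hc, hsym⟩ := CK hp2 hζ ![(l₁ : K), (l₂ : K), (p : K)]
    (by intro i; fin_cases i <;> simp [hl₁0, hl₂0, hp0])
    (indep_three hl₁ hl₂ hne hq₁l hq₂l hp₁ hp₂) ![(κ : ZMod p), 1, 0]
    (by intro h; simpa using congrFun h 1) ∅
  have hu1 : ordv rr (l₁ : K) = 0 := hu 0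
  have hu2 : ordv rr (l₂ : K) = 0 := hu 1
  have hs1 : sym p ζ rr (l₁ : K) = c * κ := hsym 0
  have hs2 : sym p ζ rr (l₂ : K) = c := by simpa using hsym 1
  have hs3 : sym p ζ rr (p : K) = 0 := by simpa using hsym 2
  obtain ⟨r, hr, hrrr⟩ := exists_prime_above rr
  have hrp : r ≠ p := fun h => hrrp (h ▸ hrrr)
  have hnrm : nrm rr = r := by
    refine nrm_eq_of_sym_ratCast_ne_zero hζ hr hrrr hrrp (x := (l₂ : ℚ)) ?_
    rw [Rat.cast_natCast, hs2]; exact hc
  have hrl₁ : r ≠ l₁ := by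
    rintro rfl
    exact (not_above_iff_ordv_eq_zero hr.ne_zero rr).2 hu1 hrrr
  have hrl₂ : r ≠ l₂ := by
    rintro rfl
    exact (not_above_iff_ordv_eq_zero hr.ne_zero rr).2 hu2 hrrr
  have hq₁r : ¬ Above r q₁ := fun h => hrl₁ (above_unique hr hl₁ h hq₁l)
  have hq₂r : ¬ Above r q₂ := fun h => hrl₂ (above_unique hr hl₂ h hq₂l)
  -- the Gauss sum
  obtain ⟨ρ, hρ0, hρ1, hρ2, hρ3⟩ := exists_gauss hp2 hζ hr hnrm hrp
  have hρram : ∀ v : Pl K, Above r v → ¬ (p : ℤ) ∣ ordv v ρ := by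
    intro v hv hd
    obtain ⟨c', σ, h1, h2, h3, rfl⟩ := exists_pull_sigma_eq hζ hr hrrr hv
    rw [hρ1 c' σ h1 h2 h3] at hd
    have h4 : (p : ℤ) ∣ (c' : ℤ) := by
      have := dvd_sub (dvd_refl (p : ℤ)) hd
      simpa using this
    have h5 : p ∣ c' := by exact_mod_cast h4
    have := Nat.le_of_dvd (by omega) h5
    omega
  have hsymρ : ∀ (q : Pl K) (l : ℕ), nrm q = l → ¬ Above p q → ¬ Above r q →
      sym p ζ q ρ = - sym p ζ rr (l : K) := by
    intro q l hq hqp hqr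
    obtain ⟨j, hj1, hj2⟩ := hρ3 K q hqp hqr
    rw [hq] at hj1
    rw [equiv_sym_eq hζ hrrp hj1]
    exact equiv_sym_eq hζ hqp (by simpa using hj2)
  -- the exponent
  set w₀ : ℕ := (sym p ζ q₂ α / c).val with hw₀def
  have hw₀ : (w₀ : ZMod p) = sym p ζ q₂ α / c := by
    rw [hw₀def, ZMod.natCast_zmod_val]
  have hw₀c : (w₀ : ZMod p) * c = sym p ζ q₂ α := by
    rw [hw₀, div_mul_cancel₀ _ hc]
  have hw₀0 : ¬ (p : ℤ) ∣ (w₀ : ℤ) := by
    intro h
    have h1 : (w₀ : ZMod p) = 0 := by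
      rw [ZMod.natCast_eq_zero_iff]; exact_mod_cast h
    rw [h1, zero_mul] at hw₀c
    exact hs hw₀c.symm
  set μ : K := α * ρ ^ w₀ with hμdef
  have hμ0 : μ ≠ 0 := mul_ne_zero hα0 (pow_ne_zero _ hρ0)
  have hμord : ∀ v : Pl K, ordv v μ = ordv v α + w₀ * ordv v ρ := by
    intro v
    rw [hμdef, ordv_mul v hα0 (pow_ne_zero _ hρ0), ordv_pow]
  have hram : ∀ v : Pl K, Above r v → ¬ (p : ℤ) ∣ ordv v μ := by
    intro v hv hd
    rw [hμord v] at hd
    have h1 : (p : ℤ) ∣ (w₀ : ℤ) * ordv v ρ := (dvd_add_right (hord v)).1 hd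
    rcases (Nat.prime_iff_prime_int.1 hp).dvd_or_dvd h1 with h2 | h2
    · exact hw₀0 h2
    · exact hρram v hv h2
  have hμpow : ∀ y : K, y ^ p ≠ μ := by
    intro y hy
    apply hram rr hrrr
    rw [← hy, ordv_pow]
    exact Dvd.intro _ rfl
  have hμloc : ∀ (q : Pl K) (l : ℕ), nrm q = l → ¬ Above p q → ¬ Above r q →
      sym p ζ q α = w₀ * sym p ζ rr (l : K) → LocPow p ζ q μ := by
    intro q l hq hqp hqr hql
    have hρo : ordv q ρ = 0 := hρ2 q hqr
    refine (sym_eq_zero_iff hζ hqp hμ0 ?_).1 ?_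
    · rw [hμord q, hρo, mul_zero, add_zero]; exact hord q
    · rw [hμdef, sym_mul hζ hqp hα0 (hord q) (pow_ne_zero _ hρ0)
        (by rw [ordv_pow, hρo, mul_zero]; exact dvd_zero _),
        cross_sym_npow hζ hqp hρ0 (by rw [hρo]; exact dvd_zero _), hsymρ q l hq hqp hqr, hql]
      ring
  have hμ₂ : LocPow p ζ q₂ μ := hμloc q₂ l₂ hq₂ hq₂p hq₂r (by rw [hs2, hw₀c])
  have hμ₁ : LocPow p ζ q₁ μ := hμloc q₁ l₁ hq₁ hq₁p hq₁r (by
    rw [hs1, hκ, ← hw₀c]; ring)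
  -- the auxiliary field
  obtain ⟨F, _, _, _, θ, s, H⟩ := exists_isKum hζ hμpow
  have : IsGalois ℚ K := IsCyclotomicExtension.isGalois {p} ℚ K
  obtain ⟨Q₁, hQ₁⟩ := exists_over (F := F) q₁
  obtain ⟨Q₂, hQ₂⟩ := exists_over (F := F) q₂
  have hf₁ : fRel K Q₁ = 1 := ((H.split_aux hζ hμ0 hμ₁).2 Q₁ hQ₁).2
  have hf₂ : fRel K Q₂ = 1 := ((H.split_aux hζ hμ0 hμ₂).2 Q₂ hQ₂).2
  refine cross_core hp2 hζ hα0 hord hloc hq₁p hq₂p hs κ hκ hr hrp hq₁r hq₂r hQ₁ hQ₂ hf₁ hf₂ ?_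
  intro z hz hzr
  exact art_principal hp2 hζ hα0 hρ0 hord hr hnrm hrp hs3 hρ2 (hρ3 F) w₀ H.pow
    (fun z hz hzr => genus_locPow H hζ hr hrp hram hz hzr hrrr) z hz hzr

end final

end Fermat.Agent.S14lib
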