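import Fermat.Agent.S14.Ord

/-!
# T-S14, WP8a: the divisor of the Jacobi sum `J(χ, χ)` of a degree one prime of `ℚ(ζ_p)`
-/

set_option autoImplicit false
set_option linter.style.haveILetI false

open NumberField IsDedekindDomain Polynomial

namespace Fermat.Agent.S14lib

section finite

variable {F : Type*} [Field F] [Fintype F]

theorem jac_sum_eval_eq_zero (f : F[X]) (h : f.natDegree < Fintype.card F - 1) :
    ∑ t : F, f.eval t = 0 := by
  simp_rw [eval_eq_sum_range]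
  rw [Finset.sum_comm]
  refine Finset.sum_eq_zero fun i hi => ?_
  rw [← Finset.mul_sum, FiniteField.sum_pow_lt_card_sub_one _ i
    (lt_of_le_of_lt (Finset.mem_range_succ_iff.1 hi) h), mul_zero]

theorem jac_sum_pow_mul_pow (a b : ℕ) (h : a + b < Fintype.card F - 1) :
    ∑ t : F, t ^ a * (1 - t) ^ b = 0 := by
  have hdeg : (X ^ a * (1 - X) ^ b : F[X]).natDegree ≤ a + b := by
    compute_degree
  have := jac_sum_eval_eq_zero (X ^ a * (1 - X) ^ b : F[X]) (lt_of_le_of_lt hdeg h)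
  simpa using this

variable {O : Type*} [CommRing O]

theorem jac_map_jacobiSum (π : O →+* F) (χ : MulChar F O) (n : ℕ) (hχ : ∀ t, π (χ t) = t ^ n)
    (a b : ℕ) (ha : a ≠ 0) (hb : b ≠ 0) (h : n * a + n * b < Fintype.card F - 1) :
    π (jacobiSum (χ ^ a) (χ ^ b)) = 0 := by
  rw [jacobiSum, map_sum]
  simp_rw [map_mul, MulChar.pow_apply' _ ha, MulChar.pow_apply' _ hb, map_pow, hχ, ← pow_mul]
  exact jac_sum_pow_mul_pow _ _ h

/-- the `p`-th power residue character -/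
theorem jac_exists_char [IsDomain O] (π : O →+* F) (hπ : Function.Surjective π) {p : ℕ}
    (hp : 0 < p) {ζ : O} (hζ : IsPrimitiveRoot ζ p) (n : ℕ) (hn : n * p = Fintype.card F - 1) :
    ∃ χ : MulChar F O, (∀ t, π (χ t) = t ^ n) ∧ χ ^ p = 1 ∧ (∀ t : Fˣ, ∃ i : ℕ, χ t = ζ ^ i) ∧
      ∀ c : ℕ, χ ^ c = 1 → p ∣ c := by
  classical
  haveI : NeZero p := ⟨hp.ne'⟩
  obtain ⟨g, hg⟩ := IsCyclic.exists_generator (α := Fˣ)
  have hcard : Fintype.card Fˣ = n * p := by rw [Fintype.card_units, hn]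
  have hn0 : n ≠ 0 := by
    rintro rfl
    have := Fintype.one_lt_card (α := F)
    omega
  obtain ⟨x, hx⟩ := hπ ((g : F) ^ n)
  have h1 : π (x ^ p - 1 ^ p) = 0 := by
    rw [map_sub, map_pow, map_pow, map_one, one_pow, hx, ← pow_mul, ← hcard, ← Units.val_pow_eq_pow_val,
      pow_card_eq_one, Units.val_one, sub_self]
  rw [hζ.pow_sub_pow_eq_prod_sub_mul x 1 hp, map_prod, Finset.prod_eq_zero_iff] at h1
  obtain ⟨μ, hμ, hμx⟩ := h1
  rw [mul_one, map_sub, sub_eq_zero, hx] at hμx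
  have hμp : μ ^ p = 1 := ((mem_nthRootsFinset hp 1).1 hμ)
  let μ' : Oˣ := Units.ofPowEqOne μ p hμp hp.ne'
  have hμ' : μ' ∈ rootsOfUnity (Fintype.card Fˣ) O := by
    rw [mem_rootsOfUnity, hcard, mul_comm, pow_mul]
    have : μ' ^ p = 1 := Units.ext (by simp [μ'])
    rw [this, one_pow]
  let χ : MulChar F O := MulChar.ofRootOfUnity hμ' hg
  have hχg : χ g = μ := by
    have := MulChar.ofRootOfUnity_spec hμ' hg
    simpa [μ'] using this
  have hpow : ∀ t : Fˣ, ∃ k : ℕ, t = g ^ k ∧ χ t = μ ^ k := by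
    intro t
    obtain ⟨k, hk⟩ := (mem_powers_iff_mem_zpowers).2 (hg t)
    refine ⟨k, hk.symm, ?_⟩
    rw [← hk, Units.val_pow_eq_pow_val, map_pow, hχg]
  refine ⟨χ, ?_, ?_, ?_, ?_⟩
  · intro t
    by_cases ht : t = 0
    · rw [ht, MulChar.map_zero, map_zero, zero_pow hn0]
    · obtain ⟨k, hk, hk'⟩ := hpow (Units.mk0 t ht)
      have ht' : t = (g : F) ^ k := by
        have := congrArg (fun u : Fˣ => (u : F)) hk
        simpa using this
      have hk'' : χ t = μ ^ k := by simpa using hk'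
      rw [hk'', map_pow, ← hμx, ht', ← pow_mul, ← pow_mul, mul_comm]
  · rw [MulChar.eq_one_iff]
    intro t
    obtain ⟨k, -, hk'⟩ := hpow t
    rw [MulChar.pow_apply_coe, hk', ← pow_mul, mul_comm, pow_mul, hμp, one_pow]
  · intro t
    obtain ⟨k, -, hk'⟩ := hpow t
    obtain ⟨i, -, hi⟩ := hζ.eq_pow_of_pow_eq_one hμp
    exact ⟨i * k, by rw [hk', ← hi, pow_mul]⟩
  · intro c hc
    have h2 : (χ ^ c) g = 1 := by rw [hc, MulChar.one_apply_coe]
    rw [MulChar.pow_apply_coe, hχg] at h2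
    have h3 := congrArg π h2
    rw [map_pow, ← hμx, map_one, ← pow_mul, ← Units.val_pow_eq_pow_val, Units.val_eq_one] at h3
    have h4 := orderOf_dvd_of_pow_eq_one h3
    rw [orderOf_eq_card_of_forall_mem_zpowers hg, Nat.card_eq_fintype_card, hcard] at h4
    exact Nat.dvd_of_mul_dvd_mul_left (Nat.pos_of_ne_zero hn0) h4

end finite

section general

variable {K : Type} [Field K] [NumberField K]

theorem jac_mem_pull (σ : K ≃+* K) (v : Pl K) (x : 𝓞 K) :
    x ∈ (pull σ v).asIdeal ↔ RingOfIntegers.mapRingEquiv σ x ∈ v.asIdeal := Iff.rfl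

theorem jac_liesOver {l : ℕ} (hl : l.Prime) (v : Pl K) (hv : (l : 𝓞 K) ∈ v.asIdeal) :
    v.asIdeal.LiesOver (Ideal.span {(l : ℤ)}) := by
  have hl0 : (l : ℤ) ≠ 0 := by exact_mod_cast hl.ne_zero
  have hmax : (Ideal.span {(l : ℤ)}).IsMaximal :=
    ((Ideal.span_singleton_prime hl0).2 (Nat.prime_iff_prime_int.1 hl)).isMaximal (by simpa using hl0)
  refine ⟨hmax.eq_of_le ?_ ?_⟩
  · exact (Ideal.comap_ne_top _ v.isPrime.ne_top)
  · rw [Ideal.span_singleton_le_iff_mem, Ideal.mem_comap]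
    simpa using hv

/-- the Galois group is transitive on the places above `l` -/
theorem jac_exists_pull_eq [IsGalois ℚ K] {l : ℕ} (hl : l.Prime) (v w : Pl K)
    (hv : (l : 𝓞 K) ∈ v.asIdeal) (hw : (l : 𝓞 K) ∈ w.asIdeal) :
    ∃ σ : K ≃ₐ[ℚ] K, w = pull (σ : K ≃+* K) v := by
  haveI := jac_liesOver hl v hv
  haveI := jac_liesOver hl w hw
  obtain ⟨σ, hσ⟩ := Ideal.exists_smul_eq_of_isGaloisGroup (Ideal.span {(l : ℤ)}) v.asIdeal w.asIdeal
    (K ≃ₐ[ℚ] K)
  refine ⟨σ⁻¹, ?_⟩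
  apply HeightOneSpectrum.ext
  rw [← hσ]
  ext x
  rw [jac_mem_pull, Ideal.mem_pointwise_smul_iff_inv_smul_mem]
  rfl

/-- if `x y = l` with `ord_v l = 1` and `x ∈ v` then `ord_v x = 1`, `ord_v y = 0` -/
theorem jac_ordv_of_mul_eq (v : Pl K) {x y : 𝓞 K} {l : ℕ} (hl0 : l ≠ 0) (hxy : x * y = (l : 𝓞 K))
    (hl : ordv v (l : K) = 1) (hx : x ∈ v.asIdeal) :
    ordv v (algebraMap (𝓞 K) K x) = 1 ∧ ordv v (algebraMap (𝓞 K) K y) = 0 := by
  have hl0' : (l : 𝓞 K) ≠ 0 := by exact_mod_cast hl0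
  have hx0 : x ≠ 0 := fun h => hl0' (by rw [← hxy, h, zero_mul])
  have hy0 : y ≠ 0 := fun h => hl0' (by rw [← hxy, h, mul_zero])
  have h1 : ordv v (algebraMap (𝓞 K) K x) + ordv v (algebraMap (𝓞 K) K y) = 1 := by
    rw [← ordv_mul v (by simpa using hx0) (by simpa using hy0), ← map_mul, hxy, map_natCast, hl]
  have h2 := (ordv_algebraMap_pos_iff v hx0).2 hx
  have h3 := ordv_algebraMap_nonneg v y
  omega

end general

section cyclo

variable {K : Type} [Field K] [NumberField K] {p : ℕ} [Fact p.Prime]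
  [IsCyclotomicExtension {p} ℚ K]

/-- a prime `l ≠ p` is unramified in `ℚ(ζ_p)` -/
theorem jac_ordv_natCast_eq_one {l : ℕ} (hl : l.Prime) (hlp : l ≠ p) (v : Pl K)
    (hv : (l : 𝓞 K) ∈ v.asIdeal) : ordv v (l : K) = 1 := by
  haveI : Fact l.Prime := ⟨hl⟩
  have hl0 : (l : ℤ) ≠ 0 := by exact_mod_cast hl.ne_zero
  let w : HeightOneSpectrum ℤ := ⟨Ideal.span {(l : ℤ)},
    (Ideal.span_singleton_prime hl0).2 (Nat.prime_iff_prime_int.1 hl), by simpa using hl0⟩
  haveI hlies : v.asIdeal.LiesOver (Ideal.span {(l : ℤ)}) := jac_liesOver hl v hv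
  haveI : v.asIdeal.LiesOver w.asIdeal := hlies
  have h1 := HeightOneSpectrum.valuation_liesOver K w v (l : ℚ)
  have h2 : w.asIdeal.ramificationIdx' v.asIdeal = 1 := by
    rw [Ideal.ramificationIdx'_eq_ramificationIdx _ _ w.ne_bot]
    exact IsCyclotomicExtension.Rat.ramificationIdx_eq_of_not_dvd l K v.asIdeal (m := p)
      (fun h => hlp ((Nat.prime_dvd_prime_iff_eq hl Fact.out).1 h))
  have h3 : w.valuation ℚ (l : ℚ) = WithZero.exp (-1 : ℤ) := by
    have h4 := w.valuation_of_algebraMap (K := ℚ) (l : ℤ)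
    rw [w.intValuation_singleton hl0 rfl] at h4
    simpa using h4
  rw [h2, pow_one, h3] at h1
  rw [ordv]
  have h5 : algebraMap ℚ K (l : ℚ) = (l : K) := by simp
  rw [← h5, ← h1, WithZero.log_exp]
  norm_num

/-- **(GS a)** the divisor of the Jacobi sum `J(χ,χ)` of a degree one prime (WP8) -/
theorem exists_jacobi (hp2 : p ≠ 2) {ζ : K} (hζ : IsPrimitiveRoot ζ p) {lam : Pl K} {l : ℕ}
    (hl : l.Prime) (hlam : nrm lam = l) (hlp : l ≠ p) :
    ∃ J : K, J ≠ 0 ∧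
      (∀ (c : ℕ) (σ : K ≃ₐ[ℚ] K), 1 ≤ c → 2 * c < p → σ ζ = ζ ^ c →
        ordv (pull (σ : K ≃+* K) lam) J = 1) ∧
      (∀ v : Pl K, (¬ ∃ (c : ℕ) (σ : K ≃ₐ[ℚ] K), 1 ≤ c ∧ 2 * c < p ∧ σ ζ = ζ ^ c ∧
        v = pull (σ : K ≃+* K) lam) → ordv v J = 0) := by
  classical
  have hp : p.Prime := Fact.out
  haveI : IsGalois ℚ K := IsCyclotomicExtension.isGalois {p} ℚ K
  haveI : lam.asIdeal.IsMaximal := lam.isMaximal
  letI : Field (𝓞 K ⧸ lam.asIdeal) := Ideal.Quotient.field _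
  haveI : Finite (𝓞 K ⧸ lam.asIdeal) := Ideal.finiteQuotientOfFreeOfNeBot _ lam.ne_bot
  letI : Fintype (𝓞 K ⧸ lam.asIdeal) := Fintype.ofFinite _
  have hcard : Fintype.card (𝓞 K ⧸ lam.asIdeal) = l := by
    rw [← Nat.card_eq_fintype_card, ← hlam, nrm, Ideal.absNorm_apply, Submodule.cardQuot_apply]
  set π : 𝓞 K →+* 𝓞 K ⧸ lam.asIdeal := Ideal.Quotient.mk lam.asIdeal with hπdef
  have hπ : Function.Surjective π := Ideal.Quotient.mk_surjective
  have hζO : IsPrimitiveRoot hζ.toInteger p := hζ.toInteger_isPrimitiveRoot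
  set ζO := hζ.toInteger with hζOdef
  have hlmem : (l : 𝓞 K) ∈ lam.asIdeal := by
    rw [← hlam]; exact Ideal.absNorm_mem _
  -- `p ∣ l - 1`
  have hne1 : π ζO ≠ 1 := by
    intro h1
    have h2 := congrArg π (hζO.geom_sum_eq_zero hp.one_lt)
    rw [map_sum, map_zero] at h2
    simp only [map_pow, h1, one_pow, Finset.sum_const, Finset.card_range, nsmul_eq_mul,
      mul_one] at h2
    have h3 : ((l : ℕ) : 𝓞 K ⧸ lam.asIdeal) = 0 := by
      rw [← hcard]; exact Nat.cast_card_eq_zero _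
    have hcop : Nat.Coprime p l := (Nat.coprime_primes hp hl).2 (Ne.symm hlp)
    obtain ⟨a, b, hab⟩ := Nat.isCoprime_iff_coprime.2 hcop
    have h4 := congrArg (Int.cast : ℤ → 𝓞 K ⧸ lam.asIdeal) hab
    push_cast at h4
    rw [h2, h3, mul_zero, mul_zero, add_zero] at h4
    exact zero_ne_one h4
  have hpl : p ∣ l - 1 := by
    have h1 : (π ζO) ^ p = 1 := by rw [← map_pow, hζO.pow_eq_one, map_one]
    have h0 : π ζO ≠ 0 := fun h => by rw [h, zero_pow hp.ne_zero] at h1; exact zero_ne_one h1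
    have h2 : orderOf (Units.mk0 (π ζO) h0) = p := by
      rw [← orderOf_units, Units.val_mk0]
      exact orderOf_eq_prime h1 hne1
    have h3 := orderOf_dvd_card (x := Units.mk0 (π ζO) h0)
    rwa [h2, Fintype.card_units, hcard] at h3
  obtain ⟨n, hn⟩ := hpl
  have hn0 : 0 < n := by
    rcases Nat.eq_zero_or_pos n with rfl | h
    · have := hl.two_le; omega
    · exact h
  obtain ⟨χ, hχπ, hχp, hχζ, hχc⟩ := jac_exists_char π hπ hp.pos hζO n
    (by rw [hcard, hn, mul_comm])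
  set Jc : ℕ → 𝓞 K := fun c => jacobiSum (χ ^ c) (χ ^ c) with hJc
  -- (1) congruence
  have hmem : ∀ c, 1 ≤ c → 2 * c < p → Jc c ∈ lam.asIdeal := by
    intro c hc1 hc2
    rw [← Ideal.Quotient.eq_zero_iff_mem]
    refine jac_map_jacobiSum π χ n hχπ c c (by omega) (by omega) ?_
    rw [hcard, hn, ← mul_add, mul_comm p n]
    exact Nat.mul_lt_mul_of_pos_left (by omega) hn0
  -- (2) periodicity
  have hper : ∀ a b, a % p = b % p → Jc a = Jc b := by
    intro a b hab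
    simp only [hJc]
    rw [pow_eq_pow_mod a hχp, pow_eq_pow_mod b hχp, hab]
  -- (3) the product formula
  have hprod : ∀ c, ¬ p ∣ c → Jc c * Jc (c * (p - 1)) = (l : 𝓞 K) := by
    intro c hc
    apply FaithfulSMul.algebraMap_injective (𝓞 K) K
    have hinj := FaithfulSMul.algebraMap_injective (𝓞 K) K
    set χK : MulChar (𝓞 K ⧸ lam.asIdeal) K := (χ ^ c).ringHomComp (algebraMap (𝓞 K) K) with hχK
    have h1 : χK ≠ 1 := (MulChar.ringHomComp_ne_one_iff hinj).2 fun h => hc (hχc c h)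
    have h2 : χK * χK ≠ 1 := by
      rw [hχK, ← MulChar.ringHomComp_mul, ← pow_add]
      refine (MulChar.ringHomComp_ne_one_iff hinj).2 fun h => ?_
      have h3 := hχc _ h
      rw [← two_mul] at h3
      rcases (Nat.Prime.dvd_mul hp).1 h3 with h4 | h4
      · exact hp2 ((Nat.prime_dvd_prime_iff_eq hp Nat.prime_two).1 h4)
      · exact hc h4
    have h3 : χK⁻¹ = (χ ^ (c * (p - 1))).ringHomComp (algebraMap (𝓞 K) K) := by
      rw [inv_eq_iff_mul_eq_one, hχK, ← MulChar.ringHomComp_mul, ← pow_add]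
      have : c + c * (p - 1) = p * c := by
        obtain ⟨m, rfl⟩ : ∃ m, p = m + 1 := ⟨p - 1, by have := hp.pos; omega⟩
        simp; ring
      rw [this, pow_mul, hχp, one_pow, MulChar.ringHomComp_one]
    have h4 := jacobiSum_mul_jacobiSum_inv (F := 𝓞 K ⧸ lam.asIdeal) (F' := K) ?_ h1 h1 h2
    · rw [h3, hχK, jacobiSum_ringHomComp, jacobiSum_ringHomComp, hcard] at h4
      rw [map_mul, map_natCast]
      exact h4
    · rw [ringChar.eq_zero]
      exact (CharP.ringChar_ne_zero_of_finite _).symm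
  -- (4) Galois action
  have hgal : ∀ (σ : K ≃ₐ[ℚ] K) (c : ℕ), σ ζ = ζ ^ c → ∀ a,
      RingOfIntegers.mapRingEquiv (σ : K ≃+* K) (Jc a) = Jc (a * c) := by
    intro σ c hσ a
    set f : 𝓞 K →+* 𝓞 K := (RingOfIntegers.mapRingEquiv (σ : K ≃+* K) : 𝓞 K →+* 𝓞 K) with hf
    have hfζ : f ζO = ζO ^ c := by
      apply RingOfIntegers.ext
      show σ ζ = _
      rw [hσ]
      rfl
    have h1 : (χ ^ a).ringHomComp f = χ ^ (a * c) := by
      apply MulChar.ext
      intro t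
      obtain ⟨i, hi⟩ := hχζ t
      show f ((χ ^ a) t) = _
      rw [MulChar.pow_apply_coe, MulChar.pow_apply_coe, hi, map_pow, map_pow, hfζ]
      ring
    have h2 := jacobiSum_ringHomComp (χ ^ a) (χ ^ a) f
    rw [h1] at h2
    exact h2.symm
  have hp1 : ¬ p ∣ 1 := fun h => hp.one_lt.ne' (Nat.dvd_one.1 h)
  have hJJ : Jc 1 * Jc (1 * (p - 1)) = (l : 𝓞 K) := hprod 1 hp1
  have hl0' : (l : 𝓞 K) ≠ 0 := by exact_mod_cast hl.ne_zero
  have hJ0 : Jc 1 ≠ 0 := fun h => hl0' (by rw [← hJJ, h, zero_mul])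
  have hlpull : ∀ σ : K ≃ₐ[ℚ] K, (l : 𝓞 K) ∈ (pull (σ : K ≃+* K) lam).asIdeal := by
    intro σ
    rw [jac_mem_pull, map_natCast]
    exact hlmem
  refine ⟨algebraMap (𝓞 K) K (Jc 1), by simpa using hJ0, ?_, ?_⟩
  · intro c σ hc1 hc2 hσ
    refine (jac_ordv_of_mul_eq _ hl.ne_zero hJJ
      (jac_ordv_natCast_eq_one hl hlp _ (hlpull σ)) ?_).1
    rw [jac_mem_pull, hgal σ c hσ 1, one_mul]
    exact hmem c hc1 hc2
  · intro v hv
    by_cases hvl : (l : 𝓞 K) ∈ v.asIdeal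
    · obtain ⟨σ, rfl⟩ := jac_exists_pull_eq hl lam v hlmem hvl
      obtain ⟨c, hcp, hc⟩ := hζ.eq_pow_of_pow_eq_one (ξ := σ ζ)
        (by rw [← map_pow, hζ.pow_eq_one, map_one])
      have hc1 : 1 ≤ c := by
        rcases Nat.eq_zero_or_pos c with rfl | h
        · exfalso
          rw [pow_zero] at hc
          have : ζ = 1 := σ.injective (by rw [← hc, map_one])
          exact hζ.ne_one hp.one_lt this
        · exact h
      have hc2 : ¬ 2 * c < p := fun h => hv ⟨c, σ, hc1, h, hc.symm, rfl⟩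
      have hc3 : 2 * c ≠ p := by
        intro h
        have h2 : 2 ∣ p := ⟨c, h.symm⟩
        exact hp2 ((Nat.prime_dvd_prime_iff_eq Nat.prime_two hp).1 h2).symm
      rw [mul_comm] at hJJ
      refine (jac_ordv_of_mul_eq _ hl.ne_zero hJJ
        (jac_ordv_natCast_eq_one hl hlp _ (hlpull σ)) ?_).2
      rw [jac_mem_pull, hgal σ c hc.symm, one_mul, hper ((p - 1) * c) (p - c) ?_]
      · exact hmem (p - c) (by omega) (by omega)
      · have h5 : (p - 1) * c = (p - c) + p * (c - 1) := by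
          obtain ⟨m, rfl⟩ : ∃ m, p = m + 1 := ⟨p - 1, by omega⟩
          obtain ⟨d, rfl⟩ : ∃ d, c = d + 1 := ⟨c - 1, by omega⟩
          obtain ⟨e, rfl⟩ : ∃ e, m = d + e := ⟨m - d, by omega⟩
          have e1 : d + e + 1 - 1 = d + e := by omega
          have e2 : d + e + 1 - (d + 1) = e := by omega
          have e3 : d + 1 - 1 = d := by omega
          rw [e1, e2, e3]; ring
        rw [h5, Nat.add_mul_mod_self_left]
    · rw [ordv_algebraMap_eq_zero_iff v hJ0]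
      intro h
      exact hvl (by rw [← hJJ]; exact Ideal.mul_mem_right _ _ h)

end cyclo

end Fermat.Agent.S14lib
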