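import Fermat.Agent.S14.FI
import Fermat.Agent.S14.CK
import Fermat.Agent.S14.Cross
import Fermat.Agent.S14.Jacobi

/-!
# T-S14, WP11: `no_alpha`
-/

set_option autoImplicit false
set_option linter.unusedSectionVars false

open NumberField IsDedekindDomain

namespace Fermat.Agent.S14lib



variable {K : Type} [Field K] [NumberField K] {p : ℕ} [Fact p.Prime] [IsCyclotomicExtension {p} ℚ K]

theorem inPN_zsmul {Sg : Set (Pl K)} {ζ x : K} (hζ : IsPrimitiveRoot ζ p) {D : Pl K → ℤ}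
    (h : InPN p ζ Sg x D) (n : ℤ) : InPN p ζ Sg x (n • D) :=
  InPN.zsmul hζ (Fact.out : p.Prime).one_lt h n

theorem inPN_sum {ι : Type*} {Sg : Set (Pl K)} {ζ x : K} (hζ : IsPrimitiveRoot ζ p)
    (s : Finset ι) (D : ι → Pl K → ℤ)
    (h : ∀ i ∈ s, InPN p ζ Sg x (D i)) : InPN p ζ Sg x (∑ i ∈ s, D i) := by
  classical
  induction s using Finset.induction_on with
  | empty => rw [Finset.sum_empty]; exact InPN.zero hζ (Fact.out : p.Prime).one_lt
  | insert a s ha ih =>
    rw [Finset.sum_insert ha]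
    exact InPN.add hζ (Fact.out : p.Prime).pos (h a (Finset.mem_insert_self a s))
      (ih fun i hi => h i (Finset.mem_insert_of_mem hi))

theorem inPN_sub {Sg : Set (Pl K)} {ζ x : K} (hζ : IsPrimitiveRoot ζ p) {D D' : Pl K → ℤ}
    (h : InPN p ζ Sg x D) (h' : InPN p ζ Sg x D') : InPN p ζ Sg x (D - D') :=
  InPN.sub hζ (Fact.out : p.Prime).pos h h'

/-- indicator divisor -/
noncomputable def sg (v : Pl K) : Pl K → ℤ := fun u => by classical exact if u = v then 1 else 0

theorem coe_single (v : Pl K) : ((Finsupp.single v 1 : Pl K →₀ ℤ) : Pl K → ℤ) = sg v := by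
  classical
  funext u
  simp only [sg, Finsupp.single_apply]
  by_cases h : u = v
  · simp [h]
  · simp [h, Ne.symm h]

section main

variable {ζ : K} (hp2 : p ≠ 2) (hζ : IsPrimitiveRoot ζ p) {α : K} (hα0 : α ≠ 0)
  (h2 : ∀ v : Pl K, (p : ℤ) ∣ ordv v α) (h3 : ∀ v : Pl K, Above p v → LocPow p ζ v α)
  (h4 : ∀ (σ : K ≃ₐ[ℚ] K) (c : ℕ), σ ζ = ζ ^ c → ∃ β : K, β ≠ 0 ∧ σ α = α ^ (c ^ 2) * β ^ p)

include hζ hα0 h2 h4 in
/-- `sym (σ_c⁻¹ v) α = c * sym v α` -/
theorem sym_pull {v : Pl K} (hv : ¬ Above p v) (σ : K ≃ₐ[ℚ] K) (c : ℕ) (hc : ¬ p ∣ c)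
    (hσ : σ ζ = ζ ^ c) : sym p ζ (pull (σ : K ≃+* K) v) α = c * sym p ζ v α := by
  obtain ⟨β, hβ, hαβ⟩ := h4 σ c hσ
  have e1 := sym_apply hζ hv hα0 (h2 v) (σ : K ≃+* K) c hσ
  have e2 := sym_pow_mul_pow hζ hv hα0 (h2 v) hβ (c ^ 2)
  have e3 : ((σ : K ≃+* K) α) = α ^ (c ^ 2) * β ^ p := hαβ
  rw [e3, e2] at e1
  have hc0 : (c : ZMod p) ≠ 0 := by
    rwa [Ne, ZMod.natCast_eq_zero_iff]
  have : (c : ZMod p) * (c * sym p ζ v α) = c * sym p ζ (pull (σ : K ≃+* K) v) α := by
    rw [← e1]; push_cast; ring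
  exact (mul_left_cancel₀ hc0 this).symm

include hζ hα0 h2 h4 in
theorem nrm_prime_of_sym_ne {v : Pl K} (hv : ¬ Above p v) (hs : sym p ζ v α ≠ 0) :
    (nrm v).Prime := by
  refine nrm_prime_of_stabiliser hζ hv fun σ c hσ hfix => ?_
  have hc : ¬ p ∣ c := by
    intro hpc
    obtain ⟨d, rfl⟩ := hpc
    rw [pow_mul, hζ.pow_eq_one, one_pow] at hσ
    have : σ ζ = σ 1 := by rw [hσ, map_one]
    exact hζ.ne_one (Fact.out : p.Prime).one_lt (σ.injective this)
  have e := sym_pull hζ hα0 h2 h4 hv σ c hc hσ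
  rw [hfix] at e
  have : ((c : ZMod p) - 1) * sym p ζ v α = 0 := by rw [sub_mul, one_mul, ← e, sub_self]
  rcases mul_eq_zero.1 this with h | h
  · exact sub_eq_zero.1 h
  · exact absurd h hs

include hζ hα0 h2 h3 in
theorem not_above_of_sym_ne {v : Pl K} (hs : ¬ LocPow p ζ v α) : ¬ Above p v ∧ sym p ζ v α ≠ 0 := by
  have hv : ¬ Above p v := fun h => hs (h3 v h)
  exact ⟨hv, fun h => hs ((sym_eq_zero_iff hζ hv hα0 (h2 v)).1 h)⟩

include hp2 hζ hα0 h2 h3 h4 in
/-- key step: a non-split place `q'` is trivial in `Q` as soon as there is a non-split place over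
another rational prime -/
theorem inPN_sg_aux {v q' : Pl K} (hv : ¬ Above p v) (hsv : sym p ζ v α ≠ 0)
    (hq' : ¬ Above p q') (hsq : sym p ζ q' α ≠ 0) (hne : nrm v ≠ nrm q') :
    InPN p ζ ∅ α (sg q') ∧ InPN p ζ ∅ α (sg v) := by
  classical
  have hpp : p.Prime := Fact.out
  have hlv := nrm_prime_of_sym_ne hζ hα0 h2 h4 hv hsv
  have hlq := nrm_prime_of_sym_ne hζ hα0 h2 h4 hq' hsq
  have hvp : nrm v ≠ p := fun h => hv (h ▸ natCast_nrm_mem v)
  have hqp : nrm q' ≠ p := fun h => hq' (h ▸ natCast_nrm_mem q')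
  -- the ratio
  set t : ZMod p := sym p ζ v α / sym p ζ q' α with ht
  have ht0 : t ≠ 0 := div_ne_zero hsv hsq
  -- choice of σ_c
  have hcop : ∀ c : ℕ, 1 ≤ c → c < p → ¬ p ∣ c := fun c h1 h2 h => by
    have := Nat.le_of_dvd h1 h; omega
  choose! σ hσ using fun (c : ℕ) (hc : ¬ p ∣ c) => exists_sigma hζ c hc
  -- crossing for every c
  have hX : ∀ c : ℕ, 1 ≤ c → c < p →
      InPN p ζ ∅ α (sg (pull (σ c : K ≃+* K) v) - (((c : ZMod p) * t).val : ℤ) • sg q') := by
    intro c h1 h2'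
    have hc := hcop c h1 h2'
    have e := sym_pull hζ hα0 h2 h4 hv (σ c) c hc (hσ c hc)
    have := cross hp2 hζ hα0 h2 h3 (q₁ := pull (σ c : K ≃+* K) v) (q₂ := q') hlv hlq hne
      (nrm_pull _ _) rfl hvp hqp hsq (((c : ZMod p) * t).val : ℤ) (by
        rw [e]
        have : ((((c : ZMod p) * t).val : ℤ) : ZMod p) = (c : ZMod p) * t := by
          simp
        rw [this, ht, mul_assoc, div_mul_cancel₀ _ hsq])
    rw [Finsupp.coe_sub, Finsupp.coe_smul, coe_single, coe_single] at this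
    exact this
  -- the Jacobi sum
  obtain ⟨J, hJ0, hJ1, hJ2⟩ := exists_jacobi hp2 hζ hlv rfl hvp
  set I : Finset ℕ := Finset.Icc 1 ((p - 1) / 2) with hI
  have hIc : ∀ c ∈ I, 1 ≤ c ∧ 2 * c < p ∧ c < p := by
    intro c hc
    rw [hI, Finset.mem_Icc] at hc
    have : 2 * ((p - 1) / 2) ≤ p - 1 := Nat.mul_div_le _ _
    have hp1 := hpp.one_lt
    omega
  have hinj : ∀ c ∈ I, ∀ c' ∈ I, pull (σ c : K ≃+* K) v = pull (σ c' : K ≃+* K) v → c = c' := by
    intro c hc c' hc' h
    obtain ⟨a1, _, a3⟩ := hIc c hc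
    obtain ⟨b1, _, b3⟩ := hIc c' hc'
    have e := sym_pull hζ hα0 h2 h4 hv (σ c) c (hcop c a1 a3) (hσ c (hcop c a1 a3))
    have e' := sym_pull hζ hα0 h2 h4 hv (σ c') c' (hcop c' b1 b3) (hσ c' (hcop c' b1 b3))
    rw [h, e'] at e
    have := mul_right_cancel₀ hsv e
    have h5 := (ZMod.natCast_eq_natCast_iff' c' c p).1 this
    rw [Nat.mod_eq_of_lt a3, Nat.mod_eq_of_lt b3] at h5
    exact h5.symm
  have hdvJ : dv J = ∑ c ∈ I, sg (pull (σ c : K ≃+* K) v) := by
    funext u
    rw [Finset.sum_apply]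
    by_cases hu : ∃ c ∈ I, u = pull (σ c : K ≃+* K) v
    · obtain ⟨c, hc, rfl⟩ := hu
      obtain ⟨a1, a2, a3⟩ := hIc c hc
      rw [Finset.sum_eq_single c]
      · simp only [sg, dv, if_true]
        exact hJ1 c (σ c) a1 a2 (hσ c (hcop c a1 a3))
      · intro b hb hbc
        simp only [sg]
        rw [if_neg]
        intro h
        exact hbc (hinj c hc b hb h).symm
      · intro h; exact absurd hc h
    · rw [Finset.sum_eq_zero]
      · refine hJ2 u ?_
        rintro ⟨c, τ, a1, a2, hτ, rfl⟩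
        have hcI : c ∈ I := by
          rw [hI, Finset.mem_Icc]
          refine ⟨a1, ?_⟩
          omega
        have a3 : c < p := by omega
        have hτσ : τ = σ c := by
          apply AlgEquiv.coe_toAlgHom_injective
          apply (hζ.powerBasis ℚ).algHom_ext
          simp only [IsPrimitiveRoot.powerBasis_gen, AlgEquiv.coe_toAlgHom]
          rw [hτ, hσ c (hcop c a1 a3)]
        exact hu ⟨c, hcI, by rw [hτσ]⟩
      · intro c hc
        simp only [sg]
        rw [if_neg]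
        intro h
        exact hu ⟨c, hc, h⟩
  -- combine
  have h5 : InPN p ζ ∅ α (∑ c ∈ I, (sg (pull (σ c : K ≃+* K) v)
      - (((c : ZMod p) * t).val : ℤ) • sg q')) :=
    inPN_sum hζ I _ fun c hc => hX c (hIc c hc).1 (hIc c hc).2.2
  have h6 : InPN p ζ ∅ α (dv J) := InPN.of_dv_unram h2 hJ0
  have h7 := inPN_sub hζ h6 h5
  rw [hdvJ, Finset.sum_sub_distrib, sub_sub_cancel, ← Finset.sum_smul] at h7
  set m : ℤ := ∑ c ∈ I, (((c : ZMod p) * t).val : ℤ) with hm
  -- m is prime to p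
  have hm0 : (m : ZMod p) ≠ 0 := by
    have e1 : (m : ZMod p) = (∑ c ∈ I, (c : ZMod p)) * t := by
      rw [hm, Int.cast_sum, Finset.sum_mul]
      refine Finset.sum_congr rfl fun c _ => ?_
      simp
    have e2 : ∀ h : ℕ, 2 * ∑ c ∈ Finset.Icc 1 h, c = h * (h + 1) := by
      intro h
      induction h with
      | zero => simp
      | succ n ih =>
        rw [Finset.sum_Icc_succ_top (by omega), mul_add, ih]; ring
    have e3 : (8 : ZMod p) * (∑ c ∈ I, (c : ZMod p)) = -1 := by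
      have hodd : p = 2 * ((p - 1) / 2) + 1 := by
        rcases hpp.eq_two_or_odd with h | h
        · exact absurd h hp2
        · omega
      have e4 := congrArg (Nat.cast : ℕ → ZMod p) (e2 ((p - 1) / 2))
      push_cast at e4
      have e5 : (2 : ZMod p) * (((p - 1) / 2 : ℕ) : ZMod p) = -1 := by
        have := congrArg (Nat.cast : ℕ → ZMod p) hodd
        rw [ZMod.natCast_self] at this
        push_cast at this
        linear_combination -this
      rw [hI]
      have e6 : (8 : ZMod p) * (∑ c ∈ Finset.Icc 1 ((p - 1) / 2), (c : ZMod p))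
          = (2 * (((p - 1) / 2 : ℕ) : ZMod p)) * (2 * (((p - 1) / 2 : ℕ) : ZMod p) + 2) := by
        linear_combination 4 * e4
      rw [e6, e5]; ring
    rw [e1]
    refine mul_ne_zero ?_ ht0
    intro h
    rw [h, mul_zero] at e3
    exact one_ne_zero (neg_eq_zero.1 e3.symm)
  have hq : InPN p ζ ∅ α (sg q') := by
    have hcop' : IsCoprime m (p : ℤ) := by
      refine IsCoprime.symm ?_
      rw [(Nat.prime_iff_prime_int.1 hpp).irreducible.coprime_iff_not_dvd]
      rwa [← ZMod.intCast_zmod_eq_zero_iff_dvd]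
    obtain ⟨a, b, hab⟩ := hcop'
    have h8 : InPN p ζ ∅ α ((b * p : ℤ) • sg q') :=
      InPN.of_dvd hζ hpp.one_lt fun u _ _ => by
        simp only [Pi.smul_apply, smul_eq_mul]
        exact Dvd.dvd.mul_right (Dvd.intro_left b rfl) _
    have h9 := InPN.add hζ hpp.pos (inPN_zsmul hζ h7 a) h8
    rwa [smul_smul, ← add_smul, hab, one_smul] at h9
  refine ⟨hq, ?_⟩
  have h10 := cross hp2 hζ hα0 h2 h3 (q₁ := v) (q₂ := q') hlv hlq hne rfl rfl hvp hqp hsq
    ((t.val : ℕ) : ℤ) (by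
      have : (((t.val : ℕ) : ℤ) : ZMod p) = t := by simp
      rw [this, ht, div_mul_cancel₀ _ hsq])
  rw [Finsupp.coe_sub, Finsupp.coe_smul, coe_single, coe_single] at h10
  have h11 := InPN.add hζ hpp.pos h10 (inPN_zsmul hζ hq ((t.val : ℕ) : ℤ))
  rwa [sub_add_cancel] at h11

include hp2 hζ hα0 h2 h3 h4 in
theorem no_alpha (h1 : ∀ y : K, y ^ p ≠ α) : False := by
  classical
  have hpp : p.Prime := Fact.out
  obtain ⟨D, -, hD⟩ := FI hp2 hζ hα0 h1 h3
  apply hD
  have hsingle : ∀ v : Pl K, InPN p ζ ∅ α (sg v) := by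
    intro v
    by_cases hv : LocPow p ζ v α
    · refine InPN.of_dvd hζ hpp.one_lt fun u _ hu => ?_
      have : u ≠ v := fun h => hu (h ▸ hv)
      simp [sg, this]
    · obtain ⟨hvp, hsv⟩ := not_above_of_sym_ne hζ hα0 h2 h3 hv
      have hlv := nrm_prime_of_sym_ne hζ hα0 h2 h4 hvp hsv
      obtain ⟨q', hq1, hq2, -, c, hc0, hc⟩ := CK hp2 hζ (n := 1) (fun _ => α) (fun _ => hα0)
        (by
          intro e ⟨y, hy⟩ i
          have hi : i = 0 := Subsingleton.elim _ _
          subst hi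
          simp only [Finset.univ_unique, Fin.default_eq_zero, Fin.isValue,
            Finset.prod_singleton] at hy
          by_contra hnd
          have hcop : IsCoprime (p : ℤ) (e 0) :=
            ((Nat.prime_iff_prime_int.1 hpp).irreducible.coprime_iff_not_dvd).2 hnd
          obtain ⟨a, b, hab⟩ := hcop
          refine h1 (α ^ a * y ^ b) ?_
          have hy0 : y ≠ 0 := by
            rintro rfl
            rw [zero_pow hpp.ne_zero] at hy
            exact zpow_ne_zero _ hα0 hy.symm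
          calc (α ^ a * y ^ b) ^ p = α ^ (a * p) * (y ^ p) ^ b := by
                rw [mul_pow, zpow_mul, zpow_natCast, ← zpow_natCast (y ^ b), ← zpow_mul,
                  mul_comm b, zpow_mul, zpow_natCast]
            _ = α ^ (a * p + b * e 0) := by
                rw [hy, ← zpow_mul, zpow_add₀ hα0, mul_comm (e 0)]
            _ = α := by rw [hab, zpow_one])
        (fun _ => 1) (by intro h; simpa using congrFun h 0)
        (finite_above (k := K) hlv.ne_zero).toFinset
      have hsq : sym p ζ q' α ≠ 0 := by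
        rw [hc 0, mul_one]; exact hc0
      have hne : nrm v ≠ nrm q' := by
        intro h
        apply hq1
        rw [Set.Finite.mem_toFinset, Set.mem_ofPred_eq, h]
        exact natCast_nrm_mem q'
      exact (inPN_sg_aux hp2 hζ hα0 h2 h3 h4 hvp hsv hq2 hsq hne).2
  have hDsum : (D : Pl K → ℤ) = ∑ v ∈ D.support, D v • sg v := by
    funext u
    rw [Finset.sum_apply]
    by_cases hu : u ∈ D.support
    · rw [Finset.sum_eq_single u]
      · simp [sg]
      · intro b _ hb
        simp [sg, Ne.symm hb]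
      · intro h; exact absurd hu h
    · rw [Finset.sum_eq_zero]
      · simpa using hu
      · intro b hb
        have : u ≠ b := fun h => hu (h ▸ hb)
        simp [sg, this]
  rw [hDsum]
  exact inPN_sum hζ _ _ fun v _ => inPN_zsmul hζ (hsingle v) _

end main

end Fermat.Agent.S14lib
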