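import Mathlib
import Fermat.Prelude.Def_ExtCitation_AdmissibleExtension_v2
import Fermat.Prelude.Def_ExtCitation_KummerBridge
import Fermat.Agent.S54lib.FrobExists

/-!
# T-S14, WP12a: from a non-split admissible extension to a Kummer generator
-/

set_option autoImplicit false

namespace Fermat.Agent.S14lib

section abstract

variable {Γ : Type*} [Group Γ] {p : ℕ} [Fact p.Prime] {V : Type*} [AddCommGroup V]
  [Module (ZMod p) V] [DistribMulAction Γ V] [SMulCommClass Γ (ZMod p) V]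

/-- a basis adapted to `C ⊂ V` -/
theorem glueA_exists_basis (C : Submodule (ZMod p) V) (hC : Nat.card C = p)
    (hV : Nat.card V = p ^ 2) :
    ∃ e₁ e₂ : V, e₁ ∈ C ∧ e₁ ≠ 0 ∧ e₂ ∉ C ∧ (∀ x ∈ C, ∃ t : ZMod p, x = t • e₁) ∧
      (∀ x : V, ∃ s t : ZMod p, x = s • e₂ + t • e₁) := by
  have hp : p.Prime := Fact.out
  have : Finite V := Nat.finite_of_card_ne_zero (by rw [hV]; exact pow_ne_zero 2 hp.ne_zero)
  have hCbot : C ≠ ⊥ := by
    rintro rfl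
    have : Nat.card (⊥ : Submodule (ZMod p) V) = 1 := by simp
    rw [this] at hC
    exact hp.one_lt.ne hC
  obtain ⟨e₁, he₁C, he₁⟩ := Submodule.exists_mem_ne_zero_of_ne_bot hCbot
  have hCtop : ∃ e₂ : V, e₂ ∉ C := by
    by_contra h
    push Not at h
    have : C = ⊤ := Submodule.eq_top_iff'.2 h
    rw [this] at hC
    have h2 : Nat.card (⊤ : Submodule (ZMod p) V) = Nat.card V :=
      Nat.card_congr (Submodule.topEquiv (R := ZMod p) (M := V)).toEquiv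
    rw [h2, hV] at hC
    have := hp.one_lt
    nlinarith
  obtain ⟨e₂, he₂⟩ := hCtop
  have hinj1 : Function.Injective (fun t : ZMod p => (⟨t • e₁, C.smul_mem t he₁C⟩ : C)) := by
    intro s t h
    have h' : s • e₁ = t • e₁ := congrArg Subtype.val h
    exact smul_left_injective (ZMod p) he₁ h'
  have hsurj1 : Function.Surjective (fun t : ZMod p => (⟨t • e₁, C.smul_mem t he₁C⟩ : C)) := by
    have := (Nat.bijective_iff_injective_and_card _).2 ⟨hinj1, by rw [hC, Nat.card_zmod]⟩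
    exact this.2
  have hne : ∀ a : ZMod p, a • e₂ ∈ C → a = 0 := by
    intro a ha
    by_contra h0
    apply he₂
    have := C.smul_mem a⁻¹ ha
    rwa [smul_smul, inv_mul_cancel₀ h0, one_smul] at this
  have hinj2 : Function.Injective (fun st : ZMod p × ZMod p => st.1 • e₂ + st.2 • e₁) := by
    rintro ⟨s, t⟩ ⟨s', t'⟩ h
    simp only at h
    have h1 : (s - s') • e₂ = (t' - t) • e₁ := by
      rw [sub_smul, sub_smul, sub_eq_sub_iff_add_eq_add, h, add_comm]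
    have h2 : s - s' = 0 := hne _ (by rw [h1]; exact C.smul_mem _ he₁C)
    have h3 : (t' - t) • e₁ = 0 := by rw [← h1, h2, zero_smul]
    have h4 : t' - t = 0 := by
      rcases smul_eq_zero.1 h3 with h | h
      · exact h
      · exact absurd h he₁
    rw [sub_eq_zero] at h2 h4
    rw [h2, h4]
  have hsurj2 : Function.Surjective (fun st : ZMod p × ZMod p => st.1 • e₂ + st.2 • e₁) := by
    have := (Nat.bijective_iff_injective_and_card _).2
      ⟨hinj2, by rw [hV, Nat.card_prod, Nat.card_zmod, sq]⟩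
    exact this.2
  refine ⟨e₁, e₂, he₁C, he₁, he₂, ?_, ?_⟩
  · intro x hx
    obtain ⟨t, ht⟩ := hsurj1 ⟨x, hx⟩
    exact ⟨t, (congrArg Subtype.val ht).symm⟩
  · intro x
    obtain ⟨⟨s, t⟩, hst⟩ := hsurj2 x
    exact ⟨s, t, hst.symm⟩

/-- the cocycle `b` of a non-split extension -/
theorem glueA_exists_cocycle (C : Submodule (ZMod p) V) (χ : Γ →* (ZMod p)ˣ)
    (hfix : ∀ σ : Γ, ∀ x ∈ C, σ • x = x)
    (hquot : ∀ (σ : Γ) (x : V), σ • x - ((χ σ : (ZMod p)ˣ) : ZMod p) • x ∈ C)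
    (hC : Nat.card C = p) (hV : Nat.card V = p ^ 2) (σ₀ : Γ) (hσ₀ : χ σ₀ ≠ 1)
    (hns : ¬ ∃ C' : Submodule (ZMod p) V, (∀ σ : Γ, ∀ x ∈ C', σ • x ∈ C') ∧ IsCompl C C') :
    ∃ b : Γ → ZMod p,
      (∀ σ τ, b (σ * τ) = ((χ τ : (ZMod p)ˣ) : ZMod p) * b σ + b τ) ∧
      (∀ τ, χ τ = 1 → (b τ = 0 ↔ ∀ v : V, τ • v = v)) ∧
      (∀ τ, (∀ v : V, τ • v = v) → χ τ = 1) ∧
      (∃ τ, χ τ = 1 ∧ b τ ≠ 0) := by
  obtain ⟨e₁, e₂, he₁C, he₁, he₂, hspan1, hspan2⟩ := glueA_exists_basis C hC hV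
  have hne : ∀ a : ZMod p, a • e₂ ∈ C → a = 0 := by
    intro a ha
    by_contra h0
    apply he₂
    have := C.smul_mem a⁻¹ ha
    rwa [smul_smul, inv_mul_cancel₀ h0, one_smul] at this
  have hb : ∀ σ : Γ, ∃ t : ZMod p, σ • e₂ = ((χ σ : (ZMod p)ˣ) : ZMod p) • e₂ + t • e₁ := by
    intro σ
    obtain ⟨t, ht⟩ := hspan1 _ (hquot σ e₂)
    exact ⟨t, by rw [← ht]; abel⟩
  choose b hb using hb
  have hmul : ∀ σ τ, b (σ * τ) = ((χ τ : (ZMod p)ˣ) : ZMod p) * b σ + b τ := by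
    intro σ τ
    have h1 : (σ * τ) • e₂ = ((χ τ : (ZMod p)ˣ) : ZMod p) •
        (((χ σ : (ZMod p)ˣ) : ZMod p) • e₂ + b σ • e₁) + b τ • e₁ := by
      rw [mul_smul, hb τ, smul_add, smul_comm σ, smul_comm σ, hb σ, hfix σ e₁ he₁C]
    rw [hb (σ * τ), map_mul, Units.val_mul, smul_add, smul_smul, smul_smul, add_assoc,
      mul_comm ((χ σ : (ZMod p)ˣ) : ZMod p), add_right_inj, ← add_smul] at h1
    exact smul_left_injective (ZMod p) he₁ h1
  have htriv : ∀ τ, χ τ = 1 → (b τ = 0 ↔ ∀ v : V, τ • v = v) := by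
    intro τ hτ
    constructor
    · intro h v
      obtain ⟨s, t, rfl⟩ := hspan2 v
      rw [smul_add, smul_comm τ, smul_comm τ, hb τ, hfix τ e₁ he₁C, h, hτ]
      simp
    · intro h
      have h1 := hb τ
      rw [h e₂, hτ, Units.val_one, one_smul, left_eq_add] at h1
      rcases smul_eq_zero.1 h1 with h | h
      · exact h
      · exact absurd h he₁
  have hχ : ∀ τ, (∀ v : V, τ • v = v) → χ τ = 1 := by
    intro τ h
    have h1 := hquot τ e₂
    rw [h e₂] at h1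
    have h2 : (1 - ((χ τ : (ZMod p)ˣ) : ZMod p)) • e₂ ∈ C := by rwa [sub_smul, one_smul]
    have h3 := hne _ h2
    rw [sub_eq_zero] at h3
    exact Units.ext h3.symm
  refine ⟨b, hmul, htriv, hχ, ?_⟩
  by_contra hcon
  push Not at hcon
  apply hns
  have hu : (((χ σ₀ : (ZMod p)ˣ) : ZMod p) - 1) ≠ 0 := by
    intro h
    rw [sub_eq_zero] at h
    exact hσ₀ (Units.ext h)
  set t : ZMod p := b σ₀ / (((χ σ₀ : (ZMod p)ˣ) : ZMod p) - 1) with ht
  have hbt : ∀ σ, b σ = (((χ σ : (ZMod p)ˣ) : ZMod p) - 1) * t := by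
    intro σ
    -- `σ σ₀ = κ (σ₀ σ)` with `κ` in the kernel of `χ`
    have hκ : χ (σ * σ₀ * (σ₀ * σ)⁻¹) = 1 := by
      simp only [map_mul, map_inv, mul_inv_rev]
      rw [mul_comm (χ σ) (χ σ₀)]
      group
    have h1 : b (σ * σ₀) = b (σ₀ * σ) := by
      have h2 : σ * σ₀ = (σ * σ₀ * (σ₀ * σ)⁻¹) * (σ₀ * σ) := by group
      rw [h2, hmul _ (σ₀ * σ), hcon _ hκ, mul_zero, zero_add]
    rw [hmul, hmul] at h1
    rw [ht]
    field_simp
    linear_combination h1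
  refine ⟨Submodule.span (ZMod p) {e₂ + t • e₁}, ?_, ?_, ?_⟩
  · intro σ x hx
    obtain ⟨a, rfl⟩ := Submodule.mem_span_singleton.1 hx
    rw [smul_comm σ]
    apply Submodule.smul_mem
    have : σ • (e₂ + t • e₁) = ((χ σ : (ZMod p)ˣ) : ZMod p) • (e₂ + t • e₁) := by
      rw [smul_add, smul_comm σ, hb σ, hfix σ e₁ he₁C, hbt σ, smul_add, add_assoc, ← add_smul,
        smul_smul]
      congr 2
      ring
    rw [this]
    exact Submodule.smul_mem _ _ (Submodule.mem_span_singleton_self _)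
  · rw [Submodule.disjoint_def]
    intro x hx hx'
    obtain ⟨a, rfl⟩ := Submodule.mem_span_singleton.1 hx'
    have h1 : a • e₂ ∈ C := by
      have h2 : a • e₂ = a • (e₂ + t • e₁) - (a * t) • e₁ := by
        rw [smul_add, smul_smul]; abel
      rw [h2]
      exact C.sub_mem hx (C.smul_mem _ he₁C)
    rw [hne a h1, zero_smul]
  · rw [codisjoint_iff, Submodule.eq_top_iff']
    intro x
    obtain ⟨s, t', rfl⟩ := hspan2 x
    rw [Submodule.mem_sup]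
    refine ⟨(t' - s * t) • e₁, C.smul_mem _ he₁C, s • (e₂ + t • e₁),
      Submodule.smul_mem _ _ (Submodule.mem_span_singleton_self _), ?_⟩
    rw [smul_add, smul_smul, sub_smul]
    abel

/-- formal consequences of the cocycle identity -/
theorem glueA_cocycle_facts (χ : Γ →* (ZMod p)ˣ) (b : Γ → ZMod p)
    (hmul : ∀ σ τ, b (σ * τ) = ((χ τ : (ZMod p)ˣ) : ZMod p) * b σ + b τ) :
    b 1 = 0 ∧ (∀ τ, χ τ = 1 → ∀ m : ℕ, b (τ ^ m) = m * b τ) ∧
      (∀ τ, χ τ = 1 → b τ⁻¹ = - b τ) ∧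
      (∀ σ τ, χ τ = 1 → b (σ⁻¹ * τ * σ) = ((χ σ : (ZMod p)ˣ) : ZMod p) * b τ) := by
  have h1 : b 1 = 0 := by
    have := hmul 1 1
    simpa using this
  refine ⟨h1, ?_, ?_, ?_⟩
  · intro τ hτ m
    induction m with
    | zero => simp [h1]
    | succ m ih =>
      rw [pow_succ, hmul, hτ, ih]
      push_cast
      ring
  · intro τ hτ
    have := hmul τ⁻¹ τ
    rw [inv_mul_cancel, h1, hτ] at this
    simp only [Units.val_one, one_mul] at this
    linear_combination -this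
  · intro σ τ hτ
    have h2 : σ * (σ⁻¹ * τ * σ) = τ * σ := by group
    have h3 := hmul σ (σ⁻¹ * τ * σ)
    have h4 : χ (σ⁻¹ * τ * σ) = 1 := by simp [hτ]
    rw [h2, hmul τ σ, h4] at h3
    simp only [Units.val_one, one_mul] at h3
    linear_combination -h3

end abstract

section resolvent

/-- Lagrange resolvents -/
theorem glueA_resolvent {E : Type*} [Field E] {p : ℕ} (hp : p.Prime) (hpE : (p : E) ≠ 0) {ζ : E}
    (hζ : IsPrimitiveRoot ζ p) (T : E →+* E) (hTζ : T ζ = ζ) (x : E) (hTp : T^[p] x = x)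
    (hTx : T x ≠ x) :
    ∃ j : ℕ, 0 < j ∧ j < p ∧ (∑ i ∈ Finset.range p, (ζ⁻¹) ^ (j * i) * T^[i] x) ≠ 0 ∧
      T (∑ i ∈ Finset.range p, (ζ⁻¹) ^ (j * i) * T^[i] x) =
        ζ ^ j * ∑ i ∈ Finset.range p, (ζ⁻¹) ^ (j * i) * T^[i] x := by
  have hζ0 : ζ ≠ 0 := hζ.ne_zero hp.ne_zero
  have heig : ∀ j : ℕ, T (∑ i ∈ Finset.range p, (ζ⁻¹) ^ (j * i) * T^[i] x) =
        ζ ^ j * ∑ i ∈ Finset.range p, (ζ⁻¹) ^ (j * i) * T^[i] x := by
    intro j
    have h1 : T (∑ i ∈ Finset.range p, (ζ⁻¹) ^ (j * i) * T^[i] x) =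
        ζ ^ j * ∑ i ∈ Finset.range p, (ζ⁻¹) ^ (j * (i + 1)) * T^[i + 1] x := by
      rw [map_sum, Finset.mul_sum]
      refine Finset.sum_congr rfl fun i _ => ?_
      rw [map_mul, map_pow, map_inv₀, hTζ, Function.iterate_succ_apply', mul_add, pow_add, mul_one,
        ← mul_assoc, ← mul_assoc]
      congr 1
      rw [mul_comm (ζ ^ j), mul_assoc, inv_pow ζ j, mul_inv_cancel₀ (pow_ne_zero _ hζ0), mul_one]
    have h2 := Finset.sum_range_succ' (fun i => (ζ⁻¹) ^ (j * i) * T^[i] x) p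
    have h3 := Finset.sum_range_succ (fun i => (ζ⁻¹) ^ (j * i) * T^[i] x) p
    have h4 : (ζ⁻¹) ^ (j * p) = 1 := by
      rw [mul_comm, pow_mul, inv_pow, hζ.pow_eq_one, inv_one, one_pow]
    rw [h3, hTp, h4] at h2
    simp only [mul_zero, pow_zero, Function.iterate_zero, id_eq] at h2
    rw [h1, add_right_cancel h2]
  have hsum : ∑ j ∈ Finset.range p, ∑ i ∈ Finset.range p, (ζ⁻¹) ^ (j * i) * T^[i] x = p * x := by
    rw [Finset.sum_comm]
    have h5 : ∀ i ∈ Finset.range p, ∑ j ∈ Finset.range p, (ζ⁻¹) ^ (j * i) * T^[i] x =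
        if i = 0 then (p : E) * x else 0 := by
      intro i hi
      rw [← Finset.sum_mul]
      split_ifs with h0
      · subst h0
        simp
      · have hi' : i < p := Finset.mem_range.1 hi
        have hcop : Nat.Coprime i p :=
          (Nat.Coprime.symm ((Nat.Prime.coprime_iff_not_dvd hp).2
            (fun hd => h0 (Nat.eq_zero_of_dvd_of_lt hd hi'))))
        have hprim : IsPrimitiveRoot ((ζ⁻¹) ^ i) p := hζ.inv.pow_of_coprime i hcop
        have := hprim.geom_sum_eq_zero hp.one_lt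
        have h6 : ∑ j ∈ Finset.range p, (ζ⁻¹) ^ (j * i) = ∑ j ∈ Finset.range p, ((ζ⁻¹) ^ i) ^ j :=
          Finset.sum_congr rfl fun j _ => by rw [← pow_mul, mul_comm]
        rw [h6, this, zero_mul]
    rw [Finset.sum_congr rfl h5, Finset.sum_ite_eq' (Finset.range p) 0]
    simp [hp.pos]
  by_contra hcon
  push Not at hcon
  have hzero : ∀ j ∈ Finset.range p, j ≠ 0 →
      ∑ i ∈ Finset.range p, (ζ⁻¹) ^ (j * i) * T^[i] x = 0 := by
    intro j hj hj0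
    by_contra hne
    exact hcon j (Nat.pos_of_ne_zero hj0) (Finset.mem_range.1 hj) hne (heig j)
  rw [Finset.sum_eq_single_of_mem 0 (Finset.mem_range.2 hp.pos) hzero] at hsum
  have h7 := heig 0
  rw [hsum, pow_zero, one_mul, map_mul, map_natCast] at h7
  exact hTx (mul_left_cancel₀ hpE h7)

end resolvent

section field

open IntermediateField

local notation "Qb" => AlgebraicClosure ℚ
local notation "GQ" => (AlgebraicClosure ℚ ≃ₐ[ℚ] AlgebraicClosure ℚ)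

open Fermat.Agent.FrobExists in
attribute [local instance] isAlgebraicQb isAlgClosureQb normalQb isGaloisQb

/-- an element fixed by `G_K`, `K = ℚ(ζ)`, lies in `K` -/
theorem glueA_mem_adjoin_of_fixed (ζ x : Qb) (h : ∀ τ : GQ, τ ζ = ζ → τ x = x) : x ∈ ℚ⟮ζ⟯ := by
  rw [← InfiniteGalois.fixedField_fixingSubgroup ℚ⟮ζ⟯, IntermediateField.mem_fixedField_iff]
  intro τ hτ
  apply h
  exact (IntermediateField.mem_fixingSubgroup_iff _ _).1 hτ ζ (mem_adjoin_simple_self ℚ ζ)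

/-- conversely -/
theorem glueA_fixed_of_mem_adjoin {ζ x : Qb} (hx : x ∈ ℚ⟮ζ⟯) (τ : GQ) (hτ : τ ζ = ζ) : τ x = x := by
  have hle : ℚ⟮ζ⟯ ≤ IntermediateField.fixedField (Subgroup.zpowers τ) := by
    rw [adjoin_simple_le_iff, IntermediateField.mem_fixedField_iff]
    intro f hf
    obtain ⟨n, rfl⟩ := Subgroup.mem_zpowers_iff.1 hf
    have : τ ∈ MulAction.stabilizer GQ ζ := hτ
    exact (MulAction.stabilizer GQ ζ).zpow_mem this n
  exact (IntermediateField.mem_fixedField_iff _ _).1 (hle hx) τ (Subgroup.mem_zpowers τ)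

/-- the fixed field of an open normal subgroup -/
theorem glueA_exists_field (N : Subgroup GQ) [hNn : N.Normal] (hN : IsOpen (N : Set GQ)) :
    ∃ L : IntermediateField ℚ Qb, FiniteDimensional ℚ L ∧ IsGalois ℚ L ∧
      (∀ σ : GQ, (∀ x ∈ L, σ x = x) ↔ σ ∈ N) ∧ (∀ x : Qb, x ∈ L ↔ ∀ σ ∈ N, σ x = x) := by
  have hcl : IsClosed (N : Set GQ) := Subgroup.isClosed_of_isOpen N hN
  have hfix : (IntermediateField.fixedField N).fixingSubgroup = N :=
    InfiniteGalois.fixingSubgroup_fixedField (⟨N, hcl⟩ : ClosedSubgroup GQ)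
  refine ⟨IntermediateField.fixedField N, ?_, ?_, ?_, fun x => IntermediateField.mem_fixedField_iff _ _⟩
  · exact (InfiniteGalois.isOpen_iff_finite _).mp (by rw [hfix]; exact hN)
  · exact (InfiniteGalois.normal_iff_isGalois _).mp (by rw [hfix]; exact hNn)
  · intro σ
    rw [← IntermediateField.mem_fixingSubgroup_iff, hfix]

theorem glueA_pow_apply (τ : GQ) (i : ℕ) (x : Qb) :
    ((τ : Qb ≃+* Qb) : Qb →+* Qb)^[i] x = (τ ^ i) x := by
  induction i with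
  | zero => simp
  | succ i ih =>
    rw [Function.iterate_succ_apply', ih, pow_succ', AlgEquiv.mul_apply]
    rfl

theorem glueA_zeta_pow {p : ℕ} (hp : 0 < p) {ζ : Qb} (hζ : IsPrimitiveRoot ζ p) {a b : ℕ} :
    ζ ^ a = ζ ^ b ↔ (a : ZMod p) = (b : ZMod p) := by
  rw [ZMod.natCast_eq_natCast_iff', pow_eq_pow_mod a hζ.pow_eq_one, pow_eq_pow_mod b hζ.pow_eq_one]
  constructor
  · intro h
    exact hζ.pow_inj (Nat.mod_lt _ hp) (Nat.mod_lt _ hp) h
  · intro h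
    rw [h]

theorem glueA_cyclo_spec {p : ℕ} [Fact p.Prime] {ζ : Qb} (hζ : IsPrimitiveRoot ζ p) (σ : GQ) :
    σ ζ = ζ ^ (((ExtCitation.cycloChar p σ : (ZMod p)ˣ) : ZMod p)).val := by
  have : NeZero p := ⟨(Fact.out : p.Prime).ne_zero⟩
  have h := modularCyclotomicCharacter.spec (L := Qb) (ExtCitation.card_rootsOfUnity_eq_self p)
    (σ : Qb ≃+* Qb) (t := (hζ.toRootsOfUnity : Qbˣ)) (SetLike.coe_mem _)
  have h' : σ ζ = ζ ^ (((modularCyclotomicCharacter Qb (ExtCitation.card_rootsOfUnity_eq_self p)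
      (σ : Qb ≃+* Qb) : (ZMod p)ˣ) : ZMod p)).val := by simpa using h
  exact h'

theorem glueA_cyclo_eq_one_iff {p : ℕ} [Fact p.Prime] {ζ : Qb} (hζ : IsPrimitiveRoot ζ p)
    (σ : GQ) : ExtCitation.cycloChar p σ = 1 ↔ σ ζ = ζ := by
  have hp : p.Prime := Fact.out
  have : NeZero p := ⟨hp.ne_zero⟩
  rw [glueA_cyclo_spec hζ σ]
  constructor
  · intro h
    rw [h, Units.val_one, ZMod.val_one, pow_one]
  · intro h
    nth_rw 2 [← pow_one ζ] at h
    rw [glueA_zeta_pow hp.pos hζ, ZMod.natCast_val, ZMod.cast_id, Nat.cast_one] at h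
    exact Units.ext h

theorem glueA_cyclo_eq_of_pow {p : ℕ} [Fact p.Prime] {ζ : Qb} (hζ : IsPrimitiveRoot ζ p)
    (σ : GQ) (c : ℕ) (h : σ ζ = ζ ^ c) :
    ((ExtCitation.cycloChar p σ : (ZMod p)ˣ) : ZMod p) = c := by
  have hp : p.Prime := Fact.out
  have : NeZero p := ⟨hp.ne_zero⟩
  rw [glueA_cyclo_spec hζ σ, glueA_zeta_pow hp.pos hζ, ZMod.natCast_val, ZMod.cast_id] at h
  exact h

theorem glueA_exists_moving {p : ℕ} [Fact p.Prime] (h3 : 3 ≤ p) {ζ : Qb}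
    (hζ : IsPrimitiveRoot ζ p) : ∃ σ : GQ, σ ζ ≠ ζ := by
  have hp : p.Prime := Fact.out
  by_contra hcon
  push Not at hcon
  obtain ⟨q, hq⟩ := (InfiniteGalois.mem_range_algebraMap_iff_fixed (k := ℚ) ζ).2 hcon
  have h1 : q ^ p = 1 := by
    have : algebraMap ℚ Qb (q ^ p) = algebraMap ℚ Qb 1 := by
      rw [map_pow, hq, hζ.pow_eq_one, map_one]
    exact (algebraMap ℚ Qb).injective this
  have hodd : Odd p := hp.odd_of_ne_two (by omega)
  have h2 : q = 1 := hodd.strictMono_pow.injective (by simpa using h1)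
  rw [h2, map_one] at hq
  exact hζ.ne_one hp.one_lt hq.symm

/-- **WP12a**: the Kummer generator attached to a non-split admissible extension. -/
theorem exists_theta {p : ℕ} [Fact p.Prime] (h3 : 3 ≤ p)
    (V : Type) [AddCommGroup V] [Module (ZMod p) V] [DistribMulAction GQ V]
    [SMulCommClass GQ (ZMod p) V]
    (C : Submodule (ZMod p) V) (hadm : ExtCitation.IsAdmissibleExtensionCts p V C)
    (hns : ¬ ExtCitation.SplitsGlobally C) :
    ∃ (ζ θ : Qb) (L : IntermediateField ℚ Qb), IsPrimitiveRoot ζ p ∧ FiniteDimensional ℚ L ∧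
      IsGalois ℚ L ∧ ℚ⟮ζ⟯ ≤ L ∧
      (∀ σ : GQ, (∀ x ∈ L, σ x = x) ↔ ∀ v : V, σ • v = v) ∧ θ ∈ L ∧ θ ≠ 0 ∧ θ ^ p ∈ ℚ⟮ζ⟯ ∧
      θ ∉ ℚ⟮ζ⟯ ∧ (∀ (σ : GQ) (c : ℕ), σ ζ = ζ ^ c → σ θ / θ ^ (c ^ 2) ∈ ℚ⟮ζ⟯) := by
  have hp : p.Prime := Fact.out
  have : NeZero p := ⟨hp.ne_zero⟩
  have : NeZero (p : Qb) := ⟨Nat.cast_ne_zero.mpr hp.ne_zero⟩
  obtain ⟨ζ, hζ⟩ := HasEnoughRootsOfUnity.exists_primitiveRoot Qb p
  have hζ0 : ζ ≠ 0 := hζ.ne_zero hp.ne_zero
  set χ : GQ →* (ZMod p)ˣ := ExtCitation.cycloChar p with hχdef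
  obtain ⟨σ₀, hσ₀⟩ := glueA_exists_moving h3 hζ
  have hσ₀' : χ σ₀ ≠ 1 := fun h => hσ₀ ((glueA_cyclo_eq_one_iff hζ σ₀).1 h)
  obtain ⟨b, hmul, htriv, hχ1, τ₁, hτ₁, hbτ₁⟩ := glueA_exists_cocycle C χ hadm.fixed_sub
    (fun σ x => by rw [hχdef, ExtCitation.coe_cycloChar]; exact hadm.cyclo_quot σ x)
    hadm.card_sub hadm.card_total σ₀ hσ₀' hns
  obtain ⟨hb1, hbpow, hbinv, hbconj⟩ := glueA_cocycle_facts χ b hmul
  -- `τ₀` with `b τ₀ = 1`
  set τ₀ : GQ := τ₁ ^ ((b τ₁)⁻¹).val with hτ₀def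
  have hχτ₀ : χ τ₀ = 1 := by rw [hτ₀def, map_pow, hτ₁, one_pow]
  have hbτ₀ : b τ₀ = 1 := by
    rw [hτ₀def, hbpow τ₁ hτ₁, ZMod.natCast_val, ZMod.cast_id, inv_mul_cancel₀ hbτ₁]
  have hτ₀ζ : τ₀ ζ = ζ := (glueA_cyclo_eq_one_iff hζ τ₀).1 hχτ₀
  -- the kernel of the action
  set N : Subgroup GQ := (MulAction.toPermHom GQ V).ker with hNdef
  have hmemN : ∀ σ : GQ, σ ∈ N ↔ ∀ v : V, σ • v = v := by
    intro σ
    rw [hNdef, MonoidHom.mem_ker, Equiv.Perm.ext_iff]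
    rfl
  have hNopen : IsOpen (N : Set GQ) := by
    have : (N : Set GQ) = {σ : GQ | ∀ v : V, σ • v = v} := by
      ext σ
      exact hmemN σ
    rw [this]
    exact hadm.open_kernel
  obtain ⟨L, hLfin, hLgal, hLfix, hLmem⟩ := glueA_exists_field N hNopen
  have hζL : ζ ∈ L := by
    rw [hLmem]
    intro σ hσ
    exact (glueA_cyclo_eq_one_iff hζ σ).1 (hχ1 σ ((hmemN σ).1 hσ))
  have hstab : ∀ (σ : GQ), ∀ x ∈ L, σ x ∈ L := by
    intro σ x hx
    rw [hLmem]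
    intro n hn
    have h1 : σ⁻¹ * n * σ ∈ N := by
      have := (inferInstance : N.Normal).conj_mem n hn σ⁻¹
      simpa using this
    have h2 := (hLmem x).1 hx _ h1
    have h3 : n (σ x) = σ ((σ⁻¹ * n * σ) x) := by
      simp only [AlgEquiv.mul_apply]
      rw [← AlgEquiv.mul_apply σ σ⁻¹, mul_inv_cancel, AlgEquiv.one_apply]
    rw [h3, h2]
  obtain ⟨x, hxL, hx⟩ : ∃ x ∈ L, τ₀ x ≠ x := by
    by_contra hcon
    push Not at hcon
    have h1 : τ₀ ∈ N := (hLfix τ₀).1 hcon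
    have h2 := (htriv τ₀ hχτ₀).2 ((hmemN τ₀).1 h1)
    rw [hbτ₀] at h2
    exact one_ne_zero h2
  have hkerfix : ∀ n : GQ, χ n = 1 → b n = 0 → ∀ y ∈ L, n y = y := by
    intro n h1 h2
    exact (hLfix n).2 ((hmemN n).2 ((htriv n h1).1 h2))
  have hTp : ((τ₀ : Qb ≃+* Qb) : Qb →+* Qb)^[p] x = x := by
    rw [glueA_pow_apply]
    apply hkerfix _ (by rw [map_pow, hχτ₀, one_pow]) _ x hxL
    rw [hbpow τ₀ hχτ₀, hbτ₀, mul_one, ZMod.natCast_self]
  obtain ⟨j, hj0, hjp, hθ0, hθeig⟩ := glueA_resolvent hp (Nat.cast_ne_zero.mpr hp.ne_zero) hζ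
    ((τ₀ : Qb ≃+* Qb) : Qb →+* Qb) hτ₀ζ x hTp hx
  set θ : Qb := ∑ i ∈ Finset.range p, (ζ⁻¹) ^ (j * i) * ((τ₀ : Qb ≃+* Qb) : Qb →+* Qb)^[i] x
    with hθdef
  have hθeig' : τ₀ θ = ζ ^ j * θ := hθeig
  have hθL : θ ∈ L := by
    rw [hθdef]
    refine sum_mem fun i _ => mul_mem (pow_mem (inv_mem hζL) _) ?_
    rw [glueA_pow_apply]
    exact hstab _ x hxL
  have hpowθ : ∀ m : ℕ, (τ₀ ^ m) θ = ζ ^ (j * m) * θ := by
    intro m
    induction m with
    | zero => simp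
    | succ m ih =>
      rw [pow_succ', AlgEquiv.mul_apply, ih, map_mul, map_pow, hτ₀ζ, hθeig', mul_add, mul_one,
        pow_add]
      ring
  have hkey : ∀ τ : GQ, χ τ = 1 → τ θ = ζ ^ (j * (b τ).val) * θ := by
    intro τ hτ
    set m := (b τ).val with hm
    have hχn : χ ((τ₀ ^ m)⁻¹ * τ) = 1 := by simp [hτ, hχτ₀]
    have hbn : b ((τ₀ ^ m)⁻¹ * τ) = 0 := by
      rw [hmul, hτ, hbinv _ (by rw [map_pow, hχτ₀, one_pow]), hbpow τ₀ hχτ₀, hbτ₀, hm,
        ZMod.natCast_val, ZMod.cast_id]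
      simp
    have h1 := hkerfix _ hχn hbn θ hθL
    have h2 : τ θ = (τ₀ ^ m) (((τ₀ ^ m)⁻¹ * τ) θ) := by
      rw [← AlgEquiv.mul_apply, mul_inv_cancel_left]
    rw [h2, h1, hpowθ]
  refine ⟨ζ, θ, L, hζ, hLfin, hLgal, adjoin_simple_le_iff.2 hζL, ?_, hθL, hθ0, ?_, ?_, ?_⟩
  · intro σ
    rw [hLfix, hmemN]
  · apply glueA_mem_adjoin_of_fixed
    intro τ hτ
    rw [map_pow, hkey τ ((glueA_cyclo_eq_one_iff hζ τ).2 hτ), mul_pow, ← pow_mul, mul_comm _ p,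
      pow_mul, hζ.pow_eq_one, one_pow, one_mul]
  · intro hθK
    have h1 := glueA_fixed_of_mem_adjoin hθK τ₀ hτ₀ζ
    rw [hθeig'] at h1
    have h2 : ζ ^ j = 1 := mul_right_cancel₀ hθ0 (h1.trans (one_mul θ).symm)
    have h3 := (hζ.pow_eq_one_iff_dvd j).1 h2
    exact absurd (Nat.le_of_dvd hj0 h3) (not_le.2 hjp)
  · intro σ c hσ
    have hχσ : ((χ σ : (ZMod p)ˣ) : ZMod p) = c := glueA_cyclo_eq_of_pow hζ σ c hσ
    apply glueA_mem_adjoin_of_fixed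
    intro τ hτ
    have hχτ : χ τ = 1 := (glueA_cyclo_eq_one_iff hζ τ).2 hτ
    have hχc : χ (σ⁻¹ * τ * σ) = 1 := by simp [hχτ]
    have h1 : τ (σ θ) = σ ((σ⁻¹ * τ * σ) θ) := by
      simp only [AlgEquiv.mul_apply]
      rw [← AlgEquiv.mul_apply σ σ⁻¹, mul_inv_cancel, AlgEquiv.one_apply]
    have h2 : τ (σ θ) = ζ ^ (c * (j * (b (σ⁻¹ * τ * σ)).val)) * σ θ := by
      rw [h1, hkey _ hχc, map_mul, map_pow, hσ, ← pow_mul]
    have h3 : τ (θ ^ (c ^ 2)) = ζ ^ (j * (b τ).val * c ^ 2) * θ ^ (c ^ 2) := by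
      rw [map_pow, hkey τ hχτ, mul_pow, ← pow_mul]
    have h4 : ζ ^ (c * (j * (b (σ⁻¹ * τ * σ)).val)) = ζ ^ (j * (b τ).val * c ^ 2) := by
      rw [glueA_zeta_pow hp.pos hζ]
      push_cast
      rw [ZMod.natCast_val, ZMod.natCast_val, ZMod.cast_id, ZMod.cast_id,
        hbconj σ τ hχτ, hχσ]
      ring
    rw [map_div₀, h2, h3, h4, mul_div_mul_left _ _ (pow_ne_zero _ hζ0)]

end field

end Fermat.Agent.S14lib
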