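import Fermat.Agent.S14.Defs
import Fermat.Agent.S13.Minkowski

/-!
# T-S14, WP12b (B2): a Kummer generator fixed by the decomposition group at `v ∣ p` is a local
`p`-th power at `v`.

Proof without `e`, `f`: if the stabiliser of `w ∣ v` in `Gal(L/K)` is trivial then the conjugates of
`w` are pairwise distinct; with a CRT idempotent `e` (`≡ 1 mod w ^ c`, `≡ 0 mod (σ w) ^ c`) the trace
`∑ σ (e x) ∈ 𝓞 K` is `≡ x mod w ^ c`: `K` is dense in `L` at `w`.
-/

set_option autoImplicit false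
set_option synthInstance.maxHeartbeats 200000
set_option linter.unusedSectionVars false
set_option linter.style.haveILetI false
open NumberField IsDedekindDomain
open scoped Pointwise

namespace Fermat.Agent.S14lib

namespace GlueB

theorem exists_exp_neg_lt {γ : WithZero (Multiplicative ℤ)} (hγ : γ ≠ 0) :
    ∃ c : ℕ, WithZero.exp (-(c : ℤ)) < γ := by
  obtain ⟨n, rfl⟩ : ∃ n : ℤ, γ = WithZero.exp n := ⟨_, (WithZero.exp_log hγ).symm⟩
  refine ⟨(1 - n).toNat, ?_⟩
  rw [WithZero.exp_lt_exp]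
  have := Int.self_le_toNat (1 - n)
  omega

/-- `(1 + t) ^ p - 1` is as small as `t` -/
theorem val_pow_sub_one_le {F Γ : Type*} [Field F] [LinearOrderedCommGroupWithZero Γ]
    (V : Valuation F Γ) (u : F) (hu : V (u - 1) ≤ 1) (p : ℕ) : V (u ^ p - 1) ≤ V (u - 1) := by
  have hu1 : V u ≤ 1 := by
    have : u = (u - 1) + 1 := by ring
    rw [this]
    exact (V.map_add _ _).trans (max_le hu (by simp))
  rw [← geom_sum_mul, map_mul]
  have h1 : V (∑ i ∈ Finset.range p, u ^ i) ≤ 1 := by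
    apply V.map_sum_le
    intro i _
    rw [map_pow]
    exact pow_le_one₀ zero_le hu1
  calc V (∑ i ∈ Finset.range p, u ^ i) * V (u - 1) ≤ 1 * V (u - 1) := by gcongr
    _ = V (u - 1) := one_mul _

section abstract

variable {K L : Type*} [Field K] [NumberField K] [Field L] [NumberField L] [Algebra K L]
  [IsGalois K L]

theorem smul_ideal_pow (σ : L ≃ₐ[K] L) (I : Ideal (𝓞 L)) (c : ℕ) : σ • (I ^ c) = (σ • I) ^ c := by
  rw [Ideal.pointwise_smul_def, Ideal.pointwise_smul_def, Ideal.map_pow]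

/-- density of `K` in `L` at a place with trivial decomposition group -/
theorem exists_sub_mem_pow_of_stabilizer (P : Ideal (𝓞 L)) [P.IsMaximal]
    (hstab : ∀ σ : L ≃ₐ[K] L, σ • P = P → σ = 1) (x : 𝓞 L) (c : ℕ) :
    ∃ z : 𝓞 K, algebraMap (𝓞 K) (𝓞 L) z - x ∈ P ^ c := by
  classical
  have hmax : ∀ σ : L ≃ₐ[K] L, (σ • P).IsMaximal := by
    intro σ
    rw [Ideal.pointwise_smul_def]
    exact Ideal.map_isMaximal_of_equiv (MulSemiringAction.toRingEquiv _ (𝓞 L) σ)
  have hcop : Pairwise (Function.onFun IsCoprime fun σ : L ≃ₐ[K] L => (σ • P) ^ c) := by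
    intro σ τ hne
    have := hmax σ
    have := hmax τ
    apply IsCoprime.pow
    apply Ideal.isCoprime_of_isMaximal
    intro h
    apply hne
    have h1 : (τ⁻¹ * σ) • P = P := by
      rw [mul_smul, h, inv_smul_smul]
    have h2 := hstab _ h1
    rw [inv_mul_eq_one] at h2
    exact h2.symm
  obtain ⟨e, he⟩ := Ideal.exists_forall_sub_mem_ideal hcop
    (fun σ : L ≃ₐ[K] L => if σ = 1 then (1 : 𝓞 L) else 0)
  have hinv : ∀ τ : L ≃ₐ[K] L, τ • (∑ σ : L ≃ₐ[K] L, σ • (e * x)) = ∑ σ : L ≃ₐ[K] L, σ • (e * x) := by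
    intro τ
    rw [Finset.smul_sum]
    refine Fintype.sum_equiv (Equiv.mulLeft τ) _ _ (fun σ => ?_)
    rw [Equiv.coe_mulLeft, mul_smul]
  obtain ⟨z, hz⟩ := Algebra.IsInvariant.isInvariant (A := 𝓞 K) (G := L ≃ₐ[K] L) _ hinv
  refine ⟨z, ?_⟩
  rw [hz, ← Finset.add_sum_erase _ _ (Finset.mem_univ (1 : L ≃ₐ[K] L)), one_smul, add_sub_right_comm]
  apply Ideal.add_mem
  · have h1 := he 1
    rw [if_pos rfl, one_smul] at h1
    have : e * x - x = (e - 1) * x := by ring
    rw [this]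
    exact Ideal.mul_mem_right _ _ h1
  · apply Ideal.sum_mem
    intro σ hσ
    have hσ1 : σ ≠ 1 := Finset.ne_of_mem_erase hσ
    have h1 := he σ⁻¹
    rw [if_neg (by simpa using hσ1), sub_zero] at h1
    rw [smul_mul']
    apply Ideal.mul_mem_right
    have h2 := Ideal.smul_mem_pointwise_smul σ e _ h1
    rwa [smul_ideal_pow, smul_inv_smul] at h2

/-- relative density -/
theorem exists_val_div_sub_one_lt (w : Pl L)
    (hstab : ∀ σ : L ≃ₐ[K] L, σ • w.asIdeal = w.asIdeal → σ = 1) (θ : L) (hθ0 : θ ≠ 0)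
    {ε : WithZero (Multiplicative ℤ)} (hε : ε ≠ 0) :
    ∃ z : K, z ≠ 0 ∧ w.valuation L (θ / algebraMap K L z - 1) < ε := by
  have halg : IsAlgebraic ℤ θ :=
    (IsFractionRing.isAlgebraic_iff ℤ ℚ L).mpr (Algebra.IsAlgebraic.isAlgebraic θ)
  obtain ⟨m, x, hm, hx⟩ := halg.exists_nsmul_eq (𝓞 L)
  have hmL : (m : L) ≠ 0 := Nat.cast_ne_zero.mpr hm
  have hmK : (m : K) ≠ 0 := Nat.cast_ne_zero.mpr hm
  rw [nsmul_eq_mul] at hx
  have hx0 : algebraMap (𝓞 L) L x ≠ 0 := by
    rw [← hx]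
    exact mul_ne_zero hmL hθ0
  have hvx : w.valuation L (algebraMap (𝓞 L) L x) ≠ 0 := (Valuation.ne_zero_iff _).mpr hx0
  have hε' : min ε 1 ≠ 0 := by
    rcases min_choice ε 1 with h | h <;> rw [h]
    · exact hε
    · exact one_ne_zero
  obtain ⟨c, hc⟩ := exists_exp_neg_lt (mul_ne_zero hε' hvx)
  have := w.isMaximal
  obtain ⟨z₀, hz₀⟩ := exists_sub_mem_pow_of_stabilizer (K := K) w.asIdeal hstab x c
  replace hz₀ : w.valuation L (algebraMap (𝓞 L) L (algebraMap (𝓞 K) (𝓞 L) z₀) - algebraMap (𝓞 L) L x)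
      ≤ WithZero.exp (-(c : ℤ)) := by
    rw [← map_sub, w.valuation_of_algebraMap]
    exact (w.intValuation_le_pow_iff_mem _ _).mpr hz₀
  have h1 : w.valuation L (algebraMap (𝓞 L) L (algebraMap (𝓞 K) (𝓞 L) z₀) - algebraMap (𝓞 L) L x)
      < min ε 1 * w.valuation L (algebraMap (𝓞 L) L x) := lt_of_le_of_lt hz₀ hc
  have h2 : w.valuation L (algebraMap (𝓞 L) L (algebraMap (𝓞 K) (𝓞 L) z₀) - algebraMap (𝓞 L) L x)
      < w.valuation L (algebraMap (𝓞 L) L x) := by
    refine lt_of_lt_of_le h1 ?_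
    calc min ε 1 * w.valuation L (algebraMap (𝓞 L) L x)
        ≤ 1 * w.valuation L (algebraMap (𝓞 L) L x) := by gcongr; exact min_le_right _ _
      _ = _ := one_mul _
  have h3 := Valuation.map_eq_of_sub_lt _ h2
  have hZ : algebraMap (𝓞 L) L (algebraMap (𝓞 K) (𝓞 L) z₀) = algebraMap K L (algebraMap (𝓞 K) K z₀) := by
    rfl
  have hZ0 : algebraMap K L (algebraMap (𝓞 K) K z₀) ≠ 0 := by
    rw [← hZ, ← Valuation.ne_zero_iff (w.valuation L), h3]
    exact hvx
  have hz0 : algebraMap (𝓞 K) K z₀ ≠ 0 := fun h => hZ0 (by rw [h, map_zero])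
  refine ⟨algebraMap (𝓞 K) K z₀ / m, div_ne_zero hz0 hmK, ?_⟩
  have h4 : θ / algebraMap K L (algebraMap (𝓞 K) K z₀ / m) - 1
      = - (algebraMap (𝓞 L) L (algebraMap (𝓞 K) (𝓞 L) z₀) - algebraMap (𝓞 L) L x) /
        algebraMap (𝓞 L) L (algebraMap (𝓞 K) (𝓞 L) z₀) := by
    rw [hZ, ← hx, map_div₀, map_natCast]
    field_simp
    ring
  rw [h4, map_div₀, Valuation.map_neg, h3, div_lt_iff₀ (zero_lt_iff.mpr hvx)]
  refine lt_of_lt_of_le h1 ?_
  gcongr
  exact min_le_left _ _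

theorem locPow_of_stabilizer {p : ℕ} (v : Pl K) (w : Pl L) [w.asIdeal.LiesOver v.asIdeal]
    (hstab : ∀ σ : L ≃ₐ[K] L, σ • w.asIdeal = w.asIdeal → σ = 1)
    (ζ α : K) (hζ : ζ ≠ 1) (θ : L) (hθ0 : θ ≠ 0) (hθ : θ ^ p = algebraMap K L α) :
    LocPow p ζ v α := by
  have hε : w.valuation L (algebraMap K L ((1 - ζ) ^ p)) ≠ 0 := by
    rw [Valuation.ne_zero_iff, map_ne_zero]
    exact pow_ne_zero _ (sub_ne_zero.mpr hζ.symm)
  have hε' : min (w.valuation L (algebraMap K L ((1 - ζ) ^ p))) 1 ≠ 0 := by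
    rcases min_choice (w.valuation L (algebraMap K L ((1 - ζ) ^ p))) 1 with h | h <;> rw [h]
    · exact hε
    · exact one_ne_zero
  obtain ⟨z, hz0, hz⟩ := exists_val_div_sub_one_lt (K := K) w hstab θ hθ0 hε'
  refine ⟨z, hz0, ?_⟩
  have h0 : algebraMap K L (α / z ^ p - 1) = (θ / algebraMap K L z) ^ p - 1 := by
    rw [map_sub, map_div₀, map_pow, map_one, ← hθ, div_pow]
  have h1 : w.valuation L (algebraMap K L (α / z ^ p - 1))
      < w.valuation L (algebraMap K L ((1 - ζ) ^ p)) := by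
    rw [h0]
    refine lt_of_le_of_lt (val_pow_sub_one_le _ _ ?_ p) (lt_of_lt_of_le hz (min_le_left _ _))
    exact (lt_of_lt_of_le hz (min_le_right _ _)).le
  rw [← HeightOneSpectrum.valuation_liesOver L v w, ← HeightOneSpectrum.valuation_liesOver L v w] at h1
  exact lt_of_pow_lt_pow_left₀ _ zero_le h1

end abstract

open Fermat.Agent.FrobExists Fermat.Agent.S13lib

noncomputable section

attribute [local instance] isAlgebraicQb isAlgClosureQb normalQb isGaloisQb isInvariantZb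
  topZb discZb contZb algK smulCommK isInvariantK compactK nfK

/-- lifting an element of a decomposition group at finite level to `G_ℚ` -/
theorem exists_lift_decomposition (L : IntermediateField ℚ Qb) [FiniteDimensional ℚ L] [IsGalois ℚ L]
    (Pt : Ideal Zb) [Pt.IsPrime] (τ : Gal(L/ℚ)) (hτ : τ • Pt.under (𝓞 L) = Pt.under (𝓞 L)) :
    ∃ σ : GQ, σ • Pt = Pt ∧ ∀ x : L, σ (x : Qb) = ((τ x : L) : Qb) := by
  obtain ⟨σ0, hσ0⟩ := AlgEquiv.restrictNormalHom_surjective (F := ℚ) (K₁ := L) Qb τ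
  have hres : ∀ x : L, σ0 (x : Qb) = ((τ x : L) : Qb) := by
    intro x
    rw [← hσ0]
    exact (AlgEquiv.restrictNormal_commutes σ0 L x).symm
  have h0 : ∀ a : 𝓞 L, σ0 • (algebraMap (𝓞 L) Zb a) = algebraMap (𝓞 L) Zb (τ • a) := by
    intro a
    apply Subtype.ext
    exact hres (a : L)
  have h0' : ∀ a : 𝓞 L, σ0⁻¹ • (algebraMap (𝓞 L) Zb a) = algebraMap (𝓞 L) Zb (τ⁻¹ • a) := by
    intro a
    rw [inv_smul_eq_iff, h0, smul_inv_smul]
  have hunder : (σ0 • Pt).under (𝓞 L) = Pt.under (𝓞 L) := by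
    ext x
    rw [Ideal.mem_comap, Ideal.mem_pointwise_smul_iff_inv_smul_mem, h0', ← Ideal.mem_comap]
    conv_rhs => rw [← hτ]
    rw [Ideal.mem_pointwise_smul_iff_inv_smul_mem]
  obtain ⟨g, hg⟩ := Algebra.IsInvariant.exists_smul_of_under_eq_of_profinite (A := 𝓞 L)
    (G := ↥L.fixingSubgroup) (σ0 • Pt) Pt hunder
  refine ⟨(g : GQ) * σ0, ?_, ?_⟩
  · rw [mul_smul]
    exact hg.symm
  · intro x
    have hfix : ∀ (y : L), (g : GQ) (y : Qb) = (y : Qb) := fun y => g.2 y
    rw [AlgEquiv.mul_apply, hres, hfix]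

/-- a valuation subring of `Qb` whose centre on `Zb` is a given prime -/
theorem exists_valuationSubring_primeOf (Pt : Ideal Zb) [Pt.IsMaximal] :
    ∃ A : ValuationSubring Qb, primeOf A = Pt := by
  let f : Zb.toSubring →+* Zb :=
    { toFun := fun x => ⟨x.1, x.2⟩
      map_one' := rfl
      map_mul' := fun _ _ => rfl
      map_zero' := rfl
      map_add' := fun _ _ => rfl }
  have hI : Ideal.comap f Pt ≠ ⊤ := Ideal.comap_ne_top f (Ideal.IsPrime.ne_top inferInstance)
  obtain ⟨A, -, hA⟩ := Ideal.image_subset_nonunits_valuationSubring _ hI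
  refine ⟨A, ?_⟩
  symm
  apply Ideal.IsMaximal.eq_of_le inferInstance (Ideal.IsPrime.ne_top inferInstance)
  intro b hb
  rw [mem_primeOf]
  exact hA ⟨⟨b.1, b.2⟩, hb, rfl⟩

theorem isIntegral_Zb (K : IntermediateField ℚ Qb) : Algebra.IsIntegral (𝓞 K) Zb := by
  refine ⟨fun b => ?_⟩
  have h : IsIntegral ℤ b := by
    have := b.2
    exact (isIntegral_algebraMap_iff (A := Zb) (B := Qb) Subtype.val_injective).mp this
  exact h.tower_top

/-- a valuation subring of `Qb` over a given place of `K` -/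
theorem exists_valuationSubring_over (K : IntermediateField ℚ Qb) [NumberField K] (v : Pl K) :
    ∃ A : ValuationSubring Qb, (primeOf A).under (𝓞 K) = v.asIdeal := by
  have := isIntegral_Zb K
  have hinj : Function.Injective (algebraMap (𝓞 K) Zb) := by
    intro a b h
    have h1 := congrArg (Subtype.val) h
    exact RingOfIntegers.ext (Subtype.ext h1)
  have := v.isMaximal
  obtain ⟨Q, hQ1, hQ2⟩ := Ideal.exists_ideal_over_maximal_of_isIntegral (S := Zb) v.asIdeal
    (by rw [(RingHom.injective_iff_ker_eq_bot _).mp hinj]; exact bot_le)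
  obtain ⟨A, hA⟩ := exists_valuationSubring_primeOf Q
  exact ⟨A, by rw [hA]; exact hQ2⟩

end

end GlueB

open Fermat.Agent.FrobExists Fermat.Agent.S13lib GlueB

attribute [local instance] isAlgebraicQb isAlgClosureQb normalQb isGaloisQb isInvariantZb
  topZb discZb contZb algK smulCommK isInvariantK compactK nfK

/-- **(B2)** -/
theorem locPow_of_decomposition {p : ℕ} [Fact p.Prime] (K L : IntermediateField ℚ Qb)
    [NumberField K] [FiniteDimensional ℚ L] [IsGalois ℚ L] (hKL : K ≤ L)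
    (hD : ∀ A : ValuationSubring Qb, A.LiesOverPrime p → ∀ σ ∈ A.decompositionSubgroup ℚ,
      σ ∈ K.fixingSubgroup → ∀ x ∈ L, σ x = x)
    (ζ α : K) (hζ : ζ ≠ 1) (hα0 : α ≠ 0) (θ : Qb) (hθL : θ ∈ L) (hθ : θ ^ p = (α : Qb))
    (v : Pl K) (hv : Above p v) : LocPow p ζ v α := by
  have hp : p.Prime := Fact.out
  letI : Algebra K L := (IntermediateField.inclusion hKL).toRingHom.toAlgebra
  haveI : IsScalarTower ℚ K L := IsScalarTower.of_algebraMap_eq (fun x => by
    exact ((IntermediateField.inclusion hKL).commutes x).symm)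
  haveI : IsGalois K L := IsGalois.tower_top_of_isGalois ℚ K L
  obtain ⟨A, hA⟩ := exists_valuationSubring_over K v
  have hAp : A.LiesOverPrime p := by
    have h1 : (p : 𝓞 K) ∈ (primeOf A).under (𝓞 K) := by rw [hA]; exact hv
    rw [Ideal.mem_comap, mem_primeOf] at h1
    have : (((algebraMap (𝓞 K) Zb (p : 𝓞 K)) : Zb) : Qb) = (p : Qb) := by
      rw [map_natCast]
      simp
    rw [this] at h1
    exact h1
  have hwbot : (primeOf A).under (𝓞 L) ≠ ⊥ := by
    intro h
    have h1 : (p : 𝓞 L) ∈ (primeOf A).under (𝓞 L) := by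
      rw [Ideal.mem_comap, mem_primeOf]
      have : (((algebraMap (𝓞 L) Zb (p : 𝓞 L)) : Zb) : Qb) = (p : Qb) := by
        rw [map_natCast]
        simp
      rw [this]
      exact hAp
    rw [h, Ideal.mem_bot] at h1
    exact hp.ne_zero (by exact_mod_cast h1)
  let w : Pl L := ⟨(primeOf A).under (𝓞 L), inferInstance, hwbot⟩
  haveI : w.asIdeal.LiesOver v.asIdeal := by
    refine ⟨?_⟩
    rw [← hA]
    rfl
  refine locPow_of_stabilizer (L := L) v w ?_ ζ α hζ ⟨θ, hθL⟩ ?_ ?_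
  · intro σ hσ
    obtain ⟨σ', hσ'P, hσ'L⟩ := exists_lift_decomposition L (primeOf A) (σ.restrictScalars ℚ) hσ
    have h1 := mem_decomposition_of_smul_primeOf A hp hAp σ' hσ'P
    have h2 : σ' ∈ K.fixingSubgroup := by
      intro x
      have h3 := hσ'L (algebraMap K L x)
      have h4 : (σ.restrictScalars ℚ) (algebraMap K L x) = algebraMap K L x := σ.commutes x
      rw [h4] at h3
      exact h3
    ext x
    have h5 := hD A hAp σ' h1 h2 x x.2
    rw [hσ'L] at h5
    exact h5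
  · intro h
    apply hα0
    have h1 : θ = 0 := congrArg Subtype.val h
    rw [h1, zero_pow hp.ne_zero] at hθ
    exact Subtype.ext hθ.symm
  · exact Subtype.ext hθ

end Fermat.Agent.S14lib
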