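import Fermat.Agent.S14.RelA
import Fermat.Agent.S14.GlueB2

/-!
# T-S14, WP12b (B1): a Kummer generator fixed by all inertia groups above `ℓ` has
`p ∣ ord_v α` at the places `v ∣ ℓ`.
-/

set_option autoImplicit false
set_option synthInstance.maxHeartbeats 200000
set_option linter.unusedSectionVars false
set_option linter.style.haveILetI false
open NumberField IsDedekindDomain
open scoped Pointwise

namespace Fermat.Agent.S14lib

namespace GlueB

/-- trivial inertia in `Gal(L/ℚ)` at `w` implies `e(w | v) = 1` -/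
theorem eRel_eq_one_of_inertia {K L : Type*} [Field K] [NumberField K] [Field L] [NumberField L]
    [Algebra K L] [IsGalois ℚ L] (w : Pl L)
    (hin : ∀ τ : Gal(L/ℚ), (∀ x : 𝓞 L, τ • x - x ∈ w.asIdeal) → τ = 1) : eRel K w = 1 := by
  have := w.isPrime
  have hcard : Nat.card (w.asIdeal.inertia Gal(L/ℚ)) = 1 := by
    rw [Nat.card_eq_one_iff_unique]
    refine ⟨⟨fun a b => ?_⟩, ⟨1⟩⟩
    exact Subtype.ext ((hin a a.2).trans (hin b b.2).symm)
  have hpne : w.asIdeal.under ℤ ≠ ⊥ := Ideal.under_ne_bot _ w.ne_bot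
  have : (w.asIdeal.under ℤ).IsMaximal := Ideal.IsPrime.isMaximal inferInstance hpne
  rw [Ideal.card_inertia_eq_ramificationIdxIn (w.asIdeal.under ℤ) w.asIdeal,
    Ideal.ramificationIdxIn_eq_ramificationIdx (w.asIdeal.under ℤ) w.asIdeal Gal(L/ℚ)] at hcard
  have h1 := Ideal.ramificationIdx_tower (R := ℤ) (w.asIdeal.under (𝓞 K)) w.asIdeal
  rw [hcard] at h1
  exact Nat.eq_one_of_mul_eq_one_left h1.symm

theorem dvd_ordv_of_inertia_trivial {K L : Type*} [Field K] [NumberField K] [Field L]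
    [NumberField L] [Algebra K L] [IsGalois ℚ L] (v : Pl K) (w : Pl L) (hwv : Over w v)
    (hin : ∀ τ : Gal(L/ℚ), (∀ x : 𝓞 L, τ • x - x ∈ w.asIdeal) → τ = 1)
    {p : ℕ} (α : K) (θ : L) (hθ : θ ^ p = algebraMap K L α) : (p : ℤ) ∣ ordv v α := by
  have h1 := ordv_over hwv α
  rw [eRel_eq_one_of_inertia (K := K) w hin, ← hθ, ordv_pow] at h1
  exact ⟨ordv w θ, by simpa using h1.symm⟩

end GlueB

open Fermat.Agent.FrobExists Fermat.Agent.S13lib GlueB

attribute [local instance] isAlgebraicQb isAlgClosureQb normalQb isGaloisQb isInvariantZb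
  topZb discZb contZb algK smulCommK isInvariantK compactK nfK

/-- **(B1)** -/
theorem dvd_ordv_of_inertia {p ℓ : ℕ} (hℓ : ℓ.Prime) (K L : IntermediateField ℚ Qb)
    [NumberField K] [FiniteDimensional ℚ L] [IsGalois ℚ L] (hKL : K ≤ L)
    (hI : ∀ A : ValuationSubring Qb, A.LiesOverPrime ℓ → ∀ σ ∈ A.inertiaSubgroupIn ℚ,
      ∀ x ∈ L, σ x = x)
    (α : K) (hα0 : α ≠ 0) (θ : Qb) (hθL : θ ∈ L) (hθ : θ ^ p = (α : Qb))
    (v : Pl K) (hv : Above ℓ v) : (p : ℤ) ∣ ordv v α := by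
  letI : Algebra K L := (IntermediateField.inclusion hKL).toRingHom.toAlgebra
  haveI : IsScalarTower ℚ K L := IsScalarTower.of_algebraMap_eq (fun x => by
    exact ((IntermediateField.inclusion hKL).commutes x).symm)
  obtain ⟨A, hA⟩ := exists_valuationSubring_over K v
  have hAp : A.LiesOverPrime ℓ := by
    have h1 : (ℓ : 𝓞 K) ∈ (primeOf A).under (𝓞 K) := by rw [hA]; exact hv
    rw [Ideal.mem_comap, mem_primeOf] at h1
    have : (((algebraMap (𝓞 K) Zb (ℓ : 𝓞 K)) : Zb) : Qb) = (ℓ : Qb) := by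
      rw [map_natCast]
      simp
    rw [this] at h1
    exact h1
  have hwbot : (primeOf A).under (𝓞 L) ≠ ⊥ := by
    intro h
    have h1 : (ℓ : 𝓞 L) ∈ (primeOf A).under (𝓞 L) := by
      rw [Ideal.mem_comap, mem_primeOf]
      have : (((algebraMap (𝓞 L) Zb (ℓ : 𝓞 L)) : Zb) : Qb) = (ℓ : Qb) := by
        rw [map_natCast]
        simp
      rw [this]
      exact hAp
    rw [h, Ideal.mem_bot] at h1
    exact hℓ.ne_zero (by exact_mod_cast h1)
  let w : Pl L := ⟨(primeOf A).under (𝓞 L), inferInstance, hwbot⟩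
  have hwv : Over w v := by
    refine ⟨?_⟩
    rw [← hA]
    rfl
  refine dvd_ordv_of_inertia_trivial (L := L) v w hwv ?_ α ⟨θ, hθL⟩ (Subtype.ext hθ)
  intro τ hτ
  obtain ⟨σ, hσP, hσb, hσL⟩ := exists_lift_inertia L (primeOf A) τ hτ
  have h1 := mem_inertiaSubgroupIn A hℓ hAp σ hσP hσb
  ext x
  have h5 := hI A hAp σ h1 x x.2
  rw [hσL] at h5
  exact h5

end Fermat.Agent.S14lib
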