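import Fermat.Agent.S14.Ord
import Fermat.Agent.S14.GlueA
import Fermat.Agent.S14.GlueB1
import Fermat.Prelude.Def_ExtCitation_AdmissibleExtension_v2

/-!
# T-S14, WP12: the glue `V ↦ α` (final assembly)
-/

set_option autoImplicit false
set_option linter.style.haveILetI false

open NumberField IsDedekindDomain IntermediateField

namespace Fermat.Agent.S14lib

local notation "Qb" => AlgebraicClosure ℚ
local notation "GQ" => (AlgebraicClosure ℚ ≃ₐ[ℚ] AlgebraicClosure ℚ)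


section aux

variable {k : Type*} [Field k] [NumberField k] {p : ℕ} [Fact p.Prime] {ζ : k}

/-- a local `p`-th power has order divisible by `p` -/
theorem glue_dvd_ordv_of_locPow (hζ : IsPrimitiveRoot ζ p) {v : Pl k} {x : k} (hx : x ≠ 0)
    (h : LocPow p ζ v x) : (p : ℤ) ∣ ordv v x := by
  obtain ⟨z, hz, hlt⟩ := h
  have h1 : v.valuation k ((1 - ζ) ^ p) ≤ 1 := by
    rw [map_pow]
    refine pow_le_one' ?_ p
    rw [valuation_le_one_iff v (one_sub_zeta_ne_zero hζ)]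
    exact ordv_one_sub_zeta_nonneg hζ v
  have h2 := ordv_eq_zero_of_sub_one_lt v (lt_of_lt_of_le hlt h1)
  rw [ordv_div v hx (pow_ne_zero _ hz), ordv_pow] at h2
  exact ⟨ordv v z, by linarith⟩

end aux

section cyclo

variable {p : ℕ} [Fact p.Prime]

/-- an automorphism fixing `ζ` has trivial cyclotomic exponent -/
theorem glue_cycloExp_eq_one {ζ : Qb} (hζ : IsPrimitiveRoot ζ p) {σ : GQ} (hσ : σ ζ = ζ) :
    ((ExtCitation.cycloExp p σ : ℕ) : ZMod p) = 1 := by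
  haveI : NeZero p := ⟨(Fact.out : p.Prime).ne_zero⟩
  rw [ExtCitation.cycloExp, ZMod.natCast_zmod_val]
  have h := modularCyclotomicCharacter.unique (L := Qb) (ExtCitation.card_rootsOfUnity_eq_self p)
    (σ : Qb ≃+* Qb) (c := 1) (by
      intro t ht
      have h1 : ((t : Qbˣ) : Qb) ^ p = 1 := by
        have := (mem_rootsOfUnity p t).1 ht
        rw [← Units.val_pow_eq_pow_val, this, Units.val_one]
      obtain ⟨i, -, hi⟩ := hζ.eq_pow_of_pow_eq_one h1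
      have hp1 : (1 : ZMod p).val = 1 := by
        haveI : Fact (1 < p) := ⟨(Fact.out : p.Prime).one_lt⟩
        exact ZMod.val_one p
      rw [hp1, pow_one, ← hi]
      show σ (ζ ^ i) = ζ ^ i
      rw [map_pow, hσ])
  rw [h]

end cyclo

section final

/-- **(GLUE)** (WP12) -/
theorem exists_alpha {p : ℕ} [Fact p.Prime] (h3 : 3 ≤ p)
    (V : Type) [AddCommGroup V] [Module (ZMod p) V]
    [DistribMulAction (AlgebraicClosure ℚ ≃ₐ[ℚ] AlgebraicClosure ℚ) V]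
    [SMulCommClass (AlgebraicClosure ℚ ≃ₐ[ℚ] AlgebraicClosure ℚ) (ZMod p) V]
    (C : Submodule (ZMod p) V) (hadm : ExtCitation.IsAdmissibleExtensionCts p V C)
    (hns : ¬ ExtCitation.SplitsGlobally C) :
    ∃ (K : Type) (_ : Field K) (_ : NumberField K) (_ : IsCyclotomicExtension {p} ℚ K) (ζ α : K),
      IsPrimitiveRoot ζ p ∧ α ≠ 0 ∧ (∀ y : K, y ^ p ≠ α) ∧ (∀ v : Pl K, (p : ℤ) ∣ ordv v α) ∧
      (∀ v : Pl K, Above p v → LocPow p ζ v α) ∧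
      (∀ (σ : K ≃ₐ[ℚ] K) (c : ℕ), σ ζ = ζ ^ c → ∃ β : K, β ≠ 0 ∧ σ α = α ^ (c ^ 2) * β ^ p) := by
  obtain ⟨ζ, θ, L, hζ, hLfd, hLgal, hKL, hL, hθL, hθ0, hθp, hθK, hθσ⟩ :=
    exists_theta h3 V C hadm hns
  have hp : p.Prime := Fact.out
  haveI : NeZero p := ⟨hp.ne_zero⟩
  haveI : Algebra.IsAlgebraic ℚ Qb := AlgebraicClosure.isAlgebraic ℚ
  haveI : Algebra.IsIntegral ℚ Qb := Algebra.IsAlgebraic.isIntegral
  haveI : Normal ℚ Qb := normal_iff.2 fun x =>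
    ⟨Algebra.IsIntegral.isIntegral x, IsAlgClosed.splits _⟩
  haveI hcyc : IsCyclotomicExtension {p} ℚ ℚ⟮ζ⟯ :=
    hζ.intermediateField_adjoin_isCyclotomicExtension ℚ
  haveI hnf : NumberField ℚ⟮ζ⟯ := IsCyclotomicExtension.numberField {p} ℚ _
  set ζK : ℚ⟮ζ⟯ := ⟨ζ, mem_adjoin_simple_self ℚ ζ⟩ with hζKdef
  set α : ℚ⟮ζ⟯ := ⟨θ ^ p, hθp⟩ with hαdef
  have hζK : IsPrimitiveRoot ζK p :=
    IsPrimitiveRoot.of_map_of_injective (f := algebraMap ℚ⟮ζ⟯ Qb)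
      (hf := (algebraMap ℚ⟮ζ⟯ Qb).injective) hζ
  have hα0 : α ≠ 0 := fun h => pow_ne_zero p hθ0 (congrArg Subtype.val h)
  have hζK1 : ζK ≠ 1 := hζK.ne_one hp.one_lt
  -- inertia and decomposition groups
  have hI : ∀ ℓ : ℕ, ℓ.Prime → ℓ ≠ p → ∀ A : ValuationSubring Qb, A.LiesOverPrime ℓ →
      ∀ σ ∈ A.inertiaSubgroupIn ℚ, ∀ x ∈ L, σ x = x := by
    intro ℓ hℓ hℓp A hA σ hσ
    exact (hL σ).2 (hadm.unramified_outside ℓ hℓ hℓp A hA σ hσ)
  have hD : ∀ A : ValuationSubring Qb, A.LiesOverPrime p → ∀ σ ∈ A.decompositionSubgroup ℚ,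
      σ ∈ (ℚ⟮ζ⟯).fixingSubgroup → ∀ x ∈ L, σ x = x := by
    intro A hA σ hσ hσK
    refine (hL σ).2 fun x => ?_
    obtain ⟨C', hC', hcompl⟩ := hadm.locally_split A hA
    have hσζ : σ ζ = ζ :=
      (IntermediateField.mem_fixingSubgroup_iff _ σ).1 hσK ζ (mem_adjoin_simple_self ℚ ζ)
    have hx : x ∈ C ⊔ C' := by rw [hcompl.sup_eq_top]; exact Submodule.mem_top
    obtain ⟨c, hc, c', hc', rfl⟩ := Submodule.mem_sup.1 hx
    have h1 : σ • c' - c' ∈ C := by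
      have := hadm.cyclo_quot σ c'
      rwa [glue_cycloExp_eq_one hζ hσζ, one_smul] at this
    have h2 : σ • c' - c' ∈ C' := C'.sub_mem (hC' σ hσ c' hc') hc'
    have h3 : σ • c' - c' = 0 := by
      have : σ • c' - c' ∈ C ⊓ C' := ⟨h1, h2⟩
      rwa [hcompl.inf_eq_bot, Submodule.mem_bot] at this
    rw [smul_add, hadm.fixed_sub σ c hc, sub_eq_zero.1 h3]
  have hloc : ∀ v : Pl ℚ⟮ζ⟯, Above p v → LocPow p ζK v α := fun v hv =>
    locPow_of_decomposition ℚ⟮ζ⟯ L hKL hD ζK α hζK1 hα0 θ hθL rfl v hv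
  refine ⟨ℚ⟮ζ⟯, inferInstance, hnf, hcyc, ζK, α, hζK, hα0, ?_, ?_, hloc, ?_⟩
  · intro y hy
    have hy' : (y : Qb) ^ p = θ ^ p := congrArg Subtype.val hy
    have hy0 : (y : Qb) ≠ 0 := by
      intro h0
      rw [h0, zero_pow hp.ne_zero] at hy'
      exact pow_ne_zero p hθ0 hy'.symm
    have h1 : (θ / (y : Qb)) ^ p = 1 := by rw [div_pow, hy', div_self (pow_ne_zero p hθ0)]
    obtain ⟨i, -, hi⟩ := hζ.eq_pow_of_pow_eq_one h1
    apply hθK
    have h2 : θ = ζ ^ i * (y : Qb) := by rw [hi, div_mul_cancel₀ _ hy0]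
    rw [h2]
    exact mul_mem (pow_mem (mem_adjoin_simple_self ℚ ζ) i) y.2
  · intro v
    obtain ⟨ℓ, hℓ, hv⟩ := exists_prime_above v
    by_cases hℓp : ℓ = p
    · subst hℓp
      exact glue_dvd_ordv_of_locPow hζK hα0 (hloc v hv)
    · exact dvd_ordv_of_inertia hℓ ℚ⟮ζ⟯ L hKL (hI ℓ hℓ hℓp) α hα0 θ hθL rfl v hv
  · intro σ c hσ
    set τ : GQ := σ.liftNormal Qb with hτ
    have hτK : ∀ x : ℚ⟮ζ⟯, τ (x : Qb) = ((σ x : ℚ⟮ζ⟯) : Qb) := fun x =>
      AlgEquiv.liftNormal_commutes σ Qb x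
    have hτζ : τ ζ = ζ ^ c := by
      have := hτK ζK
      rw [hσ] at this
      exact this
    have hτθ0 : τ θ ≠ 0 := (map_ne_zero τ).2 hθ0
    refine ⟨⟨τ θ / θ ^ (c ^ 2), hθσ τ c hτζ⟩, ?_, ?_⟩
    · intro h0
      exact div_ne_zero hτθ0 (pow_ne_zero _ hθ0) (congrArg Subtype.val h0)
    · apply Subtype.ext
      rw [← hτK α]
      show τ (θ ^ p) = (θ ^ p) ^ (c ^ 2) * (τ θ / θ ^ (c ^ 2)) ^ p
      rw [map_pow, div_pow, ← pow_mul, ← pow_mul, mul_comm p (c ^ 2),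
        mul_div_cancel₀ _ (pow_ne_zero _ hθ0)]

end final

end Fermat.Agent.S14lib
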