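import Fermat.Agent.S14.Defs

/-!
# T-S14, WP0b: approximation (Chinese remainder theorem in valuation form)

* `exists_int_approx`   : CRT in `𝓞 k`, additive form, `val_v (c - a v) ≤ exp (- n v)`;
* `exists_approx_add`   : weak approximation in `k`, additive form, `val_v (x - y v) < ε v`;
* `exists_approx_int`   : multiplicative form inside `𝓞 k`;
* `exists_approx`       : multiplicative form in `k`: `val_v (x / y v - 1) < ε v`, `ordv v x = ordv v (y v)`;
* `exists_ordv_eq`      : prescribed orders on a finite set;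
* `exists_int_ordv_eq`  : the same in `𝓞 k` (orders `≥ 0`).
-/

set_option autoImplicit false

open NumberField IsDedekindDomain

namespace Fermat.Agent.S14lib

variable {k : Type*} [Field k] [NumberField k]


/-- CRT in `𝓞 k`, valuation form -/
theorem exists_int_approx (T : Finset (Pl k)) (a : Pl k → 𝓞 k) (n : Pl k → ℕ) :
    ∃ c : 𝓞 k, ∀ v ∈ T, v.valuation k ((c : k) - (a v : k)) ≤ WithZero.exp (-(n v : ℤ)) := by
  obtain ⟨c, hc⟩ := IsDedekindDomain.exists_forall_sub_mem_ideal (s := T)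
    (fun v : Pl k => v.asIdeal) n (fun v _ => v.prime)
    (fun v _ w _ h h' => h (HeightOneSpectrum.ext h')) (fun v => a v.1)
  refine ⟨c, fun v hv => ?_⟩
  have h1 := (v.intValuation_le_pow_iff_mem (c - a v) (n v)).2 (hc v hv)
  rw [← v.valuation_of_algebraMap (K := k)] at h1
  simpa using h1

theorem ordv_eq_of_val_eq {v : Pl k} {x y : k} (h : v.valuation k x = v.valuation k y) :
    ordv v x = ordv v y := by
  unfold ordv; rw [h]

theorem val_eq_of_div_sub_one_lt {v : Pl k} {x y : k} (hy : y ≠ 0)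
    (h : v.valuation k (x / y - 1) < 1) : v.valuation k x = v.valuation k y := by
  have h1 : v.valuation k (x / y) = 1 := by
    have := Valuation.map_add_eq_of_lt_left (v.valuation k) (x := (1 : k)) (y := x / y - 1)
      (by rwa [map_one])
    rw [map_one] at this
    rw [← this]; congr 1; ring
  rw [map_div₀] at h1
  have hy' : v.valuation k y ≠ 0 := (Valuation.ne_zero_iff _).2 hy
  field_simp at h1
  exact h1

theorem exists_exp_neg_lt (γ : WithZero (Multiplicative ℤ)) (hγ : γ ≠ 0) :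
    ∃ n : ℕ, WithZero.exp (-(n : ℤ)) < γ := by
  refine ⟨(1 - WithZero.log γ).toNat, ?_⟩
  have h := Int.self_le_toNat (1 - WithZero.log γ)
  generalize (1 - WithZero.log γ).toNat = n at h
  conv_rhs => rw [← WithZero.exp_log hγ]
  rw [WithZero.exp_lt_exp]
  omega

/-- multiplicative approximation inside `𝓞 k` -/
theorem exists_approx_int (T : Finset (Pl k)) (a : Pl k → 𝓞 k) (ha : ∀ v ∈ T, a v ≠ 0)
    (ε : Pl k → WithZero (Multiplicative ℤ)) (hε : ∀ v ∈ T, ε v ≠ 0) :
    ∃ c : 𝓞 k, c ≠ 0 ∧ ∀ v ∈ T, v.valuation k ((c : k) / (a v : k) - 1) < ε v ∧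
      ordv v (c : k) = ordv v (a v : k) := by
  classical
  rcases T.eq_empty_or_nonempty with rfl | hT
  · exact ⟨1, one_ne_zero, by simp⟩
  have hex : ∀ v : Pl k, ∃ n : ℕ, v ∈ T →
      WithZero.exp (-(n : ℤ)) < min (ε v) 1 * v.valuation k (a v : k) := by
    intro v
    by_cases hv : v ∈ T
    · have h1 : min (ε v) 1 * v.valuation k (a v : k) ≠ 0 := by
        refine mul_ne_zero ?_ ((Valuation.ne_zero_iff _).2 ?_)
        · rcases min_choice (ε v) 1 with h | h <;> rw [h]
          · exact hε v hv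
          · exact one_ne_zero
        · exact fun h => ha v hv (RingOfIntegers.coe_eq_zero_iff.1 h)
      obtain ⟨n, hn⟩ := exists_exp_neg_lt _ h1
      exact ⟨n, fun _ => hn⟩
    · exact ⟨0, fun h => absurd h hv⟩
  choose n hn using hex
  obtain ⟨c, hc⟩ := exists_int_approx T a n
  have key : ∀ v ∈ T, v.valuation k ((c : k) / (a v : k) - 1) < min (ε v) 1 := by
    intro v hv
    have ha' : (a v : k) ≠ 0 := fun h => ha v hv (RingOfIntegers.coe_eq_zero_iff.1 h)
    have hva : v.valuation k (a v : k) ≠ 0 := (Valuation.ne_zero_iff _).2 ha'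
    have e : (c : k) / (a v : k) - 1 = ((c : k) - (a v : k)) / (a v : k) := by
      field_simp
    rw [e, map_div₀, div_lt_iff₀ (zero_lt_iff.2 hva)]
    exact lt_of_le_of_lt (hc v hv) (hn v hv)
  refine ⟨c, ?_, fun v hv => ⟨lt_of_lt_of_le (key v hv) (min_le_left _ _), ?_⟩⟩
  · rintro rfl
    obtain ⟨v, hv⟩ := hT
    have := lt_of_lt_of_le (key v hv) (min_le_right _ _)
    simp at this
  · have ha' : (a v : k) ≠ 0 := fun h => ha v hv (RingOfIntegers.coe_eq_zero_iff.1 h)
    exact ordv_eq_of_val_eq (val_eq_of_div_sub_one_lt ha'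
      (lt_of_lt_of_le (key v hv) (min_le_right _ _)))

/-- common denominator -/
theorem exists_common_denom (T : Finset (Pl k)) (y : Pl k → k) :
    ∃ (d : 𝓞 k) (a : Pl k → 𝓞 k), d ≠ 0 ∧ ∀ v ∈ T, (a v : k) = (d : k) * y v := by
  classical
  obtain ⟨d, hd⟩ := IsLocalization.exist_integer_multiples_of_finset (nonZeroDivisors (𝓞 k))
    (T.image y)
  have hex : ∀ v : Pl k, ∃ a : 𝓞 k, v ∈ T → (a : k) = ((d : 𝓞 k) : k) * y v := by
    intro v
    by_cases hv : v ∈ T
    · obtain ⟨a, ha⟩ := hd (y v) (Finset.mem_image_of_mem y hv)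
      refine ⟨a, fun _ => ?_⟩
      rw [Algebra.smul_def] at ha
      exact ha
    · exact ⟨0, fun h => absurd h hv⟩
  choose a ha using hex
  exact ⟨d, a, nonZeroDivisors.coe_ne_zero d, ha⟩

/-- weak approximation, additive form -/
theorem exists_approx_add (T : Finset (Pl k)) (y : Pl k → k) (ε : Pl k → WithZero (Multiplicative ℤ))
    (hε : ∀ v ∈ T, ε v ≠ 0) : ∃ x : k, ∀ v ∈ T, v.valuation k (x - y v) < ε v := by
  classical
  obtain ⟨d, a, hd, ha⟩ := exists_common_denom T y
  have hd' : (d : k) ≠ 0 := fun h => hd (RingOfIntegers.coe_eq_zero_iff.1 h)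
  have hex : ∀ v : Pl k, ∃ n : ℕ, v ∈ T →
      WithZero.exp (-(n : ℤ)) < ε v * v.valuation k (d : k) := by
    intro v
    by_cases hv : v ∈ T
    · obtain ⟨n, hn⟩ := exists_exp_neg_lt _
        (mul_ne_zero (hε v hv) ((Valuation.ne_zero_iff (v.valuation k)).2 hd'))
      exact ⟨n, fun _ => hn⟩
    · exact ⟨0, fun h => absurd h hv⟩
  choose n hn using hex
  obtain ⟨c, hc⟩ := exists_int_approx T a n
  refine ⟨(c : k) / (d : k), fun v hv => ?_⟩
  have hvd : v.valuation k (d : k) ≠ 0 := (Valuation.ne_zero_iff _).2 hd'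
  have e : (c : k) / (d : k) - y v = ((c : k) - (a v : k)) / (d : k) := by
    rw [ha v hv]; field_simp
  rw [e, map_div₀, div_lt_iff₀ (zero_lt_iff.2 hvd)]
  exact lt_of_le_of_lt (hc v hv) (hn v hv)

/-- **(A1)** weak approximation, multiplicative form -/
theorem exists_approx (T : Finset (Pl k)) (y : Pl k → k) (hy : ∀ v ∈ T, y v ≠ 0)
    (ε : Pl k → WithZero (Multiplicative ℤ)) (hε : ∀ v ∈ T, ε v ≠ 0) :
    ∃ x : k, x ≠ 0 ∧ ∀ v ∈ T, v.valuation k (x / y v - 1) < ε v ∧ ordv v x = ordv v (y v) := by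
  obtain ⟨d, a, hd, ha⟩ := exists_common_denom T y
  have hd' : (d : k) ≠ 0 := fun h => hd (RingOfIntegers.coe_eq_zero_iff.1 h)
  have ha0 : ∀ v ∈ T, a v ≠ 0 := by
    intro v hv h
    have := ha v hv
    rw [h] at this
    exact mul_ne_zero hd' (hy v hv) (by simpa using this.symm)
  obtain ⟨c, hc0, hc⟩ := exists_approx_int T a ha0 (fun v => min (ε v) 1) (fun v hv => by
    rcases min_choice (ε v) 1 with h | h <;> simp only [h]
    · exact hε v hv
    · exact one_ne_zero)
  have hc' : (c : k) ≠ 0 := fun h => hc0 (RingOfIntegers.coe_eq_zero_iff.1 h)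
  refine ⟨(c : k) / (d : k), div_ne_zero hc' hd', fun v hv => ?_⟩
  have e : (c : k) / (d : k) / y v = (c : k) / (a v : k) := by
    rw [ha v hv]; field_simp
  have h1 := (hc v hv).1
  rw [← e] at h1
  exact ⟨lt_of_lt_of_le h1 (min_le_left _ _), ordv_eq_of_val_eq
    (val_eq_of_div_sub_one_lt (hy v hv) (lt_of_lt_of_le h1 (min_le_right _ _)))⟩

/-- an element of order `n` at `v` -/
theorem exists_ordv_eq_single (v : Pl k) (n : ℤ) : ∃ x : k, x ≠ 0 ∧ ordv v x = n := by
  obtain ⟨π, hπ⟩ := v.valuation_exists_uniformizer k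
  have hπ0 : π ≠ 0 := by
    rintro rfl
    rw [map_zero] at hπ
    exact WithZero.exp_ne_zero hπ.symm
  refine ⟨π ^ n, zpow_ne_zero _ hπ0, ?_⟩
  unfold ordv
  rw [map_zpow₀, hπ, ← WithZero.exp_zsmul, WithZero.log_exp]
  simp

/-- **(A2)** prescribed orders on a finite set -/
theorem exists_ordv_eq (T : Finset (Pl k)) (n : Pl k → ℤ) :
    ∃ x : k, x ≠ 0 ∧ ∀ v ∈ T, ordv v x = n v := by
  choose y hy0 hy using fun v : Pl k => exists_ordv_eq_single v (n v)
  obtain ⟨x, hx0, hx⟩ := exists_approx T y (fun v _ => hy0 v) (fun _ => 1) (fun _ _ => one_ne_zero)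
  exact ⟨x, hx0, fun v hv => ((hx v hv).2).trans (hy v)⟩

/-- prescribed orders `≥ 0` on a finite set, by an algebraic integer -/
theorem exists_int_ordv_eq (T : Finset (Pl k)) (n : Pl k → ℕ) :
    ∃ c : 𝓞 k, c ≠ 0 ∧ ∀ v ∈ T, ordv v (c : k) = n v := by
  have hex : ∀ v : Pl k, ∃ a : 𝓞 k, a ≠ 0 ∧ ordv v (a : k) = n v := by
    intro v
    obtain ⟨π, hπ⟩ := v.valuation_exists_uniformizer' k
    have hπ0 : π ≠ 0 := by
      rintro rfl
      have h0 : (((0 : 𝓞 k) : 𝓞 k) : k) = 0 := rfl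
      have h1 : v.valuation k (algebraMap (𝓞 k) k 0) = WithZero.exp (-1) := hπ
      rw [map_zero, map_zero] at h1
      exact WithZero.exp_ne_zero h1.symm
    refine ⟨π ^ n v, pow_ne_zero _ hπ0, ?_⟩
    unfold ordv
    have e : ((π ^ n v : 𝓞 k) : k) = (algebraMap (𝓞 k) k π) ^ n v := by simp
    rw [e, map_pow, hπ, ← WithZero.exp_nsmul, WithZero.log_exp]
    simp
  choose a ha0 ha using hex
  obtain ⟨c, hc0, hc⟩ := exists_approx_int T a (fun v _ => ha0 v) (fun _ => 1)
    (fun _ _ => one_ne_zero)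
  exact ⟨c, hc0, fun v hv => ((hc v hv).2).trans (ha v)⟩

end Fermat.Agent.S14lib
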