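import Fermat.Agent.S14.Ord

/-!
# T-S14, WP2 (P): `∏_v N v ^ (ord_v a) = |N a|`
-/

set_option autoImplicit false

open NumberField IsDedekindDomain

namespace Fermat.Agent.S14lib

variable {k : Type*} [Field k] [NumberField k]

theorem ordv_algebraMap_eq_count (v : Pl k) {a : 𝓞 k} (ha : a ≠ 0) :
    ordv v (algebraMap (𝓞 k) k a) =
      ((Associates.mk v.asIdeal).count (Associates.mk (Ideal.span {a})).factors : ℤ) := by
  rw [ordv, HeightOneSpectrum.valuation_of_algebraMap, HeightOneSpectrum.intValuation_if_neg v ha,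
    WithZero.log_exp, neg_neg]

theorem maxPowDividing_span_eq (v : Pl k) {a : 𝓞 k} (ha : a ≠ 0) :
    v.maxPowDividing (Ideal.span {a}) = v.asIdeal ^ (ordv v (algebraMap (𝓞 k) k a)).toNat := by
  rw [ordv_algebraMap_eq_count v ha, Int.toNat_natCast, HeightOneSpectrum.maxPowDividing]

/-- the ideal `(a)` is the product of the `v ^ ord_v a` -/
theorem span_eq_prod_pow_ordv {a : 𝓞 k} (ha : a ≠ 0) (S : Finset (Pl k))
    (hS : ∀ v : Pl k, ordv v (algebraMap (𝓞 k) k a) ≠ 0 → v ∈ S) :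
    Ideal.span {a} = ∏ v ∈ S, v.asIdeal ^ (ordv v (algebraMap (𝓞 k) k a)).toNat := by
  have hI : Ideal.span {a} ≠ 0 := by simpa using ha
  conv_lhs => rw [← Ideal.finprod_heightOneSpectrum_factorization hI]
  rw [finprod_eq_prod_of_mulSupport_subset (s := S)]
  · exact Finset.prod_congr rfl fun v _ => maxPowDividing_span_eq v ha
  · intro v hv
    apply hS
    intro h0
    apply hv
    show v.maxPowDividing (Ideal.span {a}) = 1
    rw [maxPowDividing_span_eq v ha, h0]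
    simp

/-- `∏_v N v ^ (ord_v a) = N (a)` for a nonzero algebraic integer `a` -/
theorem prod_nrm_pow_ordv_int {a : 𝓞 k} (ha : a ≠ 0) (S : Finset (Pl k))
    (hS : ∀ v : Pl k, ordv v (algebraMap (𝓞 k) k a) ≠ 0 → v ∈ S) :
    ∏ v ∈ S, nrm v ^ (ordv v (algebraMap (𝓞 k) k a)).toNat = Ideal.absNorm (Ideal.span {a}) := by
  rw [span_eq_prod_pow_ordv ha S hS, map_prod]
  exact Finset.prod_congr rfl fun v _ => by rw [map_pow, nrm]

theorem prod_nrm_pow_ordv_int' {a : 𝓞 k} (ha : a ≠ 0) (S : Finset (Pl k))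
    (hS : ∀ v : Pl k, ordv v (algebraMap (𝓞 k) k a) ≠ 0 → v ∈ S) :
    ∏ v ∈ S, nrm v ^ (ordv v (algebraMap (𝓞 k) k a)).toNat = (Algebra.norm ℤ a).natAbs := by
  rw [prod_nrm_pow_ordv_int ha S hS, Ideal.absNorm_span_singleton]

/-- `∏_v N v ^ (ord_v n) = n ^ [k : ℚ]` -/
theorem prod_nrm_pow_ordv_natCast {n : ℕ} (hn : n ≠ 0) (S : Finset (Pl k))
    (hS : ∀ v : Pl k, ordv v (n : k) ≠ 0 → v ∈ S) :
    ∏ v ∈ S, nrm v ^ (ordv v (n : k)).toNat = n ^ Module.finrank ℚ k := by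
  have h := prod_nrm_pow_ordv_int (a := (n : 𝓞 k)) (by exact_mod_cast hn) S
    (by simpa using hS)
  rw [Ideal.absNorm_span_natCast, RingOfIntegers.rank] at h
  simpa using h

/-- the form wanted by WP2 -/
theorem prod_nrm_pow_ordv_prime {p : ℕ} (hp : p ≠ 0) (S : Finset (Pl k))
    (hS : ∀ v : Pl k, Above p v → v ∈ S) :
    ∏ v ∈ S, nrm v ^ (ordv v (p : k)).toNat = p ^ Module.finrank ℚ k :=
  prod_nrm_pow_ordv_natCast hp S fun v hv => hS v (by
    by_contra h
    exact hv ((not_above_iff_ordv_eq_zero hp v).1 h))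

/-- general `x ∈ kˣ`, as an identity of rational numbers -/
theorem prod_nrm_zpow_ordv {x : k} (hx : x ≠ 0) (S : Finset (Pl k))
    (hS : ∀ v : Pl k, ordv v x ≠ 0 → v ∈ S) :
    ∏ v ∈ S, (nrm v : ℚ) ^ (ordv v x) = |Algebra.norm ℚ x| := by
  classical
  obtain ⟨a, b, hb, rfl⟩ := IsFractionRing.div_surjective (𝓞 k) x
  have hb0 : b ≠ 0 := nonZeroDivisors.ne_zero hb
  have ha0 : a ≠ 0 := by
    rintro rfl
    simp at hx
  have ha' : algebraMap (𝓞 k) k a ≠ 0 := by simpa using ha0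
  have hb' : algebraMap (𝓞 k) k b ≠ 0 := by simpa using hb0
  set T : Finset (Pl k) := S ∪ (finite_ordv_ne_zero (algebraMap (𝓞 k) k a)).toFinset ∪
    (finite_ordv_ne_zero (algebraMap (𝓞 k) k b)).toFinset with hT
  have hST : ∏ v ∈ S, (nrm v : ℚ) ^ (ordv v (algebraMap (𝓞 k) k a / algebraMap (𝓞 k) k b)) =
      ∏ v ∈ T, (nrm v : ℚ) ^ (ordv v (algebraMap (𝓞 k) k a / algebraMap (𝓞 k) k b)) := by
    apply Finset.prod_subset
    · intro v hv; simp [hT, hv]
    · intro v _ hv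
      have : ordv v (algebraMap (𝓞 k) k a / algebraMap (𝓞 k) k b) = 0 := by
        by_contra h
        exact hv (hS v h)
      rw [this, zpow_zero]
  have key : ∀ c : 𝓞 k, c ≠ 0 → (∀ v : Pl k, ordv v (algebraMap (𝓞 k) k c) ≠ 0 → v ∈ T) →
      ∏ v ∈ T, (nrm v : ℚ) ^ (ordv v (algebraMap (𝓞 k) k c)) =
        |Algebra.norm ℚ (algebraMap (𝓞 k) k c)| := by
    intro c hc hcT
    have h := prod_nrm_pow_ordv_int' hc T hcT
    have h2 : (∏ v ∈ T, (nrm v : ℚ) ^ (ordv v (algebraMap (𝓞 k) k c))) =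
        ((∏ v ∈ T, nrm v ^ (ordv v (algebraMap (𝓞 k) k c)).toNat : ℕ) : ℚ) := by
      push_cast
      refine Finset.prod_congr rfl fun v _ => ?_
      conv_lhs => rw [← Int.toNat_of_nonneg (ordv_algebraMap_nonneg v c)]
      rw [zpow_natCast]
    rw [h2, h, Nat.cast_natAbs, Int.cast_abs]
    congr 1
    exact Algebra.coe_norm_int c
  have hnd : Algebra.norm ℚ (algebraMap (𝓞 k) k a / algebraMap (𝓞 k) k b) =
      Algebra.norm ℚ (algebraMap (𝓞 k) k a) / Algebra.norm ℚ (algebraMap (𝓞 k) k b) := by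
    rw [eq_div_iff (by simpa [Algebra.norm_eq_zero_iff] using hb0), ← map_mul,
      div_mul_cancel₀ _ hb']
  rw [hST, hnd, abs_div, ← key a ha0 (by intro v hv; simp [hT, hv]),
    ← key b hb0 (by intro v hv; simp [hT, hv]), ← Finset.prod_div_distrib]
  refine Finset.prod_congr rfl fun v _ => ?_
  have hn : (nrm v : ℚ) ≠ 0 := by
    have := one_lt_nrm v
    positivity
  rw [ordv_div v ha' hb', zpow_sub₀ hn]

end Fermat.Agent.S14lib
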