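import Fermat.Agent.S14.Sym
import Fermat.Agent.S14.LocIdxP

/-!
# T-S14, X-block: the sum formula used in `art_principal`

`∑_w ord_w z * (N w / rr) = (N_{F/ℚ} z / rr)` for `z ∈ Fˣ` prime to `r`.
-/

set_option autoImplicit false

open NumberField IsDedekindDomain

namespace Fermat.Agent.S14lib

variable {K F : Type*} [Field K] [NumberField K] [Field F] [NumberField F]
  {p : ℕ} [Fact p.Prime]

/-- `N w` is an `rr`-unit when `w`, `rr` lie above different primes -/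
theorem as_ordv_nrm_eq_zero {rr : Pl K} {r : ℕ} (hr : r.Prime) (hrr : Above r rr) {w : Pl F}
    (hw : ¬ Above r w) : ordv rr ((nrm w : ℕ) : K) = 0 := by
  apply ordv_natCast_eq_zero
  obtain ⟨f, -, hf⟩ := nrm_eq_pow hr hrr
  rw [hf]
  apply Nat.Coprime.pow_right
  rw [Nat.coprime_comm, hr.coprime_iff_not_dvd]
  exact fun h => hw (above_of_dvd_nrm hr h)

theorem as_nrm_ne_zero (w : Pl F) : ((nrm w : ℕ) : K) ≠ 0 := by
  have := one_lt_nrm w
  exact_mod_cast (by omega : nrm w ≠ 0)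

/-- the symbol does not see the sign (`p` odd) -/
theorem as_sym_neg (hp2 : p ≠ 2) {ζ : K} (hζ : IsPrimitiveRoot ζ p) {v : Pl K}
    (hv : ¬ Above p v) {x : K} (hx0 : x ≠ 0) (hx : (p : ℤ) ∣ ordv v x) :
    sym p ζ v (-x) = sym p ζ v x := by
  have hodd : Odd p := (Fact.out : p.Prime).odd_of_ne_two hp2
  have h := sym_mul_pow_self hζ hv hx0 hx (β := (-1 : K)) (by simp)
  rwa [hodd.neg_one_pow, mul_neg_one] at h

theorem sum_ordv_mul_sym_nrm (hp2 : p ≠ 2) {ζ : K} (hζ : IsPrimitiveRoot ζ p) {rr : Pl K}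
    (hrrp : ¬ Above p rr) {r : ℕ} (hr : r.Prime) (hrr : Above r rr) {z : F} (hz0 : z ≠ 0)
    (hz : ∀ w : Pl F, Above r w → ordv w z = 0) :
    ∑ w ∈ (dvf z).support, ((ordv w z : ℤ) : ZMod p) * sym p ζ rr ((nrm w : ℕ) : K) =
      sym p ζ rr (algebraMap ℚ K (Algebra.norm ℚ z)) := by
  classical
  have hnot : ∀ w ∈ (dvf z).support, ¬ Above r w := by
    intro w hw h
    rw [Finsupp.mem_support_iff, dvf_apply] at hw
    exact hw (hz w h)
  have hprod := prod_nrm_zpow_ordv hz0 (dvf z).support (fun v hv => by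
    rwa [Finsupp.mem_support_iff, dvf_apply])
  have hprodK : ∏ w ∈ (dvf z).support, (((nrm w : ℕ) : K)) ^ (ordv w z) =
      algebraMap ℚ K |Algebra.norm ℚ z| := by
    rw [← hprod, map_prod]
    refine Finset.prod_congr rfl fun w _ => ?_
    rw [map_zpow₀, map_natCast]
  have hf0 : ∀ w ∈ (dvf z).support, (((nrm w : ℕ) : K)) ^ (ordv w z) ≠ 0 :=
    fun w _ => zpow_ne_zero _ (as_nrm_ne_zero w)
  have hford : ∀ w ∈ (dvf z).support, ordv rr ((((nrm w : ℕ) : K)) ^ (ordv w z)) = 0 := by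
    intro w hw
    rw [ordv_zpow, as_ordv_nrm_eq_zero hr hrr (hnot w hw), mul_zero]
  have h1 := sym_prod hζ hrrp (dvf z).support (fun w => (((nrm w : ℕ) : K)) ^ (ordv w z)) hf0
    (fun w hw => by rw [hford w hw]; exact dvd_zero _)
  have hN0 : Algebra.norm ℚ z ≠ 0 := by
    rwa [Ne, Algebra.norm_eq_zero_iff]
  have habs0 : ordv rr (algebraMap ℚ K |Algebra.norm ℚ z|) = 0 := by
    rw [← hprodK, ordv_prod rr _ _ hf0]
    exact Finset.sum_eq_zero hford
  have hsum : ∑ w ∈ (dvf z).support, ((ordv w z : ℤ) : ZMod p) * sym p ζ rr ((nrm w : ℕ) : K) =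
      sym p ζ rr (algebraMap ℚ K |Algebra.norm ℚ z|) := by
    rw [← hprodK, h1]
    refine Finset.sum_congr rfl fun w hw => ?_
    rw [sym_zpow hζ hrrp (as_nrm_ne_zero w)
      (by rw [as_ordv_nrm_eq_zero hr hrr (hnot w hw)]; exact dvd_zero _)]
  rw [hsum]
  rcases abs_choice (Algebra.norm ℚ z) with h | h
  · rw [h]
  · rw [h] at habs0 ⊢
    rw [map_neg] at habs0 ⊢
    rw [ordv_neg] at habs0
    exact as_sym_neg hp2 hζ hrrp ((map_ne_zero _).2 hN0) (by rw [habs0]; exact dvd_zero _)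

end Fermat.Agent.S14lib
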