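import Mathlib

/-!
# T-S14, WP6 part A: Kummer data

For `w_1, …, w_n ∈ k` independent modulo `p`-th powers (`ζ_p ∈ k`) and any `a ∈ (ℤ/p)^n` there are a
number field `L ⊇ k`, Galois over `ℚ`, `p`-th roots `θ_i ∈ L` of the `w_i`, and `g ∈ Gal(L/ℚ)` fixing `k`
with `g θ_i = ζ ^ a_i θ_i`.
-/

set_option autoImplicit false
set_option linter.style.haveILetI false

open IntermediateField

namespace Fermat.Agent.S14lib

namespace CKA

theorem pow_mod_of_pow_eq_one {M : Type*} [Monoid M] {p : ℕ} {z : M} (hz : z ^ p = 1) (m : ℕ) :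
    z ^ (m % p) = z ^ m := by
  conv_rhs => rw [← Nat.div_add_mod m p, pow_add, pow_mul, hz, one_pow, one_mul]

/-- `ζ ^ (a + b).val = ζ ^ a.val * ζ ^ b.val` for a `p`-th root of unity -/
theorem pow_val_add {M : Type*} [Monoid M] {p : ℕ} [NeZero p] {z : M} (hz : z ^ p = 1)
    (a b : ZMod p) : z ^ (a + b).val = z ^ a.val * z ^ b.val := by
  rw [ZMod.val_add, ← pow_add, pow_mod_of_pow_eq_one hz]

/-- `z ^ m = 1` if `(m : ZMod p) = 0` -/
theorem pow_eq_one_of_cast {M : Type*} [Monoid M] {p : ℕ} {z : M} (hz : z ^ p = 1) {m : ℕ}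
    (hm : (m : ZMod p) = 0) : z ^ m = 1 := by
  obtain ⟨c, rfl⟩ := (ZMod.natCast_eq_zero_iff m p).1 hm
  rw [pow_mul, hz, one_pow]

section abstract

variable {L : Type*} [Field L] [Algebra ℚ L] {p : ℕ} [Fact p.Prime] {n : ℕ}

/-- the set of the Kummer vectors of the elements of a subgroup `G` of automorphisms -/
def kumSet (G : Subgroup (L ≃ₐ[ℚ] L)) (z : L) (θ : Fin n → L) : Set (Fin n → ZMod p) :=
  {h | ∃ g ∈ G, ∀ i, g (θ i) = z ^ (h i).val * θ i}

/-- it is a subspace -/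
def kumSub (G : Subgroup (L ≃ₐ[ℚ] L)) (z : L) (hz : z ^ p = 1) (hGz : ∀ g ∈ G, g z = z)
    (θ : Fin n → L) : Submodule (ZMod p) (Fin n → ZMod p) :=
  let A : AddSubmonoid (Fin n → ZMod p) :=
    { carrier := kumSet G z θ
      zero_mem' := ⟨1, G.one_mem, fun i => by simp⟩
      add_mem' := by
        rintro h₁ h₂ ⟨g₁, hg₁, e₁⟩ ⟨g₂, hg₂, e₂⟩
        refine ⟨g₁ * g₂, G.mul_mem hg₁ hg₂, fun i => ?_⟩
        rw [AlgEquiv.mul_apply, e₂, map_mul, map_pow, hGz g₁ hg₁, e₁, Pi.add_apply,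
          pow_val_add hz]
        ring }
  { A with
    smul_mem' := by
      intro c h hh
      have e : c • h = c.val • h := by
        rw [← Nat.cast_smul_eq_nsmul (ZMod p), ZMod.natCast_zmod_val]
      rw [e]
      exact A.nsmul_mem hh _ }

theorem mem_kumSub {G : Subgroup (L ≃ₐ[ℚ] L)} {z : L} {hz : z ^ p = 1} {hGz : ∀ g ∈ G, g z = z}
    {θ : Fin n → L} {h : Fin n → ZMod p} :
    h ∈ kumSub G z hz hGz θ ↔ ∃ g ∈ G, ∀ i, g (θ i) = z ^ (h i).val * θ i := Iff.rfl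

end abstract

end CKA

open CKA

theorem exists_kummer_data {k : Type} [Field k] [NumberField k] {p : ℕ} [Fact p.Prime] {ζ : k}
    (hζ : IsPrimitiveRoot ζ p) {n : ℕ} (w : Fin n → k) (hw0 : ∀ i, w i ≠ 0)
    (hind : ∀ e : Fin n → ℤ, (∃ y : k, y ^ p = ∏ i, w i ^ e i) → ∀ i, (p : ℤ) ∣ e i)
    (a : Fin n → ZMod p) :
    ∃ (L : Type) (_ : Field L) (_ : NumberField L) (_ : IsGalois ℚ L) (ι : k →+* L)
      (θ : Fin n → L) (g : L ≃ₐ[ℚ] L),
      (∀ i, θ i ^ p = ι (w i)) ∧ (∀ x, g (ι x) = ι x) ∧ ∀ i, g (θ i) = ι ζ ^ (a i).val * θ i := by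
  classical
  have hp : p.Prime := Fact.out
  let Ω := AlgebraicClosure k
  haveI : IsAlgClosure ℚ Ω := IsAlgClosure.ofAlgebraic ℚ k Ω
  haveI : Normal ℚ Ω := IsAlgClosure.normal ℚ Ω
  have hroot : ∀ i, ∃ t : Ω, t ^ p = algebraMap k Ω (w i) :=
    fun i => IsAlgClosed.exists_pow_nat_eq _ hp.pos
  choose θ₀ hθ₀ using hroot
  let j : k →ₐ[ℚ] Ω := IsScalarTower.toAlgHom ℚ k Ω
  let k0 : IntermediateField ℚ Ω := j.fieldRange
  haveI : FiniteDimensional ℚ k0 :=
    (AlgEquiv.ofInjectiveField j).toLinearEquiv.finiteDimensional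
  have hint : ∀ x ∈ Set.range θ₀, IsIntegral ℚ x := by
    rintro _ ⟨i, rfl⟩
    have h1 : IsIntegral ℚ (θ₀ i ^ p) := by
      rw [hθ₀]
      exact (Algebra.IsIntegral.isIntegral (R := ℚ) (w i)).map j
    exact h1.of_pow hp.pos
  haveI : FiniteDimensional ℚ (IntermediateField.adjoin ℚ (Set.range θ₀)) :=
    IntermediateField.finiteDimensional_adjoin hint
  let E : IntermediateField ℚ Ω := k0 ⊔ IntermediateField.adjoin ℚ (Set.range θ₀)
  haveI : FiniteDimensional ℚ E := IntermediateField.finiteDimensional_sup _ _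
  let L : IntermediateField ℚ Ω := IntermediateField.normalClosure ℚ E Ω
  haveI hnorm : Normal ℚ L := normalClosure.normal ℚ _ Ω
  haveI hgal : IsGalois ℚ L := ⟨⟩
  haveI : FiniteDimensional ℚ L := normalClosure.is_finiteDimensional ℚ E Ω
  haveI : NumberField L := ⟨⟩
  have hEL : E ≤ L := IntermediateField.le_normalClosure E
  have hkL : ∀ x : k, j x ∈ L := fun x => hEL ((le_sup_left : k0 ≤ E) ⟨x, rfl⟩)
  have hθL : ∀ i, θ₀ i ∈ L := fun i =>
    hEL ((le_sup_right : _ ≤ E) (IntermediateField.subset_adjoin ℚ _ ⟨i, rfl⟩))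
  let ι : k →ₐ[ℚ] L := j.codRestrict L.toSubalgebra hkL
  let θ : Fin n → L := fun i => ⟨θ₀ i, hθL i⟩
  have hθ : ∀ i, θ i ^ p = ι (w i) := fun i => Subtype.ext (hθ₀ i)
  have hθ0 : ∀ i, θ i ≠ 0 := by
    intro i h0
    have h1 := hθ i
    rw [h0, zero_pow hp.ne_zero] at h1
    exact hw0 i ((map_eq_zero ι).1 h1.symm)
  let k' : IntermediateField ℚ L := ι.fieldRange
  let G : Subgroup (L ≃ₐ[ℚ] L) := k'.fixingSubgroup
  have hG : ∀ g ∈ G, ∀ x : k, g (ι x) = ι x := fun g hg x =>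
    (IntermediateField.mem_fixingSubgroup_iff k' g).1 hg _ ⟨x, rfl⟩
  have hz' : IsPrimitiveRoot (ι ζ) p := hζ.map_of_injective ι.toRingHom.injective
  have hz : (ι ζ) ^ p = 1 := hz'.pow_eq_one
  have hGz : ∀ g ∈ G, g (ι ζ) = ι ζ := fun g hg => hG g hg ζ
  -- every element of `G` has a Kummer vector
  have hvec : ∀ g ∈ G, ∃ h : Fin n → ZMod p, ∀ i, g (θ i) = ι ζ ^ (h i).val * θ i := by
    intro g hg
    have h1 : ∀ i, ∃ c : ZMod p, g (θ i) = ι ζ ^ c.val * θ i := by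
      intro i
      have h2 : (g (θ i) / θ i) ^ p = 1 := by
        rw [div_pow, ← map_pow, hθ, hG g hg, div_self]
        rw [← hθ]
        exact pow_ne_zero _ (hθ0 i)
      obtain ⟨c, hc, hc'⟩ := hz'.eq_pow_of_pow_eq_one h2
      refine ⟨(c : ZMod p), ?_⟩
      rw [ZMod.val_natCast_of_lt hc, hc', div_mul_cancel₀ _ (hθ0 i)]
    choose h hh using h1
    exact ⟨h, hh⟩
  have htop : kumSub G (ι ζ) hz hGz θ = ⊤ := by
    by_contra hne
    obtain ⟨f, hf0, hfH⟩ := Submodule.exists_le_ker_of_lt_top _ (lt_top_iff_ne_top.2 hne)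
    let e : Fin n → ℕ := fun i => (f (Pi.single i 1)).val
    let y : L := ∏ i, θ i ^ e i
    have hfix : ∀ g ∈ G, g y = y := by
      intro g hg
      obtain ⟨h, hh⟩ := hvec g hg
      have hmem : h ∈ kumSub G (ι ζ) hz hGz θ := ⟨g, hg, hh⟩
      have hfh : f h = 0 := hfH hmem
      have h3 : g y = ι ζ ^ (∑ i, (h i).val * e i) * y := by
        show g (∏ i, θ i ^ e i) = _
        rw [map_prod, ← Finset.prod_pow_eq_pow_sum, ← Finset.prod_mul_distrib]
        refine Finset.prod_congr rfl fun i _ => ?_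
        rw [map_pow, hh, mul_pow, pow_mul]
      have h4 : ((∑ i, (h i).val * e i : ℕ) : ZMod p) = 0 := by
        rw [← hfh, LinearMap.pi_apply_eq_sum_univ f h]
        push_cast
        refine Finset.sum_congr rfl fun i _ => ?_
        rw [ZMod.natCast_zmod_val, ZMod.natCast_zmod_val, smul_eq_mul]
        congr 2
        ext j'
        simp [Pi.single_apply, eq_comm]
      rw [h3, pow_eq_one_of_cast hz h4, one_mul]
    have hyk : y ∈ k' := by
      have h5 : y ∈ IntermediateField.fixedField (k'.fixingSubgroup) := by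
        rw [IntermediateField.mem_fixedField_iff]
        exact hfix
      rwa [IsGalois.fixedField_fixingSubgroup] at h5
    obtain ⟨y₀, hy₀⟩ := hyk
    have h6 : y₀ ^ p = ∏ i, w i ^ ((e i : ℕ) : ℤ) := by
      apply ι.toRingHom.injective
      show ι (y₀ ^ p) = ι (∏ i, w i ^ ((e i : ℕ) : ℤ))
      rw [map_pow]
      have h7 : ι y₀ = y := hy₀
      rw [h7, map_prod]
      show (∏ i, θ i ^ e i) ^ p = _
      rw [← Finset.prod_pow]
      refine Finset.prod_congr rfl fun i _ => ?_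
      rw [zpow_natCast, map_pow, ← hθ, ← pow_mul, ← pow_mul, mul_comm]
    have h8 := hind (fun i => ((e i : ℕ) : ℤ)) ⟨y₀, h6⟩
    apply hf0
    apply LinearMap.pi_ext
    intro i x
    have h9 : e i = 0 := by
      have h10 : p ∣ e i := Int.natCast_dvd_natCast.1 (h8 i)
      exact Nat.eq_zero_of_dvd_of_lt h10 (ZMod.val_lt _)
    have h11 : f (Pi.single i 1) = 0 := (ZMod.val_eq_zero _).1 h9
    have h12 : (Pi.single i x : Fin n → ZMod p) = x • Pi.single i 1 := by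
      rw [← Pi.single_smul, smul_eq_mul, mul_one]
    rw [h12, map_smul, h11, smul_zero, LinearMap.zero_apply]
  have ha : a ∈ kumSub G (ι ζ) hz hGz θ := by rw [htop]; exact Submodule.mem_top
  obtain ⟨g, hg, hga⟩ := ha
  exact ⟨L, inferInstance, inferInstance, hgal, ι.toRingHom, θ, g, hθ, hG g hg, hga⟩

end Fermat.Agent.S14lib
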