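import Fermat.Agent.S14.Ord
import Fermat.Agent.S14.Approx

/-!
# T-S14, WP0c: finite sets of places generating the class group

* `ClGen S`            : every divisor is principal off `S`;
* `ClGen.mono`         : monotone in `S`;
* `exists_clGen`       : a finite `S ⊇ S0`, disjoint from `Sg`, with `ClGen S`;
* `exists_ordv_eq_classNumber_mul` : `h • D` is principal (`h` the class number);
* `ClGen.exists_fun`   : version for functions with finite support.
-/

set_option autoImplicit false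

open NumberField IsDedekindDomain
open scoped nonZeroDivisors

namespace Fermat.Agent.S14lib

variable {k : Type*} [Field k] [NumberField k]

/-- `S` generates the class group: every divisor is principal off `S` -/
def ClGen (S : Set (Pl k)) : Prop :=
  ∀ D : Pl k →₀ ℤ, ∃ z : k, z ≠ 0 ∧ ∀ v, v ∉ S → ordv v z = D v

theorem ClGen.mono {S S' : Set (Pl k)} (h : ClGen S) (hS : S ⊆ S') : ClGen S' := by
  intro D
  obtain ⟨z, hz, hD⟩ := h D
  exact ⟨z, hz, fun v hv => hD v (fun hv' => hv (hS hv'))⟩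

/-- version for functions with finite support -/
theorem ClGen.exists_fun {S : Set (Pl k)} (h : ClGen S) (D : Pl k → ℤ)
    (hD : {v | D v ≠ 0}.Finite) : ∃ z : k, z ≠ 0 ∧ ∀ v, v ∉ S → ordv v z = D v := by
  classical
  obtain ⟨z, hz, hz'⟩ := h (Finsupp.onFinset hD.toFinset D (fun v hv => by simpa using hv))
  exact ⟨z, hz, fun v hv => by rw [hz' v hv]; rfl⟩

theorem clg_count_algebraMap (v : Pl k) {a : 𝓞 k} (ha : a ≠ 0) :
    FractionalIdeal.count k v (FractionalIdeal.spanSingleton (𝓞 k)⁰ (algebraMap (𝓞 k) k a)) =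
      ordv v (algebraMap (𝓞 k) k a) := by
  classical
  rw [← FractionalIdeal.coeIdeal_span_singleton, FractionalIdeal.count_coe k v (by simpa using ha),
    ordv, HeightOneSpectrum.valuation_of_algebraMap, HeightOneSpectrum.intValuation_if_neg v ha]
  simp

theorem clg_count_spanSingleton (v : Pl k) {z : k} (hz : z ≠ 0) :
    FractionalIdeal.count k v (FractionalIdeal.spanSingleton (𝓞 k)⁰ z) = ordv v z := by
  obtain ⟨a, d, hd, rfl⟩ := IsFractionRing.div_surjective (A := 𝓞 k) z
  have hd0 : d ≠ 0 := nonZeroDivisors.ne_zero hd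
  have ha0 : a ≠ 0 := by
    rintro rfl
    simp at hz
  have hd' : algebraMap (𝓞 k) k d ≠ 0 := by simpa using hd0
  have ha' : algebraMap (𝓞 k) k a ≠ 0 := by simpa using ha0
  rw [div_eq_mul_inv, ← FractionalIdeal.spanSingleton_mul_spanSingleton,
    ← FractionalIdeal.spanSingleton_inv, FractionalIdeal.count_mul k v
      (by simpa [FractionalIdeal.spanSingleton_eq_zero_iff] using ha0)
      (by simpa [FractionalIdeal.spanSingleton_eq_zero_iff] using hd0),
    FractionalIdeal.count_inv, clg_count_algebraMap v ha0, clg_count_algebraMap v hd0,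
    ordv_mul v ha' (inv_ne_zero hd'), ordv_inv]


/-- the fractional ideal of a divisor, as a unit -/
noncomputable def clgFid (D : Pl k →₀ ℤ) : (FractionalIdeal (𝓞 k)⁰ k)ˣ :=
  Units.mk0 (D.prod (fun v n => (v.asIdeal : FractionalIdeal (𝓞 k)⁰ k) ^ n))
    (Finset.prod_ne_zero_iff.2 fun v _ =>
      zpow_ne_zero _ (FractionalIdeal.coeIdeal_ne_zero.mpr v.ne_bot))

theorem clg_count_fid (D : Pl k →₀ ℤ) (v : Pl k) :
    FractionalIdeal.count k v (clgFid D : FractionalIdeal (𝓞 k)⁰ k) = D v :=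
  FractionalIdeal.count_finsuppProd k v D

/-- a unit fractional ideal of trivial class is principal -/
theorem clg_exists_of_mk_eq_one {I : (FractionalIdeal (𝓞 k)⁰ k)ˣ}
    (h : ClassGroup.mk k I = 1) :
    ∃ z : k, z ≠ 0 ∧ ∀ v : Pl k, ordv v z = FractionalIdeal.count k v (I : FractionalIdeal (𝓞 k)⁰ k) := by
  rw [ClassGroup.mk_eq_one_iff, FractionalIdeal.isPrincipal_iff] at h
  obtain ⟨z, hz⟩ := h
  have hz0 : z ≠ 0 := by
    rintro rfl
    exact I.ne_zero (by rw [hz]; simp)
  exact ⟨z, hz0, fun v => by rw [hz, clg_count_spanSingleton v hz0]⟩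

theorem clg_exists_of_mk_eq {D E : Pl k →₀ ℤ}
    (h : ClassGroup.mk k (clgFid D) = ClassGroup.mk k (clgFid E)) :
    ∃ z : k, z ≠ 0 ∧ ∀ v : Pl k, ordv v z = D v - E v := by
  have h1 : ClassGroup.mk k (clgFid D * (clgFid E)⁻¹) = 1 := by
    rw [map_mul, map_inv, h, mul_inv_cancel]
  obtain ⟨z, hz0, hz⟩ := clg_exists_of_mk_eq_one h1
  refine ⟨z, hz0, fun v => ?_⟩
  rw [hz, Units.val_mul, Units.val_inv_eq_inv_val,
    FractionalIdeal.count_mul k v (clgFid D).ne_zero (inv_ne_zero (clgFid E).ne_zero),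
    FractionalIdeal.count_inv, clg_count_fid, clg_count_fid]
  ring

/-- `h • D` is principal, `h` the class number -/
theorem exists_ordv_eq_classNumber_mul (D : Pl k →₀ ℤ) :
    ∃ z : k, z ≠ 0 ∧ ∀ v, ordv v z = (classNumber k : ℤ) * D v := by
  have h1 : ClassGroup.mk k ((clgFid D) ^ (classNumber k)) = 1 := by
    rw [map_pow, classNumber, pow_card_eq_one]
  obtain ⟨z, hz0, hz⟩ := clg_exists_of_mk_eq_one h1
  refine ⟨z, hz0, fun v => ?_⟩
  rw [hz, Units.val_pow_eq_pow_val, FractionalIdeal.count_pow, clg_count_fid]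

/-- **WP0c.** a finite set of places containing `S0`, disjoint from `Sg`, generating the class
group -/
theorem exists_clGen (Sg S0 : Finset (Pl k)) (hdisj : Disjoint S0 Sg) :
    ∃ S : Finset (Pl k), S0 ⊆ S ∧ Disjoint S Sg ∧ ClGen (S : Set (Pl k)) := by
  classical
  -- a representative divisor of each class, supported off `Sg`
  have hrep : ∀ c : ClassGroup (𝓞 k), ∃ E : Pl k →₀ ℤ, (∀ v ∈ Sg, E v = 0) ∧
      ∀ D : Pl k →₀ ℤ, ClassGroup.mk k (clgFid D) = c →
        ∃ z : k, z ≠ 0 ∧ ∀ v : Pl k, ordv v z = D v - E v := by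
    intro c
    by_cases hc : ∃ D : Pl k →₀ ℤ, ClassGroup.mk k (clgFid D) = c
    · obtain ⟨D0, hD0⟩ := hc
      obtain ⟨x, hx0, hx⟩ := exists_ordv_eq Sg (fun v => D0 v)
      refine ⟨D0 - dvf x, fun v hv => ?_, fun D hD => ?_⟩
      · rw [Finsupp.sub_apply, dvf_apply, hx v hv, sub_self]
      · obtain ⟨z, hz0, hz⟩ := clg_exists_of_mk_eq (hD.trans hD0.symm)
        refine ⟨z * x, mul_ne_zero hz0 hx0, fun v => ?_⟩
        rw [ordv_mul v hz0 hx0, hz, Finsupp.sub_apply, dvf_apply]
        ring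
    · exact ⟨0, fun _ _ => rfl, fun D hD => absurd ⟨D, hD⟩ hc⟩
  choose E hE0 hE using hrep
  refine ⟨S0 ∪ Finset.univ.biUnion (fun c => (E c).support), Finset.subset_union_left, ?_, ?_⟩
  · rw [Finset.disjoint_union_left]
    refine ⟨hdisj, ?_⟩
    rw [Finset.disjoint_biUnion_left]
    intro c _
    rw [Finset.disjoint_left]
    intro v hv hv'
    exact (Finsupp.mem_support_iff.1 hv) (hE0 c v hv')
  · intro D
    obtain ⟨z, hz0, hz⟩ := hE _ D rfl
    refine ⟨z, hz0, fun v hv => ?_⟩
    have hv0 : E (ClassGroup.mk k (clgFid D)) v = 0 := by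
      by_contra hne
      apply hv
      rw [Finset.coe_union, Set.mem_union]
      right
      rw [Finset.mem_coe, Finset.mem_biUnion]
      exact ⟨_, Finset.mem_univ _, Finsupp.mem_support_iff.2 hne⟩
    rw [hz, hv0, sub_zero]

end Fermat.Agent.S14lib
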