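import Mathlib

/-!
# T-S14: shared vocabulary

`k` is a number field containing a primitive `p`-th root of unity `ζ` (`p` odd).  Everything is
phrased inside `k`: no ideles, no completions.
-/

set_option autoImplicit false

open NumberField IsDedekindDomain

namespace Fermat.Agent.S14lib

/-- finite places of the number field `k` -/
abbrev Pl (k : Type*) [Field k] [NumberField k] : Type _ := HeightOneSpectrum (𝓞 k)

variable {k : Type*} [Field k] [NumberField k]

/-- additive valuation; junk value `ordv v 0 = 0` -/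
noncomputable def ordv (v : Pl k) (x : k) : ℤ := - WithZero.log (v.valuation k x)

/-- `v` lies above the rational prime `p` -/
def Above (p : ℕ) (v : Pl k) : Prop := (p : 𝓞 k) ∈ v.asIdeal

/-- absolute norm of a place -/
noncomputable def nrm (v : Pl k) : ℕ := Ideal.absNorm v.asIdeal

/-- **local `p`-th power**, uniformly in `v`: `x / z ^ p ≡ 1 mod v ^ (p * ord_v (1 - ζ) + 1)`. -/
def LocPow (p : ℕ) (ζ : k) (v : Pl k) (x : k) : Prop :=
  ∃ z : k, z ≠ 0 ∧ v.valuation k (x / z ^ p - 1) < v.valuation k ((1 - ζ) ^ p)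

/-- `(x / v) = ζ ^ i` (power residue symbol), for `v ∤ p` and `p ∣ ord_v x`. -/
def SymEq (p : ℕ) (ζ : k) (v : Pl k) (x : k) (i : ZMod p) : Prop :=
  ∃ z : k, z ≠ 0 ∧ v.valuation k ((x / z ^ p) ^ ((nrm v - 1) / p) - ζ ^ i.val) < 1

open Classical in
/-- the power residue symbol, additively; junk value `0`. -/
noncomputable def sym (p : ℕ) (ζ : k) (v : Pl k) (x : k) : ZMod p :=
  if h : ∃ i, SymEq p ζ v x i then h.choose else 0

/-- `D ∈ P + Norms` for the extension `k(x^(1/p))/k`, written inside `k`; `Sg` = places to avoid. -/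
def InPN (p : ℕ) (ζ : k) (Sg : Set (Pl k)) (x : k) (D : Pl k → ℤ) : Prop :=
  ∃ z : k, z ≠ 0 ∧ (∀ v ∈ Sg, ordv v z = 0) ∧
    (∀ v, ¬ (p : ℤ) ∣ ordv v x → ordv v z = 0 ∧ LocPow p ζ v z) ∧
    (∀ v, (p : ℤ) ∣ ordv v x → ¬ LocPow p ζ v x → (p : ℤ) ∣ D v - ordv v z)

end Fermat.Agent.S14lib

namespace Fermat.Agent.S14lib

open NumberField IsDedekindDomain

variable {k : Type*} [Field k] [NumberField k]

/-- `pull σ v = σ⁻¹ v = {x | σ x ∈ v}` -/
noncomputable def pull (σ : k ≃+* k) (v : Pl k) : Pl k :=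
  (HeightOneSpectrum.equivOfRingEquiv (RingOfIntegers.mapRingEquiv σ)).symm v

/-- the divisor of an element, as a function -/
noncomputable def dv (x : k) : Pl k → ℤ := fun v => ordv v x

end Fermat.Agent.S14lib
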