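import Fermat.Agent.S14.KumSplit

/-!
# T-S14, (FI), block L: lifting divisors to norms, choice of `S`
-/

set_option autoImplicit false

open NumberField IsDedekindDomain

namespace Fermat.Agent.S14lib

variable {k : Type} [Field k] [NumberField k] {N : Type} [Field N] [NumberField N] [Algebra k N]
  {p : ℕ} [Fact p.Prime] {ζ x : k} {θ : N} {s : N ≃ₐ[k] N}

/-! ## Block L: lifting divisors to norms -/

theorem fil_notMem_upS_of_over {S : Finset (Pl k)} {w : Pl N} {v : Pl k} (h : Over w v) (hv : v ∉ S) :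
    w ∉ upS N S := by
  intro hw
  obtain ⟨v', hv', hw'⟩ := mem_upS.1 hw
  exact hv (by rw [h.unique hw']; exact hv')

/-- (L) -/
theorem IsKum.exists_norm_ordv (H : IsKum p ζ x N θ s) (hζ : IsPrimitiveRoot ζ p) (hx0 : x ≠ 0)
    {S : Finset (Pl k)} (hS : GoodS p ζ x S) (hclN : ClGen ((upS N S : Finset (Pl N)) : Set (Pl N)))
    {y : k} (hy0 : y ≠ 0) (hy : ∀ v ∉ S, ¬ LocPow p ζ v x → (p : ℤ) ∣ ordv v y) :
    ∃ t : N, t ≠ 0 ∧ ∀ v ∉ S, ordv v (Algebra.norm k t) = ordv v y := by
  classical
  choose wch hwch using fun v : Pl k => exists_over (F := N) v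
  let A : Pl N → ℤ := fun w =>
    if w = wch (w.under (𝓞 k)) then ordv (w.under (𝓞 k)) y / (fRel k w : ℤ) else 0
  have hAfin : {w | A w ≠ 0}.Finite := by
    refine ((finite_ordv_ne_zero y).image wch).subset ?_
    intro w hw
    simp only [Set.mem_setOf_eq, A] at hw
    split_ifs at hw with h1
    · refine ⟨w.under (𝓞 k), ?_, h1.symm⟩
      intro h0
      apply hw
      rw [h0, Int.zero_ediv]
    · exact absurd rfl hw
  obtain ⟨t, ht0, ht⟩ := hclN.exists_fun A hAfin
  refine ⟨t, ht0, fun v hv => ?_⟩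
  rw [ordv_norm v ht0, Finset.sum_eq_single (wch v)]
  · have hu : (wch v).under (𝓞 k) = v := ((hwch v).eq_under).symm
    have h1 : ordv (wch v) t = ordv v y / (fRel k (wch v) : ℤ) := by
      rw [ht (wch v) (by simpa using fil_notMem_upS_of_over (hwch v) hv)]
      simp only [A]
      rw [hu, if_pos rfl]
    rw [h1]
    apply Int.mul_ediv_cancel'
    by_cases hloc : LocPow p ζ v x
    · rw [((H.split hζ hx0 hloc).2 (wch v) (hwch v)).2]
      simp
    · have hv1 : (p : ℤ) ∣ ordv v x := by
        by_contra hcon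
        exact hv (hS.ram v hcon)
      have hvp : ¬ Above p v := fun h => hv (hS.above v h)
      rw [(H.inert hζ hx0 hv1 hloc hvp (hwch v)).2.1]
      exact hy v hv hloc
  · intro w hw hne
    have hwv : Over w v := mem_placesOver.1 hw
    have hu : w.under (𝓞 k) = v := (hwv.eq_under).symm
    rw [ht w (by simpa using fil_notMem_upS_of_over hwv hv)]
    simp only [A]
    rw [hu, if_neg hne, mul_zero]
  · intro h
    exact absurd (mem_placesOver.2 (hwch v)) h

/-- (S) choice of `S` -/
theorem exists_goodS (N : Type) [Field N] [NumberField N] [Algebra k N] (p : ℕ) [Fact p.Prime]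
    (ζ x : k) (hx0 : x ≠ 0) :
    ∃ S : Finset (Pl k), GoodS p ζ x S ∧ ClGen ((upS N S : Finset (Pl N)) : Set (Pl N)) := by
  classical
  have hp : p.Prime := Fact.out
  obtain ⟨SN, -, -, hSN⟩ := exists_clGen (k := N) ∅ ∅ (by simp)
  let S0 : Finset (Pl k) := (finite_ordv_ne_zero x).toFinset ∪ (finite_above (k := k) hp.ne_zero).toFinset ∪
    SN.image (fun w => w.under (𝓞 k))
  obtain ⟨S, hS0, -, hS⟩ := exists_clGen (k := k) ∅ S0 (by simp)
  refine ⟨S, ⟨fun v hv => hS0 ?_, fun v hv => hS0 ?_, hS⟩, hSN.mono ?_⟩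
  · simp only [S0, Finset.mem_union, Set.Finite.mem_toFinset, Set.mem_setOf_eq]
    left; left
    intro h0
    exact hv (by rw [h0]; exact dvd_zero _)
  · simp only [S0, Finset.mem_union, Set.Finite.mem_toFinset, Set.mem_setOf_eq]
    left; right
    exact hv
  · intro w hw
    rw [Finset.mem_coe, mem_upS]
    refine ⟨w.under (𝓞 k), hS0 ?_, over_under w⟩
    simp only [S0, Finset.mem_union]
    right
    exact Finset.mem_image_of_mem _ hw

end Fermat.Agent.S14lib
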