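import Fermat.Agent.S14.KumSplit
import Fermat.Agent.S14.Genus

/-!
# T-S14, (FI), block T (helper20): the tame symbol
-/

set_option autoImplicit false

open NumberField IsDedekindDomain

namespace Fermat.Agent.S14lib

variable {k : Type} [Field k] [NumberField k] {N : Type} [Field N] [NumberField N] [Algebra k N]
  {p : ℕ} [Fact p.Prime] {ζ x : k} {θ : N} {s : N ≃ₐ[k] N}

/-! ## Block T (helper20): the tame symbol -/

theorem tame_of_dvd {v : Pl k} (hv : (p : ℤ) ∣ ordv v x) (u : k) :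
    tame p ζ x v u = ((ordv v u : ℤ) : ZMod p) := by
  unfold tame
  rw [if_pos hv]

theorem tame_of_not_dvd {v : Pl k} (hv : ¬ (p : ℤ) ∣ ordv v x) (u : k) :
    tame p ζ x v u = sym p ζ v (u ^ (ordv v x) * x ^ (- ordv v u)) := by
  unfold tame
  rw [if_neg hv]

theorem tame_aux_ne_zero (hx0 : x ≠ 0) (v : Pl k) {u : k} (hu : u ≠ 0) :
    u ^ (ordv v x) * x ^ (- ordv v u) ≠ 0 :=
  mul_ne_zero (zpow_ne_zero _ hu) (zpow_ne_zero _ hx0)

theorem tame_aux_ordv (hx0 : x ≠ 0) (v : Pl k) {u : k} (hu : u ≠ 0) :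
    ordv v (u ^ (ordv v x) * x ^ (- ordv v u)) = 0 := by
  rw [ordv_mul v (zpow_ne_zero _ hu) (zpow_ne_zero _ hx0), ordv_zpow, ordv_zpow]
  ring

/-- (T1) -/
theorem tame_mul (hζ : IsPrimitiveRoot ζ p) (hx0 : x ≠ 0) {v : Pl k} (hv : ¬ Above p v) {u u' : k}
    (hu : u ≠ 0) (hu' : u' ≠ 0) : tame p ζ x v (u * u') = tame p ζ x v u + tame p ζ x v u' := by
  by_cases h : (p : ℤ) ∣ ordv v x
  · rw [tame_of_dvd h, tame_of_dvd h, tame_of_dvd h, ordv_mul v hu hu']
    push_cast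
    rfl
  · rw [tame_of_not_dvd h, tame_of_not_dvd h, tame_of_not_dvd h]
    have e : (u * u') ^ ordv v x * x ^ (-ordv v (u * u')) =
        (u ^ ordv v x * x ^ (-ordv v u)) * (u' ^ ordv v x * x ^ (-ordv v u')) := by
      rw [ordv_mul v hu hu', mul_zpow, neg_add, zpow_add₀ hx0]
      ring
    rw [e]
    exact sym_mul hζ hv (tame_aux_ne_zero hx0 v hu) (by rw [tame_aux_ordv hx0 v hu]; exact dvd_zero _)
      (tame_aux_ne_zero hx0 v hu') (by rw [tame_aux_ordv hx0 v hu']; exact dvd_zero _)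

theorem tame_norm_zpow (y : N) (n : ℤ) :
    Algebra.norm k (y ^ n) = (Algebra.norm k y) ^ n := by
  let f : N →*₀ k := { Algebra.norm k with map_zero' := Algebra.norm_zero }
  exact map_zpow₀ f y n

/-- (T2) norms are killed at the non split places -/
theorem IsKum.tame_norm (H : IsKum p ζ x N θ s) (hp2 : p ≠ 2) (hζ : IsPrimitiveRoot ζ p)
    (hx0 : x ≠ 0) {v : Pl k} (hv : ¬ LocPow p ζ v x) (hvp : ¬ Above p v) {t : N} (ht : t ≠ 0) :
    tame p ζ x v (Algebra.norm k t) = 0 := by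
  have hp : p.Prime := Fact.out
  obtain ⟨w, hw⟩ := exists_over (F := N) v
  by_cases h : (p : ℤ) ∣ ordv v x
  · obtain ⟨-, hf, hs⟩ := H.inert hζ hx0 h hv hvp hw
    rw [tame_of_dvd h, ordv_norm v ht, hs, Finset.sum_singleton, hf]
    push_cast
    simp
  · obtain ⟨he, hf, hs⟩ := H.ram hx0 h hw
    have hθ0 : θ ≠ 0 := H.theta_ne_zero hx0
    have hn : ordv v (Algebra.norm k t) = ordv w t := by
      rw [ordv_norm v ht, hs, Finset.sum_singleton, hf]
      simp
    have hθ : ordv w θ = ordv v x := by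
      have h1 : ordv w (θ ^ p) = (p : ℤ) * ordv v x := by
        rw [H.pow, ordv_over hw, he]
      rw [ordv_pow] at h1
      exact mul_left_cancel₀ (by exact_mod_cast hp.ne_zero) h1
    rw [tame_of_not_dvd h, hn]
    have e : Algebra.norm k t ^ ordv v x * x ^ (-ordv w t) =
        Algebra.norm k (t ^ ordv v x * θ ^ (-ordv w t)) := by
      rw [map_mul, tame_norm_zpow, tame_norm_zpow, H.norm_theta hp2 hζ]
    rw [e]
    refine (gn_locPow_norm H hζ hvp h (mul_ne_zero (zpow_ne_zero _ ht) (zpow_ne_zero _ hθ0))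
      ?_).sym_eq_zero hζ hvp
    intro w' hw'
    have : w' = w := by
      have : w' ∈ placesOver N v := mem_placesOver.2 hw'
      rw [hs] at this
      exact Finset.mem_singleton.1 this
    subst this
    rw [ordv_mul _ (zpow_ne_zero _ ht) (zpow_ne_zero _ hθ0), ordv_zpow, ordv_zpow, hθ]
    ring

/-- (T3) -/
theorem tame_eq_zero_of_dvd {v : Pl k} (hv : (p : ℤ) ∣ ordv v x) {z : k}
    (hz : (p : ℤ) ∣ ordv v z) : tame p ζ x v z = 0 := by
  rw [tame_of_dvd hv]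
  exact (ZMod.intCast_zmod_eq_zero_iff_dvd _ _).2 hz

/-- (T4) -/
theorem tame_eq_zero_of_locPow (hζ : IsPrimitiveRoot ζ p) {v : Pl k} (hvp : ¬ Above p v)
    (hv : ¬ (p : ℤ) ∣ ordv v x) {z : k} (hz0 : ordv v z = 0) (hz : LocPow p ζ v z) :
    tame p ζ x v z = 0 := by
  rw [tame_of_not_dvd hv, hz0, neg_zero, zpow_zero, mul_one]
  exact (hz.zpow hζ _).sym_eq_zero hζ hvp

/-- (T5) joint surjectivity -/
theorem exists_tame_eq (hζ : IsPrimitiveRoot ζ p) (hx0 : x ≠ 0) (T : Finset (Pl k))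
    (hT : ∀ v ∈ T, ¬ Above p v) (a : Pl k → ZMod p) :
    ∃ x' : k, x' ≠ 0 ∧ ∀ v ∈ T, tame p ζ x v x' = a v := by
  have hex : ∀ v : Pl k, ∃ y : k, y ≠ 0 ∧ (v ∈ T → ∀ x' : k, x' ≠ 0 →
      v.valuation k (x' / y - 1) < 1 → ordv v x' = ordv v y → tame p ζ x v x' = a v) := by
    intro v
    by_cases hvT : v ∈ T
    · have hvp := hT v hvT
      by_cases h : (p : ℤ) ∣ ordv v x
      · obtain ⟨y, hy0, hy⟩ := exists_ordv_eq_single v ((a v).val : ℤ)
        refine ⟨y, hy0, fun _ x' _ _ h2 => ?_⟩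
        rw [tame_of_dvd h, h2, hy]
        simp
      · have hne : ((ordv v x : ℤ) : ZMod p) ≠ 0 := fun h0 =>
          h ((ZMod.intCast_zmod_eq_zero_iff_dvd _ _).1 h0)
        obtain ⟨y, hy0, hy, hys⟩ := exists_sym_eq hζ hvp (a v * ((ordv v x : ℤ) : ZMod p)⁻¹)
        refine ⟨y, hy0, fun _ x' hx' h1 h2 => ?_⟩
        rw [tame_of_not_dvd h, h2, hy, neg_zero, zpow_zero, mul_one,
          sym_zpow hζ hvp hx' (by rw [h2, hy]; exact dvd_zero _), sym_congr hζ hvp hy0 h1, hys]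
        field_simp
    · exact ⟨1, one_ne_zero, fun h => absurd h hvT⟩
  choose y hy0 hy using hex
  obtain ⟨x', hx', h⟩ := exists_approx T y (fun v _ => hy0 v) (fun _ => 1) (fun _ _ => one_ne_zero)
  exact ⟨x', hx', fun v hv => hy v hv x' hx' (h v hv).1 (h v hv).2⟩

end Fermat.Agent.S14lib
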