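import Fermat.Agent.S14.Herbrand

/-!
# T-S14, (FI): the abstract Herbrand lemma in the shape consumed by `FI.lean`
-/

set_option autoImplicit false

open Module

namespace Fermat.Agent.S14lib

theorem index_contra {A X : Type*} [CommGroup A] [CommGroup X] {p : ℕ} (hp : p.Prime)
    (Ψ : A →* X) (hΨ : Function.Surjective Ψ) (B : Subgroup A) (hB : ∀ u ∈ B, Ψ u = 1)
    {n a b : ℕ} (hX : Nat.card X = p ^ n) (hidx : B.index * p ^ b = p ^ a) (hlt : a < n + b) :
    False := by
  have h1 : Ψ.ker.index = p ^ n := by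
    rw [Subgroup.index_ker, MonoidHom.range_eq_top.2 hΨ, ← hX]
    exact Nat.card_congr Subgroup.topEquiv.toEquiv
  have h2 : Ψ.ker.index ∣ B.index := Subgroup.index_dvd_of_le (fun u hu => hB u hu)
  rw [h1] at h2
  have h3 : p ^ (n + b) ∣ p ^ a := by
    rw [pow_add, ← hidx]
    exact Nat.mul_dvd_mul_right h2 _
  have := (Nat.pow_dvd_pow_iff_le_right hp.one_lt).1 h3
  omega

theorem herbrand_wrap {M A : Type*} [CommGroup M] [CommGroup A] [Group.FG M] {p : ℕ} (hp : p.Prime)
    (s : M →* M) (ι : A →* M) (nm : M →* A)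
    (hι : Function.Injective ι) (hfix : ∀ m : M, s m = m ↔ m ∈ ι.range)
    (hnm : ∀ m : M, ι (nm m) = ∏ i ∈ Finset.range p, (⇑s)^[i] m)
    (hsp : ∀ m : M, (⇑s)^[p] m = m)
    (h90 : ∀ m : M, nm m = 1 → ∃ y : M, m = s y / y)
    {a b : ℕ} (ha : finrank ℤ (Additive A) = a) (hb : finrank ℤ (Additive M) = a + (p - 1) * b) :
    nm.range.index * p ^ b = p ^ a := by
  have key := herbrand_mul hp s hsp (fun u hu => h90 u (hι (by rw [hnm, hu, map_one])))
    ι.range (nm.range.map ι) (fun u => (hfix u).symm)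
    (fun u => by
      constructor
      · rintro ⟨_, ⟨y, rfl⟩, rfl⟩
        exact ⟨y, hnm y⟩
      · rintro ⟨y, rfl⟩
        exact ⟨nm y, ⟨y, rfl⟩, hnm y⟩)
    (a := a) (b := b)
    (by
      rw [← ha]
      exact (LinearEquiv.finrank_eq
        (AddEquiv.toIntLinearEquiv (MulEquiv.toAdditive (MonoidHom.ofInjective hι)))).symm)
    hb
  rw [← key]
  congr 1
  rw [MonoidHom.range_eq_map ι, Subgroup.relIndex_map_map, (MonoidHom.ker_eq_bot_iff ι).2 hι]
  simp

end Fermat.Agent.S14lib
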