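import Fermat.Agent.S14.FIUnits
import Fermat.Agent.S14.FITame
import Fermat.Agent.S14.FILift
import Fermat.Agent.S14.HerbrandWrap

/-!
# T-S14, (FI): assembly
-/

set_option autoImplicit false

open NumberField IsDedekindDomain Module

namespace Fermat.Agent.S14lib

variable {k : Type} [Field k] [NumberField k] {N : Type} [Field N] [NumberField N] [Algebra k N]
  {p : ℕ} [Fact p.Prime] {ζ x : k} {θ : N} {s : N ≃ₐ[k] N}

/-- inclusion of the `S`-units of `k` in those of `N` -/
noncomputable def incU (N : Type) [Field N] [NumberField N] [Algebra k N] (S : Finset (Pl k)) :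
    US (S : Set (Pl k)) →* US ((upS N S : Finset (Pl N)) : Set (Pl N)) :=
  ((Units.map ((algebraMap k N : k →+* N) : k →* N)).comp
    (US (S : Set (Pl k))).subtype).codRestrict _ (by
    intro u
    rw [mem_US_iff]
    intro w hw
    exact ordv_algebraMap_eq_zero_of_notMem
      (fun v hv => mem_US_iff.1 u.2 v (by simpa using hv)) (by simpa using hw))

@[simp] theorem coe_incU (S : Finset (Pl k)) (u : US (S : Set (Pl k))) :
    (((incU N S u : US ((upS N S : Finset (Pl N)) : Set (Pl N))) : Nˣ) : N)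
      = algebraMap k N ((u : kˣ) : k) := rfl

/-- the norm on `S`-units -/
noncomputable def nmU (S : Finset (Pl k)) :
    US ((upS N S : Finset (Pl N)) : Set (Pl N)) →* US (S : Set (Pl k)) :=
  ((Units.map (Algebra.norm k : N →* k)).comp
    (US ((upS N S : Finset (Pl N)) : Set (Pl N))).subtype).codRestrict _ (by
    intro u
    rw [mem_US_iff]
    intro v hv
    exact ordv_norm_eq_zero_of_notMem (Units.ne_zero _)
      (fun w hw => mem_US_iff.1 u.2 w (by simpa using hw)) (by simpa using hv))

@[simp] theorem coe_nmU (S : Finset (Pl k)) (u : US ((upS N S : Finset (Pl N)) : Set (Pl N))) :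
    (((nmU S u : US (S : Set (Pl k))) : kˣ) : k) = Algebra.norm k ((u : Nˣ) : N) := rfl

/-- the Galois action on `S`-units -/
noncomputable def sU (σ : N ≃ₐ[k] N) (S : Finset (Pl k)) :
    US ((upS N S : Finset (Pl N)) : Set (Pl N)) →* US ((upS N S : Finset (Pl N)) : Set (Pl N)) :=
  ((Units.map (MonoidHomClass.toMonoidHom σ : N →* N)).comp
    (US ((upS N S : Finset (Pl N)) : Set (Pl N))).subtype).codRestrict _ (by
    intro u
    rw [mem_US_iff]
    intro w hw
    exact ordv_apply_eq_zero_of_notMem σ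
      (fun w hw => mem_US_iff.1 u.2 w (by simpa using hw)) (by simpa using hw))

@[simp] theorem coe_sU (σ : N ≃ₐ[k] N) (S : Finset (Pl k))
    (u : US ((upS N S : Finset (Pl N)) : Set (Pl N))) :
    (((sU σ S u : US ((upS N S : Finset (Pl N)) : Set (Pl N))) : Nˣ) : N) = σ ((u : Nˣ) : N) := rfl

theorem coe_sU_iterate (σ : N ≃ₐ[k] N) (S : Finset (Pl k)) (i : ℕ)
    (u : US ((upS N S : Finset (Pl N)) : Set (Pl N))) :
    ((((⇑(sU σ S))^[i] u : US ((upS N S : Finset (Pl N)) : Set (Pl N))) : Nˣ) : N)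
      = (σ ^ i) ((u : Nˣ) : N) := by
  induction i with
  | zero => simp
  | succ n ih =>
    rw [Function.iterate_succ_apply', coe_sU, ih, pow_succ', AlgEquiv.mul_apply]

/-- the vector of tame symbols at the places of `T`, on the `S`-units -/
noncomputable def psiU (hζ : IsPrimitiveRoot ζ p) (hx0 : x ≠ 0) (S T : Finset (Pl k))
    (hT : ∀ v ∈ T, ¬ Above p v) :
    US (S : Set (Pl k)) →* Multiplicative ({v // v ∈ T} → ZMod p) :=
  MonoidHom.mk' (fun u => Multiplicative.ofAdd fun v => tame p ζ x v.1 ((u : kˣ) : k)) (by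
    intro a b
    rw [← ofAdd_add]
    congr 1
    funext v
    simp only [Subgroup.coe_mul, Units.val_mul, Pi.add_apply]
    exact tame_mul hζ hx0 (hT v.1 v.2) (Units.ne_zero _) (Units.ne_zero _))

theorem psiU_apply (hζ : IsPrimitiveRoot ζ p) (hx0 : x ≠ 0) (S T : Finset (Pl k))
    (hT : ∀ v ∈ T, ¬ Above p v) (u : US (S : Set (Pl k))) (v : {v // v ∈ T}) :
    Multiplicative.toAdd (psiU hζ hx0 S T hT u) v = tame p ζ x v.1 ((u : kˣ) : k) := rfl

theorem card_target (T : Finset (Pl k)) :
    Nat.card (Multiplicative ({v // v ∈ T} → ZMod p)) = p ^ T.card := by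
  rw [Nat.card_congr Multiplicative.toAdd, Nat.card_fun, Nat.card_zmod]
  simp

/-- **(FI)** first inequality -/
theorem FI (hp2 : p ≠ 2) {ζ : k} (hζ : IsPrimitiveRoot ζ p) {x : k} (hx0 : x ≠ 0)
    (hx : ∀ y : k, y ^ p ≠ x) (hloc : ∀ v : Pl k, Above p v → LocPow p ζ v x) :
    ∃ D : Pl k →₀ ℤ, (∀ v, ¬ (p : ℤ) ∣ ordv v x → D v = 0) ∧ ¬ InPN p ζ ∅ x D := by
  classical
  have hp : p.Prime := Fact.out
  obtain ⟨N, _, _, _, θ, s, H⟩ := exists_isKum hζ hx
  obtain ⟨S, hS, hclN⟩ := exists_goodS N p ζ x hx0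
  by_contra hcon
  push Not at hcon
  set T : Finset (Pl k) := S.filter fun v => ¬ LocPow p ζ v x with hTdef
  have hT : ∀ v ∈ T, ¬ Above p v := fun v hv hab => (Finset.mem_filter.1 hv).2 (hloc v hab)
  have hTS : ∀ v ∈ T, v ∈ S := fun v hv => (Finset.mem_filter.1 hv).1
  have hTn : ∀ v ∈ T, ¬ LocPow p ζ v x := fun v hv => (Finset.mem_filter.1 hv).2
  -- surjectivity of `Ψ`
  have hsurj : Function.Surjective (psiU hζ hx0 S T hT) := by
    intro a
    obtain ⟨x', hx'0, hx'⟩ := exists_tame_eq hζ hx0 T hT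
      (fun v => if h : v ∈ T then Multiplicative.toAdd a ⟨v, h⟩ else 0)
    set D : Pl k →₀ ℤ := (dvf x').filter (fun v => v ∉ S) with hD
    have hD0 : ∀ v ∈ S, D v = 0 := fun v hv => Finsupp.filter_apply_neg _ _ (not_not.2 hv)
    have hD1 : ∀ v ∉ S, D v = ordv v x' := fun v hv => by
      rw [hD, Finsupp.filter_apply_pos (fun v => v ∉ S) _ hv, dvf_apply]
    obtain ⟨z, hz0, -, hzram, hzin⟩ := hcon D (fun v hv => hD0 v (hS.ram v hv))
    have hy0 : x' / z ≠ 0 := div_ne_zero hx'0 hz0
    obtain ⟨t, ht0, ht⟩ := H.exists_norm_ordv hζ hx0 hS hclN hy0 (by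
      intro v hv hvn
      have h1 : (p : ℤ) ∣ ordv v x := by
        by_contra h
        exact hv (hS.ram v h)
      have := hzin v h1 hvn
      rwa [hD1 v hv, ← ordv_div v hx'0 hz0] at this)
    have hnt0 : Algebra.norm k t ≠ 0 := Algebra.norm_ne_zero_iff.2 ht0
    have hu0 : x' / z / Algebra.norm k t ≠ 0 := div_ne_zero hy0 hnt0
    have huS : Units.mk0 _ hu0 ∈ US (S : Set (Pl k)) := by
      rw [mem_US_iff]
      intro v hv
      rw [Units.val_mk0, ordv_div v hy0 hnt0, ht v (by simpa using hv), sub_self]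
    refine ⟨⟨Units.mk0 _ hu0, huS⟩, ?_⟩
    apply Multiplicative.toAdd.injective
    funext v
    rw [psiU_apply]
    simp only [Units.val_mk0]
    have hv := hx' v.1 v.2
    rw [dif_pos v.2] at hv
    have hvp := hT v.1 v.2
    have hsplit : x' = x' / z / Algebra.norm k t * (z * Algebra.norm k t) := by
      field_simp
    rw [hsplit, tame_mul hζ hx0 hvp hu0 (mul_ne_zero hz0 hnt0), tame_mul hζ hx0 hvp hz0 hnt0,
      H.tame_norm hp2 hζ hx0 (hTn v.1 v.2) hvp ht0, add_zero] at hv
    have hz : tame p ζ x v.1 z = 0 := by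
      by_cases h1 : (p : ℤ) ∣ ordv v.1 x
      · apply tame_eq_zero_of_dvd h1
        have := hzin v.1 h1 (hTn v.1 v.2)
        rw [hD0 v.1 (hTS v.1 v.2), zero_sub] at this
        exact (dvd_neg.1 this)
      · exact tame_eq_zero_of_locPow hζ hvp h1 (hzram v.1 h1).1 (hzram v.1 h1).2
    rw [hz, add_zero] at hv
    exact hv
  -- `Ψ` kills the norms
  have hkill : ∀ u ∈ (nmU (N := N) S).range, psiU hζ hx0 S T hT u = 1 := by
    rintro _ ⟨m, rfl⟩
    apply Multiplicative.toAdd.injective
    funext v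
    rw [psiU_apply, coe_nmU]
    exact H.tame_norm hp2 hζ hx0 (hTn v.1 v.2) (hT v.1 v.2) (Units.ne_zero _)
  -- the Herbrand quotient
  haveI : Group.FG (US ((upS N S : Finset (Pl N)) : Set (Pl N))) := by
    rw [GroupFG.iff_add_fg, ← Module.Finite.iff_addGroup_fg]
    exact finite_US _
  have hidx := herbrand_wrap hp (sU s S) (incU N S) (nmU S)
    (a := S.card + Units.rank k)
    (b := (S.filter fun v => LocPow p ζ v x).card + Units.rank k + 1)
    (by
      intro a b hab
      have h1 : algebraMap k N ((a : kˣ) : k) = algebraMap k N ((b : kˣ) : k) := by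
        rw [← coe_incU, ← coe_incU, hab]
      exact Subtype.ext (Units.ext ((algebraMap k N).injective h1)))
    (by
      intro m
      constructor
      · intro hm
        have h1 : s ((m : Nˣ) : N) = ((m : Nˣ) : N) := by rw [← coe_sU, hm]
        obtain ⟨c, hc⟩ := H.fixed h1
        have hc0 : c ≠ 0 := by
          rintro rfl
          rw [map_zero] at hc
          exact (Units.ne_zero (m : Nˣ)) hc.symm
        have hcS : Units.mk0 c hc0 ∈ US (S : Set (Pl k)) := by
          rw [mem_US_iff]
          intro v hv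
          refine ordv_eq_zero_of_algebraMap (N := N) (S := S) ?_ (by simpa using hv)
          intro w hw
          rw [Units.val_mk0, hc]
          exact mem_US_iff.1 m.2 w (by simpa using hw)
        exact ⟨⟨Units.mk0 c hc0, hcS⟩, Subtype.ext (Units.ext hc)⟩
      · rintro ⟨c, rfl⟩
        apply Subtype.ext
        apply Units.ext
        rw [coe_sU, coe_incU, AlgEquiv.commutes])
    (by
      intro m
      apply Subtype.ext
      apply Units.ext
      rw [coe_incU, coe_nmU, H.norm_eq_prod]
      simp only [Subgroup.val_finset_prod, Units.coe_prod, coe_sU_iterate])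
    (by
      intro m
      apply Subtype.ext
      apply Units.ext
      rw [coe_sU_iterate, H.pow_p, AlgEquiv.one_apply])
    (by
      intro m hm
      have h1 : Algebra.norm k ((m : Nˣ) : N) = 1 := by
        rw [← coe_nmU, hm]; rfl
      obtain ⟨y, hy0, hyS, hy⟩ := H.h90_US hζ hx0 hS
        (fun w hw => mem_US_iff.1 m.2 w (by simpa using hw)) h1
      have hyS' : Units.mk0 y hy0 ∈ US ((upS N S : Finset (Pl N)) : Set (Pl N)) := by
        rw [mem_US_iff]
        intro w hw
        exact hyS w (by simpa using hw)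
      refine ⟨⟨Units.mk0 y hy0, hyS'⟩, ?_⟩
      apply Subtype.ext
      apply Units.ext
      simp only [Subgroup.coe_div, Units.val_div_eq_div_val, coe_sU, Units.val_mk0]
      exact hy)
    (finrank_US S)
    (by
      rw [finrank_US, H.card_upS hζ hx0 hloc S]
      have h1 := H.rank_eq hp2 hζ
      have h2 : S.card = (S.filter fun v => LocPow p ζ v x).card
          + (S.filter fun v => ¬ LocPow p ζ v x).card :=
        (Finset.card_filter_add_card_filter_not _).symm
      obtain ⟨q, rfl⟩ : ∃ q, p = q + 1 := ⟨p - 1, (Nat.succ_pred_eq_of_pos hp.pos).symm⟩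
      rw [h2]
      simp only [Nat.add_sub_cancel]
      have h3 : Units.rank N = (q + 1) * (Units.rank k + 1) - 1 := by omega
      have h4 : 1 ≤ (q + 1) * (Units.rank k + 1) := Nat.mul_pos (by omega) (by omega)
      zify [h4] at h3 ⊢
      rw [h3]
      ring)
  refine index_contra hp (psiU hζ hx0 S T hT) hsurj _ hkill (card_target T) hidx ?_
  have h2 : S.card = (S.filter fun v => LocPow p ζ v x).card
      + (S.filter fun v => ¬ LocPow p ζ v x).card :=
    (Finset.card_filter_add_card_filter_not _).symm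
  rw [h2, hTdef]
  omega

end Fermat.Agent.S14lib
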