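import Fermat.Agent.S14.Ord

/-!
# T-S14, WP1: `S`-units (finite generation and rank)
-/

set_option autoImplicit false

open NumberField IsDedekindDomain Module

namespace Fermat.Agent.S14lib

variable {k : Type*} [Field k] [NumberField k]

/-- the group of `S`-units of `k` -/
noncomputable abbrev US (S : Set (Pl k)) : Subgroup kˣ := S.unit k

theorem mem_US_iff {S : Set (Pl k)} {x : kˣ} : x ∈ US S ↔ ∀ v ∉ S, ordv v (x : k) = 0 :=
  ⟨fun h v hv => (valuation_eq_one_iff v x.ne_zero).1 (h v hv),
    fun h v hv => (valuation_eq_one_iff v x.ne_zero).2 (h v hv)⟩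

/-- the divisor map on `S`-units -/
noncomputable def divS (S : Finset (Pl k)) : Additive (US (S : Set (Pl k))) →ₗ[ℤ] (S → ℤ) :=
  AddMonoidHom.toIntLinearMap
    { toFun := fun x v => ordv v.1 (((Additive.toMul x : US (S : Set (Pl k))) : kˣ) : k)
      map_zero' := by
        ext v
        simp
      map_add' := fun x y => by
        ext v
        simp only [toMul_add, Subgroup.coe_mul, Units.val_mul, Pi.add_apply]
        exact ordv_mul _ (Units.ne_zero _) (Units.ne_zero _) }

theorem divS_apply (S : Finset (Pl k)) (x : Additive (US (S : Set (Pl k)))) (v : S) :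
    divS S x v = ordv v.1 (((Additive.toMul x : US (S : Set (Pl k))) : kˣ) : k) := rfl

/-- the inclusion of the units into the `S`-units -/
noncomputable def unitsToUS (S : Finset (Pl k)) :
    Additive (𝓞 k)ˣ →ₗ[ℤ] Additive (US (S : Set (Pl k))) :=
  AddMonoidHom.toIntLinearMap (MonoidHom.toAdditive
    ((Units.map (algebraMap (𝓞 k) k : 𝓞 k →* k)).codRestrict (US (S : Set (Pl k))) fun u =>
      mem_US_iff.2 fun v _ =>
        (forall_ordv_eq_zero_iff (Units.ne_zero (Units.map (algebraMap (𝓞 k) k : 𝓞 k →* k) u))).2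
          ⟨u, rfl⟩ v))

theorem unitsToUS_injective (S : Finset (Pl k)) : Function.Injective (unitsToUS S) := by
  intro x y h
  have h1 : ((Additive.toMul (unitsToUS S x) : US (S : Set (Pl k))) : kˣ) =
      ((Additive.toMul (unitsToUS S y) : US (S : Set (Pl k))) : kˣ) := by rw [h]
  have h2 : algebraMap (𝓞 k) k ((Additive.toMul x : (𝓞 k)ˣ) : 𝓞 k) =
      algebraMap (𝓞 k) k ((Additive.toMul y : (𝓞 k)ˣ) : 𝓞 k) := congrArg Units.val h1
  exact Additive.toMul.injective (Units.ext (FaithfulSMul.algebraMap_injective (𝓞 k) k h2))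

theorem range_unitsToUS (S : Finset (Pl k)) : LinearMap.range (unitsToUS S) = LinearMap.ker (divS S) := by
  ext x
  rw [LinearMap.mem_range, LinearMap.mem_ker]
  constructor
  · rintro ⟨u, rfl⟩
    ext v
    exact (forall_ordv_eq_zero_iff
      (Units.ne_zero (Units.map (algebraMap (𝓞 k) k : 𝓞 k →* k) (Additive.toMul u)))).2
        ⟨Additive.toMul u, rfl⟩ v.1
  · intro h
    have hx : ∀ v : Pl k, ordv v (((Additive.toMul x : US (S : Set (Pl k))) : kˣ) : k) = 0 := by
      intro v
      by_cases hv : v ∈ S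
      · exact congrFun h ⟨v, hv⟩
      · exact mem_US_iff.1 (Additive.toMul x).2 v (by simpa using hv)
    obtain ⟨u, hu⟩ := (forall_ordv_eq_zero_iff (Units.ne_zero _)).1 hx
    refine ⟨Additive.ofMul u, ?_⟩
    apply Additive.toMul.injective
    apply Subtype.ext
    apply Units.ext
    exact hu

/-- a power of a place is principal -/
theorem exists_ordv_eq_classNumber (v : Pl k) :
    ∃ a : k, a ≠ 0 ∧ ordv v a = classNumber k ∧ ∀ w : Pl k, w ≠ v → ordv w a = 0 := by
  have hv0 : v.asIdeal ∈ nonZeroDivisors (Ideal (𝓞 k)) := mem_nonZeroDivisors_of_ne_zero v.ne_bot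
  have h1 : (ClassGroup.mk0 ⟨v.asIdeal, hv0⟩) ^ classNumber k = 1 := by
    rw [classNumber]
    exact pow_card_eq_one
  rw [← map_pow, ClassGroup.mk0_eq_one_iff] at h1
  obtain ⟨a, ha⟩ := h1.principal
  have ha' : v.asIdeal ^ classNumber k = Ideal.span {a} := ha
  have ha0 : a ≠ 0 := by
    rintro rfl
    rw [Set.singleton_zero, Ideal.span_zero] at ha'
    exact v.ne_bot (pow_eq_zero_iff (classNumber_ne_zero k) |>.1 ha')
  have hmem : ∀ (w : Pl k) (n : ℕ), a ∈ w.asIdeal ^ n ↔ v.asIdeal ^ classNumber k ≤ w.asIdeal ^ n := by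
    intro w n
    rw [ha', Ideal.span_singleton_le_iff_mem]
  refine ⟨algebraMap (𝓞 k) k a, (map_ne_zero_iff _ (FaithfulSMul.algebraMap_injective (𝓞 k) k)).2 ha0,
    ?_, ?_⟩
  · apply le_antisymm
    · by_contra hlt
      have h2 : ((classNumber k + 1 : ℕ) : ℤ) ≤ ordv v (algebraMap (𝓞 k) k a) := by
        push_cast
        omega
      rw [le_ordv_algebraMap_iff v ha0, hmem] at h2
      exact absurd h2 (not_le_of_gt (Ideal.pow_succ_lt_pow v.ne_bot _))
    · rw [le_ordv_algebraMap_iff v ha0, hmem]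
  · intro w hw
    rw [ordv_algebraMap_eq_zero_iff w ha0]
    intro hmemw
    have h3 : a ∈ w.asIdeal ^ 1 := by rwa [pow_one]
    rw [hmem, pow_one] at h3
    have h4 : v.asIdeal ≤ w.asIdeal := w.isPrime.le_of_pow_le h3
    exact hw (HeightOneSpectrum.ext (v.isMaximal.eq_of_le w.isPrime.ne_top h4)).symm

theorem smul_mem_range_divS (S : Finset (Pl k)) (f : S → ℤ) :
    (classNumber k : ℤ) • f ∈ LinearMap.range (divS S) := by
  classical
  choose a ha0 hav haw using fun v : Pl k => exists_ordv_eq_classNumber v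
  have hx0 : (∏ v : S, a v.1 ^ f v) ≠ 0 :=
    Finset.prod_ne_zero_iff.2 fun v _ => zpow_ne_zero _ (ha0 _)
  have hord : ∀ w : Pl k, ordv w (∏ v : S, a v.1 ^ f v) = ∑ v : S, f v * ordv w (a v.1) := by
    intro w
    rw [ordv_prod w _ _ fun v _ => zpow_ne_zero _ (ha0 _)]
    exact Finset.sum_congr rfl fun v _ => ordv_zpow _ _ _
  have hmem : Units.mk0 _ hx0 ∈ US (S : Set (Pl k)) := by
    rw [mem_US_iff]
    intro w hw
    rw [Units.val_mk0, hord]
    refine Finset.sum_eq_zero fun v _ => ?_
    rw [haw v.1 w (by rintro rfl; exact hw v.2), mul_zero]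
  refine ⟨Additive.ofMul ⟨Units.mk0 _ hx0, hmem⟩, ?_⟩
  ext w
  rw [divS_apply]
  simp only [toMul_ofMul, Units.val_mk0, Pi.smul_apply, smul_eq_mul]
  rw [hord, Finset.sum_eq_single w]
  · rw [hav, mul_comm]
  · intro v _ hvw
    rw [haw v.1 w.1 (fun h => hvw (Subtype.ext h.symm)), mul_zero]
  · intro h
    exact absurd (Finset.mem_univ w) h

instance finite_US (S : Finset (Pl k)) : Module.Finite ℤ (Additive (US (S : Set (Pl k)))) := by
  rw [Module.finite_def]
  refine Submodule.fg_of_fg_map_of_fg_inf_ker (divS S) (IsNoetherian.noetherian _) ?_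
  rw [inf_of_le_right le_top, ← range_unitsToUS, LinearMap.range_eq_map]
  exact Submodule.FG.map _ Module.Finite.fg_top

theorem finrank_range_divS (S : Finset (Pl k)) : finrank ℤ (LinearMap.range (divS S)) = S.card := by
  have h0 : finrank ℤ (S → ℤ) = S.card := by simp
  apply le_antisymm
  · rw [← h0]
    exact Submodule.finrank_le _
  · rw [← h0]
    have hh : (classNumber k : ℤ) ≠ 0 := by exact_mod_cast classNumber_ne_zero k
    let g : (S → ℤ) →ₗ[ℤ] LinearMap.range (divS S) :=
      LinearMap.codRestrict _ (LinearMap.lsmul ℤ (S → ℤ) (classNumber k : ℤ))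
        (fun f => smul_mem_range_divS S f)
    refine LinearMap.finrank_le_finrank_of_injective (f := g) ?_
    intro f₁ f₂ h
    have h1 : (classNumber k : ℤ) • f₁ = (classNumber k : ℤ) • f₂ := congrArg Subtype.val h
    exact smul_right_injective _ hh h1

/-- **Dirichlet's `S`-unit theorem** (rank) -/
theorem finrank_US (S : Finset (Pl k)) :
    finrank ℤ (Additive (US (S : Set (Pl k)))) = S.card + Units.rank k := by
  rw [← Submodule.finrank_quotient_add_finrank (LinearMap.ker (divS S)),
    (divS S).quotKerEquivRange.finrank_eq, finrank_range_divS, ← range_unitsToUS,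
    LinearMap.finrank_range_of_inj (unitsToUS_injective S), Units.finrank_eq]

end Fermat.Agent.S14lib
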