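import Fermat.Agent.S14.Rel
import Fermat.Agent.S14.Approx
import Fermat.Agent.S14.ClGen
import Fermat.Agent.S14.Equiv
import Fermat.Agent.S14.KumExt
import Fermat.Agent.S14.SUnit

/-!
# T-S14, (FI): shared definitions (`upS`, `tame`, `GoodS`)
-/

set_option autoImplicit false

open NumberField IsDedekindDomain

namespace Fermat.Agent.S14lib

section defs

variable {k : Type} [Field k] [NumberField k]

open Classical in
/-- the places of `N` above a finite set of places of `k` -/
noncomputable def upS (N : Type) [Field N] [NumberField N] [Algebra k N] (S : Finset (Pl k)) :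
    Finset (Pl N) := S.biUnion (placesOver N)

open Classical in
/-- the (tame) norm residue symbol `(u, x)_v`, additively: `ord_v u mod p` at the places where
`p ∣ ord_v x`, the symbol of `u ^ ord x / x ^ ord u` at the others. -/
noncomputable def tame (p : ℕ) (ζ x : k) (v : Pl k) (u : k) : ZMod p :=
  if (p : ℤ) ∣ ordv v x then ((ordv v u : ℤ) : ZMod p)
  else sym p ζ v (u ^ (ordv v x) * x ^ (- ordv v u))

end defs

variable {k : Type} [Field k] [NumberField k] {N : Type} [Field N] [NumberField N] [Algebra k N]
  {p : ℕ} [Fact p.Prime] {ζ x : k} {θ : N} {s : N ≃ₐ[k] N}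

theorem mem_upS {S : Finset (Pl k)} {w : Pl N} : w ∈ upS N S ↔ ∃ v ∈ S, Over w v := by
  classical
  simp [upS]

/-- the standing hypotheses on `S` -/
structure GoodS (p : ℕ) (ζ x : k) (S : Finset (Pl k)) : Prop where
  ram : ∀ v : Pl k, ¬ (p : ℤ) ∣ ordv v x → v ∈ S
  above : ∀ v : Pl k, Above p v → v ∈ S
  cl : ClGen (S : Set (Pl k))


end Fermat.Agent.S14lib
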