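import Fermat.Agent.S14.KumSplit

/-!
# T-S14, (FI), block U (helper13): `S`-units of `N` and `k`, `H¹ = 0`, counting
-/

set_option autoImplicit false
set_option linter.style.haveILetI false
set_option linter.unusedSectionVars false

open NumberField IsDedekindDomain

namespace Fermat.Agent.S14lib

variable {k : Type} [Field k] [NumberField k] {N : Type} [Field N] [NumberField N] [Algebra k N]
  {p : ℕ} [Fact p.Prime] {ζ x : k} {θ : N} {s : N ≃ₐ[k] N}

/-! ## Block U (helper13): `S`-units of `N` and of `k` -/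

theorem notMem_of_over_of_notMem_upS {S : Finset (Pl k)} {w : Pl N} {v : Pl k} (h : Over w v)
    (hw : w ∉ upS N S) : v ∉ S := fun hv => hw (mem_upS.mpr ⟨v, hv, h⟩)

theorem notMem_upS_of_over {S : Finset (Pl k)} {w : Pl N} {v : Pl k} (h : Over w v)
    (hv : v ∉ S) : w ∉ upS N S := by
  intro hw
  obtain ⟨v', hv', h'⟩ := mem_upS.mp hw
  obtain ⟨v₀, -, huniq⟩ := existsUnique_under (K := k) w
  rw [huniq v h, ← huniq v' h'] at hv
  exact hv hv'

/-- (U-a) -/
theorem ordv_algebraMap_eq_zero_of_notMem {S : Finset (Pl k)} {c : k}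
    (hc : ∀ v ∉ S, ordv v c = 0) {w : Pl N} (hw : w ∉ upS N S) :
    ordv w (algebraMap k N c) = 0 := by
  obtain ⟨v, hv, -⟩ := existsUnique_under (K := k) w
  rw [ordv_over hv, hc v (notMem_of_over_of_notMem_upS hv hw), mul_zero]

/-- (U-b) -/
theorem ordv_norm_eq_zero_of_notMem {S : Finset (Pl k)} {t : N} (ht0 : t ≠ 0)
    (ht : ∀ w ∉ upS N S, ordv w t = 0) {v : Pl k} (hv : v ∉ S) :
    ordv v (Algebra.norm k t) = 0 := by
  rw [ordv_norm v ht0]
  refine Finset.sum_eq_zero fun w hw => ?_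
  rw [ht w (notMem_upS_of_over (mem_placesOver.mp hw) hv), mul_zero]

theorem pull_notMem_upS {S : Finset (Pl k)} (σ : N ≃ₐ[k] N) {w : Pl N} (hw : w ∉ upS N S) :
    pull (σ : N ≃+* N) w ∉ upS N S := by
  obtain ⟨v, hv, -⟩ := existsUnique_under (K := k) w
  exact notMem_upS_of_over (over_pull σ hv) (notMem_of_over_of_notMem_upS hv hw)

/-- (U-c) -/
theorem ordv_apply_eq_zero_of_notMem {S : Finset (Pl k)} (σ : N ≃ₐ[k] N) {t : N}
    (ht : ∀ w ∉ upS N S, ordv w t = 0) {w : Pl N} (hw : w ∉ upS N S) :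
    ordv w (σ t) = 0 := by
  have := ordv_pull (σ : N ≃+* N) w t
  rw [ht _ (pull_notMem_upS σ hw)] at this
  exact this.symm

/-- (U-d) descent of `S`-units -/
theorem ordv_eq_zero_of_algebraMap {S : Finset (Pl k)} {c : k}
    (hc : ∀ w ∉ upS N S, ordv w (algebraMap k N c) = 0) {v : Pl k} (hv : v ∉ S) :
    ordv v c = 0 := by
  obtain ⟨w, hw⟩ := exists_over (F := N) v
  have h := hc w (notMem_upS_of_over hw hv)
  rw [ordv_over hw] at h
  rcases mul_eq_zero.mp h with h0 | h0
  · exact absurd (by exact_mod_cast h0) (eRel_pos (K := k) w).ne'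
  · exact h0

/-- outside a good `S` the extension is unramified -/
theorem IsKum.eRel_eq_one_of_notMem (H : IsKum p ζ x N θ s) (hζ : IsPrimitiveRoot ζ p)
    (hx0 : x ≠ 0) {S : Finset (Pl k)} (hS : GoodS p ζ x S) {v : Pl k} (hv : v ∉ S) {w : Pl N}
    (hw : Over w v) : eRel k w = 1 := by
  have h1 : (p : ℤ) ∣ ordv v x := by
    by_contra h; exact hv (hS.ram v h)
  have h2 : ¬ Above p v := fun h => hv (hS.above v h)
  by_cases hloc : LocPow p ζ v x
  · exact ((H.split hζ hx0 hloc).2 w hw).1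
  · exact (H.inert hζ hx0 h1 hloc h2 hw).1

/-- (U-e) **`H¹ = 0`** for the `S`-units -/
theorem IsKum.h90_US (H : IsKum p ζ x N θ s) (hζ : IsPrimitiveRoot ζ p) (hx0 : x ≠ 0)
    {S : Finset (Pl k)} (hS : GoodS p ζ x S) {u : N}
    (huS : ∀ w ∉ upS N S, ordv w u = 0) (hu : Algebra.norm k u = 1) :
    ∃ y : N, y ≠ 0 ∧ (∀ w ∉ upS N S, ordv w y = 0) ∧ u = s y / y := by
  have hp : p.Prime := Fact.out
  obtain ⟨y, hy0, hy⟩ := H.hilbert90 hu
  have hu0 : u ≠ 0 := by
    rintro rfl
    rw [Algebra.norm_zero] at hu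
    exact zero_ne_one hu
  have hsy : s y = u * y := by rw [hy]; field_simp
  -- all conjugates of `y` have the same order outside `S`
  have hconj : ∀ (i : ℕ) (w : Pl N), w ∉ upS N S → ordv w ((s ^ i) y) = ordv w y := by
    intro i
    induction i with
    | zero => intro w _; simp
    | succ n ih =>
      intro w hw
      rw [pow_succ, AlgEquiv.mul_apply, hsy, map_mul,
        ordv_mul w ((map_ne_zero _).mpr hu0) ((map_ne_zero _).mpr hy0),
        ordv_apply_eq_zero_of_notMem (s ^ n) huS hw, ih w hw, zero_add]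
  have hnorm0 : Algebra.norm k y ≠ 0 := Algebra.norm_ne_zero_iff.mpr hy0
  have hkey : ∀ (v : Pl k) (w : Pl N), v ∉ S → Over w v →
      ordv v (Algebra.norm k y) = p * ordv w y := by
    intro v w hv hw
    have hwS := notMem_upS_of_over hw hv
    have h1 : ordv w (algebraMap k N (Algebra.norm k y)) = ordv v (Algebra.norm k y) := by
      rw [ordv_over hw, H.eRel_eq_one_of_notMem hζ hx0 hS hv hw]; simp
    rw [← h1, H.norm_eq_prod, ordv_prod w _ _ (fun i _ => (map_ne_zero _).mpr hy0),
      Finset.sum_congr rfl (fun i _ => hconj i w hwS)]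
    simp
  obtain ⟨c, hc0, hc⟩ := hS.cl.exists_fun (fun v => ordv v (Algebra.norm k y) / p)
    ((finite_ordv_ne_zero (Algebra.norm k y)).subset (by
      intro v hv
      simp only [Set.mem_ofPred_eq] at hv ⊢
      intro h0
      rw [h0] at hv
      simp at hv))
  have hcN : algebraMap k N c ≠ 0 := (map_ne_zero _).mpr hc0
  refine ⟨y / algebraMap k N c, div_ne_zero hy0 hcN, ?_, ?_⟩
  · intro w hw
    obtain ⟨v, hv, -⟩ := existsUnique_under (K := k) w
    have hvS := notMem_of_over_of_notMem_upS hv hw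
    rw [ordv_div w hy0 hcN, ordv_over hv, H.eRel_eq_one_of_notMem hζ hx0 hS hvS hv,
      hc v (by simpa using hvS), hkey v w hvS hv]
    have hp0 : (p : ℤ) ≠ 0 := by exact_mod_cast hp.ne_zero
    rw [Int.mul_ediv_cancel_left _ hp0]
    simp
  · rw [map_div₀, AlgEquiv.commutes, hy]
    field_simp

open Classical in
/-- (U-f) the number of places above `S` -/
theorem IsKum.card_upS (H : IsKum p ζ x N θ s) (hζ : IsPrimitiveRoot ζ p) (hx0 : x ≠ 0)
    (hloc : ∀ v : Pl k, Above p v → LocPow p ζ v x) (S : Finset (Pl k)) :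
    (upS N S).card = p * (S.filter fun v => LocPow p ζ v x).card
      + (S.filter fun v => ¬ LocPow p ζ v x).card := by
  have hdisj : (S : Set (Pl k)).PairwiseDisjoint (placesOver N) := by
    intro v _ v' _ hne
    rw [Function.onFun, Finset.disjoint_left]
    intro w hw hw'
    obtain ⟨v₀, -, huniq⟩ := existsUnique_under (K := k) w
    exact hne ((huniq v (mem_placesOver.mp hw)).trans (huniq v' (mem_placesOver.mp hw')).symm)
  have hcard : ∀ v : Pl k, (placesOver N v).card = if LocPow p ζ v x then p else 1 := by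
    intro v
    split_ifs with hv
    · exact (H.split hζ hx0 hv).1
    · obtain ⟨w, hw⟩ := exists_over (F := N) v
      by_cases hord : (p : ℤ) ∣ ordv v x
      · rw [(H.inert hζ hx0 hord hv (fun h => hv (hloc v h)) hw).2.2, Finset.card_singleton]
      · rw [(H.ram hx0 hord hw).2.2, Finset.card_singleton]
  rw [upS, Finset.card_biUnion hdisj, Finset.sum_congr rfl (fun v _ => hcard v), Finset.sum_ite]
  simp [mul_comm]

/-- a number field containing a primitive `p`-th root of unity, `p ≠ 2`, is totally complex -/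
theorem fiu_two_mul_rank {F : Type*} [Field F] [NumberField F] (hp2 : p ≠ 2) {ξ : F}
    (hξ : IsPrimitiveRoot ξ p) : 2 * (Units.rank F + 1) = Module.finrank ℚ F := by
  have hp : p.Prime := Fact.out
  haveI : IsTotallyComplex F := by
    refine ⟨fun w => ?_⟩
    rw [← InfinitePlace.not_isReal_iff_isComplex, InfinitePlace.isReal_iff]
    intro hreal
    set φ := w.embedding with hφ
    have hz : IsPrimitiveRoot (φ ξ) p := hξ.map_of_injective φ.injective
    have h1 : (starRingEnd ℂ) (φ ξ) = φ ξ := by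
      have := RingHom.congr_fun hreal ξ
      simpa [ComplexEmbedding.conjugate_coe_eq] using this
    have h2 : ‖φ ξ‖ = 1 := Complex.norm_eq_one_of_pow_eq_one hz.pow_eq_one hp.ne_zero
    have h3 : (φ ξ)⁻¹ = φ ξ := by rw [Complex.inv_eq_conj h2, h1]
    have h0 : φ ξ ≠ 0 := hz.ne_zero hp.ne_zero
    have h4 : (φ ξ) ^ 2 = 1 := by
      rw [pow_two]
      nth_rewrite 1 [← h3]
      exact inv_mul_cancel₀ h0
    have h5 : p ∣ 2 := hz.dvd_of_pow_eq_one 2 h4
    exact hp2 ((Nat.prime_dvd_prime_iff_eq hp Nat.prime_two).mp h5)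
  have h1 := IsTotallyComplex.finrank (K := F)
  have h2 := InfinitePlace.card_eq_nrRealPlaces_add_nrComplexPlaces F
  rw [IsTotallyComplex.nrRealPlaces_eq_zero, zero_add] at h2
  have h3 : 0 < Fintype.card (InfinitePlace F) := Fintype.card_pos
  rw [h1, Units.rank, ← h2]
  omega

/-- (U-g) unit ranks (both fields are totally complex) -/
theorem IsKum.rank_eq (H : IsKum p ζ x N θ s) (hp2 : p ≠ 2) (hζ : IsPrimitiveRoot ζ p) :
    Units.rank N + 1 = p * (Units.rank k + 1) := by
  have h1 := fiu_two_mul_rank hp2 hζ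
  have h2 := fiu_two_mul_rank hp2 (hζ.map_of_injective (algebraMap k N).injective)
  have h3 : Module.finrank ℚ k * Module.finrank k N = Module.finrank ℚ N :=
    Module.finrank_mul_finrank ℚ k N
  rw [H.finrank, ← h1, ← h2] at h3
  nlinarith

end Fermat.Agent.S14lib
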