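import Fermat.Agent.S14.Defs

/-!
# T-S14, WP8: the character `χ` of a degree one prime `rr ∣ r` of `K ∋ ζ_p`

`χ : (ℤ/r)ˣ → μ_p`, `χ t ≡ t ^ ((r - 1) / p) mod rr`.
-/

set_option autoImplicit false
set_option linter.style.haveILetI false

open NumberField IsDedekindDomain Finset

namespace Fermat.Agent.S14lib

variable {K : Type*} [Field K] [NumberField K] {p : ℕ} [Fact p.Prime]

/-- two distinct rational primes are not both in a prime ideal -/
theorem natCast_notMem_of_prime_ne {v : Pl K} {r p : ℕ} (hr : r.Prime) (hp : p.Prime) (hrp : r ≠ p)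
    (hrv : (r : 𝓞 K) ∈ v.asIdeal) : (p : 𝓞 K) ∉ v.asIdeal := by
  intro hpv
  have hcop : IsCoprime (r : ℤ) (p : ℤ) :=
    Nat.isCoprime_iff_coprime.2 ((Nat.coprime_primes hr hp).2 hrp)
  obtain ⟨a, b, hab⟩ := hcop
  have h3 : ((a : 𝓞 K) * (r : 𝓞 K) + (b : 𝓞 K) * (p : 𝓞 K)) = 1 := by
    exact_mod_cast congrArg (Int.cast : ℤ → 𝓞 K) hab
  have h4 : (1 : 𝓞 K) ∈ v.asIdeal := by
    rw [← h3]
    exact Ideal.add_mem _ (Ideal.mul_mem_left _ _ hrv) (Ideal.mul_mem_left _ _ hpv)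
  exact v.isPrime.ne_top ((Ideal.eq_top_iff_one _).2 h4)

theorem nrm_mem (v : Pl K) : ((nrm v : ℕ) : 𝓞 K) ∈ v.asIdeal := Ideal.absNorm_mem _

/-- the image of `ζ` in the residue field of a place not above `p` is a primitive `p`-th root of
unity -/
theorem isPrimitiveRoot_mk {ζ₀ : 𝓞 K} (hζ₀ : IsPrimitiveRoot ζ₀ p) {v : Pl K}
    (hv : (p : 𝓞 K) ∉ v.asIdeal) : IsPrimitiveRoot (Ideal.Quotient.mk v.asIdeal ζ₀) p := by
  have hp : p.Prime := Fact.out
  have h1 : (Ideal.Quotient.mk v.asIdeal ζ₀) ^ p = 1 := by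
    rw [← map_pow, hζ₀.pow_eq_one, map_one]
  have h2 : Ideal.Quotient.mk v.asIdeal ζ₀ ≠ 1 := by
    intro h
    apply hv
    have h3 := congrArg (Ideal.Quotient.mk v.asIdeal) (hζ₀.geom_sum_eq_zero hp.one_lt)
    rw [map_sum, map_zero] at h3
    simp only [map_pow, h, one_pow, sum_const, card_range, nsmul_eq_mul, mul_one] at h3
    rw [← map_natCast (Ideal.Quotient.mk v.asIdeal), Ideal.Quotient.eq_zero_iff_mem] at h3
    exact h3
  rw [IsPrimitiveRoot.iff_orderOf]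
  exact orderOf_eq_prime h1 h2

/-- **the character of a degree one prime** -/
theorem exists_chi {ζ₀ : 𝓞 K} (hζ₀ : IsPrimitiveRoot ζ₀ p) {rr : Pl K} {r : ℕ} [Fact r.Prime]
    (hrr : nrm rr = r) (hrp : r ≠ p) :
    p ∣ r - 1 ∧ ∃ χ : MulChar (ZMod r) (𝓞 K), orderOf χ = p ∧
      (∀ t : (ZMod r)ˣ, ∃ i : ℕ, χ t = ζ₀ ^ i) ∧
      ∀ t : ZMod r, χ t - ((t.val : ℕ) : 𝓞 K) ^ ((r - 1) / p) ∈ rr.asIdeal := by
  classical
  have hp : p.Prime := Fact.out
  have hr : r.Prime := Fact.out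
  have hrmem : (r : 𝓞 K) ∈ rr.asIdeal := hrr ▸ nrm_mem rr
  have hpmem : (p : 𝓞 K) ∉ rr.asIdeal := natCast_notMem_of_prime_ne hr hp hrp hrmem
  have := rr.isMaximal
  letI := Ideal.Quotient.field rr.asIdeal
  set mk := Ideal.Quotient.mk rr.asIdeal with hmk
  have hcard : Nat.card (𝓞 K ⧸ rr.asIdeal) = r := by
    rw [← hrr, nrm, Ideal.absNorm_apply, Submodule.cardQuot_apply]
  have hfin : Finite (𝓞 K ⧸ rr.asIdeal) := Nat.finite_of_card_ne_zero (by rw [hcard]; exact hr.ne_zero)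
  letI := Fintype.ofFinite (𝓞 K ⧸ rr.asIdeal)
  have hchar : CharP (𝓞 K ⧸ rr.asIdeal) r := by
    rw [CharP.charP_iff_prime_eq_zero hr, ← map_natCast mk, hmk, Ideal.Quotient.eq_zero_iff_mem]
    exact hrmem
  set φ : ZMod r →+* (𝓞 K ⧸ rr.asIdeal) := ZMod.castHom (dvd_refl r) _ with hφ
  have hφinj : Function.Injective φ := φ.injective
  have hφval : ∀ t : ZMod r, φ t = mk ((t.val : ℕ) : 𝓞 K) := by
    intro t
    rw [map_natCast, hφ, ZMod.castHom_apply, ZMod.natCast_val]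
  have hζb := isPrimitiveRoot_mk hζ₀ hpmem
  -- `p ∣ r - 1`
  have hdvd : p ∣ r - 1 := by
    apply hζb.dvd_of_pow_eq_one
    have := FiniteField.pow_card_sub_one_eq_one (mk ζ₀) (hζb.ne_zero hp.ne_zero)
    rwa [← Nat.card_eq_fintype_card, hcard] at this
  refine ⟨hdvd, ?_⟩
  obtain ⟨m, hm⟩ := hdvd
  have hm0 : 0 < m := by
    rcases Nat.eq_zero_or_pos m with rfl | h
    · have := hr.two_le; omega
    · exact h
  have hdiv : (r - 1) / p = m := by rw [hm, Nat.mul_div_cancel_left _ hp.pos]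
  rw [hdiv]
  obtain ⟨g, hg⟩ := IsCyclic.exists_generator (α := (ZMod r)ˣ)
  have hgord : orderOf g = r - 1 := by
    rw [orderOf_eq_card_of_forall_mem_zpowers hg, Nat.card_eq_fintype_card, ZMod.card_units]
  have hγ : (φ (g : ZMod r) ^ m) ^ p = 1 := by
    rw [← pow_mul, mul_comm, ← hm, ← map_pow, ← Units.val_pow_eq_pow_val, ← hgord,
      pow_orderOf_eq_one, Units.val_one, map_one]
  obtain ⟨e, -, he⟩ := hζb.eq_pow_of_pow_eq_one hγ
  set u₀ : (𝓞 K)ˣ := (hζ₀.isUnit hp.ne_zero).unit with hu₀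
  have hu₀v : (u₀ : 𝓞 K) = ζ₀ := IsUnit.unit_spec _
  set u : (𝓞 K)ˣ := u₀ ^ e with hu
  have huv : (u : 𝓞 K) = ζ₀ ^ e := by rw [hu, Units.val_pow_eq_pow_val, hu₀v]
  have hup : u ^ p = 1 := by
    apply Units.ext
    rw [Units.val_pow_eq_pow_val, huv, ← pow_mul, mul_comm, pow_mul, hζ₀.pow_eq_one, one_pow,
      Units.val_one]
  have hmem : u ∈ rootsOfUnity (Fintype.card (ZMod r)ˣ) (𝓞 K) := by
    rw [mem_rootsOfUnity, ZMod.card_units, hm, pow_mul, hup, one_pow]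
  set χ : MulChar (ZMod r) (𝓞 K) := MulChar.ofRootOfUnity hmem hg with hχ
  have hχg : χ g = u := MulChar.ofRootOfUnity_spec hmem hg
  have hpow : ∀ t : (ZMod r)ˣ, ∃ n : ℕ, g ^ n = t := by
    intro t
    have := (mem_powers_iff_mem_zpowers).2 (hg t)
    exact Submonoid.mem_powers_iff _ _ |>.1 this
  have hχt : ∀ n : ℕ, χ ((g ^ n : (ZMod r)ˣ) : ZMod r) = ζ₀ ^ (e * n) := by
    intro n
    rw [Units.val_pow_eq_pow_val, map_pow, hχg, huv, pow_mul]
  refine ⟨χ, ?_, ?_, ?_⟩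
  · apply orderOf_eq_prime
    · rw [MulChar.eq_iff hg, MulChar.pow_apply_coe, hχg, ← Units.val_pow_eq_pow_val, hup,
        MulChar.one_apply_coe, Units.val_one]
    · intro h1
      have h2 : (u : 𝓞 K) = 1 := by rw [← hχg, h1, MulChar.one_apply_coe]
      have h3 : φ (g : ZMod r) ^ m = 1 := by
        rw [← he, ← map_pow, ← huv, h2, map_one]
      have h4 : g ^ m = 1 := by
        apply Units.ext
        apply hφinj
        rw [Units.val_pow_eq_pow_val, map_pow, h3, Units.val_one, map_one]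
      have h5 := orderOf_dvd_of_pow_eq_one h4
      rw [hgord, hm] at h5
      have h6 := Nat.le_of_dvd hm0 h5
      have : 2 * m ≤ p * m := Nat.mul_le_mul_right m hp.two_le
      omega
  · intro t
    obtain ⟨n, rfl⟩ := hpow t
    exact ⟨_, hχt n⟩
  · intro t
    rw [← Ideal.Quotient.eq_zero_iff_mem, map_sub, sub_eq_zero, map_pow, ← hmk, ← hφval]
    by_cases ht : t = 0
    · subst ht
      rw [MulChar.map_zero, map_zero, map_zero, zero_pow hm0.ne']
    · obtain ⟨n, hn⟩ := hpow (Units.mk0 t ht)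
      have ht' : t = ((g ^ n : (ZMod r)ˣ) : ZMod r) := by rw [hn]; rfl
      rw [ht', hχt, map_pow, pow_mul, he, Units.val_pow_eq_pow_val, map_pow, ← pow_mul, ← pow_mul,
        mul_comm]

/-- `g(χ) ^ p`, written with Jacobi sums (`gaussSum_pow_eq_prod_jacobiSum`) -/
noncomputable def rho0 (p : ℕ) {r : ℕ} [NeZero r] {R : Type*} [CommRing R] (χ : MulChar (ZMod r) R) :
    R :=
  χ (-1) * (r : R) * ∏ i ∈ Ico 1 (p - 1), jacobiSum χ (χ ^ i)

theorem rho0_ringHomComp (p : ℕ) {r : ℕ} [NeZero r] {R R' : Type*} [CommRing R] [CommRing R']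
    (χ : MulChar (ZMod r) R) (f : R →+* R') : rho0 p (χ.ringHomComp f) = f (rho0 p χ) := by
  simp only [rho0, map_mul, map_prod, map_natCast, MulChar.ringHomComp_apply,
    ← jacobiSum_ringHomComp, MulChar.ringHomComp_pow]

end Fermat.Agent.S14lib
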