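import Fermat.Agent.S14.Ord
import Fermat.Agent.S14.Equiv
import Fermat.Agent.S14.GaussDefs

/-!
# T-S14, WP8b (b): the valuations of `ρ = g(χ)^p`
-/

set_option autoImplicit false

open NumberField IsDedekindDomain Finset

namespace Fermat.Agent.S14lib

section unram

variable {K : Type} [Field K] [NumberField K] {p : ℕ} [Fact p.Prime]
  [IsCyclotomicExtension {p} ℚ K]

/-- a prime `r ≠ p` is unramified in `ℚ(ζ_p)` -/
theorem ordv_natCast_eq_one_of_above {r : ℕ} (hr : r.Prime) (hrp : r ≠ p) {v : Pl K}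
    (hv : Above r v) : ordv v (r : K) = 1 := by
  have : Fact r.Prime := ⟨hr⟩
  have hr0 : (r : 𝓞 K) ≠ 0 := by exact_mod_cast hr.ne_zero
  have hlo : v.asIdeal.LiesOver (Ideal.span {(r : ℤ)}) := by
    constructor
    have hmax : (Ideal.span {(r : ℤ)}).IsMaximal :=
      (Ideal.span_singleton_prime (by exact_mod_cast hr.ne_zero)).2
        (Nat.prime_iff_prime_int.1 hr) |>.isMaximal (by simpa using hr.ne_zero)
    refine hmax.eq_of_le ?_ ?_
    · intro h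
      have : (1 : ℤ) ∈ Ideal.under ℤ v.asIdeal := by rw [h]; trivial
      rw [Ideal.under_def, Ideal.mem_comap, map_one] at this
      exact v.isPrime.ne_top ((Ideal.eq_top_iff_one _).2 this)
    · rw [Ideal.span_singleton_le_iff_mem, Ideal.under_def, Ideal.mem_comap]
      simpa [Above] using hv
  have h1 : v.asIdeal.ramificationIdx ℤ = 1 :=
    IsCyclotomicExtension.Rat.ramificationIdx_eq_of_not_dvd r K v.asIdeal (m := p)
      (fun h => hrp ((Nat.prime_dvd_prime_iff_eq hr (Fact.out : p.Prime)).1 h))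
  rw [← Ideal.ramificationIdx'_eq_ramificationIdx (Ideal.span {(r : ℤ)}) v.asIdeal
    (by simpa using hr.ne_zero)] at h1
  have hnn : 0 ≤ ordv v (algebraMap (𝓞 K) K (r : 𝓞 K)) := ordv_algebraMap_nonneg v _
  obtain ⟨n, hn⟩ := Int.eq_ofNat_of_zero_le hnn
  have hmap : Ideal.map (algebraMap ℤ (𝓞 K)) (Ideal.span {(r : ℤ)}) = Ideal.span {(r : 𝓞 K)} := by
    rw [Ideal.map_span, Set.image_singleton]; simp
  have h2 : (Ideal.span {(r : ℤ)}).ramificationIdx' v.asIdeal = n := by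
    apply Ideal.ramificationIdx'_spec
    · rw [hmap, Ideal.span_singleton_le_iff_mem, ← le_ordv_algebraMap_iff v hr0, hn]
    · rw [hmap, Ideal.span_singleton_le_iff_mem, ← le_ordv_algebraMap_iff v hr0, hn]
      push_cast; omega
  have : ordv v (r : K) = ordv v (algebraMap (𝓞 K) K (r : 𝓞 K)) := by simp
  rw [this, hn, ← h2, h1]; rfl

end unram

section jac

variable {K : Type} [Field K] [NumberField K] {r : ℕ} [Fact r.Prime]

theorem jacobiSum_mul_inv_int {φ ψ : MulChar (ZMod r) (𝓞 K)} (hφ : φ ≠ 1) (hψ : ψ ≠ 1)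
    (hφψ : φ * ψ ≠ 1) : jacobiSum φ ψ * jacobiSum φ⁻¹ ψ⁻¹ = (r : 𝓞 K) := by
  have hinj : Function.Injective (algebraMap (𝓞 K) K) := RingOfIntegers.coe_injective
  apply hinj
  rw [map_mul, ← jacobiSum_ringHomComp, ← jacobiSum_ringHomComp, ← MulChar.ringHomComp_inv,
    ← MulChar.ringHomComp_inv,
    jacobiSum_mul_jacobiSum_inv _ ((MulChar.ringHomComp_ne_one_iff hinj).2 hφ)
      ((MulChar.ringHomComp_ne_one_iff hinj).2 hψ)
      (by rw [← MulChar.ringHomComp_mul]; exact (MulChar.ringHomComp_ne_one_iff hinj).2 hφψ)]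
  · simp [ZMod.card]
  · rw [ZMod.ringChar_zmod_n, ringChar.eq_zero]
    exact (Fact.out : r.Prime).ne_zero.symm

theorem sum_pow_mul_one_sub_pow {A B : ℕ} (h : A + B < r - 1) :
    ∑ t : ZMod r, t ^ A * (1 - t) ^ B = 0 := by
  have h1 : ∀ t : ZMod r, t ^ A * (1 - t) ^ B =
      ∑ m ∈ range (B + 1), ((-1) ^ m * (B.choose m : ZMod r)) * t ^ (A + m) := by
    intro t
    have : (1 - t) = (-t) + 1 := by ring
    rw [this, add_pow, Finset.mul_sum]
    refine Finset.sum_congr rfl fun m _ => ?_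
    rw [neg_pow t m, one_pow, pow_add]; ring
  simp_rw [h1]
  rw [Finset.sum_comm]
  refine Finset.sum_eq_zero fun m hm => ?_
  rw [← Finset.mul_sum, FiniteField.sum_pow_lt_card_sub_one, mul_zero]
  rw [ZMod.card]
  have := Finset.mem_range.1 hm
  omega

/-- **(J)** `J(χ^a, χ^b) ≡ ∑ t^(ma) (1-t)^(mb) = 0 mod rr` when `m (a + b) < r - 1`. -/
theorem jacobiSum_pow_mem {I : Ideal (𝓞 K)} (hI : (r : 𝓞 K) ∈ I) {m : ℕ}
    {χ : MulChar (ZMod r) (𝓞 K)} (hcong : ∀ t : ZMod r, χ t - (t.val : 𝓞 K) ^ m ∈ I)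
    {a b : ℕ} (ha : a ≠ 0) (hb : b ≠ 0) (hab : m * a + m * b < r - 1) :
    jacobiSum (χ ^ a) (χ ^ b) ∈ I := by
  have hc : ∀ t : ZMod r, Ideal.Quotient.mk I (χ t) = ((t.val : ℕ) : 𝓞 K ⧸ I) ^ m := by
    intro t
    have := (Ideal.Quotient.eq (I := I)).2 (hcong t)
    rw [this, map_pow, map_natCast]
  set N : ℕ := ∑ t : ZMod r, t.val ^ (m * a) * (1 - t).val ^ (m * b) with hN
  have hN0 : (N : ZMod r) = 0 := by
    rw [hN]; push_cast
    simp only [ZMod.natCast_zmod_val]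
    exact sum_pow_mul_one_sub_pow hab
  rw [ZMod.natCast_eq_zero_iff] at hN0
  obtain ⟨d, hd⟩ := hN0
  rw [← Ideal.Quotient.eq_zero_iff_mem, jacobiSum, map_sum]
  have h2 : ∀ t : ZMod r, Ideal.Quotient.mk I ((χ ^ a) t * (χ ^ b) (1 - t)) =
      (((t.val ^ (m * a) * (1 - t).val ^ (m * b) : ℕ)) : 𝓞 K ⧸ I) := by
    intro t
    rw [MulChar.pow_apply' _ ha, MulChar.pow_apply' _ hb, map_mul, map_pow, map_pow, hc, hc]
    push_cast; rw [pow_mul, pow_mul]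
  simp_rw [h2]
  rw [← Nat.cast_sum, ← hN, hd]
  have : ((r : ℕ) : 𝓞 K ⧸ I) = 0 := by
    have := Ideal.Quotient.eq_zero_iff_mem.2 hI
    simpa using this
  push_cast; rw [this, zero_mul]

/-- nontriviality of the powers of a character of prime order -/
theorem chi_pow_ne_one {p : ℕ} [Fact p.Prime] {χ : MulChar (ZMod r) (𝓞 K)} (hχ : orderOf χ = p)
    {a : ℕ} (ha : ¬ p ∣ a) : χ ^ a ≠ 1 := by
  intro h
  exact ha (hχ ▸ orderOf_dvd_of_pow_eq_one h)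

theorem jac_pow_mul {p : ℕ} [Fact p.Prime] {χ : MulChar (ZMod r) (𝓞 K)} (hχ : orderOf χ = p)
    {a b : ℕ} (ha : ¬ p ∣ a) (hb : ¬ p ∣ b) (hab : ¬ p ∣ a + b) :
    jacobiSum (χ ^ a) (χ ^ b) * jacobiSum (χ ^ a)⁻¹ (χ ^ b)⁻¹ = (r : 𝓞 K) :=
  jacobiSum_mul_inv_int (chi_pow_ne_one hχ ha) (chi_pow_ne_one hχ hb)
    (by rw [← pow_add]; exact chi_pow_ne_one hχ hab)

theorem natCast_r_ne_zero : ((r : ℕ) : K) ≠ 0 := by
  exact_mod_cast (Fact.out : r.Prime).ne_zero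

theorem jac_pow_ne_zero {p : ℕ} [Fact p.Prime] {χ : MulChar (ZMod r) (𝓞 K)} (hχ : orderOf χ = p)
    {a b : ℕ} (ha : ¬ p ∣ a) (hb : ¬ p ∣ b) (hab : ¬ p ∣ a + b) :
    jacobiSum (χ ^ a) (χ ^ b) ≠ 0 := by
  intro h
  have := jac_pow_mul hχ ha hb hab
  rw [h, zero_mul] at this
  exact (Fact.out : r.Prime).ne_zero (by exact_mod_cast this.symm)

/-- `0 ≤ ord_v J ≤ ord_v r` -/
theorem ordv_jac_le {p : ℕ} [Fact p.Prime] {χ : MulChar (ZMod r) (𝓞 K)} (hχ : orderOf χ = p)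
    {a b : ℕ} (ha : ¬ p ∣ a) (hb : ¬ p ∣ b) (hab : ¬ p ∣ a + b) (v : Pl K) :
    ordv v (algebraMap (𝓞 K) K (jacobiSum (χ ^ a) (χ ^ b))) ≤ ordv v ((r : ℕ) : K) := by
  have h := jac_pow_mul hχ ha hb hab
  have h0 := jac_pow_ne_zero hχ ha hb hab
  have h0' : jacobiSum (χ ^ a)⁻¹ (χ ^ b)⁻¹ ≠ 0 := by
    intro h'
    rw [h', mul_zero] at h
    exact (Fact.out : r.Prime).ne_zero (by exact_mod_cast h.symm)
  have h2 := congrArg (fun x => ordv v (algebraMap (𝓞 K) K x)) h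
  simp only [map_mul, map_natCast] at h2
  rw [ordv_mul v (by simpa using h0) (by simpa using h0')] at h2
  have := ordv_algebraMap_nonneg v (jacobiSum (χ ^ a)⁻¹ (χ ^ b)⁻¹)
  omega

theorem chi_neg_one_sq (χ : MulChar (ZMod r) (𝓞 K)) : χ (-1) ^ 2 = 1 := by
  rw [← map_pow]; simp

theorem ordv_chi_neg_one (χ : MulChar (ZMod r) (𝓞 K)) (v : Pl K) :
    ordv v (algebraMap (𝓞 K) K (χ (-1))) = 0 := by
  have h := congrArg (fun x => ordv v (algebraMap (𝓞 K) K x)) (chi_neg_one_sq χ)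
  simp only [map_pow, map_one, ordv_one, ordv_pow] at h
  simpa using h

theorem chi_neg_one_ne_zero (χ : MulChar (ZMod r) (𝓞 K)) : χ (-1) ≠ 0 := by
  intro h
  have := chi_neg_one_sq χ
  rw [h] at this
  simp at this

/-- the indices occurring in `rho0` -/
theorem rho0_index {p : ℕ} [Fact p.Prime] {i : ℕ} (hi : i ∈ Ico 1 (p - 1)) :
    ¬ p ∣ 1 ∧ ¬ p ∣ i ∧ ¬ p ∣ 1 + i := by
  have hp := (Fact.out : p.Prime).two_le
  rw [Finset.mem_Ico] at hi
  refine ⟨fun h => ?_, fun h => ?_, fun h => ?_⟩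
  · have := Nat.le_of_dvd one_pos h; omega
  · have := Nat.le_of_dvd (by omega) h; omega
  · have := Nat.le_of_dvd (by omega) h; omega

theorem jac_one_ne_zero {p : ℕ} [Fact p.Prime] {χ : MulChar (ZMod r) (𝓞 K)} (hχ : orderOf χ = p)
    {i : ℕ} (hi : i ∈ Ico 1 (p - 1)) : jacobiSum χ (χ ^ i) ≠ 0 := by
  obtain ⟨h1, h2, h3⟩ := rho0_index hi
  have := jac_pow_ne_zero hχ h1 h2 h3
  rwa [pow_one] at this

theorem rho0_ne_zero {p : ℕ} [Fact p.Prime] {χ : MulChar (ZMod r) (𝓞 K)} (hχ : orderOf χ = p) :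
    rho0 p χ ≠ 0 := by
  rw [rho0]
  refine mul_ne_zero (mul_ne_zero (chi_neg_one_ne_zero χ) ?_) ?_
  · exact_mod_cast (Fact.out : r.Prime).ne_zero
  · exact Finset.prod_ne_zero_iff.2 fun i hi => jac_one_ne_zero hχ hi

/-- the valuation of `rho0` as a sum -/
theorem ordv_rho0 {p : ℕ} [Fact p.Prime] {χ : MulChar (ZMod r) (𝓞 K)} (hχ : orderOf χ = p)
    (v : Pl K) :
    ordv v (algebraMap (𝓞 K) K (rho0 p χ)) = ordv v ((r : ℕ) : K) +
      ∑ i ∈ Ico 1 (p - 1), ordv v (algebraMap (𝓞 K) K (jacobiSum χ (χ ^ i))) := by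
  have hJ : ∀ i ∈ Ico 1 (p - 1), algebraMap (𝓞 K) K (jacobiSum χ (χ ^ i)) ≠ 0 := fun i hi => by
    simpa using jac_one_ne_zero hχ hi
  rw [rho0, map_mul, map_mul, map_prod, map_natCast,
    ordv_mul v (mul_ne_zero (by simpa using chi_neg_one_ne_zero χ) natCast_r_ne_zero)
      (Finset.prod_ne_zero_iff.2 hJ),
    ordv_mul v (by simpa using chi_neg_one_ne_zero χ) natCast_r_ne_zero, ordv_chi_neg_one,
    ordv_prod v _ _ hJ, zero_add]

theorem ordv_jac_one_le {p : ℕ} [Fact p.Prime] {χ : MulChar (ZMod r) (𝓞 K)} (hχ : orderOf χ = p)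
    {i : ℕ} (hi : i ∈ Ico 1 (p - 1)) (v : Pl K) :
    ordv v (algebraMap (𝓞 K) K (jacobiSum χ (χ ^ i))) ≤ ordv v ((r : ℕ) : K) := by
  obtain ⟨h1, h2, h3⟩ := rho0_index hi
  have := ordv_jac_le hχ h1 h2 h3 v
  rwa [pow_one] at this

/-- **(b2)** `rho0` is a unit outside `r` -/
theorem ordv_rho0_eq_zero {p : ℕ} [Fact p.Prime] {χ : MulChar (ZMod r) (𝓞 K)}
    (hχ : orderOf χ = p) {v : Pl K} (hv : ¬ Above r v) :
    ordv v (algebraMap (𝓞 K) K (rho0 p χ)) = 0 := by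
  have hr0 : ordv v ((r : ℕ) : K) = 0 :=
    (not_above_iff_ordv_eq_zero (Fact.out : r.Prime).ne_zero v).1 hv
  rw [ordv_rho0 hχ, hr0, zero_add]
  refine Finset.sum_eq_zero fun i hi => ?_
  have h1 := ordv_jac_one_le hχ hi v
  have h2 := ordv_algebraMap_nonneg v (jacobiSum χ (χ ^ i))
  omega

end jac

section cyc

variable {K : Type} [Field K] [NumberField K] {p : ℕ} [Fact p.Prime]
  [IsCyclotomicExtension {p} ℚ K] {r : ℕ} [Fact r.Prime]

/-- **(b1w)** at every place above `r`: `1 ≤ ord_v ρ ≤ p - 1` -/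
theorem ordv_rho0_bounds (hrp : r ≠ p) {χ : MulChar (ZMod r) (𝓞 K)}
    (hχ : orderOf χ = p) {v : Pl K} (hv : Above r v) :
    1 ≤ ordv v (algebraMap (𝓞 K) K (rho0 p χ)) ∧
      ordv v (algebraMap (𝓞 K) K (rho0 p χ)) ≤ p - 1 := by
  have hp := (Fact.out : p.Prime).two_le
  have hr1 : ordv v ((r : ℕ) : K) = 1 := ordv_natCast_eq_one_of_above Fact.out hrp hv
  rw [ordv_rho0 hχ, hr1]
  constructor
  · have : 0 ≤ ∑ i ∈ Ico 1 (p - 1), ordv v (algebraMap (𝓞 K) K (jacobiSum χ (χ ^ i))) :=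
      Finset.sum_nonneg fun i _ => ordv_algebraMap_nonneg v _
    omega
  · have : ∑ i ∈ Ico 1 (p - 1), ordv v (algebraMap (𝓞 K) K (jacobiSum χ (χ ^ i))) ≤
        ∑ i ∈ Ico 1 (p - 1), (1 : ℤ) :=
      Finset.sum_le_sum fun i hi => hr1 ▸ ordv_jac_one_le hχ hi v
    simp only [Finset.sum_const, Nat.card_Ico, smul_eq_mul, mul_one, nsmul_eq_mul] at this
    have h2 : ((p - 1 - 1 : ℕ) : ℤ) = (p : ℤ) - 2 := by omega
    omega

theorem not_dvd_ordv_rho0 (hrp : r ≠ p) {χ : MulChar (ZMod r) (𝓞 K)}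
    (hχ : orderOf χ = p) {v : Pl K} (hv : Above r v) :
    ¬ (p : ℤ) ∣ ordv v (algebraMap (𝓞 K) K (rho0 p χ)) := by
  obtain ⟨h1, h2⟩ := ordv_rho0_bounds hrp hχ hv
  intro h
  have := Int.le_of_dvd (by omega) h
  omega

end cyc

end Fermat.Agent.S14lib
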