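import Fermat.Agent.S14.GaussOrd

/-!
# T-S14, WP8b (b1): the exact valuations `ord_{σ_c⁻¹ rr} ρ = p - c`
-/

set_option autoImplicit false

open NumberField IsDedekindDomain Finset

namespace Fermat.Agent.S14lib

section gaussId

variable {K : Type} [Field K] [NumberField K] {p : ℕ} [Fact p.Prime] {r : ℕ} [Fact r.Prime]

/-- `g(χ)^(pc) = g(χ^c)^p * (∏_{j<c} J(χ,χ^j))^p`, written inside `𝓞 K` -/
theorem rho0_pow_eq {χ : MulChar (ZMod r) (𝓞 K)} (hχ : orderOf χ = p) {c : ℕ} (hc1 : 1 ≤ c)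
    (hc2 : c < p) :
    rho0 p χ ^ c = rho0 p (χ ^ c) * (∏ j ∈ Ico 1 c, jacobiSum χ (χ ^ j)) ^ p := by
  have hp : p.Prime := Fact.out
  have hchar : ringChar K ≠ ringChar (ZMod r) := by
    rw [ZMod.ringChar_zmod_n, ringChar.eq_zero]
    exact (Fact.out : r.Prime).ne_zero.symm
  let ψ := AddChar.FiniteField.primitiveChar (ZMod r) K hchar
  let FF := CyclotomicField ψ.n K
  let f : 𝓞 K →+* FF := (algebraMap K FF).comp (algebraMap (𝓞 K) K)
  have hf : Function.Injective f :=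
    (algebraMap K FF).injective.comp RingOfIntegers.coe_injective
  apply hf
  set χ' : MulChar (ZMod r) FF := χ.ringHomComp f with hχ'def
  have hχ' : orderOf χ' = p := by
    rw [← hχ]
    exact orderOf_injective (MulChar.ringHomCompHom f) (MulChar.injective_ringHomComp hf) χ
  have key : ∀ φ : MulChar (ZMod r) FF, orderOf φ = p → rho0 p φ = gaussSum φ ψ.char ^ p := by
    intro φ hφ
    have := gaussSum_pow_eq_prod_jacobiSum (χ := φ) (ψ := ψ.char) (by rw [hφ]; exact hp.two_le)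
      ψ.prim
    rw [hφ] at this
    rw [this, rho0, ZMod.card]
  have hχc : orderOf (χ' ^ c) = p := by
    rw [Nat.Coprime.orderOf_pow, hχ']
    rw [hχ']
    exact (Nat.Prime.coprime_iff_not_dvd hp).2
      (fun h => by have := Nat.le_of_dvd (by omega) h; omega)
  have h3 := gaussSum_pow_eq_prod_jacobiSum_aux χ' ψ.char (n := c) hc1 (hχ' ▸ hc2)
  rw [map_pow, map_mul, map_pow, ← rho0_ringHomComp, ← rho0_ringHomComp, ← MulChar.ringHomComp_pow,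
    ← hχ'def, key χ' hχ', key _ hχc, map_prod]
  have h4 : ∀ j, f (jacobiSum χ (χ ^ j)) = jacobiSum χ' (χ' ^ j) := by
    intro j
    rw [← jacobiSum_ringHomComp, ← MulChar.ringHomComp_pow]
  simp_rw [h4]
  rw [← mul_pow, ← h3, ← pow_mul, ← pow_mul, mul_comm]

/-- Galois action on the character -/
theorem chi_ringHomComp_sigma {ζ₀ : 𝓞 K} {χ : MulChar (ZMod r) (𝓞 K)}
    (hval : ∀ t : (ZMod r)ˣ, ∃ i : ℕ, χ t = ζ₀ ^ i) (σ : K ≃+* K) {c : ℕ}
    (hσ : σ (ζ₀ : K) = (ζ₀ : K) ^ c) :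
    χ.ringHomComp (RingOfIntegers.mapRingEquiv σ : 𝓞 K →+* 𝓞 K) = χ ^ c := by
  ext t
  obtain ⟨i, hi⟩ := hval t
  rw [MulChar.ringHomComp_apply, MulChar.pow_apply_coe, hi]
  simp only [RingEquiv.coe_toRingHom, map_pow, RingOfIntegers.mapRingEquiv_apply, hσ]
  rw [← pow_mul, ← pow_mul, mul_comm]

theorem sigma_rho0 {ζ₀ : 𝓞 K} {χ : MulChar (ZMod r) (𝓞 K)}
    (hval : ∀ t : (ZMod r)ˣ, ∃ i : ℕ, χ t = ζ₀ ^ i) (σ : K ≃+* K) {c : ℕ}
    (hσ : σ (ζ₀ : K) = (ζ₀ : K) ^ c) :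
    σ (algebraMap (𝓞 K) K (rho0 p χ)) = algebraMap (𝓞 K) K (rho0 p (χ ^ c)) := by
  rw [← chi_ringHomComp_sigma hval σ hσ, rho0_ringHomComp]
  rfl

end gaussId

section cyc2

variable {K : Type} [Field K] [NumberField K] {p : ℕ} [Fact p.Prime]
  [IsCyclotomicExtension {p} ℚ K] {r : ℕ} [Fact r.Prime]

/-- `ord_rr J(χ, χ^j) = 1` for `1 ≤ j ≤ p - 2` -/
theorem ordv_jac_one_eq_one (hrp : r ≠ p) {rr : Pl K} (hrr : Above r rr)
    {χ : MulChar (ZMod r) (𝓞 K)} (hχ : orderOf χ = p)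
    (hcong : ∀ t : ZMod r, χ t - ((t.val : ℕ) : 𝓞 K) ^ ((r - 1) / p) ∈ rr.asIdeal)
    {j : ℕ} (hj : j ∈ Ico 1 (p - 1)) :
    ordv rr (algebraMap (𝓞 K) K (jacobiSum χ (χ ^ j))) = 1 := by
  have hp : p.Prime := Fact.out
  have hr1 : ordv rr ((r : ℕ) : K) = 1 := ordv_natCast_eq_one_of_above Fact.out hrp hrr
  have hle := ordv_jac_one_le hχ hj rr
  have hdvd : p ∣ r - 1 := by
    have := MulChar.orderOf_dvd_card_sub_one _ χ
    rwa [hχ, ZMod.card] at this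
  obtain ⟨m, hm⟩ := hdvd
  have hr2 := (Fact.out : r.Prime).two_le
  have hm0 : 0 < m := by
    rcases Nat.eq_zero_or_pos m with rfl | h
    · omega
    · exact h
  have hdiv : (r - 1) / p = m := by rw [hm, Nat.mul_div_cancel_left _ hp.pos]
  rw [hdiv] at hcong
  have hj' := Finset.mem_Ico.1 hj
  have hmem : jacobiSum (χ ^ 1) (χ ^ j) ∈ rr.asIdeal := by
    refine jacobiSum_pow_mem hrr hcong one_ne_zero (by omega) ?_
    rw [hm, ← Nat.mul_add]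
    have h1 : m * (1 + j) ≤ m * (p - 1) := Nat.mul_le_mul_left m (by omega)
    have h2 : m * (p - 1) + m = p * m := by
      obtain ⟨q, rfl⟩ : ∃ q, p = q + 1 := ⟨p - 1, by have := hp.two_le; omega⟩
      simp only [Nat.add_sub_cancel]; ring
    omega
  rw [pow_one] at hmem
  have := (ordv_algebraMap_pos_iff rr (jac_one_ne_zero hχ hj)).2 hmem
  omega

/-- `ord_rr ρ = p - 1` -/
theorem ordv_rho0_self (hrp : r ≠ p) {rr : Pl K} (hrr : Above r rr)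
    {χ : MulChar (ZMod r) (𝓞 K)} (hχ : orderOf χ = p)
    (hcong : ∀ t : ZMod r, χ t - ((t.val : ℕ) : 𝓞 K) ^ ((r - 1) / p) ∈ rr.asIdeal) :
    ordv rr (algebraMap (𝓞 K) K (rho0 p χ)) = p - 1 := by
  have hp := (Fact.out : p.Prime).two_le
  have hr1 : ordv rr ((r : ℕ) : K) = 1 := ordv_natCast_eq_one_of_above Fact.out hrp hrr
  rw [ordv_rho0 hχ, hr1, Finset.sum_congr rfl fun j hj => ordv_jac_one_eq_one hrp hrr hχ hcong hj]
  simp only [Finset.sum_const, Nat.card_Ico, mul_one, nsmul_eq_mul]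
  have h2 : ((p - 1 - 1 : ℕ) : ℤ) = (p : ℤ) - 2 := by omega
  omega

/-- `ord_rr g(χ^c)^p = p - c` -/
theorem ordv_rho0_pow (hrp : r ≠ p) {rr : Pl K} (hrr : Above r rr)
    {χ : MulChar (ZMod r) (𝓞 K)} (hχ : orderOf χ = p)
    (hcong : ∀ t : ZMod r, χ t - ((t.val : ℕ) : 𝓞 K) ^ ((r - 1) / p) ∈ rr.asIdeal)
    {c : ℕ} (hc1 : 1 ≤ c) (hc2 : c < p) :
    ordv rr (algebraMap (𝓞 K) K (rho0 p (χ ^ c))) = p - c := by
  have hp : p.Prime := Fact.out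
  have hχc : orderOf (χ ^ c) = p := by
    rw [Nat.Coprime.orderOf_pow, hχ]
    rw [hχ]
    exact (Nat.Prime.coprime_iff_not_dvd hp).2
      (fun h => by have := Nat.le_of_dvd (by omega) h; omega)
  have hsub : ∀ j ∈ Ico 1 c, j ∈ Ico 1 (p - 1) := fun j hj => by
    rw [Finset.mem_Ico] at hj ⊢; omega
  have hJ : ∀ j ∈ Ico 1 c, algebraMap (𝓞 K) K (jacobiSum χ (χ ^ j)) ≠ 0 := fun j hj => by
    simpa using jac_one_ne_zero hχ (hsub j hj)
  have h := congrArg (fun x => ordv rr (algebraMap (𝓞 K) K x)) (rho0_pow_eq hχ hc1 hc2)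
  simp only [map_pow, map_mul, map_prod] at h
  rw [ordv_pow, ordv_rho0_self hrp hrr hχ hcong,
    ordv_mul rr (by simpa using rho0_ne_zero hχc) (pow_ne_zero _ (Finset.prod_ne_zero_iff.2 hJ)),
    ordv_pow, ordv_prod rr _ _ hJ,
    Finset.sum_congr rfl fun j hj => ordv_jac_one_eq_one hrp hrr hχ hcong (hsub j hj)] at h
  simp only [Finset.sum_const, Nat.card_Ico, mul_one, nsmul_eq_mul] at h
  have h2 : ((c - 1 : ℕ) : ℤ) = (c : ℤ) - 1 := by omega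
  rw [h2] at h
  linarith

/-- **(b1)** `ord_{σ_c⁻¹ rr} ρ = p - c` -/
theorem ordv_pull_rho0 (hrp : r ≠ p) {rr : Pl K} (hrr : Above r rr) {ζ₀ : 𝓞 K}
    {χ : MulChar (ZMod r) (𝓞 K)} (hχ : orderOf χ = p)
    (hval : ∀ t : (ZMod r)ˣ, ∃ i : ℕ, χ t = ζ₀ ^ i)
    (hcong : ∀ t : ZMod r, χ t - ((t.val : ℕ) : 𝓞 K) ^ ((r - 1) / p) ∈ rr.asIdeal)
    {c : ℕ} (hc1 : 1 ≤ c) (hc2 : c < p) (σ : K ≃+* K) (hσ : σ (ζ₀ : K) = (ζ₀ : K) ^ c) :
    ordv (pull σ rr) (algebraMap (𝓞 K) K (rho0 p χ)) = p - c := by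
  rw [ordv_pull, sigma_rho0 hval σ hσ, ordv_rho0_pow hrp hrr hχ hcong hc1 hc2]

end cyc2

end Fermat.Agent.S14lib
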