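import Mathlib

/-!
# T-S14, WP4: auxiliary lemmas for the abstract Herbrand lemma (Mathlib only)

* `herbx_q_mul` : multiplicativity of `q(φ) = [X : φ X] / |ker φ|`, in index form;
* `herbx_exists_poly` : `p = (X - 1) ^ (p - 1) * unit` modulo the cyclotomic polynomial;
* `herbx_index_sub_one` : `[X : (s - 1) X] = p ^ b * |ker (s - 1)|` if `1 + s + ... + s ^ (p - 1) = 0`.
-/

set_option autoImplicit false
set_option linter.style.haveILetI false

open Polynomial

namespace Fermat.Agent.S14lib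

section Q

variable {X : Type*} [AddCommGroup X]

/-- **(Q)** `q(φ ψ) = q(φ) q(ψ)` -/
theorem herbx_q_mul (φ ψ : X →+ X) :
    (φ.comp ψ).range.index * Nat.card φ.ker * Nat.card ψ.ker =
      φ.range.index * ψ.range.index * Nat.card (φ.comp ψ).ker := by
  set J := (ψ.range ⊔ φ.ker).index with hJ
  set ρ := ψ.range.relIndex φ.ker with hρ
  set c := Nat.card (ψ.range ⊓ φ.ker : AddSubgroup X) with hc
  have ha : (φ.comp ψ).range.index = J * φ.range.index := by
    rw [AddMonoidHom.range_eq_map, ← AddSubgroup.map_map, ← AddMonoidHom.range_eq_map,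
      AddSubgroup.index_map]
  have hb : ρ * J = ψ.range.index := by
    rw [hρ, hJ, ← AddSubgroup.relIndex_sup_left φ.ker ψ.range]
    exact AddSubgroup.relIndex_mul_index le_sup_left
  have hc' : c * ρ = Nat.card φ.ker := by
    rw [hc, hρ, ← AddSubgroup.inf_relIndex_right, ← AddSubgroup.relIndex_bot_left,
      ← AddSubgroup.relIndex_bot_left]
    exact AddSubgroup.relIndex_mul_relIndex _ _ _ bot_le inf_le_right
  have hd : Nat.card ψ.ker * c = Nat.card (φ.comp ψ).ker := by
    have h1 : ψ.ker ≤ (φ.comp ψ).ker := by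
      intro x hx
      rw [AddMonoidHom.mem_ker] at hx ⊢
      rw [AddMonoidHom.comp_apply, hx, map_zero]
    have h2 : AddSubgroup.map ψ (φ.comp ψ).ker = ψ.range ⊓ φ.ker := by
      ext y
      simp only [AddSubgroup.mem_map, AddMonoidHom.mem_ker, AddMonoidHom.comp_apply,
        AddSubgroup.mem_inf, AddMonoidHom.mem_range]
      constructor
      · rintro ⟨x, hx, rfl⟩; exact ⟨⟨x, rfl⟩, hx⟩
      · rintro ⟨⟨x, rfl⟩, hx⟩; exact ⟨x, hx, rfl⟩
    have h3 := AddSubgroup.relIndex_mul_relIndex ⊥ ψ.ker (φ.comp ψ).ker bot_le h1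
    rw [AddSubgroup.relIndex_bot_left, AddSubgroup.relIndex_bot_left, AddSubgroup.relIndex_ker,
      h2] at h3
    exact h3
  rw [ha, ← hb, ← hc', ← hd]
  ring

end Q

section Z

variable (p : ℕ) [hp : Fact p.Prime]

/-- a polynomial vanishing at a primitive `p`-th root of unity is divisible by `1 + X + ...` -/
theorem herbx_dvd_of_aeval_eq_zero {K : Type*} [Field K] [CharZero K] {ζ : K}
    (hζ : IsPrimitiveRoot ζ p) {f : ℤ[X]} (hf : aeval ζ f = 0) :
    (∑ i ∈ Finset.range p, (X : ℤ[X]) ^ i) ∣ f := by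
  rw [← cyclotomic_prime ℤ p, cyclotomic_eq_minpoly hζ hp.out.pos]
  exact minpoly.isIntegrallyClosed_dvd (hζ.isIntegral hp.out.pos) hf

theorem herbx_exists_poly_aux (K : Type*) [Field K] [NumberField K]
    [IsCyclotomicExtension {p} ℚ K] {ζ : K} (hζ : IsPrimitiveRoot ζ p) : ∃ E E' : ℤ[X],
    (∑ i ∈ Finset.range p, (X : ℤ[X]) ^ i) ∣ (X - 1) ^ (p - 1) * E - C (p : ℤ) ∧
    (∑ i ∈ Finset.range p, (X : ℤ[X]) ^ i) ∣ E * E' - 1 := by
  obtain ⟨ε, hε⟩ := IsCyclotomicExtension.Rat.associated_zeta_sub_one_pow_prime p hζ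
  have hrep : ∀ x : NumberField.RingOfIntegers K, ∃ f : ℤ[X], aeval ζ f = (x : K) := by
    intro x
    haveI := IsCyclotomicExtension.Rat.isIntegralClosure_adjoin_singleton_of_prime hζ
    obtain ⟨y, hy⟩ := (IsIntegralClosure.isIntegral_iff (A := Algebra.adjoin ℤ {ζ})).1
      x.isIntegral_coe
    have hy' : (y : K) ∈ (aeval ζ : ℤ[X] →ₐ[ℤ] K).range := by
      rw [← Algebra.adjoin_singleton_eq_range_aeval]
      exact y.2
    obtain ⟨f, hf⟩ := hy'
    exact ⟨f, hf.trans hy⟩
  obtain ⟨E, hE⟩ := hrep (ε : NumberField.RingOfIntegers K)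
  obtain ⟨E', hE'⟩ := hrep ((ε⁻¹ : (NumberField.RingOfIntegers K)ˣ) : NumberField.RingOfIntegers K)
  refine ⟨E, E', herbx_dvd_of_aeval_eq_zero p hζ ?_, herbx_dvd_of_aeval_eq_zero p hζ ?_⟩
  · have h1 := congrArg (fun x : NumberField.RingOfIntegers K => (x : K)) hε
    simp only [map_mul, map_pow, map_sub, map_one, map_natCast] at h1
    have h0 : algebraMap (NumberField.RingOfIntegers K) K hζ.toInteger = ζ := rfl
    rw [h0] at h1
    simp only [map_sub, map_mul, map_pow, aeval_X, map_one, aeval_C, hE]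
    have h2 : (ζ - 1) ^ (p - 1) * ((ε : NumberField.RingOfIntegers K) : K) = (p : K) := h1
    rw [h2]
    simp
  · have h1 : ((ε : NumberField.RingOfIntegers K) : K) *
        (((ε⁻¹ : (NumberField.RingOfIntegers K)ˣ) : NumberField.RingOfIntegers K) : K) = 1 := by
      rw [← map_mul, Units.mul_inv, map_one]
    simp only [map_sub, map_mul, map_one, hE, hE', h1, sub_self]

/-- **(Z0)** -/
theorem herbx_exists_poly : ∃ E E' : ℤ[X],
    (∑ i ∈ Finset.range p, (X : ℤ[X]) ^ i) ∣ (X - 1) ^ (p - 1) * E - C (p : ℤ) ∧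
    (∑ i ∈ Finset.range p, (X : ℤ[X]) ^ i) ∣ E * E' - 1 := by
  haveI : NeZero p := ⟨hp.out.ne_zero⟩
  haveI : IsCyclotomicExtension {p} ℚ (CyclotomicField p ℚ) :=
    CyclotomicField.isCyclotomicExtension p ℚ
  exact herbx_exists_poly_aux p (CyclotomicField p ℚ)
    (IsCyclotomicExtension.zeta_spec p ℚ (CyclotomicField p ℚ))

variable {p}

/-- **(Z)** in a ring where `1 + s + ... + s ^ (p - 1) = 0`, `p = (s - 1) ^ (p - 1) * unit` -/
theorem herbx_exists_unit {R : Type*} [Ring R] (s : R)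
    (hN : ∑ i ∈ Finset.range p, s ^ i = 0) :
    ∃ u u' : R, (s - 1) ^ (p - 1) * u = (p : R) ∧
      u * (s - 1) ^ (p - 1) = (p : R) ∧ u * u' = 1 ∧ u' * u = 1 := by
  obtain ⟨E, E', ⟨g, hg⟩, ⟨g', hg'⟩⟩ := herbx_exists_poly p
  have hΦ : aeval s (∑ i ∈ Finset.range p, (X : ℤ[X]) ^ i) = 0 := by
    simpa using hN
  have h1 := congrArg (aeval s) hg
  have h2 := congrArg (aeval s) hg'
  simp only [map_mul, hΦ, zero_mul, map_sub, map_pow, aeval_X, map_one, aeval_C] at h1 h2
  have h1' : (s - 1) ^ (p - 1) * aeval s E = (p : R) := by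
    rw [sub_eq_zero] at h1
    rw [h1]
    simp
  have hcomm : ∀ f g : ℤ[X], aeval s f * aeval s g = aeval s g * aeval s f := by
    intro f g
    rw [← map_mul, ← map_mul, mul_comm]
  refine ⟨aeval s E, aeval s E', h1', ?_, sub_eq_zero.1 h2, ?_⟩
  · have : (s - 1) ^ (p - 1) = aeval s ((X - 1) ^ (p - 1) : ℤ[X]) := by simp
    rw [← h1', this, hcomm]
  · rw [hcomm]; exact sub_eq_zero.1 h2

end Z

section five

variable {p : ℕ} [hp : Fact p.Prime] {Y : Type*} [AddCommGroup Y]

/-- the image -/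
def herbxRan (f : AddMonoid.End Y) : AddSubgroup Y := AddMonoidHom.range (show Y →+ Y from f)

/-- the kernel -/
def herbxKer (f : AddMonoid.End Y) : AddSubgroup Y := AddMonoidHom.ker (show Y →+ Y from f)

theorem mem_herbxRan {f : AddMonoid.End Y} {y : Y} : y ∈ herbxRan f ↔ ∃ x, f x = y := Iff.rfl

theorem mem_herbxKer {f : AddMonoid.End Y} {x : Y} : x ∈ herbxKer f ↔ f x = 0 := Iff.rfl

/-- index of the image -/
noncomputable def herbxI (f : AddMonoid.End Y) : ℕ := (herbxRan f).index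

/-- cardinality of the kernel -/
noncomputable def herbxK (f : AddMonoid.End Y) : ℕ := Nat.card (herbxKer f)

theorem herbx_q_mul' (f g : AddMonoid.End Y) :
    herbxI (f * g) * herbxK f * herbxK g = herbxI f * herbxI g * herbxK (f * g) :=
  herbx_q_mul (show Y →+ Y from f) (show Y →+ Y from g)

theorem herbxI_one : herbxI (1 : AddMonoid.End Y) = 1 := by
  have : herbxRan (1 : AddMonoid.End Y) = ⊤ := by
    rw [eq_top_iff]
    intro x _
    exact mem_herbxRan.2 ⟨x, rfl⟩
  rw [herbxI, this, AddSubgroup.index_top]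

theorem herbxK_one : herbxK (1 : AddMonoid.End Y) = 1 := by
  have : herbxKer (1 : AddMonoid.End Y) = ⊥ := by
    rw [eq_bot_iff]
    intro x hx
    exact hx
  rw [herbxK, this, AddSubgroup.card_bot]

theorem herbx_q_pow (D : AddMonoid.End Y) (n : ℕ) (hK : ∀ i < n, herbxK (D ^ i) ≠ 0) :
    herbxI (D ^ n) * herbxK D ^ n = herbxI D ^ n * herbxK (D ^ n) := by
  induction n with
  | zero => simp [herbxI_one, herbxK_one]
  | succ n ih =>
    have h1 := ih fun i hi => hK i (Nat.lt_succ_of_lt hi)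
    have h2 := herbx_q_mul' D (D ^ n)
    rw [← pow_succ'] at h2
    have h3 := hK n (Nat.lt_succ_self n)
    apply Nat.eq_of_mul_eq_mul_right (Nat.pos_of_ne_zero h3)
    calc herbxI (D ^ (n + 1)) * herbxK D ^ (n + 1) * herbxK (D ^ n)
        = (herbxI (D ^ (n + 1)) * herbxK D * herbxK (D ^ n)) * herbxK D ^ n := by ring
      _ = (herbxI D * herbxI (D ^ n) * herbxK (D ^ (n + 1))) * herbxK D ^ n := by rw [h2]
      _ = herbxI D * (herbxI (D ^ n) * herbxK D ^ n) * herbxK (D ^ (n + 1)) := by ring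
      _ = herbxI D * (herbxI D ^ n * herbxK (D ^ n)) * herbxK (D ^ (n + 1)) := by rw [h1]
      _ = herbxI D ^ (n + 1) * herbxK (D ^ (n + 1)) * herbxK (D ^ n) := by ring

/-- **(5)** -/
theorem herbx_index_sub_one (s : AddMonoid.End Y) (hN : ∑ i ∈ Finset.range p, s ^ i = 0) {b : ℕ}
    (hfin : herbxK (p : AddMonoid.End Y) ≠ 0)
    (hq : herbxI (p : AddMonoid.End Y) = p ^ ((p - 1) * b) * herbxK (p : AddMonoid.End Y)) :
    herbxI (s - 1) = p ^ b * herbxK (s - 1) := by
  obtain ⟨u, u', h1, h2, h3, h4⟩ := herbx_exists_unit s hN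
  set D := s - 1 with hD
  have hfin' : Finite (herbxKer (p : AddMonoid.End Y)) := Nat.finite_of_card_ne_zero hfin
  -- kernels of the powers
  have hker : ∀ i ≤ p - 1, herbxKer (D ^ i) ≤ herbxKer (p : AddMonoid.End Y) := by
    intro i hi x hx
    rw [mem_herbxKer] at hx ⊢
    have e : (p : AddMonoid.End Y) = u * D ^ (p - 1 - i) * D ^ i := by
      rw [mul_assoc, ← pow_add, Nat.sub_add_cancel hi, h2]
    rw [e]
    show (u * D ^ (p - 1 - i)) ((D ^ i) x) = 0
    rw [hx, map_zero]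
  have hK : ∀ i ≤ p - 1, herbxK (D ^ i) ≠ 0 := by
    intro i hi
    have : Finite (herbxKer (D ^ i)) :=
      Finite.of_injective (AddSubgroup.inclusion (hker i hi)) (AddSubgroup.inclusion_injective _)
    exact Nat.card_pos.ne'
  have hpow := herbx_q_pow D (p - 1) fun i hi => hK i hi.le
  -- `D ^ (p - 1)` and `p` have the same image and the same kernel
  have hI : herbxI (D ^ (p - 1)) = herbxI (p : AddMonoid.End Y) := by
    unfold herbxI
    congr 1
    apply le_antisymm
    · intro y hy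
      obtain ⟨x, rfl⟩ := mem_herbxRan.1 hy
      have e : D ^ (p - 1) = (p : AddMonoid.End Y) * u' := by
        rw [← h1, mul_assoc, h3, mul_one]
      exact mem_herbxRan.2 ⟨u' x, by rw [e]; rfl⟩
    · intro y hy
      obtain ⟨x, rfl⟩ := mem_herbxRan.1 hy
      exact mem_herbxRan.2 ⟨u x, by rw [← h1]; rfl⟩
  have hKK : herbxK (D ^ (p - 1)) = herbxK (p : AddMonoid.End Y) := by
    unfold herbxK
    have : herbxKer (D ^ (p - 1)) = herbxKer (p : AddMonoid.End Y) := by
      apply le_antisymm (hker _ le_rfl)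
      intro x hx
      rw [mem_herbxKer] at hx ⊢
      have e : D ^ (p - 1) = u' * (p : AddMonoid.End Y) := by
        rw [← h2, ← mul_assoc, h4, one_mul]
      rw [e]
      show u' ((p : AddMonoid.End Y) x) = 0
      rw [hx, map_zero]
    rw [this]
  rw [hI, hKK, hq] at hpow
  have h5 : (p ^ b * herbxK D) ^ (p - 1) = herbxI D ^ (p - 1) := by
    apply Nat.eq_of_mul_eq_mul_right (Nat.pos_of_ne_zero hfin)
    rw [← hpow, mul_pow, ← pow_mul, mul_comm b]
    ring
  have hp1 : p - 1 ≠ 0 := by have := hp.out.one_lt; omega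
  exact (Nat.pow_left_injective (n := p - 1) (by omega) h5).symm

end five

end Fermat.Agent.S14lib
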