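import Mathlib

/-!
# T-S14, WP4: the abstract Herbrand lemma

`M` a finitely generated abelian group, `s` an endomorphism with `s ^ p = 1`,
`Nm = 1 + s + ... + s ^ (p - 1)`.  If `ker Nm = (s - 1) M` then
`(M ^ s : Nm M) = p ^ (a - b)`, where `a = rank M ^ s` and `rank M = a + (p - 1) b`.
-/

set_option autoImplicit false
set_option linter.style.haveILetI false

open Module Polynomial Submodule

namespace Fermat.Agent.S14lib


theorem herb_poly {p : ℕ} (hp : p.Prime) :
    ∃ V : ℤ[X], (∑ i ∈ Finset.range p, (X : ℤ[X]) ^ i) =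
      (X - 1) ^ (p - 1) + (p : ℤ[X]) * (1 + (X - 1) * V) := by
  haveI := Fact.mk hp
  set P : ℤ[X] := (∑ i ∈ Finset.range p, (X : ℤ[X]) ^ i) - (X - 1) ^ (p - 1) with hP
  have h1 : P.map (Int.castRingHom (ZMod p)) = 0 := by
    have hX : ((X : (ZMod p)[X]) - 1) * P.map (Int.castRingHom (ZMod p)) = 0 := by
      simp only [hP, Polynomial.map_sub, Polynomial.map_sum, Polynomial.map_pow, map_X,
        Polynomial.map_one]
      rw [mul_sub, mul_geom_sum, ← pow_succ', Nat.sub_add_cancel hp.one_le, sub_pow_char,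
        one_pow, sub_self]
    have hne : ((X : (ZMod p)[X]) - 1) ≠ 0 := by
      have := X_sub_C_ne_zero (1 : ZMod p)
      simpa using this
    exact (mul_eq_zero.1 hX).resolve_left hne
  obtain ⟨P', hP'⟩ : (C (p : ℤ)) ∣ P := by
    rw [C_dvd_iff_dvd_coeff]
    intro n
    have := congrArg (fun q => coeff q n) h1
    simp only [coeff_map, coeff_zero, eq_intCast] at this
    exact (ZMod.intCast_zmod_eq_zero_iff_dvd _ _).1 this
  have h2 : P'.eval 1 = 1 := by
    have h3 : P.eval 1 = p := by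
      simp only [hP, eval_sub, eval_finset_sum, eval_pow, eval_X, one_pow, eval_one, sub_self]
      rw [zero_pow (Nat.sub_ne_zero_of_lt hp.one_lt)]
      simp
    rw [hP', eval_mul, eval_C] at h3
    have hp0 : (p : ℤ) ≠ 0 := by exact_mod_cast hp.ne_zero
    exact mul_left_cancel₀ hp0 (by rw [h3, mul_one])
  obtain ⟨V, hV⟩ : (X - C (1 : ℤ)) ∣ P' - C (P'.eval 1) := X_sub_C_dvd_sub_C_eval
  refine ⟨V, ?_⟩
  rw [h2] at hV
  simp only [map_one] at hV
  have h4 : P' = 1 + (X - 1) * V := by rw [← hV]; ring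
  rw [← h4]
  have h5 : (C (p : ℤ) : ℤ[X]) = (p : ℤ[X]) := by simp
  rw [← h5, ← hP', hP]
  ring

theorem herb_unit_poly {p : ℕ} (hp : p.Prime) :
    ∃ U W Z : ℤ[X], (X - 1) ^ (p - 1) = (∑ i ∈ Finset.range p, (X : ℤ[X]) ^ i) - (p : ℤ[X]) * U ∧
      U * W = 1 + (∑ i ∈ Finset.range p, (X : ℤ[X]) ^ i) * Z := by
  obtain ⟨V, hV⟩ := herb_poly hp
  set n : ℤ[X] := ∑ i ∈ Finset.range p, (X : ℤ[X]) ^ i with hn
  set x : ℤ[X] := (X - 1) * V with hx
  have h1 : x ^ (p - 1) = (n - (p : ℤ[X]) * (1 + x)) * V ^ (p - 1) := by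
    rw [hx, mul_pow, hV]; ring
  have h2 : (1 + x) * ∑ j ∈ Finset.range (p - 1), (-x) ^ j = 1 - (-x) ^ (p - 1) := by
    have := mul_neg_geom_sum (-x) (p - 1)
    rw [sub_neg_eq_add] at this
    exact this
  refine ⟨1 + x, (∑ j ∈ Finset.range (p - 1), (-x) ^ j) - (-1) ^ (p - 1) * (p : ℤ[X]) * V ^ (p - 1),
    - (-1) ^ (p - 1) * V ^ (p - 1), by rw [hV]; ring, ?_⟩
  rw [mul_sub, h2, neg_pow, h1]
  ring

theorem herb_det {L : Type*} [AddCommGroup L] [Module.Free ℤ L] [Module.Finite ℤ L] {p : ℕ}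
    (hp : p.Prime) (σ : Module.End ℤ L) (hσ : ∑ i ∈ Finset.range p, σ ^ i = 0) {b : ℕ}
    (hb : finrank ℤ L = (p - 1) * b) :
    Function.Injective ⇑(σ - 1 : Module.End ℤ L) ∧ (LinearMap.det (σ - 1)).natAbs = p ^ b := by
  obtain ⟨U, W, Z, h1, h2⟩ := herb_unit_poly hp
  have e1 := congrArg (aeval σ) h1
  have e2 := congrArg (aeval σ) h2
  have e2' := congrArg (aeval σ) ((mul_comm W U).trans h2)
  simp only [map_pow, map_sub, aeval_X, map_one, map_sum, hσ, zero_sub, map_mul, map_natCast,
    map_add, zero_mul, add_zero] at e1 e2 e2'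
  have e3 : (σ - 1) ^ (p - 1) = (-(p : ℤ)) • aeval σ U := by
    rw [e1, neg_smul, natCast_zsmul, nsmul_eq_mul]
  constructor
  · rw [injective_iff_map_eq_zero]
    intro x hx
    have h3 : ((σ - 1) ^ (p - 1)) x = 0 := by
      obtain ⟨m, hm⟩ : ∃ m, p - 1 = m + 1 := ⟨p - 2, by have := hp.two_le; omega⟩
      rw [hm, pow_succ, Module.End.mul_apply, hx, map_zero]
    rw [e3, LinearMap.smul_apply] at h3
    have hp0 : (-(p : ℤ)) ≠ 0 := by
      have := hp.ne_zero
      simpa using this
    have h4 : aeval σ U x = 0 := (smul_eq_zero.1 h3).resolve_left hp0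
    have h5 : (aeval σ W * aeval σ U) x = x := by rw [e2']; rfl
    rw [← h5, Module.End.mul_apply, h4, map_zero]
  have hdet := congrArg LinearMap.det e3
  rw [map_pow, LinearMap.det_smul, hb] at hdet
  have hu : (LinearMap.det (aeval σ U)).natAbs = 1 := by
    have := congrArg LinearMap.det e2
    rw [map_mul, map_one] at this
    exact Int.isUnit_iff_natAbs_eq.1 (IsUnit.of_mul_eq_one _ this)
  have h3 := congrArg Int.natAbs hdet
  rw [Int.natAbs_pow, Int.natAbs_mul, hu, mul_one, Int.natAbs_pow, Int.natAbs_neg,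
    Int.natAbs_natCast, mul_comm, pow_mul] at h3
  exact Nat.pow_left_injective (n := p - 1) (Nat.sub_ne_zero_of_lt hp.one_lt) h3

theorem herb_tors_le {A : Type*} [AddCommGroup A] (f : Module.End ℤ A) :
    torsion ℤ A ≤ (torsion ℤ A).comap f := by
  intro x hx
  rw [Submodule.mem_comap]
  rw [Submodule.mem_torsion_iff] at hx ⊢
  obtain ⟨a, ha⟩ := hx
  refine ⟨a, ?_⟩
  have : a • f x = f (a • x) := by
    rw [Submonoid.smul_def, Submonoid.smul_def, map_smul]
  rw [this, ha, map_zero]

/-- finite group: `(T : f T) = # ker f` -/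
theorem herb_fin {A : Type*} [AddCommGroup A] (f : A →+ A) (T : AddSubgroup A) [Finite T]
    (hT : T.map f ≤ T) (hk : f.ker ≤ T) : (T.map f).relIndex T = Nat.card f.ker := by
  have h1 := AddSubgroup.relIndex_mul_relIndex ⊥ (T.map f) T bot_le hT
  have h2 := AddSubgroup.relIndex_mul_relIndex ⊥ f.ker T bot_le hk
  rw [AddSubgroup.relIndex_bot_left, AddSubgroup.relIndex_bot_left] at h1 h2
  rw [AddSubgroup.relIndex_ker] at h2
  have hpos : 0 < Nat.card (T.map f) := by
    haveI : Finite (T.map f) := by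
      have : (T.map f : Set A).Finite := (Set.toFinite (T : Set A)).image f
      exact this.to_subtype
    exact Nat.card_pos
  have h3 : Nat.card (T.map f) * (T.map f).relIndex T = Nat.card (T.map f) * Nat.card f.ker := by
    rw [h1, ← h2, mul_comm]
  exact Nat.eq_of_mul_eq_mul_left hpos h3

theorem herb_index {A : Type*} [AddCommGroup A] [Module.Finite ℤ A] (f : Module.End ℤ A)
    (hinj : Function.Injective ((torsion ℤ A).mapQ (torsion ℤ A) f (herb_tors_le f))) :
    Finite (LinearMap.ker f) ∧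
    (LinearMap.range f).toAddSubgroup.index =
      (LinearMap.det ((torsion ℤ A).mapQ (torsion ℤ A) f (herb_tors_le f))).natAbs *
        Nat.card (LinearMap.ker f) := by
  set T := torsion ℤ A with hTdef
  set fb := T.mapQ T f (herb_tors_le f) with hfb
  haveI : Finite T := Module.finite_of_fg_torsion _ Submodule.torsion_isTorsion
  have hker : LinearMap.ker f ≤ T := by
    intro x hx
    have : fb (T.mkQ x) = 0 := by
      rw [hfb, Submodule.mkQ_apply, Submodule.mapQ_apply, LinearMap.mem_ker.1 hx,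
        Submodule.Quotient.mk_zero]
    have h2 := hinj (this.trans (map_zero fb).symm)
    rwa [Submodule.mkQ_apply, Submodule.Quotient.mk_eq_zero] at h2
  haveI hfin : Finite (LinearMap.ker f) :=
    Finite.of_injective (Submodule.inclusion hker) (Submodule.inclusion_injective hker)
  refine ⟨hfin, ?_⟩
  -- notation
  set R := (LinearMap.range f).toAddSubgroup with hR
  set T' := T.toAddSubgroup with hT'
  have h1 : R.relIndex (R ⊔ T') * (R ⊔ T').index = R.index :=
    AddSubgroup.relIndex_mul_index le_sup_left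
  -- the free part
  have h2 : (R ⊔ T').index = (LinearMap.det fb).natAbs := by
    have e1 : (LinearMap.range fb).toAddSubgroup.comap T.mkQ.toAddMonoidHom = R ⊔ T' := by
      ext x
      rw [AddSubgroup.mem_comap, AddSubgroup.mem_sup]
      constructor
      · rintro ⟨y, hy⟩
        obtain ⟨a, rfl⟩ := T.mkQ_surjective y
        have h3 : x - f a ∈ T := by
          rw [← Submodule.Quotient.mk_eq_zero, Submodule.Quotient.mk_sub, sub_eq_zero]
          have : fb (T.mkQ a) = Submodule.Quotient.mk (f a) := by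
            rw [hfb, Submodule.mkQ_apply, Submodule.mapQ_apply]
          rw [← this, hy]
          rfl
        exact ⟨f a, ⟨a, rfl⟩, x - f a, h3, by abel⟩
      · rintro ⟨y, ⟨a, rfl⟩, z, hz, rfl⟩
        refine ⟨T.mkQ a, ?_⟩
        have hz' : (Submodule.Quotient.mk z : A ⧸ T) = 0 := (Submodule.Quotient.mk_eq_zero T).2 hz
        show fb (T.mkQ a) = T.mkQ (f a + z)
        rw [hfb, Submodule.mkQ_apply, Submodule.mapQ_apply, Submodule.mkQ_apply,
          Submodule.Quotient.mk_add, hz', add_zero]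
    rw [← e1, AddSubgroup.index_comap_of_surjective _ (by exact T.mkQ_surjective)]
    have e2 := Submodule.natAbs_det_equiv (LinearMap.range fb) (LinearEquiv.ofInjective fb hinj)
    have e3 : (LinearMap.range fb).subtype ∘ₗ
        AddMonoidHom.toIntLinearMap ((LinearEquiv.ofInjective fb hinj : _ ≃ₗ[ℤ] _) :
          (A ⧸ T) →+ LinearMap.range fb) = fb := by
      ext x
      rfl
    rw [e3] at e2
    rw [e2, ← Submodule.cardQuot_apply]
    rfl
  -- the torsion part
  have h3 : R.relIndex (R ⊔ T') = Nat.card (LinearMap.ker f) := by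
    rw [AddSubgroup.relIndex_sup_left, ← AddSubgroup.inf_relIndex_right]
    have e1 : R ⊓ T' = T'.map f.toAddMonoidHom := by
      ext x
      rw [AddSubgroup.mem_inf, AddSubgroup.mem_map]
      constructor
      · rintro ⟨⟨a, rfl⟩, hx⟩
        refine ⟨a, ?_, rfl⟩
        have : fb (T.mkQ a) = 0 := by
          rw [hfb, Submodule.mkQ_apply, Submodule.mapQ_apply]
          exact (Submodule.Quotient.mk_eq_zero T).2 hx
        have h2 := hinj (this.trans (map_zero fb).symm)
        rwa [Submodule.mkQ_apply, Submodule.Quotient.mk_eq_zero] at h2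
      · rintro ⟨a, ha, rfl⟩
        exact ⟨⟨a, rfl⟩, herb_tors_le f ha⟩
    rw [e1]
    haveI : Finite T' := ‹Finite T›
    rw [herb_fin f.toAddMonoidHom T' (by rw [← e1]; exact inf_le_right) hker]
    rfl
  rw [← h1, h2, h3, mul_comm]

theorem herb_finrank_quot {A : Type*} [AddCommGroup A] [Module.Finite ℤ A] :
    finrank ℤ (A ⧸ torsion ℤ A) = finrank ℤ A := by
  have h := Submodule.finrank_quotient_add_finrank (torsion ℤ A)
  have h0 : finrank ℤ (torsion ℤ A) = 0 :=
    Module.finrank_eq_zero_iff_isTorsion.2 Submodule.torsion_isTorsion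
  omega

theorem herb_index_p {A : Type*} [AddCommGroup A] [Module.Finite ℤ A] {p : ℕ} (hp : p ≠ 0) :
    Finite (LinearMap.ker ((p : ℤ) • (1 : Module.End ℤ A))) ∧
    (LinearMap.range ((p : ℤ) • (1 : Module.End ℤ A))).toAddSubgroup.index =
      p ^ finrank ℤ A * Nat.card (LinearMap.ker ((p : ℤ) • (1 : Module.End ℤ A))) := by
  have e : (torsion ℤ A).mapQ (torsion ℤ A) ((p : ℤ) • (1 : Module.End ℤ A)) (herb_tors_le _) =
      (p : ℤ) • (1 : Module.End ℤ (A ⧸ torsion ℤ A)) := by
    ext x
    rfl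
  have hinj : Function.Injective
      ((torsion ℤ A).mapQ (torsion ℤ A) ((p : ℤ) • (1 : Module.End ℤ A)) (herb_tors_le _)) := by
    rw [e, injective_iff_map_eq_zero]
    intro x hx
    rw [LinearMap.smul_apply] at hx
    exact (smul_eq_zero.1 hx).resolve_left (by exact_mod_cast hp)
  obtain ⟨h1, h2⟩ := herb_index _ hinj
  refine ⟨h1, ?_⟩
  rw [h2, e, LinearMap.det_smul, map_one, mul_one, Int.natAbs_pow, Int.natAbs_natCast,
    herb_finrank_quot]

theorem herb_index_t {A : Type*} [AddCommGroup A] [Module.Finite ℤ A] {p : ℕ} (hp : p.Prime)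
    (σ : Module.End ℤ A) (hσ : ∑ i ∈ Finset.range p, σ ^ i = 0) {b : ℕ}
    (hb : finrank ℤ A = (p - 1) * b) :
    Finite (LinearMap.ker (σ - 1)) ∧
    (LinearMap.range (σ - 1)).toAddSubgroup.index = p ^ b * Nat.card (LinearMap.ker (σ - 1)) := by
  set T := torsion ℤ A with hT
  set σb : Module.End ℤ (A ⧸ T) := T.mapQ T σ (herb_tors_le σ) with hσb
  have e : T.mapQ T (σ - 1) (herb_tors_le _) = σb - 1 := by
    ext x
    rfl
  have hpow : ∀ (i : ℕ) (a : A), (σb ^ i) (Submodule.Quotient.mk a) =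
      Submodule.Quotient.mk ((σ ^ i) a) := by
    intro i
    induction i with
    | zero => intro a; rfl
    | succ n ih =>
      intro a
      rw [pow_succ, Module.End.mul_apply, pow_succ, Module.End.mul_apply, hσb,
        Submodule.mapQ_apply, ← hσb, ih]
  have hσb0 : ∑ i ∈ Finset.range p, σb ^ i = 0 := by
    ext a
    simp only [LinearMap.comp_apply, Submodule.mkQ_apply, LinearMap.sum_apply, hpow,
      LinearMap.zero_apply]
    have h0 : T.mkQ ((∑ i ∈ Finset.range p, σ ^ i) a) = 0 := by rw [hσ]; simp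
    rw [LinearMap.sum_apply, map_sum] at h0
    exact h0
  obtain ⟨h1, h2⟩ := herb_det hp σb hσb0 (b := b) (by rw [herb_finrank_quot, hb])
  obtain ⟨h3, h4⟩ := herb_index (σ - 1) (by rw [e]; exact h1)
  refine ⟨h3, ?_⟩
  rw [h4, e, h2]

theorem herb_relIndex {M : Type*} [AddCommGroup M] (S : Submodule ℤ M) (g : Module.End ℤ S)
    (f : M →+ M) (h : ∀ x : S, ((g x : S) : M) = f x) :
    (LinearMap.range g).toAddSubgroup.index =
      (S.toAddSubgroup.map f).relIndex S.toAddSubgroup := by
  have hι : Function.Injective S.subtype.toAddMonoidHom := S.injective_subtype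
  rw [← AddSubgroup.relIndex_top_right,
    ← AddSubgroup.relIndex_map_map_of_injective _ _ hι]
  congr 1
  · ext x
    simp only [AddSubgroup.mem_map]
    constructor
    · rintro ⟨y, ⟨z, rfl⟩, rfl⟩
      exact ⟨z, z.2, (h z).symm⟩
    · rintro ⟨y, hy, rfl⟩
      exact ⟨g ⟨y, hy⟩, ⟨⟨y, hy⟩, rfl⟩, h ⟨y, hy⟩⟩
  · ext x
    simp only [AddSubgroup.mem_map]
    constructor
    · rintro ⟨y, -, rfl⟩
      exact y.2
    · intro hx
      exact ⟨⟨x, hx⟩, AddSubgroup.mem_top _, rfl⟩

theorem herb_card_ker {M : Type*} [AddCommGroup M] (S : Submodule ℤ M) (g : Module.End ℤ S)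
    (P : Submodule ℤ M) (h : ∀ x : S, g x = 0 ↔ (x : M) ∈ P) :
    Nat.card (LinearMap.ker g) = Nat.card (S ⊓ P : Submodule ℤ M) :=
  Nat.card_congr
    { toFun := fun x => ⟨x.1.1, x.1.2, (h x.1).1 x.2⟩
      invFun := fun y => ⟨⟨y.1, y.2.1⟩, (h _).2 y.2.2⟩
      left_inv := fun _ => rfl
      right_inv := fun _ => rfl }

/-- **abstract Herbrand lemma**, additive form -/
theorem herbrand_add {M : Type*} [AddCommGroup M] [Module.Finite ℤ M] {p : ℕ} (hp : p.Prime)
    (s : Module.End ℤ M) (hs : s ^ p = 1)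
    (hker : ∀ x, (∑ i ∈ Finset.range p, s ^ i) x = 0 → ∃ y, x = s y - y)
    {a b : ℕ} (ha : finrank ℤ (LinearMap.ker (s - 1)) = a)
    (hb : finrank ℤ M = a + (p - 1) * b) :
    (LinearMap.range (∑ i ∈ Finset.range p, s ^ i)).toAddSubgroup.relIndex
      (LinearMap.ker (s - 1)).toAddSubgroup * p ^ b = p ^ a := by
  set t : Module.End ℤ M := s - 1 with ht
  set N : Module.End ℤ M := ∑ i ∈ Finset.range p, s ^ i with hN
  have hNt : N * t = 0 := by rw [hN, ht, geom_sum_mul, hs, sub_self]
  have htN : t * N = 0 := by rw [hN, ht, mul_geom_sum, hs, sub_self]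
  have hKr : LinearMap.ker N = LinearMap.range t := by
    ext x
    constructor
    · intro hx
      obtain ⟨y, rfl⟩ := hker x hx
      exact ⟨y, rfl⟩
    · rintro ⟨y, rfl⟩
      show N (t y) = 0
      rw [← Module.End.mul_apply, hNt]; rfl
  -- `N = p` on the fixed points
  have hfix : ∀ x, t x = 0 → N x = (p : ℤ) • x := by
    intro x hx
    have h1 : s x = x := by
      rw [ht, LinearMap.sub_apply, Module.End.one_apply, sub_eq_zero] at hx
      exact hx
    have h2 : ∀ i : ℕ, (s ^ i) x = x := by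
      intro i
      induction i with
      | zero => rfl
      | succ n ih => rw [pow_succ, Module.End.mul_apply, h1, ih]
    rw [hN, LinearMap.sum_apply, Finset.sum_congr rfl (fun i _ => h2 i), Finset.sum_const,
      Finset.card_range, natCast_zsmul]
  -- ranks
  have hrk : finrank ℤ (LinearMap.ker N) = (p - 1) * b := by
    have h1 := Submodule.finrank_quotient_add_finrank (LinearMap.ker t)
    have h2 := (LinearMap.quotKerEquivRange t).finrank_eq
    rw [hKr]
    omega
  -- the two index computations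
  obtain ⟨hfin, h1⟩ := herb_index_p (A := LinearMap.ker t) hp.ne_zero
  have hsK : ∀ x ∈ LinearMap.ker N, s x ∈ LinearMap.ker N := by
    intro x hx
    rw [LinearMap.mem_ker] at hx ⊢
    have hc : N * s = s * N := by
      rw [hN]
      exact (Commute.sum_left _ _ _ (fun i _ => (Commute.refl s).pow_left i)).eq
    rw [← Module.End.mul_apply, hc, Module.End.mul_apply, hx, map_zero]
  set σ : Module.End ℤ (LinearMap.ker N) := s.restrict hsK with hσ
  have hσ0 : ∑ i ∈ Finset.range p, σ ^ i = 0 := by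
    ext x
    have h3 : ∀ i : ℕ, (((σ ^ i) x : LinearMap.ker N) : M) = (s ^ i) x := by
      intro i
      rw [hσ, Module.End.pow_restrict]
      rfl
    rw [LinearMap.sum_apply, Submodule.coe_sum, Finset.sum_congr rfl (fun i _ => h3 i),
      ← LinearMap.sum_apply]
    exact x.2
  obtain ⟨-, h2⟩ := herb_index_t hp σ hσ0 hrk
  have hc : 0 < Nat.card (LinearMap.ker ((p : ℤ) • (1 : Module.End ℤ (LinearMap.ker t)))) :=
    Nat.card_pos
  rw [herb_relIndex _ _ N.toAddMonoidHom (fun x => by
    show (p : ℤ) • (x : M) = N x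
    rw [hfix x x.2])] at h1
  rw [herb_relIndex _ _ t.toAddMonoidHom (fun x => rfl)] at h2
  rw [herb_card_ker _ _ (LinearMap.ker N) (fun x => by
    rw [LinearMap.mem_ker, hfix x x.2, ← Subtype.coe_inj]
    rfl)] at h1 hc
  rw [herb_card_ker _ _ (LinearMap.ker t) (fun x => by
    rw [LinearMap.mem_ker, ← Subtype.coe_inj]
    rfl), inf_comm] at h2
  rw [ha] at h1
  set c := Nat.card (LinearMap.ker t ⊓ LinearMap.ker N : Submodule ℤ M) with hcdef
  set F := (LinearMap.ker t).toAddSubgroup with hF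
  set K := (LinearMap.ker N).toAddSubgroup with hK
  set R := (LinearMap.range N).toAddSubgroup with hR
  have e1 : K = AddSubgroup.map t.toAddMonoidHom ⊤ := by
    rw [hK, hKr]
    ext x
    simp only [AddSubgroup.mem_map, AddSubgroup.mem_top, true_and]
    rfl
  have e2 : R = AddSubgroup.map N.toAddMonoidHom ⊤ := by
    rw [hR]
    ext x
    simp only [AddSubgroup.mem_map, AddSubgroup.mem_top, true_and]
    rfl
  have e3 : t.toAddMonoidHom.ker = F := rfl
  have e4 : N.toAddMonoidHom.ker = K := rfl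
  have h3 : (AddSubgroup.map t.toAddMonoidHom K).relIndex K = (K ⊔ F).index := by
    have := AddSubgroup.relIndex_map_map t.toAddMonoidHom K ⊤
    rw [← e1, e3, top_sup_eq, AddSubgroup.relIndex_top_right] at this
    exact this
  have h4 : (AddSubgroup.map N.toAddMonoidHom F).relIndex R = (K ⊔ F).index := by
    rw [e2, AddSubgroup.relIndex_map_map, e4, top_sup_eq, AddSubgroup.relIndex_top_right, sup_comm]
  have h5 : AddSubgroup.map N.toAddMonoidHom F ≤ R := by
    rw [e2]
    exact AddSubgroup.map_mono le_top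
  have h6 : R ≤ F := by
    rintro x ⟨y, rfl⟩
    show t (N y) = 0
    rw [← Module.End.mul_apply, htN]; rfl
  have h7 := AddSubgroup.relIndex_mul_relIndex _ _ _ h5 h6
  rw [h4, ← h3, h2, h1] at h7
  have h8 : c * (R.relIndex F * p ^ b) = c * p ^ a := by
    rw [mul_comm c (p ^ a), ← h7]; ring
  exact Nat.eq_of_mul_eq_mul_left hc h8

/-- **abstract Herbrand lemma**, multiplicative form -/
theorem herbrand_mul {U : Type*} [CommGroup U] [Group.FG U] {p : ℕ} (hp : p.Prime)
    (s : U →* U) (hs : ∀ u, s^[p] u = u)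
    (hker : ∀ u, ∏ i ∈ Finset.range p, s^[i] u = 1 → ∃ y, u = s y / y)
    (Fix Nm : Subgroup U) (hFix : ∀ u, u ∈ Fix ↔ s u = u)
    (hNm : ∀ u, u ∈ Nm ↔ ∃ y, u = ∏ i ∈ Finset.range p, s^[i] y)
    {a b : ℕ} (ha : finrank ℤ (Additive Fix) = a)
    (hb : finrank ℤ (Additive U) = a + (p - 1) * b) :
    Nm.relIndex Fix * p ^ b = p ^ a := by
  haveI : Module.Finite ℤ (Additive U) :=
    Module.Finite.iff_addGroup_fg.2 (GroupFG.iff_add_fg.1 inferInstance)
  set sL : Module.End ℤ (Additive U) := (MonoidHom.toAdditive s).toIntLinearMap with hsL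
  have hpow : ∀ (i : ℕ) (u : U), (sL ^ i) (Additive.ofMul u) = Additive.ofMul (s^[i] u) := by
    intro i
    induction i with
    | zero => intro u; rfl
    | succ n ih =>
      intro u
      rw [pow_succ, Module.End.mul_apply, Function.iterate_succ_apply]
      exact ih (s u)
  have hsum : ∀ u : U, (∑ i ∈ Finset.range p, sL ^ i) (Additive.ofMul u) =
      Additive.ofMul (∏ i ∈ Finset.range p, s^[i] u) := by
    intro u
    rw [LinearMap.sum_apply, ofMul_prod]
    exact Finset.sum_congr rfl (fun i _ => hpow i u)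
  have h1 : sL ^ p = 1 := by
    ext u
    have := hpow p u.toMul
    rw [hs] at this
    exact this
  have h2 : ∀ x, (∑ i ∈ Finset.range p, sL ^ i) x = 0 → ∃ y, x = sL y - y := by
    intro x hx
    have h3 := hsum x.toMul
    rw [ofMul_toMul, hx] at h3
    obtain ⟨y, hy⟩ := hker x.toMul (by
      have := congrArg Additive.toMul h3
      simpa using this.symm)
    exact ⟨Additive.ofMul y, congrArg Additive.ofMul hy⟩
  have eF : (LinearMap.ker (sL - 1)).toAddSubgroup = Subgroup.toAddSubgroup Fix := by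
    ext x
    show (sL - 1) x = 0 ↔ x.toMul ∈ Fix
    rw [hFix, LinearMap.sub_apply, sub_eq_zero]
    rfl
  have eN : (LinearMap.range (∑ i ∈ Finset.range p, sL ^ i)).toAddSubgroup =
      Subgroup.toAddSubgroup Nm := by
    ext x
    show (∃ y, (∑ i ∈ Finset.range p, sL ^ i) y = x) ↔ x.toMul ∈ Nm
    rw [hNm]
    constructor
    · rintro ⟨y, rfl⟩
      refine ⟨y.toMul, ?_⟩
      have := hsum y.toMul
      rw [ofMul_toMul] at this
      rw [this]
      rfl
    · rintro ⟨y, hy⟩
      refine ⟨Additive.ofMul y, ?_⟩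
      rw [hsum, ← hy]
      rfl
  have h3 : finrank ℤ (LinearMap.ker (sL - 1)) = a := by
    rw [← ha]
    have hmem : ∀ x : Additive U, x ∈ LinearMap.ker (sL - 1) ↔ x.toMul ∈ Fix := by
      intro x
      have : x ∈ (LinearMap.ker (sL - 1)).toAddSubgroup ↔ x ∈ Subgroup.toAddSubgroup Fix := by
        rw [eF]
      exact this
    let e : LinearMap.ker (sL - 1) ≃+ Additive Fix :=
      { toFun := fun x => Additive.ofMul ⟨x.1.toMul, (hmem x.1).1 x.2⟩
        invFun := fun y => ⟨Additive.ofMul (y.toMul : U), (hmem _).2 y.toMul.2⟩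
        left_inv := fun _ => rfl
        right_inv := fun _ => rfl
        map_add' := fun _ _ => rfl }
    exact e.toIntLinearEquiv.finrank_eq
  have h4 := herbrand_add hp sL h1 h2 h3 hb
  rw [eF, eN, Subgroup.relIndex_toAddSubgroup] at h4
  exact h4

end Fermat.Agent.S14lib
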