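import Fermat.Agent.S14.HerbrandQ

/-!
# T-S14, WP4: the abstract Herbrand lemma, additive form (from the key lemma `hq_main`)
-/

set_option autoImplicit false

open Module Polynomial

namespace Fermat.Agent.S14lib

section hq

/-- transport of index and kernel along an injection -/
theorem hq_transport {X M : Type*} [AddCommGroup X] [AddCommGroup M] (ι : X →+ M)
    (hι : Function.Injective ι) (f : X →+ X) (g : M →+ M) (h : ∀ x, ι (f x) = g (ι x)) :
    f.range.index = (ι.range.map g).relIndex ι.range ∧
      Nat.card f.ker = Nat.card (ι.range ⊓ g.ker : AddSubgroup M) := by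
  constructor
  · rw [← AddSubgroup.relIndex_top_right,
      ← AddSubgroup.relIndex_map_map_of_injective f.range ⊤ hι, ← AddMonoidHom.range_eq_map]
    congr 1
    ext y
    simp only [AddSubgroup.mem_map, AddMonoidHom.mem_range]
    constructor
    · rintro ⟨_, ⟨x, rfl⟩, rfl⟩
      exact ⟨ι x, ⟨x, rfl⟩, (h x).symm⟩
    · rintro ⟨_, ⟨x, rfl⟩, rfl⟩
      exact ⟨f x, ⟨x, rfl⟩, h x⟩
  · have e : (ι.range ⊓ g.ker : AddSubgroup M) = f.ker.map ι := by
      ext y
      simp only [AddSubgroup.mem_inf, AddMonoidHom.mem_range, AddMonoidHom.mem_ker,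
        AddSubgroup.mem_map]
      constructor
      · rintro ⟨⟨x, rfl⟩, hx⟩
        refine ⟨x, ?_, rfl⟩
        apply hι
        rw [h, hx, map_zero]
      · rintro ⟨x, hx, rfl⟩
        exact ⟨⟨x, rfl⟩, by rw [← h, hx, map_zero]⟩
    rw [e]
    exact (Nat.card_congr (AddSubgroup.equivMapOfInjective f.ker ι hι).toEquiv)

/-- **abstract Herbrand lemma**, additive form -/
theorem hq_herbrand_add {M : Type*} [AddCommGroup M] [Module.Finite ℤ M] {p : ℕ} (hp : p.Prime)
    (s : Module.End ℤ M) (hs : s ^ p = 1)
    (hker : ∀ x, (∑ i ∈ Finset.range p, s ^ i) x = 0 → ∃ y, x = s y - y)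
    {a b : ℕ} (ha : finrank ℤ (LinearMap.ker (s - 1)) = a)
    (hb : finrank ℤ M = a + (p - 1) * b) :
    (LinearMap.range (∑ i ∈ Finset.range p, s ^ i)).toAddSubgroup.relIndex
      (LinearMap.ker (s - 1)).toAddSubgroup * p ^ b = p ^ a := by
  set N : Module.End ℤ M := ∑ i ∈ Finset.range p, s ^ i with hNdef
  set D : Module.End ℤ M := 1 - s with hDdef
  have hkerD : LinearMap.ker (s - 1) = LinearMap.ker D := by
    ext x
    simp only [LinearMap.mem_ker, hDdef, LinearMap.sub_apply, Module.End.one_apply, sub_eq_zero]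
    exact eq_comm
  rw [hkerD] at ha ⊢
  have hND : N * D = 0 := by
    rw [hNdef, hDdef, geom_sum_mul_neg, hs, sub_self]
  have hDN : D * N = 0 := by
    rw [hNdef, hDdef, mul_neg_geom_sum, hs, sub_self]
  -- `ker N = range D`
  have hBm : LinearMap.ker N = LinearMap.range D := by
    ext x
    constructor
    · intro hx
      obtain ⟨y, hy⟩ := hker x hx
      refine ⟨-y, ?_⟩
      rw [hy, hDdef]
      simp only [LinearMap.sub_apply, Module.End.one_apply, map_neg]
      abel
    · rintro ⟨y, rfl⟩
      exact congrArg (fun f : Module.End ℤ M => f y) hND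
  -- `N = p` on `ker D`
  have hNA : ∀ x, D x = 0 → N x = p • x := by
    intro x hx
    have hx' : s x = x := by
      have : x - s x = 0 := hx
      exact (sub_eq_zero.1 this).symm
    have hpow : ∀ i : ℕ, (s ^ i) x = x := by
      intro i
      induction i with
      | zero => simp
      | succ i ih => rw [pow_succ, Module.End.mul_apply, hx', ih]
    simp only [hNdef, LinearMap.sum_apply, hpow, Finset.sum_const, Finset.card_range]
  set dA : M →+ M := D.toAddMonoidHom with hdA
  set nA : M →+ M := N.toAddMonoidHom with hnA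
  have hrN : (LinearMap.range N).toAddSubgroup = nA.range := LinearMap.range_toAddSubgroup N
  have hkD : (LinearMap.ker D).toAddSubgroup = dA.ker := LinearMap.ker_toAddSubgroup D
  have hB : nA.ker = dA.range := by
    rw [hnA, hdA, ← LinearMap.ker_toAddSubgroup, ← LinearMap.range_toAddSubgroup, hBm]
  rw [hrN, hkD]
  -- the common index `Z = (M : A + B)`
  have hZ1 : (dA.ker.map nA).relIndex nA.range = (dA.ker ⊔ nA.ker).index := by
    rw [AddMonoidHom.range_eq_map, AddSubgroup.relIndex_map_map, top_sup_eq,
      AddSubgroup.relIndex_top_right]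
  have hZ2 : (nA.ker.map dA).relIndex nA.ker = (dA.ker ⊔ nA.ker).index := by
    conv_lhs => rw [show (nA.ker.map dA).relIndex nA.ker = (nA.ker.map dA).relIndex dA.range by
      rw [hB]]
    rw [AddMonoidHom.range_eq_map dA, AddSubgroup.relIndex_map_map, top_sup_eq,
      AddSubgroup.relIndex_top_right, sup_comm]
  -- step 1 : `A`
  have hA : (dA.ker.map nA).relIndex dA.ker = p ^ a * Nat.card (dA.ker ⊓ nA.ker : AddSubgroup M) := by
    have hfin : Module.Finite ℤ (LinearMap.ker D) := Module.Finite.of_fg (IsNoetherian.noetherian _)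
    have h1 := su_index_range_nsmul (LinearMap.ker D) p hp.ne_zero
    have hι : Function.Injective (LinearMap.ker D).subtype.toAddMonoidHom :=
      Subtype.val_injective
    have hr : (LinearMap.ker D).subtype.toAddMonoidHom.range = dA.ker := by
      ext x
      constructor
      · rintro ⟨y, rfl⟩
        exact y.2
      · intro hx
        exact ⟨⟨x, hx⟩, rfl⟩
    obtain ⟨t1, t2⟩ := hq_transport (LinearMap.ker D).subtype.toAddMonoidHom hι
      (nsmulAddMonoidHom p) nA (fun x => (hNA x.1 x.2).symm)
    rw [hr] at t1 t2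
    rw [← t1, ← t2, h1, ha]
  -- step 2 : `B`
  have hBq : (nA.ker.map dA).relIndex nA.ker = p ^ b * Nat.card (dA.ker ⊓ nA.ker : AddSubgroup M) := by
    have hfin : Module.Finite ℤ (LinearMap.ker N) := Module.Finite.of_fg (IsNoetherian.noetherian _)
    have hcomm : ∀ x, N (s x) = s (N x) := by
      intro x
      have : N * s = s * N := by
        rw [hNdef, Finset.sum_mul, Finset.mul_sum]
        exact Finset.sum_congr rfl (fun i _ => by rw [← pow_succ, ← pow_succ'])
      exact congrArg (fun f : Module.End ℤ M => f x) this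
    have hstab : ∀ x ∈ LinearMap.ker N, s x ∈ LinearMap.ker N := by
      intro x hx
      rw [LinearMap.mem_ker] at hx ⊢
      rw [hcomm, hx, map_zero]
    set sB : Module.End ℤ (LinearMap.ker N) := s.restrict hstab with hsB
    have hsBpow : ∀ (i : ℕ) (x : LinearMap.ker N), (((sB ^ i) x : LinearMap.ker N) : M) = (s ^ i) x := by
      intro i x
      induction i generalizing x with
      | zero => simp
      | succ i ih =>
        rw [pow_succ, Module.End.mul_apply, ih, pow_succ, Module.End.mul_apply]
        rfl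
    have hNB : ∑ i ∈ Finset.range p, sB ^ i = 0 := by
      ext x
      simp only [LinearMap.sum_apply, LinearMap.zero_apply, ZeroMemClass.coe_zero,
        AddSubmonoidClass.coe_finsetSum, hsBpow]
      have h0 : N (x : M) = 0 := x.2
      have h1 : N (x : M) = ∑ i ∈ Finset.range p, (s ^ i) (x : M) := by
        simp only [hNdef, LinearMap.sum_apply]
      rw [← h1, h0]
    have hrank : finrank ℤ (LinearMap.ker N) = (p - 1) * b := by
      have h1 := Submodule.finrank_quotient_add_finrank (LinearMap.ker D)
      have h2 := D.quotKerEquivRange.finrank_eq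
      rw [h2, ← hBm, ha, hb] at h1
      omega
    have h1 := hq_main hp sB hNB hrank
    have hι : Function.Injective (LinearMap.ker N).subtype.toAddMonoidHom :=
      Subtype.val_injective
    have hr : (LinearMap.ker N).subtype.toAddMonoidHom.range = nA.ker := by
      ext x
      constructor
      · rintro ⟨y, rfl⟩
        exact y.2
      · intro hx
        exact ⟨⟨x, hx⟩, rfl⟩
    obtain ⟨t1, t2⟩ := hq_transport (LinearMap.ker N).subtype.toAddMonoidHom hι
      (1 - sB).toAddMonoidHom dA (fun x => rfl)
    rw [hr] at t1 t2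
    unfold hqG hqK at h1
    rw [← t1, h1, t2, inf_comm]
  -- finiteness of `A ∩ B`
  have hc : Nat.card (dA.ker ⊓ nA.ker : AddSubgroup M) ≠ 0 := by
    have hfin : Module.Finite ℤ (LinearMap.ker D ⊓ LinearMap.ker N : Submodule ℤ M) :=
      Module.Finite.of_fg (IsNoetherian.noetherian _)
    have ht : Module.IsTorsion ℤ (LinearMap.ker D ⊓ LinearMap.ker N : Submodule ℤ M) := by
      intro x
      refine ⟨⟨(p : ℤ), mem_nonZeroDivisors_of_ne_zero (by exact_mod_cast hp.ne_zero)⟩, ?_⟩
      ext
      have h1 := hNA x.1 x.2.1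
      have h2 : N (x : M) = 0 := x.2.2
      rw [h2] at h1
      simpa using h1.symm
    have hfin' : Finite (LinearMap.ker D ⊓ LinearMap.ker N : Submodule ℤ M) :=
      Module.finite_of_fg_torsion _ ht
    have : Finite (dA.ker ⊓ nA.ker : AddSubgroup M) := hfin'
    exact Nat.card_pos.ne'
  have hle1 : dA.ker.map nA ≤ nA.range := AddSubgroup.map_le_range _ _
  have hle2 : nA.range ≤ dA.ker := by
    rintro _ ⟨y, rfl⟩
    exact congrArg (fun f : Module.End ℤ M => f y) hDN
  have hchain := AddSubgroup.relIndex_mul_relIndex _ _ _ hle1 hle2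
  rw [hZ1, ← hZ2, hBq, hA] at hchain
  apply Nat.eq_of_mul_eq_mul_right (Nat.pos_of_ne_zero hc)
  rw [← hchain]
  ring

end hq

end Fermat.Agent.S14lib
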