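import Fermat.Agent.S14.SUnitIdx

/-!
# T-S14, WP4: the key lemma (Q) of the abstract Herbrand lemma

`q(f) = |coker f| / |ker f|` is multiplicative (`hq_mul`, unconditional form), and for a finitely
generated abelian group `B` with `1 + s + ... + s ^ (p - 1) = 0` and rank `(p - 1) b`:
`|B / (1 - s) B| = p ^ b * |B[1 - s]|` (`hq_main`).
-/

set_option autoImplicit false

open Module Polynomial

namespace Fermat.Agent.S14lib

section hq

variable {B : Type*} [AddCommGroup B]

theorem hq_card_ker_comp (f g : B →+ B) :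
    Nat.card (f.comp g).ker = Nat.card g.ker * Nat.card (g.range ⊓ f.ker : AddSubgroup B) := by
  have e : (f.comp g).ker = f.ker.comap g := by
    ext x; simp [AddMonoidHom.mem_ker]
  have hle : g.ker ≤ f.ker.comap g := by
    intro x hx
    rw [AddMonoidHom.mem_ker] at hx
    simp [hx]
  rw [e, ← AddSubgroup.relIndex_bot_left, ← AddSubgroup.relIndex_bot_left,
    ← AddSubgroup.relIndex_bot_left,
    ← AddSubgroup.relIndex_mul_relIndex (⊥ : AddSubgroup B) g.ker (f.ker.comap g) bot_le hle]
  congr 1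
  rw [← AddMonoidHom.comap_bot, AddSubgroup.relIndex_comap, AddSubgroup.map_comap_eq]

/-- multiplicativity of `q(f) = |coker f| / |ker f|`, unconditional form -/
theorem hq_mul (f g : B →+ B) :
    (f.comp g).range.index * Nat.card f.ker * Nat.card g.ker =
      f.range.index * g.range.index * Nat.card (f.comp g).ker := by
  have h1 : (f.comp g).range.index = (g.range ⊔ f.ker).index * f.range.index := by
    rw [AddMonoidHom.range_eq_map, ← AddSubgroup.index_map, ← AddMonoidHom.range_eq_map,
      AddMonoidHom.range_eq_map g, AddSubgroup.map_map, ← AddMonoidHom.range_eq_map]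
  have h3 : g.range.index = g.range.relIndex f.ker * (g.range ⊔ f.ker).index := by
    rw [← AddSubgroup.relIndex_sup_left f.ker g.range, AddSubgroup.relIndex_mul_index le_sup_left]
  have h4 : Nat.card f.ker = Nat.card (g.range ⊓ f.ker : AddSubgroup B) * g.range.relIndex f.ker := by
    rw [← AddSubgroup.relIndex_bot_left, ← AddSubgroup.relIndex_bot_left,
      ← AddSubgroup.inf_relIndex_right g.range f.ker,
      AddSubgroup.relIndex_mul_relIndex _ _ _ bot_le inf_le_right]
  rw [h1, hq_card_ker_comp, h3, h4]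
  ring

/-- `|coker f|` -/
noncomputable def hqG (f : Module.End ℤ B) : ℕ := f.toAddMonoidHom.range.index

/-- `|ker f|` -/
noncomputable def hqK (f : Module.End ℤ B) : ℕ := Nat.card f.toAddMonoidHom.ker

theorem hqG_mul (f g : Module.End ℤ B) :
    hqG (f * g) * hqK f * hqK g = hqG f * hqG g * hqK (f * g) :=
  hq_mul f.toAddMonoidHom g.toAddMonoidHom

theorem hqK_mul_ne_zero {f g : Module.End ℤ B} (hf : hqK f ≠ 0) (hg : hqK g ≠ 0) :
    hqK (f * g) ≠ 0 := by
  have h := hq_card_ker_comp f.toAddMonoidHom g.toAddMonoidHom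
  have h' : hqK (f * g) = hqK g *
      Nat.card (g.toAddMonoidHom.range ⊓ f.toAddMonoidHom.ker : AddSubgroup B) := h
  rw [h']
  refine mul_ne_zero hg ?_
  have : Finite f.toAddMonoidHom.ker := (Nat.card_ne_zero.1 hf).2
  have : Finite (g.toAddMonoidHom.range ⊓ f.toAddMonoidHom.ker : AddSubgroup B) :=
    Finite.of_injective (AddSubgroup.inclusion (inf_le_right))
      (AddSubgroup.inclusion_injective _)
  exact Nat.card_pos.ne'

theorem hq_range_le (s : Module.End ℤ B) (n : ℕ) :
    (1 - s ^ n).toAddMonoidHom.range ≤ (1 - s).toAddMonoidHom.range := by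
  rintro _ ⟨x, rfl⟩
  refine ⟨(∑ i ∈ Finset.range n, s ^ i) x, ?_⟩
  have := mul_neg_geom_sum s n
  exact congrArg (fun f : Module.End ℤ B => f x) this

theorem hq_ker_le (s : Module.End ℤ B) (n : ℕ) :
    (1 - s).toAddMonoidHom.ker ≤ (1 - s ^ n).toAddMonoidHom.ker := by
  intro x hx
  rw [AddMonoidHom.mem_ker] at hx ⊢
  have := geom_sum_mul_neg s n
  have h2 := congrArg (fun f : Module.End ℤ B => f x) this
  have hx' : (1 - s) x = 0 := hx
  have h3 : (1 - s ^ n) x = (∑ i ∈ Finset.range n, s ^ i) ((1 - s) x) := h2.symm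
  rw [hx', map_zero] at h3
  exact h3

theorem hq_eq_of_coprime {p : ℕ} (hp : 1 < p) (s : Module.End ℤ B) (hs : s ^ p = 1) {i : ℕ}
    (hi : Nat.Coprime i p) : hqG (1 - s ^ i) = hqG (1 - s) ∧ hqK (1 - s ^ i) = hqK (1 - s) := by
  obtain ⟨m, -, hm⟩ := Nat.exists_mul_mod_eq_one_of_coprime hi hp
  have e : (s ^ i) ^ m = s := by
    rw [← pow_mul, pow_eq_pow_mod _ hs, hm, pow_one]
  have h1 := hq_range_le (s ^ i) m
  have h2 := hq_ker_le (s ^ i) m
  rw [e] at h1 h2
  constructor
  · unfold hqG
    rw [le_antisymm (hq_range_le s i) h1]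
  · unfold hqK
    rw [le_antisymm h2 (hq_ker_le s i)]

theorem hq_poly (p : ℕ) [hp : Fact p.Prime] :
    (∑ i ∈ Finset.range p, X ^ i : ℤ[X]) ∣
      ∏ k ∈ Finset.range (p - 1), (1 - X ^ (k + 1)) - (p : ℤ[X]) := by
  have hμ := Complex.isPrimitiveRoot_exp p hp.out.ne_zero
  rw [← cyclotomic_prime ℤ p, cyclotomic_eq_minpoly hμ hp.out.pos]
  apply minpoly.isIntegrallyClosed_dvd (hμ.isIntegral hp.out.pos)
  have hμ' : IsPrimitiveRoot (Complex.exp (2 * Real.pi * Complex.I / p)) (p - 1 + 1) := by
    rwa [Nat.sub_add_cancel hp.out.one_le]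
  have h := hμ'.prod_one_sub_pow_eq_order
  simp only [map_sub, map_prod, map_one, map_pow, aeval_X, map_natCast]
  rw [h]
  have : ((p - 1 : ℕ) : ℂ) + 1 = p := by
    rw [← Nat.cast_succ, Nat.succ_eq_add_one, Nat.sub_add_cancel hp.out.one_le]
  rw [this, sub_self]

theorem hqK_ne_zero_of_smul [Module.Finite ℤ B] {f : Module.End ℤ B} {n : ℕ} (hn : n ≠ 0)
    (h : ∀ x, f x = 0 → n • x = 0) : hqK f ≠ 0 := by
  have : Module.Finite ℤ (LinearMap.ker f) := Module.Finite.of_fg (IsNoetherian.noetherian _)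
  have ht : Module.IsTorsion ℤ (LinearMap.ker f) := by
    intro x
    refine ⟨⟨(n : ℤ), mem_nonZeroDivisors_of_ne_zero (by exact_mod_cast hn)⟩, ?_⟩
    ext
    have := h x.1 x.2
    simpa using this
  have hfin : Finite (LinearMap.ker f) := Module.finite_of_fg_torsion _ ht
  have : Finite f.toAddMonoidHom.ker := hfin
  exact Nat.card_pos.ne'

/-- **(Q)** `|B / (1 - s) B| = p ^ b * |B[1 - s]|` if `1 + s + ... + s ^ (p - 1) = 0` on `B` -/
theorem hq_main [Module.Finite ℤ B] {p : ℕ} (hp : p.Prime) (s : Module.End ℤ B)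
    (hN : ∑ i ∈ Finset.range p, s ^ i = 0) {b : ℕ} (hb : finrank ℤ B = (p - 1) * b) :
    hqG (1 - s) = p ^ b * hqK (1 - s) := by
  have : Fact p.Prime := ⟨hp⟩
  have hs : s ^ p = 1 := by
    have := mul_neg_geom_sum s p
    rw [hN, mul_zero] at this
    exact (sub_eq_zero.1 this.symm).symm
  -- the kernel of `1 - s` is finite
  have hκ : hqK (1 - s) ≠ 0 := by
    refine hqK_ne_zero_of_smul hp.ne_zero (fun x hx => ?_)
    have hx' : s x = x := by
      have : x - s x = 0 := hx
      exact (sub_eq_zero.1 this).symm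
    have hpow : ∀ i : ℕ, (s ^ i) x = x := by
      intro i
      induction i with
      | zero => simp
      | succ i ih => rw [pow_succ, Module.End.mul_apply, hx', ih]
    have h0 := congrArg (fun f : Module.End ℤ B => f x) hN
    simp only [LinearMap.sum_apply, hpow, Finset.sum_const, Finset.card_range,
      LinearMap.zero_apply] at h0
    exact h0
  set κ := hqK (1 - s) with hκdef
  set γ := hqG (1 - s) with hγdef
  let F : ℕ → Module.End ℤ B := fun n => aeval s (∏ k ∈ Finset.range n, (1 - X ^ (k + 1)) : ℤ[X])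
  have hF0 : F 0 = 1 := by simp [F]
  have hFs : ∀ n, F (n + 1) = F n * (1 - s ^ (n + 1)) := by
    intro n
    simp only [F, Finset.prod_range_succ, map_mul, map_sub, map_one, map_pow, aeval_X]
  have hind : ∀ n, n ≤ p - 1 → hqK (F n) ≠ 0 ∧ hqG (F n) * κ ^ n = γ ^ n * hqK (F n) := by
    intro n
    induction n with
    | zero =>
      intro _
      rw [hF0]
      have h1 : hqK (1 : Module.End ℤ B) = 1 := by
        unfold hqK
        have : (1 : Module.End ℤ B).toAddMonoidHom.ker = ⊥ := by
          ext x; simp [AddMonoidHom.mem_ker]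
        rw [this]; simp
      have h2 : hqG (1 : Module.End ℤ B) = 1 := by
        unfold hqG
        have : (1 : Module.End ℤ B).toAddMonoidHom.range = ⊤ := by
          ext x; simp
        rw [this]; simp
      rw [h1, h2]; simp
    | succ n ih =>
      intro hn
      obtain ⟨ih1, ih2⟩ := ih (by omega)
      have hcop : Nat.Coprime (n + 1) p := by
        rw [Nat.coprime_comm]
        exact (Nat.Prime.coprime_iff_not_dvd hp).2 (fun hd => by
          have := Nat.le_of_dvd (by omega) hd
          omega)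
      obtain ⟨e1, e2⟩ := hq_eq_of_coprime hp.one_lt s hs hcop
      have hK : hqK (F (n + 1)) ≠ 0 := by
        rw [hFs]
        exact hqK_mul_ne_zero ih1 (by rw [e2]; exact hκ)
      refine ⟨hK, ?_⟩
      have hm := hqG_mul (F n) (1 - s ^ (n + 1))
      rw [← hFs, e1, e2] at hm
      apply Nat.eq_of_mul_eq_mul_right (Nat.pos_of_ne_zero ih1)
      calc hqG (F (n + 1)) * κ ^ (n + 1) * hqK (F n)
          = (hqG (F (n + 1)) * hqK (F n) * κ) * κ ^ n := by ring
        _ = (hqG (F n) * γ * hqK (F (n + 1))) * κ ^ n := by rw [hm]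
        _ = (hqG (F n) * κ ^ n) * γ * hqK (F (n + 1)) := by ring
        _ = (γ ^ n * hqK (F n)) * γ * hqK (F (n + 1)) := by rw [ih2]
        _ = γ ^ (n + 1) * hqK (F (n + 1)) * hqK (F n) := by ring
  obtain ⟨hK, hmain⟩ := hind (p - 1) le_rfl
  have hFp : F (p - 1) = (p : Module.End ℤ B) := by
    obtain ⟨Q, hQ⟩ := hq_poly p
    have h := congrArg (aeval s) hQ
    simp only [map_sub, map_mul, map_sum, map_pow, aeval_X, map_natCast, hN, zero_mul] at h
    exact sub_eq_zero.1 h
  have hpe : (p : Module.End ℤ B).toAddMonoidHom = nsmulAddMonoidHom p := by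
    ext x
    simp
  have hGp : hqG (p : Module.End ℤ B) = p ^ finrank ℤ B * hqK (p : Module.End ℤ B) := by
    unfold hqG hqK
    rw [hpe]
    exact su_index_range_nsmul B p hp.ne_zero
  rw [hFp] at hK hmain
  rw [hGp, hb] at hmain
  have h3 : (p ^ b * κ) ^ (p - 1) = γ ^ (p - 1) := by
    apply Nat.eq_of_mul_eq_mul_right (Nat.pos_of_ne_zero hK)
    rw [← hmain, mul_pow, ← pow_mul, mul_comm b (p - 1)]
    ring
  exact (Nat.pow_left_injective (n := p - 1) (by have := hp.two_le; omega) h3).symm

end hq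

end Fermat.Agent.S14lib
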