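import Fermat.Agent.S14.Defs
import Fermat.Prelude.Def_ExtCitation_AdmissibleExtension_v2

/-!
# T-S14: the interface statements (skeleton).

Each `sorry` below is the FINAL theorem of a work package; the owner proves it in his own file
(`S14/FI.lean`, `S14/SI.lean`, ...) under the SAME name with a prime-free statement and then this file
is deleted / replaced by imports.
-/

set_option autoImplicit false

open NumberField IsDedekindDomain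

namespace Fermat.Agent.S14lib.Iface

open Fermat.Agent.S14lib

section general

variable {k : Type} [Field k] [NumberField k] {p : ℕ} [Fact p.Prime]

/-- **(FI)** first inequality (WP5) -/
theorem FI (hp2 : p ≠ 2) {ζ : k} (hζ : IsPrimitiveRoot ζ p) {x : k} (hx0 : x ≠ 0)
    (hx : ∀ y : k, y ^ p ≠ x) (hloc : ∀ v : Pl k, Above p v → LocPow p ζ v x) :
    ∃ D : Pl k →₀ ℤ, (∀ v, ¬ (p : ℤ) ∣ ordv v x → D v = 0) ∧ ¬ InPN p ζ ∅ x D := by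
  sorry

/-- **(SI)** second inequality, unramified case, avoiding `Sg` (WP7) -/
theorem SI (hp2 : p ≠ 2) {ζ : k} (hζ : IsPrimitiveRoot ζ p) {α : k} (hα0 : α ≠ 0)
    (hord : ∀ v : Pl k, (p : ℤ) ∣ ordv v α) (hloc : ∀ v : Pl k, Above p v → LocPow p ζ v α)
    (Sg : Finset (Pl k)) (hSg : ∀ v ∈ Sg, ¬ Above p v)
    (D₁ D₂ : Pl k →₀ ℤ) (h₁ : ∀ v ∈ Sg, D₁ v = 0) (h₂ : ∀ v ∈ Sg, D₂ v = 0)
    (hD₂ : ¬ InPN p ζ (↑Sg) α D₂) :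
    ∃ j : ℤ, InPN p ζ (↑Sg) α (D₁ - j • D₂ : Pl k →₀ ℤ) := by
  sorry

/-- **(CK)** Chebotarev + Kummer (WP6) -/
theorem CK (hp2 : p ≠ 2) {ζ : k} (hζ : IsPrimitiveRoot ζ p) {n : ℕ} (u : Fin n → k)
    (hu0 : ∀ i, u i ≠ 0)
    (hind : ∀ e : Fin n → ℤ, (∃ y : k, y ^ p = ∏ i, u i ^ e i) → ∀ i, (p : ℤ) ∣ e i)
    (a : Fin n → ZMod p) (ha : a ≠ 0) (Sg : Finset (Pl k)) :
    ∃ v : Pl k, v ∉ Sg ∧ ¬ Above p v ∧ (∀ i, ordv v (u i) = 0) ∧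
      ∃ c : ZMod p, c ≠ 0 ∧ ∀ i, sym p ζ v (u i) = c * a i := by
  sorry

end general

section cyclotomic

variable {K : Type} [Field K] [NumberField K] {p : ℕ} [Fact p.Prime] [IsCyclotomicExtension {p} ℚ K]

/-- **(GS a)** the divisor of the Jacobi sum `J(χ,χ)` of a degree one prime (WP8) -/
theorem exists_jacobi (hp2 : p ≠ 2) {ζ : K} (hζ : IsPrimitiveRoot ζ p) {lam : Pl K} {l : ℕ}
    (hl : l.Prime) (hlam : nrm lam = l) (hlp : l ≠ p) :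
    ∃ J : K, J ≠ 0 ∧
      (∀ (c : ℕ) (σ : K ≃ₐ[ℚ] K), 1 ≤ c → 2 * c < p → σ ζ = ζ ^ c →
        ordv (pull (σ : K ≃+* K) lam) J = 1) ∧
      (∀ v : Pl K, (¬ ∃ (c : ℕ) (σ : K ≃ₐ[ℚ] K), 1 ≤ c ∧ 2 * c < p ∧ σ ζ = ζ ^ c ∧
        v = pull (σ : K ≃+* K) lam) → ordv v J = 0) := by
  sorry

/-- **(X)** the crossing (WP10) -/
theorem cross (hp2 : p ≠ 2) {ζ : K} (hζ : IsPrimitiveRoot ζ p) {α : K} (hα0 : α ≠ 0)
    (hord : ∀ v : Pl K, (p : ℤ) ∣ ordv v α) (hloc : ∀ v : Pl K, Above p v → LocPow p ζ v α)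
    {q₁ q₂ : Pl K} {l₁ l₂ : ℕ} (hl₁ : l₁.Prime) (hl₂ : l₂.Prime) (hne : l₁ ≠ l₂)
    (hq₁ : nrm q₁ = l₁) (hq₂ : nrm q₂ = l₂) (hp₁ : l₁ ≠ p) (hp₂ : l₂ ≠ p)
    (hs : sym p ζ q₂ α ≠ 0) (κ : ℤ) (hκ : sym p ζ q₁ α = κ * sym p ζ q₂ α) :
    InPN p ζ ∅ α (Finsupp.single q₁ 1 - κ • Finsupp.single q₂ 1 : Pl K →₀ ℤ) := by
  sorry

/-- **(END)** (WP11) -/
theorem no_alpha (hp2 : p ≠ 2) {ζ : K} (hζ : IsPrimitiveRoot ζ p) (α : K) (hα0 : α ≠ 0)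
    (h1 : ∀ y : K, y ^ p ≠ α) (h2 : ∀ v : Pl K, (p : ℤ) ∣ ordv v α)
    (h3 : ∀ v : Pl K, Above p v → LocPow p ζ v α)
    (h4 : ∀ (σ : K ≃ₐ[ℚ] K) (c : ℕ), σ ζ = ζ ^ c → ∃ β : K, β ≠ 0 ∧ σ α = α ^ (c ^ 2) * β ^ p) :
    False := by
  sorry

end cyclotomic

/-- **(GLUE)** (WP12) -/
theorem exists_alpha {p : ℕ} [Fact p.Prime] (h3 : 3 ≤ p)
    (V : Type) [AddCommGroup V] [Module (ZMod p) V]
    [DistribMulAction (AlgebraicClosure ℚ ≃ₐ[ℚ] AlgebraicClosure ℚ) V]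
    [SMulCommClass (AlgebraicClosure ℚ ≃ₐ[ℚ] AlgebraicClosure ℚ) (ZMod p) V]
    (C : Submodule (ZMod p) V) (hadm : ExtCitation.IsAdmissibleExtensionCts p V C)
    (hns : ¬ ExtCitation.SplitsGlobally C) :
    ∃ (K : Type) (_ : Field K) (_ : NumberField K) (_ : IsCyclotomicExtension {p} ℚ K) (ζ α : K),
      IsPrimitiveRoot ζ p ∧ α ≠ 0 ∧ (∀ y : K, y ^ p ≠ α) ∧ (∀ v : Pl K, (p : ℤ) ∣ ordv v α) ∧
      (∀ v : Pl K, Above p v → LocPow p ζ v α) ∧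
      (∀ (σ : K ≃ₐ[ℚ] K) (c : ℕ), σ ζ = ζ ^ c → ∃ β : K, β ≠ 0 ∧ σ α = α ^ (c ^ 2) * β ^ p) := by
  sorry

/-- S14 from the interface -/
theorem s14 {p : ℕ} [Fact p.Prime] (h3 : 3 ≤ p) : ExtCitation.ExtVanishingCts p := by
  intro V _ _ _ _ C hadm
  by_contra hns
  obtain ⟨K, _, _, _, ζ, α, hζ, hα0, h1, h2, h3', h4⟩ := exists_alpha h3 V C hadm hns
  exact no_alpha (by omega) hζ α hα0 h1 h2 h3' h4

end Fermat.Agent.S14lib.Iface
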