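import Fermat.Agent.S14.RelA
import Fermat.Agent.S14.Sym

/-!
# T-S14, WP0f, part B (helper8): norms of places, `sym` in an extension, the product formula
-/

set_option autoImplicit false
set_option linter.style.haveILetI false

open NumberField IsDedekindDomain

namespace Fermat.Agent.S14lib

variable {K F : Type*} [Field K] [NumberField K] [Field F] [NumberField F] [Algebra K F]

theorem nrm_over {w : Pl F} {v : Pl K} (h : Over w v) : nrm w = nrm v ^ fRel K w := by
  haveI : w.asIdeal.LiesOver v.asIdeal := h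
  haveI : w.asIdeal.IsMaximal := w.isMaximal
  haveI : v.asIdeal.IsMaximal := v.isMaximal
  rw [nrm, nrm, fRel, ← Ideal.absNorm_relNorm (𝓞 K) (𝓞 F) w.asIdeal,
    Ideal.relNorm_eq_pow_of_isMaximal w.asIdeal v.asIdeal, map_pow]

theorem above_over_iff {w : Pl F} {v : Pl K} (h : Over w v) (p : ℕ) : Above p w ↔ Above p v := by
  haveI : w.asIdeal.LiesOver v.asIdeal := h
  rw [Above, Above, Ideal.mem_of_liesOver w.asIdeal v.asIdeal, map_natCast]

/-- `a ≡ b mod v`, `b` integral at `v` `⇒ a ^ s ≡ b ^ s mod v` -/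
theorem valuation_pow_sub_pow_lt_one (v : Pl K) {a b : K} (hb : v.valuation K b ≤ 1)
    (h : v.valuation K (a - b) < 1) (s : ℕ) : v.valuation K (a ^ s - b ^ s) < 1 := by
  have ha : v.valuation K a ≤ 1 := by
    have : a = (a - b) + b := by ring
    rw [this]
    exact (Valuation.map_add _ _ _).trans (max_le h.le hb)
  induction s with
  | zero => simp
  | succ s ih =>
    have e : a ^ (s + 1) - b ^ (s + 1) = a ^ s * (a - b) + (a ^ s - b ^ s) * b := by ring
    rw [e]
    refine (Valuation.map_add _ _ _).trans_lt (max_lt ?_ ?_)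
    · rw [map_mul, map_pow]
      exact (mul_le_of_le_one_left' (pow_le_one' ha s)).trans_lt h
    · rw [map_mul]
      exact (mul_le_of_le_one_right' hb).trans_lt ih

theorem valuation_over_lt_one {w : Pl F} {v : Pl K} (h : Over w v) {x : K}
    (hx : v.valuation K x < 1) : w.valuation F (algebraMap K F x) < 1 := by
  rw [valuation_over h]
  exact pow_lt_one' hx (eRel_pos w).ne'

/-- `(N w - 1) / p = ((N v - 1) / p) * (1 + N v + ... + N v ^ (f - 1))` -/
theorem nrm_over_sub_one_div {p : ℕ} {w : Pl F} {v : Pl K} (h : Over w v) (hp : p ≠ 0)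
    (hd : p ∣ nrm v - 1) :
    (nrm w - 1) / p = (nrm v - 1) / p * ∑ j ∈ Finset.range (fRel K w), nrm v ^ j := by
  obtain ⟨n, hn⟩ := hd
  have hq : nrm v - 1 + 1 = nrm v := Nat.sub_add_cancel (one_lt_nrm v).le
  have h1 := geom_sum_mul_add (nrm v - 1) (fRel K w)
  rw [hq] at h1
  rw [nrm_over h, ← h1, Nat.add_sub_cancel, hn, Nat.mul_div_cancel_left _ (Nat.pos_of_ne_zero hp),
    mul_left_comm, Nat.mul_div_cancel_left _ (Nat.pos_of_ne_zero hp), mul_comm]

/-- (R2) -/
theorem SymEq.over {p : ℕ} [Fact p.Prime] {ζ : K} (hζ : IsPrimitiveRoot ζ p) {w : Pl F}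
    {v : Pl K} (h : Over w v) (hv : ¬ Above p v) {x : K} {i : ZMod p} (hx : SymEq p ζ v x i) :
    SymEq p (algebraMap K F ζ) w (algebraMap K F x) ((fRel K w : ZMod p) * i) := by
  obtain ⟨z, hz, hval⟩ := hx
  have hp : p ≠ 0 := (Fact.out : p.Prime).ne_zero
  have hd : p ∣ nrm v - 1 := dvd_nrm_sub_one hζ hv
  set S : ℕ := ∑ j ∈ Finset.range (fRel K w), nrm v ^ j with hS
  have hq1 : ((nrm v : ℕ) : ZMod p) = 1 := by
    have h1 : ((nrm v - 1 : ℕ) : ZMod p) = 0 := (ZMod.natCast_eq_zero_iff _ _).2 hd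
    rw [Nat.cast_sub (one_lt_nrm v).le, Nat.cast_one, sub_eq_zero] at h1
    exact h1
  have hSf : ((S : ℕ) : ZMod p) = (fRel K w : ZMod p) := by
    rw [hS, Nat.cast_sum]
    simp [hq1]
  have hexp : ((fRel K w : ZMod p) * i).val = (i.val * S) % p := by
    rw [← ZMod.val_natCast, Nat.cast_mul, ZMod.natCast_zmod_val, hSf, mul_comm]
  refine ⟨algebraMap K F z, (map_ne_zero _).2 hz, ?_⟩
  rw [nrm_over_sub_one_div h hp hd, hexp, ← pow_eq_pow_mod _ (by
    rw [← map_pow, hζ.pow_eq_one, map_one]), ← map_pow, ← map_div₀, ← map_pow, ← map_pow, ← map_sub,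
    pow_mul, pow_mul]
  refine valuation_over_lt_one h (valuation_pow_sub_pow_lt_one v ?_ hval S)
  rw [map_pow, valuation_zeta hζ, one_pow]

/-- (R2), with existence at `v` and uniqueness at `w` as hypotheses (both are in WP0d) -/
theorem sym_over_aux {p : ℕ} [Fact p.Prime] {ζ : K} (hζ : IsPrimitiveRoot ζ p) {w : Pl F}
    {v : Pl K} (h : Over w v) (hv : ¬ Above p v) {x : K} (hex : ∃ i, SymEq p ζ v x i)
    (huniq : ∀ i j, SymEq p (algebraMap K F ζ) w (algebraMap K F x) i →
      SymEq p (algebraMap K F ζ) w (algebraMap K F x) j → i = j) :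
    sym p (algebraMap K F ζ) w (algebraMap K F x) = (fRel K w : ZMod p) * sym p ζ v x := by
  have h1 := SymEq.over hζ h hv hex.choose_spec
  have hex' : ∃ i, SymEq p (algebraMap K F ζ) w (algebraMap K F x) i := ⟨_, h1⟩
  rw [sym, sym, dif_pos hex, dif_pos hex']
  exact huniq _ _ hex'.choose_spec h1

/-- (R2) -/
theorem sym_over {p : ℕ} [Fact p.Prime] {ζ : K} (hζ : IsPrimitiveRoot ζ p) {w : Pl F}
    {v : Pl K} (h : Over w v) (hv : ¬ Above p v) {x : K} (hx0 : x ≠ 0)
    (hx : (p : ℤ) ∣ ordv v x) :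
    sym p (algebraMap K F ζ) w (algebraMap K F x) = (fRel K w : ZMod p) * sym p ζ v x :=
  (SymEq.over hζ h hv (symEq_sym hζ hv hx0 hx)).sym_eq
    (hζ.map_of_injective (algebraMap K F).injective) (fun hw => hv ((above_over_iff h p).1 hw))

theorem norm_embedding_eq (v : Pl K) {z : K} (hz : z ≠ 0) :
    ‖FinitePlace.embedding v z‖ = ((nrm v : ℝ) ^ ordv v z)⁻¹ := by
  rw [FinitePlace.norm_embedding', WithZeroMulInt.toNNReal_neg_apply _ (valuation_ne_zero v hz)]
  rw [ordv, zpow_neg, inv_inv, WithZero.toAdd_unzero_eq_log]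
  push_cast
  rfl

/-- (R5) product formula (finite part): `∏_v N v ^ ord_v z = |N_{K/ℚ} z|` -/
theorem finprod_nrm_zpow {z : K} (hz : z ≠ 0) :
    ∏ᶠ v : Pl K, (nrm v : ℚ) ^ ordv v z = |Algebra.norm ℚ z| := by
  have h := FinitePlace.prod_eq_inv_abs_norm hz
  rw [← finprod_comp_equiv FinitePlace.equivHeightOneSpectrum.symm] at h
  simp only [FinitePlace.equivHeightOneSpectrum_symm_apply, norm_embedding_eq _ hz] at h
  rw [finprod_inv_distrib, Rat.cast_inv, inv_inj] at h
  apply Rat.cast_injective (α := ℝ)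
  rw [← h]
  have := (Rat.castHom ℝ).toMonoidHom.map_finprod_of_injective Rat.cast_injective
    (fun v : Pl K => (nrm v : ℚ) ^ ordv v z)
  simpa using this

end Fermat.Agent.S14lib
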