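import Fermat.Agent.S14.KumExt
import Fermat.Agent.S14.Rel
import Fermat.Agent.S14.Ord

/-!
# T-S14, WP3b: ramified and inert places of a Kummer extension (K0, K1, K3)
-/

set_option autoImplicit false
set_option linter.style.haveILetI false
set_option linter.unusedSectionVars false

open NumberField IsDedekindDomain

namespace Fermat.Agent.S14lib

section K0

variable {K F : Type*} [Field K] [NumberField K] [Field F] [NumberField F] [Algebra K F]

/-- (K0) residue degree one: every `w`-integral element is congruent mod `w` to an element of `K`. -/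
theorem exists_approx_of_fRel_eq_one {w : Pl F} {v : Pl K} (h : Over w v) (hf : fRel K w = 1)
    {t : F} (ht : w.valuation F t ≤ 1) :
    ∃ c : K, v.valuation K c ≤ 1 ∧ w.valuation F (t - algebraMap K F c) < 1 := by
  obtain ⟨a, ha⟩ := exists_integer_valuation_sub_lt w ht 0
  haveI : w.asIdeal.LiesOver v.asIdeal := h
  haveI : v.asIdeal.IsMaximal := v.isMaximal
  haveI : w.asIdeal.IsMaximal := w.isMaximal
  letI : Field (𝓞 K ⧸ v.asIdeal) := Ideal.Quotient.field v.asIdeal
  have h1 : Module.finrank (𝓞 K ⧸ v.asIdeal) (𝓞 F ⧸ w.asIdeal) = 1 := by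
    rw [← Ideal.inertiaDeg_eq_of_isMaximal v.asIdeal w.asIdeal]; exact hf
  have h2 := Subalgebra.bot_eq_top_of_finrank_eq_one h1
  have h3 : Ideal.Quotient.mk w.asIdeal a ∈ (⊥ : Subalgebra (𝓞 K ⧸ v.asIdeal) (𝓞 F ⧸ w.asIdeal)) := by
    rw [h2]; trivial
  obtain ⟨cbar, hc⟩ := Algebra.mem_bot.mp h3
  obtain ⟨c, rfl⟩ := Ideal.Quotient.mk_surjective cbar
  refine ⟨algebraMap (𝓞 K) K c, v.valuation_le_one c, ?_⟩
  have h4 : a - algebraMap (𝓞 K) (𝓞 F) c ∈ w.asIdeal := by
    rw [← Ideal.Quotient.eq, ← hc]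
    rfl
  have h5 : w.valuation F (algebraMap (𝓞 F) F (a - algebraMap (𝓞 K) (𝓞 F) c)) < 1 :=
    (w.valuation_lt_one_iff_mem _).mpr h4
  have h6 : t - algebraMap K F (algebraMap (𝓞 K) K c) =
      (t - algebraMap (𝓞 F) F a) + algebraMap (𝓞 F) F (a - algebraMap (𝓞 K) (𝓞 F) c) := by
    rw [map_sub, ← IsScalarTower.algebraMap_apply (𝓞 K) (𝓞 F) F,
      ← IsScalarTower.algebraMap_apply (𝓞 K) K F]
    ring
  rw [h6]
  refine lt_of_le_of_lt (Valuation.map_add _ _ _) (max_lt ?_ h5)
  simpa using ha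

end K0

section galois

variable {k N : Type*} [Field k] [NumberField k] [Field N] [NumberField N] [Algebra k N]
  [IsGalois k N]

theorem eRel_mul_fRel_dvd_finrank {w : Pl N} {v : Pl k} (h : Over w v) :
    eRel k w * fRel k w ∣ Module.finrank k N := by
  haveI : w.asIdeal.LiesOver v.asIdeal := h
  haveI : v.asIdeal.IsPrime := v.isPrime
  haveI : w.asIdeal.IsPrime := w.isPrime
  have := Ideal.ncard_primesOver_mul_ramificationIdxIn_mul_inertiaDegIn v.asIdeal (𝓞 N) Gal(N/k)
  rw [Ideal.ramificationIdxIn_eq_ramificationIdx v.asIdeal w.asIdeal Gal(N/k),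
    Ideal.inertiaDegIn_eq_inertiaDeg v.asIdeal w.asIdeal Gal(N/k),
    IsGalois.card_aut_eq_finrank] at this
  exact Dvd.intro_left _ this

end galois

section kum

variable {k N : Type*} [Field k] [NumberField k] [Field N] [NumberField N] [Algebra k N]
  {p : ℕ} [Fact p.Prime] {ζ x : k} {θ : N} {s : N ≃ₐ[k] N}

theorem IsKum.eRel_mul_fRel_dvd (H : IsKum p ζ x N θ s) {w : Pl N} {v : Pl k} (h : Over w v) :
    eRel k w * fRel k w ∣ p := by
  haveI := H.galois
  have := eRel_mul_fRel_dvd_finrank h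
  rwa [H.finrank] at this

/-- if `e f = p` then `w` is the only place above `v` -/
theorem IsKum.placesOver_eq_singleton (H : IsKum p ζ x N θ s) {w : Pl N} {v : Pl k}
    (h : Over w v) (hef : eRel k w * fRel k w = p) : placesOver N v = {w} := by
  classical
  rw [Finset.eq_singleton_iff_unique_mem]
  refine ⟨mem_placesOver.mpr h, fun w' hw' => ?_⟩
  by_contra hne
  have hsub : ({w, w'} : Finset (Pl N)) ⊆ placesOver N v := by
    intro u hu
    rcases Finset.mem_insert.mp hu with rfl | hu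
    · exact mem_placesOver.mpr h
    · rw [Finset.mem_singleton.mp hu]; exact hw'
  have h1 := Finset.sum_le_sum_of_subset (f := fun u : Pl N => eRel k u * fRel k u) hsub
  rw [Finset.sum_pair (Ne.symm hne), sum_eRel_mul_fRel, H.finrank, hef] at h1
  have h2 : 0 < eRel k w' * fRel k w' := Nat.mul_pos (eRel_pos w') (fRel_pos w')
  omega

/-- (K1) ramified places -/
theorem IsKum.ram_aux (H : IsKum p ζ x N θ s) {v : Pl k} {w : Pl N}
    (hv : ¬ (p : ℤ) ∣ ordv v x) (h : Over w v) :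
    eRel k w = p ∧ fRel k w = 1 ∧ placesOver N v = {w} := by
  have hp : p.Prime := Fact.out
  have h1 : (p : ℤ) * ordv w θ = eRel k w * ordv v x := by
    rw [← ordv_pow, H.pow, ordv_over h]
  have h2 : (p : ℤ) ∣ (eRel k w : ℤ) := by
    have : (p : ℤ) ∣ eRel k w * ordv v x := ⟨_, h1.symm⟩
    exact ((Nat.prime_iff_prime_int.mp hp).dvd_or_dvd this).resolve_right hv
  have h3 : p ∣ eRel k w := by exact_mod_cast h2
  have h4 := H.eRel_mul_fRel_dvd h
  have h5 : eRel k w ∣ p := (Dvd.intro _ rfl).trans h4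
  have he : eRel k w = p := Nat.dvd_antisymm h5 h3
  have hf : fRel k w = 1 := by
    rw [he] at h4
    have := Nat.le_of_dvd hp.pos h4
    have hpos := fRel_pos (K := k) w
    nlinarith [hp.pos]
  exact ⟨he, hf, H.placesOver_eq_singleton h (by rw [he, hf, mul_one])⟩

/-- if `p ∣ ord_v x` and some place above `v ∤ p` has residue degree one, `x` is a local `p`-th
power at `v`. -/
theorem IsKum.locPow_of_fRel_eq_one (H : IsKum p ζ x N θ s) (hζ : IsPrimitiveRoot ζ p)
    (hx0 : x ≠ 0) {v : Pl k} {w : Pl N} (hv : (p : ℤ) ∣ ordv v x) (hpv : ¬ Above p v)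
    (h : Over w v) (hf : fRel k w = 1) : LocPow p ζ v x := by
  have hp : p.Prime := Fact.out
  obtain ⟨m, hm⟩ := hv
  obtain ⟨ϖ, hϖ0, hϖ⟩ := exists_ordv_eq_one v
  set z₀ : k := ϖ ^ m with hz₀
  have hz₀0 : z₀ ≠ 0 := zpow_ne_zero _ hϖ0
  set x' : k := x / z₀ ^ p with hx'
  have hx'0 : x' ≠ 0 := div_ne_zero hx0 (pow_ne_zero _ hz₀0)
  have hordx' : ordv v x' = 0 := by
    rw [hx', ordv_div v hx0 (pow_ne_zero _ hz₀0), ordv_pow, hz₀, ordv_zpow, hϖ, hm]; ring
  set θ' : N := θ / algebraMap k N z₀ with hθ'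
  have hθ0 : θ ≠ 0 := H.theta_ne_zero hx0
  have hz₀N : algebraMap k N z₀ ≠ 0 := (map_ne_zero _).mpr hz₀0
  have hθ'0 : θ' ≠ 0 := div_ne_zero hθ0 hz₀N
  have hpow : θ' ^ p = algebraMap k N x' := by
    rw [hθ', div_pow, H.pow, hx', map_div₀, map_pow]
  have hordθ' : ordv w θ' = 0 := by
    have : (p : ℤ) * ordv w θ' = 0 := by
      rw [← ordv_pow, hpow, ordv_over h, hordx', mul_zero]
    rcases mul_eq_zero.mp this with h0 | h0
    · exact absurd (by exact_mod_cast h0) hp.ne_zero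
    · exact h0
  have hvalθ' : w.valuation N θ' = 1 := (valuation_eq_one_iff w hθ'0).mpr hordθ'
  obtain ⟨c, hc1, hc⟩ := exists_approx_of_fRel_eq_one h hf hvalθ'.le
  have hcN : w.valuation N (algebraMap k N c) ≤ 1 := by
    rw [valuation_over h]; exact pow_le_one₀ zero_le hc1
  have h1 := valuation_pow_sub_pow_lt w hvalθ'.le hcN hc p
  rw [hpow, ← map_pow, ← map_sub, valuation_over h] at h1
  have h2 : v.valuation k (x' - c ^ p) < 1 := by
    by_contra hcon
    exact absurd h1 (not_lt.mpr (one_le_pow₀ (not_lt.mp hcon)))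
  -- `c` is a unit at `v`
  have hvalx' : v.valuation k x' = 1 := (valuation_eq_one_iff v hx'0).mpr hordx'
  have hcp : v.valuation k (c ^ p) = 1 := by
    have := (v.valuation k).map_sub_eq_of_lt_left (x := x') (y := x' - c ^ p) (by rw [hvalx']; exact h2)
    rw [sub_sub_cancel, hvalx'] at this
    exact this
  have hc0 : c ≠ 0 := by
    rintro rfl
    rw [zero_pow hp.ne_zero, map_zero] at hcp
    exact zero_ne_one hcp
  rw [locPow_iff_of_not_above hζ hpv]
  refine ⟨z₀ * c, mul_ne_zero hz₀0 hc0, ?_⟩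
  have h3 : x / (z₀ * c) ^ p - 1 = (x' - c ^ p) / c ^ p := by
    rw [hx']; field_simp; ring
  rw [h3, map_div₀, hcp, div_one]
  exact h2

/-- (K3) inert places -/
theorem IsKum.inert_aux (H : IsKum p ζ x N θ s) (hζ : IsPrimitiveRoot ζ p) (hx0 : x ≠ 0)
    {v : Pl k} {w : Pl N} (hv : (p : ℤ) ∣ ordv v x) (hloc : ¬ LocPow p ζ v x)
    (hpv : ¬ Above p v) (h : Over w v) :
    eRel k w = 1 ∧ fRel k w = p ∧ placesOver N v = {w} := by
  have hp : p.Prime := Fact.out
  have hf1 : fRel k w ≠ 1 := fun hf => hloc (H.locPow_of_fRel_eq_one hζ hx0 hv hpv h hf)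
  have h4 := H.eRel_mul_fRel_dvd h
  have h5 : fRel k w ∣ p := (Dvd.intro_left _ rfl).trans h4
  have hf : fRel k w = p := ((Nat.dvd_prime hp).mp h5).resolve_left hf1
  have he : eRel k w = 1 := by
    rw [hf] at h4
    have := Nat.le_of_dvd hp.pos h4
    have hpos := eRel_pos (K := k) w
    nlinarith [hp.pos]
  exact ⟨he, hf, H.placesOver_eq_singleton h (by rw [he, hf, one_mul])⟩

end kum

end Fermat.Agent.S14lib
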