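import Fermat.Agent.S14.FIBase
import Fermat.Agent.S14.KumRam
import Fermat.Agent.S14.KumHecke
import Fermat.Agent.S14.Equiv

/-!
# T-S14, (FI), block K (helper14): splitting of places in `N = k(x^(1/p))`
-/

set_option autoImplicit false

open NumberField IsDedekindDomain

namespace Fermat.Agent.S14lib

variable {k : Type} [Field k] [NumberField k] {N : Type} [Field N] [NumberField N] [Algebra k N]
  {p : ℕ} [Fact p.Prime] {ζ x : k} {θ : N} {s : N ≃ₐ[k] N}

/-! ## Block K (helper14): splitting of places in `N / k` -/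

/-- (K0) residue degree one -/
theorem exists_residue_of_fRel_eq_one {w : Pl N} {v : Pl k} (h : Over w v) (hf : fRel k w = 1)
    (t : N) (ht : w.valuation N t ≤ 1) :
    ∃ c : k, v.valuation k c ≤ 1 ∧ w.valuation N (t - algebraMap k N c) < 1 :=
  exists_approx_of_fRel_eq_one h hf ht

/-- (K4) -/
theorem over_pull {w : Pl N} {v : Pl k} (σ : N ≃ₐ[k] N) (h : Over w v) :
    Over (pull (σ : N ≃+* N) w) v := by
  rw [over_iff] at h ⊢
  intro a
  rw [mem_pull_asIdeal, ← h a]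
  have e : RingOfIntegers.mapRingEquiv (σ : N ≃+* N) (algebraMap (𝓞 k) (𝓞 N) a)
      = algebraMap (𝓞 k) (𝓞 N) a := by
    apply RingOfIntegers.ext
    exact σ.commutes (a : k)
  rw [e]

/-- (K1) -/
theorem IsKum.ram (H : IsKum p ζ x N θ s) (hx0 : x ≠ 0) {v : Pl k} (hv : ¬ (p : ℤ) ∣ ordv v x)
    {w : Pl N} (hw : Over w v) : eRel k w = p ∧ fRel k w = 1 ∧ placesOver N v = {w} :=
  H.ram_aux hv hw

/-- (K2), `v ∣ p` included -/
theorem IsKum.split (H : IsKum p ζ x N θ s) (hζ : IsPrimitiveRoot ζ p) (hx0 : x ≠ 0) {v : Pl k}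
    (hv : LocPow p ζ v x) :
    (placesOver N v).card = p ∧ ∀ w : Pl N, Over w v → eRel k w = 1 ∧ fRel k w = 1 :=
  H.split_aux hζ hx0 hv

/-- (K3) -/
theorem IsKum.inert (H : IsKum p ζ x N θ s) (hζ : IsPrimitiveRoot ζ p) (hx0 : x ≠ 0) {v : Pl k}
    (hv1 : (p : ℤ) ∣ ordv v x) (hv2 : ¬ LocPow p ζ v x) (hvp : ¬ Above p v)
    {w : Pl N} (hw : Over w v) : eRel k w = 1 ∧ fRel k w = p ∧ placesOver N v = {w} :=
  H.inert_aux hζ hx0 hv1 hv2 hvp hw


end Fermat.Agent.S14lib
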