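import Fermat.Agent.S14.Ord

/-!
# T-S14, WP2: the local index

`[k* : {LocPow v}] ≤ p ^ 2 * N v ^ (ord_v p)` and `∏_{v ∣ p} N v ^ (ord_v p) = p ^ [k : ℚ]`, hence
for a finite set `S` of places containing all places above `p`
`[k* : {x | LocPow v x for all v ∈ S}] ≤ p ^ (2 |S| + [k : ℚ])`.
-/

set_option autoImplicit false

open NumberField IsDedekindDomain

namespace Fermat.Agent.S14lib

variable {k : Type*} [Field k] [NumberField k] {p : ℕ} [Fact p.Prime] {ζ : k}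

namespace LocIdx

theorem gam_ne_zero (hζ : IsPrimitiveRoot ζ p) (v : Pl k) : v.valuation k ((1 - ζ) ^ p) ≠ 0 :=
  valuation_ne_zero v (pow_ne_zero _ (one_sub_zeta_ne_zero hζ))

theorem del_le_one (hζ : IsPrimitiveRoot ζ p) (v : Pl k) : v.valuation k (1 - ζ) ≤ 1 :=
  (valuation_le_one_iff v (one_sub_zeta_ne_zero hζ)).2 (ordv_one_sub_zeta_nonneg hζ v)

theorem gam_le_one (hζ : IsPrimitiveRoot ζ p) (v : Pl k) : v.valuation k ((1 - ζ) ^ p) ≤ 1 := by
  rw [map_pow]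
  exact pow_le_one' (del_le_one hζ v) p

/-- principal units of level `γ ≤ 1` are closed under multiplication -/
theorem pu_mul (v : Pl k) {γ : WithZero (Multiplicative ℤ)} (hγ : γ ≤ 1) {x y : k}
    (hx : v.valuation k (x - 1) < γ) (hy : v.valuation k (y - 1) < γ) :
    v.valuation k (x * y - 1) < γ := by
  have hy1 : v.valuation k y = 1 := valuation_eq_one_of_sub_one_lt v (hy.trans_le hγ)
  have : x * y - 1 = (x - 1) * y + (y - 1) := by ring
  rw [this]
  refine Valuation.map_add_lt _ ?_ hy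
  rwa [map_mul, hy1, mul_one]

theorem pu_inv (v : Pl k) {γ : WithZero (Multiplicative ℤ)} (hγ : γ ≤ 1) {x : k}
    (hx : v.valuation k (x - 1) < γ) : v.valuation k (x⁻¹ - 1) < γ := by
  have hx1 : v.valuation k x = 1 := valuation_eq_one_of_sub_one_lt v (hx.trans_le hγ)
  have hx0 : x ≠ 0 := ne_zero_of_sub_one_lt v (hx.trans_le hγ)
  have : x⁻¹ - 1 = -((x - 1) * x⁻¹) := by field_simp; ring
  rw [this, Valuation.map_neg, map_mul, map_inv₀, hx1, inv_one, mul_one]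
  exact hx

theorem locPow_pow (hζ : IsPrimitiveRoot ζ p) (v : Pl k) {z : k} (hz : z ≠ 0) :
    LocPow p ζ v (z ^ p) := by
  refine ⟨z, hz, ?_⟩
  rw [div_self (pow_ne_zero _ hz), sub_self, map_zero]
  exact zero_lt_iff.2 (gam_ne_zero hζ v)

theorem locPow_one (hζ : IsPrimitiveRoot ζ p) (v : Pl k) : LocPow p ζ v (1 : k) := by
  simpa using locPow_pow hζ v (one_ne_zero (α := k))

theorem locPow_mul (hζ : IsPrimitiveRoot ζ p) (v : Pl k) {x y : k} (hx : LocPow p ζ v x)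
    (hy : LocPow p ζ v y) : LocPow p ζ v (x * y) := by
  obtain ⟨z, hz, h1⟩ := hx
  obtain ⟨w, hw, h2⟩ := hy
  refine ⟨z * w, mul_ne_zero hz hw, ?_⟩
  have : x * y / (z * w) ^ p = (x / z ^ p) * (y / w ^ p) := by
    rw [mul_pow]; field_simp
  rw [this]
  exact pu_mul v (gam_le_one hζ v) h1 h2

theorem locPow_inv (hζ : IsPrimitiveRoot ζ p) (v : Pl k) {x : k} (hx : LocPow p ζ v x) :
    LocPow p ζ v x⁻¹ := by
  obtain ⟨z, hz, h1⟩ := hx
  refine ⟨z⁻¹, inv_ne_zero hz, ?_⟩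
  have : x⁻¹ / z⁻¹ ^ p = (x / z ^ p)⁻¹ := by
    rw [inv_pow, inv_div, inv_div_inv]
  rw [this]
  exact pu_inv v (gam_le_one hζ v) h1

/-- `x ^ p ≡ 1 mod v ^ (p a + 1)` implies `x ≡ ζ ^ i mod v ^ (a + 1)` for some `i` -/
theorem exists_zeta_pow_close (hζ : IsPrimitiveRoot ζ p) (v : Pl k) {x : k}
    (hx : v.valuation k (x ^ p - 1) < v.valuation k ((1 - ζ) ^ p)) :
    ∃ i < p, v.valuation k (x - ζ ^ i) < v.valuation k (1 - ζ) := by
  have hp : 0 < p := (Fact.out : p.Prime).pos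
  have : NeZero p := ⟨hp.ne'⟩
  by_contra hcon
  push Not at hcon
  have hprod : x ^ p - 1 = ∏ μ ∈ Polynomial.nthRootsFinset p (1 : k), (x - μ) := by
    have := congrArg (Polynomial.eval x) (Polynomial.X_pow_sub_one_eq_prod hp hζ)
    simpa [Polynomial.eval_prod] using this
  have hle : v.valuation k (1 - ζ) ^ (Polynomial.nthRootsFinset p (1 : k)).card ≤
      ∏ μ ∈ Polynomial.nthRootsFinset p (1 : k), v.valuation k (x - μ) := by
    refine Finset.pow_card_le_prod _ _ _ ?_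
    intro μ hμ
    rw [Polynomial.mem_nthRootsFinset hp] at hμ
    obtain ⟨i, hi, rfl⟩ := hζ.eq_pow_of_pow_eq_one hμ
    exact hcon i hi
  rw [hζ.card_nthRootsFinset, ← map_prod, ← hprod, ← map_pow] at hle
  exact absurd hx (not_lt.2 hle)

end LocIdx

/-- `∏_{v ∣ p} N v ^ (ord_v p) = p ^ [k : ℚ]` -/
theorem prod_nrm_pow_ordv_p (S : Finset (Pl k)) (hS : ∀ v : Pl k, Above p v → v ∈ S) :
    ∏ v ∈ S, nrm v ^ (ordv v (p : k)).toNat = p ^ Module.finrank ℚ k := by
  have hp0 : (p : 𝓞 k) ≠ 0 := by exact_mod_cast (Fact.out : p.Prime).ne_zero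
  have hI : (Ideal.span {(p : 𝓞 k)}) ≠ 0 := by
    simpa [Ideal.span_singleton_eq_bot] using hp0
  have hcount : ∀ v : Pl k, (ordv v (p : k)).toNat =
      (Associates.mk v.asIdeal).count (Associates.mk (Ideal.span {(p : 𝓞 k)})).factors := by
    intro v
    have h1 : v.valuation k (p : k) = v.intValuation (p : 𝓞 k) := by
      rw [← HeightOneSpectrum.valuation_of_algebraMap (K := k)]
      simp
    rw [ordv, h1, v.intValuation_if_neg hp0, WithZero.log_exp]
    simp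
  have h2 := Ideal.finprod_heightOneSpectrum_factorization hI
  have h3 : ∏ᶠ v : Pl k, v.maxPowDividing (Ideal.span {(p : 𝓞 k)}) =
      ∏ v ∈ S, v.asIdeal ^ (ordv v (p : k)).toNat := by
    rw [finprod_eq_prod_of_mulSupport_subset (s := S)]
    · refine Finset.prod_congr rfl fun v _ => ?_
      rw [HeightOneSpectrum.maxPowDividing, hcount]
    · intro v hv
      rw [Function.mem_mulSupport] at hv
      refine hS v ?_
      by_contra hab
      apply hv
      rw [HeightOneSpectrum.maxPowDividing, ← hcount,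
        (not_above_iff_ordv_eq_zero (Fact.out : p.Prime).ne_zero v).1 hab]
      simp
  have h4 := congrArg Ideal.absNorm (h3.symm.trans h2)
  rw [map_prod, Ideal.absNorm_span_natCast, RingOfIntegers.rank] at h4
  rw [← h4]
  refine Finset.prod_congr rfl fun v _ => ?_
  rw [map_pow, nrm]

namespace LocIdx

/-- finite commutative group: `|B / B ^ n| = |B[n]|` -/
theorem card_quot_pow_range {B : Type*} [CommGroup B] [Finite B] (n : ℕ) :
    Nat.card (B ⧸ (powMonoidHom n : B →* B).range) = Nat.card (powMonoidHom n : B →* B).ker := by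
  have h1 := Subgroup.card_mul_index (powMonoidHom n : B →* B).range
  have h2 := Subgroup.card_mul_index (powMonoidHom n : B →* B).ker
  rw [Subgroup.index_ker] at h2
  rw [Subgroup.index_eq_card] at h1
  have hpos : 0 < Nat.card (powMonoidHom n : B →* B).range := Nat.card_pos
  have : Nat.card (powMonoidHom n : B →* B).range * Nat.card (B ⧸ (powMonoidHom n : B →* B).range)
      = Nat.card (powMonoidHom n : B →* B).range * Nat.card (powMonoidHom n : B →* B).ker := by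
    rw [h1, ← h2, mul_comm]
  exact Nat.eq_of_mul_eq_mul_left hpos this

theorem card_quot_asIdeal_pow (v : Pl k) (n : ℕ) :
    Nat.card (𝓞 k ⧸ v.asIdeal ^ n) = nrm v ^ n := by
  rw [nrm, ← map_pow, Ideal.absNorm_apply, Submodule.cardQuot_apply]

theorem finite_quot_asIdeal_pow (v : Pl k) (n : ℕ) : Finite (𝓞 k ⧸ v.asIdeal ^ n) := by
  apply Nat.finite_of_card_ne_zero
  rw [card_quot_asIdeal_pow]
  exact pow_ne_zero _ (by have := one_lt_nrm v; omega)

theorem card_map_asIdeal_pow (v : Pl k) {n m : ℕ} (h : n ≤ m) :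
    Nat.card ((v.asIdeal ^ n).map (Ideal.Quotient.mk (v.asIdeal ^ m))) = nrm v ^ (m - n) := by
  have h1 := Submodule.card_eq_card_quotient_mul_card
    ((v.asIdeal ^ n).map (Ideal.Quotient.mk (v.asIdeal ^ m)))
  have h2 : Nat.card ((𝓞 k ⧸ v.asIdeal ^ m) ⧸ (v.asIdeal ^ n).map (Ideal.Quotient.mk (v.asIdeal ^ m)))
      = nrm v ^ n := by
    rw [← card_quot_asIdeal_pow]
    exact Nat.card_congr (DoubleQuot.quotQuotEquivQuotOfLE (Ideal.pow_le_pow_right h)).toEquiv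
  rw [h2, card_quot_asIdeal_pow] at h1
  have hpos : 0 < nrm v ^ n := pow_pos (by have := one_lt_nrm v; omega) _
  have h3 : nrm v ^ m = nrm v ^ (m - n) * nrm v ^ n := by
    rw [← pow_add]; congr 1; omega
  rw [h3] at h1
  exact (Nat.eq_of_mul_eq_mul_right hpos h1).symm

theorem val_lt_iff_mem (v : Pl k) (r : 𝓞 k) {y : k} (hy : y ≠ 0) {n : ℕ} (hn : ordv v y = n) :
    v.valuation k (algebraMap (𝓞 k) k r) < v.valuation k y ↔ r ∈ v.asIdeal ^ (n + 1) := by
  rw [← valuation_algebraMap_le_exp_iff]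
  rcases eq_or_ne r 0 with rfl | hr
  · simp [zero_lt_iff, valuation_ne_zero v hy]
  · have hr' : algebraMap (𝓞 k) k r ≠ 0 := by simpa using hr
    rw [valuation_lt_iff v hr' hy, valuation_le_exp_iff v hr']
    push_cast
    omega

end LocIdx

namespace LocIdx

theorem exists_fin_sub_mem (hζ : IsPrimitiveRoot ζ p) (v : Pl k) {a : ℕ}
    (ha : ordv v (1 - ζ) = a) (ζ' : 𝓞 k) (hζ' : algebraMap (𝓞 k) k ζ' = ζ)
    (b : (𝓞 k ⧸ v.asIdeal ^ (p * a + 1))ˣ) (hb : b ^ p = 1) :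
    ∃ i : Fin p, (b : 𝓞 k ⧸ v.asIdeal ^ (p * a + 1)) -
        Ideal.Quotient.mk (v.asIdeal ^ (p * a + 1)) (ζ' ^ (i : ℕ)) ∈
      (v.asIdeal ^ (a + 1)).map (Ideal.Quotient.mk (v.asIdeal ^ (p * a + 1))) := by
  obtain ⟨r, hr⟩ := Ideal.Quotient.mk_surjective (b : 𝓞 k ⧸ v.asIdeal ^ (p * a + 1))
  have h1 : r ^ p - 1 ∈ v.asIdeal ^ (p * a + 1) := by
    rw [← Ideal.Quotient.eq_zero_iff_mem, map_sub, map_pow, map_one, hr, ← Units.val_pow_eq_pow_val,
      hb, Units.val_one, sub_self]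
  have hy : ordv v ((1 - ζ) ^ p) = (p * a : ℕ) := by
    rw [ordv_pow, ha]; push_cast; ring
  rw [← val_lt_iff_mem v _ (pow_ne_zero p (one_sub_zeta_ne_zero hζ)) hy] at h1
  rw [map_sub, map_pow, map_one] at h1
  obtain ⟨i, hi, h2⟩ := exists_zeta_pow_close hζ v h1
  refine ⟨⟨i, hi⟩, ?_⟩
  rw [← hr, ← map_sub]
  apply Ideal.mem_map_of_mem
  rw [← val_lt_iff_mem v _ (one_sub_zeta_ne_zero hζ) ha, map_sub, map_pow, hζ']
  exact h2

theorem card_ker_le (hζ : IsPrimitiveRoot ζ p) (v : Pl k) {a : ℕ} (ha : ordv v (1 - ζ) = a) :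
    Nat.card (powMonoidHom p : (𝓞 k ⧸ v.asIdeal ^ (p * a + 1))ˣ →*
      (𝓞 k ⧸ v.asIdeal ^ (p * a + 1))ˣ).ker ≤ p * nrm v ^ ((p - 1) * a) := by
  have hp : 0 < p := (Fact.out : p.Prime).pos
  have : NeZero p := ⟨hp.ne'⟩
  have := finite_quot_asIdeal_pow v (p * a + 1)
  have key := fun b : (powMonoidHom p : (𝓞 k ⧸ v.asIdeal ^ (p * a + 1))ˣ →*
      (𝓞 k ⧸ v.asIdeal ^ (p * a + 1))ˣ).ker =>
    exists_fin_sub_mem hζ v ha hζ.toInteger rfl b.1 (MonoidHom.mem_ker.1 b.2)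
  choose f hf using key
  let g : (powMonoidHom p : (𝓞 k ⧸ v.asIdeal ^ (p * a + 1))ˣ →*
      (𝓞 k ⧸ v.asIdeal ^ (p * a + 1))ˣ).ker →
      Fin p × ((v.asIdeal ^ (a + 1)).map (Ideal.Quotient.mk (v.asIdeal ^ (p * a + 1)))) :=
    fun b => (f b, ⟨_, hf b⟩)
  have hg : Function.Injective g := by
    intro b b' h
    have h1 : f b = f b' := congrArg Prod.fst h
    have h2 := congrArg (fun t => (t.2 : 𝓞 k ⧸ v.asIdeal ^ (p * a + 1))) h
    simp only [g] at h2
    rw [h1] at h2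
    exact Subtype.ext (Units.ext (sub_left_injective h2))
  have h3 := Nat.card_le_card_of_injective g hg
  rw [Nat.card_prod, Nat.card_fin,
    card_map_asIdeal_pow v (show a + 1 ≤ p * a + 1 by nlinarith)] at h3
  have h4 : p * a + 1 - (a + 1) = (p - 1) * a := by
    obtain ⟨q, rfl⟩ : ∃ q, p = q + 1 := ⟨p - 1, by omega⟩
    simp only [Nat.add_sub_cancel]
    have : (q + 1) * a + 1 = q * a + (a + 1) := by ring
    omega
  rwa [h4] at h3

end LocIdx


/-- the subgroup of `kˣ` of local `p`-th powers at `v` -/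
def locPowSub (hζ : IsPrimitiveRoot ζ p) (v : Pl k) : Subgroup kˣ where
  carrier := {x | LocPow p ζ v (x : k)}
  one_mem' := LocIdx.locPow_one hζ v
  mul_mem' := fun {x y} hx hy => by
    simpa using LocIdx.locPow_mul hζ v hx hy
  inv_mem' := fun {x} hx => by
    simpa using LocIdx.locPow_inv hζ v hx

@[simp] theorem mem_locPowSub (hζ : IsPrimitiveRoot ζ p) (v : Pl k) (x : kˣ) :
    x ∈ locPowSub hζ v ↔ LocPow p ζ v (x : k) := Iff.rfl

/-- `p`-th powers are local `p`-th powers -/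
theorem pow_mem_locPowSub (hζ : IsPrimitiveRoot ζ p) (v : Pl k) (x : kˣ) :
    x ^ p ∈ locPowSub hζ v := by
  rw [mem_locPowSub, Units.val_pow_eq_pow_val]
  exact LocIdx.locPow_pow hζ v x.ne_zero

namespace LocIdx

theorem isUnit_mk_of_notMem (v : Pl k) (m : ℕ) {r : 𝓞 k} (hr : r ∉ v.asIdeal) :
    IsUnit (Ideal.Quotient.mk (v.asIdeal ^ m) r) := by
  have h1 : v.intValuation (1 : 𝓞 k) ≤ v.intValuation r := by
    rw [HeightOneSpectrum.intValuation_eq_one_iff.2 hr, map_one]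
  obtain ⟨y, hy⟩ := v.exists_intValuation_mul_sub_lt h1 (Multiplicative.ofAdd (-(m : ℤ)))
  have h2 : 1 - y * r ∈ v.asIdeal ^ m := by
    rw [← HeightOneSpectrum.intValuation_le_pow_iff_mem]
    exact hy.le
  rw [← Ideal.Quotient.eq_zero_iff_mem, map_sub, map_one, map_mul, sub_eq_zero] at h2
  exact IsUnit.of_mul_eq_one _ (by rw [mul_comm]; exact h2.symm)

theorem notMem_of_mk_eq_unit (v : Pl k) (m : ℕ) (b : (𝓞 k ⧸ v.asIdeal ^ (m + 1))ˣ) {r : 𝓞 k}
    (hr : Ideal.Quotient.mk (v.asIdeal ^ (m + 1)) r = b) : r ∉ v.asIdeal := by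
  intro hmem
  obtain ⟨r', hr'⟩ := Ideal.Quotient.mk_surjective ((b⁻¹ : (𝓞 k ⧸ v.asIdeal ^ (m + 1))ˣ) :
    𝓞 k ⧸ v.asIdeal ^ (m + 1))
  have h1 : r * r' - 1 ∈ v.asIdeal ^ (m + 1) := by
    rw [← Ideal.Quotient.eq_zero_iff_mem, map_sub, map_mul, map_one, hr, hr', Units.mul_inv,
      sub_self]
  have h2 : r * r' - 1 ∈ v.asIdeal := Ideal.pow_le_self (Nat.succ_ne_zero m) h1
  have h3 : (1 : 𝓞 k) ∈ v.asIdeal := by
    have := v.asIdeal.sub_mem (v.asIdeal.mul_mem_right r' hmem) h2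
    simpa using this
  exact v.isPrime.ne_top ((Ideal.eq_top_iff_one _).2 h3)

theorem field_calc {F : Type*} [Field F] (p : ℕ) {Q P C T : F} (hQ : Q ≠ 0) (hP : P ≠ 0)
    (hC : C ≠ 0) (hT : T ≠ 0) (y R : F) :
    (Q * T)⁻¹ * (y * (Q * P ^ p)) / (P / C) ^ p - 1 =
      ((y - R) * C ^ p + (R * C ^ p - T)) * T⁻¹ := by
  rw [div_pow]
  have h1 : P ^ p ≠ 0 := pow_ne_zero _ hP
  have h2 : C ^ p ≠ 0 := pow_ne_zero _ hC
  generalize P ^ p = P' at *
  generalize C ^ p = C' at *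
  field_simp
  ring

theorem exists_surj (hζ : IsPrimitiveRoot ζ p) (v : Pl k) {a : ℕ} (ha : ordv v (1 - ζ) = a) :
    ∃ f : Fin p × ((𝓞 k ⧸ v.asIdeal ^ (p * a + 1))ˣ ⧸
        (powMonoidHom p : (𝓞 k ⧸ v.asIdeal ^ (p * a + 1))ˣ →*
          (𝓞 k ⧸ v.asIdeal ^ (p * a + 1))ˣ).range) → kˣ ⧸ locPowSub hζ v,
      Function.Surjective f := by
  have hp : 0 < p := (Fact.out : p.Prime).pos
  obtain ⟨π, hπ0, hπ⟩ := exists_ordv_eq_one v
  have hγ0 : (1 - ζ) ^ p ≠ 0 := pow_ne_zero p (one_sub_zeta_ne_zero hζ)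
  have hγo : ordv v ((1 - ζ) ^ p) = (p * a : ℕ) := by
    rw [ordv_pow, ha]; push_cast; ring
  have hγ : v.valuation k ((1 - ζ) ^ p) = WithZero.exp (-((p * a : ℕ) : ℤ)) := by
    rw [valuation_eq_exp v hγ0, hγo]
  have hlift := fun b : (𝓞 k ⧸ v.asIdeal ^ (p * a + 1))ˣ =>
    Ideal.Quotient.mk_surjective (b : 𝓞 k ⧸ v.asIdeal ^ (p * a + 1))
  choose lift hlift using hlift
  have hnm : ∀ b, lift b ∉ v.asIdeal := fun b => notMem_of_mk_eq_unit v (p * a) b (hlift b)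
  have hval : ∀ b, v.valuation k (algebraMap (𝓞 k) k (lift b)) = 1 := fun b =>
    (HeightOneSpectrum.valuation_eq_one_iff_notMem v).2 (hnm b)
  have hne : ∀ b, algebraMap (𝓞 k) k (lift b) ≠ 0 := fun b h0 => by
    have := hval b
    rw [h0, map_zero] at this
    exact zero_ne_one this
  refine ⟨fun it => QuotientGroup.mk
    ((Units.mk0 π hπ0) ^ (it.1 : ℕ) * Units.mk0 _ (hne it.2.out)), ?_⟩
  intro q
  obtain ⟨x, rfl⟩ := QuotientGroup.mk_surjective q
  set n : ℤ := ordv v (x : k) with hn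
  set y : k := x * π ^ (-n) with hy
  have hy0 : y ≠ 0 := mul_ne_zero x.ne_zero (zpow_ne_zero _ hπ0)
  have hy1 : v.valuation k y = 1 := by
    rw [valuation_eq_one_iff v hy0, hy, ordv_mul v x.ne_zero (zpow_ne_zero _ hπ0), ordv_zpow, hπ]
    omega
  obtain ⟨r, hr⟩ := exists_integer_valuation_sub_lt v hy1.le (p * a)
  rw [← hγ] at hr
  have hr1 : v.valuation k (algebraMap (𝓞 k) k r) = 1 := by
    have h1 : v.valuation k (y - algebraMap (𝓞 k) k r) < v.valuation k y := by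
      rw [hy1]; exact hr.trans_le (gam_le_one hζ v)
    have h2 := Valuation.map_sub_eq_of_lt_left _ h1
    rwa [sub_sub_cancel, hy1] at h2
  have hrn : r ∉ v.asIdeal := (HeightOneSpectrum.valuation_eq_one_iff_notMem v).1 hr1
  set b : (𝓞 k ⧸ v.asIdeal ^ (p * a + 1))ˣ := (isUnit_mk_of_notMem v (p * a + 1) hrn).unit with hb
  have hbv : (b : 𝓞 k ⧸ v.asIdeal ^ (p * a + 1)) = Ideal.Quotient.mk _ r := IsUnit.unit_spec _
  obtain ⟨⟨h, c, hc⟩, hout⟩ := QuotientGroup.mk_out_eq_mul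
    (powMonoidHom p : (𝓞 k ⧸ v.asIdeal ^ (p * a + 1))ˣ →*
          (𝓞 k ⧸ v.asIdeal ^ (p * a + 1))ˣ).range b
  simp only [powMonoidHom_apply] at hc
  simp only at hout
  have hi : (n % p).toNat < p := by
    have h1 := Int.emod_lt_of_pos n (show (0 : ℤ) < p by exact_mod_cast hp)
    have h2 := Int.emod_nonneg n (show (p : ℤ) ≠ 0 by exact_mod_cast hp.ne')
    omega
  refine ⟨(⟨(n % p).toNat, hi⟩, QuotientGroup.mk b), ?_⟩
  rw [QuotientGroup.eq, mem_locPowSub]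
  set t := (QuotientGroup.mk b : (𝓞 k ⧸ v.asIdeal ^ (p * a + 1))ˣ ⧸
        (powMonoidHom p : (𝓞 k ⧸ v.asIdeal ^ (p * a + 1))ˣ →*
          (𝓞 k ⧸ v.asIdeal ^ (p * a + 1))ˣ).range).out with ht
  refine ⟨π ^ (n / p) / algebraMap (𝓞 k) k (lift c), div_ne_zero (zpow_ne_zero _ hπ0) (hne c), ?_⟩
  have hmem : r * lift c ^ p - lift t ∈ v.asIdeal ^ (p * a + 1) := by
    rw [← Ideal.Quotient.eq_zero_iff_mem, map_sub, map_mul, map_pow, hlift, hlift, ← hbv, hout,
      ← hc]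
    simp
  have hmem' := (val_lt_iff_mem v _ hγ0 hγo).2 hmem
  have hπn : π ^ n = π ^ (n % p).toNat * (π ^ (n / p)) ^ p := by
    have h2 := Int.emod_nonneg n (show (p : ℤ) ≠ 0 by exact_mod_cast hp.ne')
    rw [← zpow_natCast π, ← zpow_natCast (π ^ (n / p)), ← zpow_mul, ← zpow_add₀ hπ0,
      Int.toNat_of_nonneg h2, mul_comm (n / p), Int.emod_add_mul_ediv]
  have hx : (x : k) = y * π ^ n := by
    rw [hy, mul_assoc, ← zpow_add₀ hπ0]; simp
  have hcalc : ((((Units.mk0 π hπ0) ^ (n % p).toNat * Units.mk0 _ (hne t))⁻¹ * x : kˣ) : k) /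
      (π ^ (n / p) / algebraMap (𝓞 k) k (lift c)) ^ p - 1 =
      ((y - algebraMap (𝓞 k) k r) * algebraMap (𝓞 k) k (lift c) ^ p +
        algebraMap (𝓞 k) k (r * lift c ^ p - lift t)) * (algebraMap (𝓞 k) k (lift t))⁻¹ := by
    have h1 := hne t
    have h2 := hne c
    have h3 : π ^ (n / p) ≠ 0 := zpow_ne_zero _ hπ0
    simp only [Units.val_mul, Units.val_inv_eq_inv_val, Units.val_pow_eq_pow_val, Units.val_mk0,
      map_sub, map_mul, map_pow]
    rw [hx, hπn]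
    exact field_calc p (pow_ne_zero _ hπ0) h3 h2 h1 y _
  rw [hcalc, map_mul, map_inv₀, hval, inv_one, mul_one]
  refine Valuation.map_add_lt _ ?_ hmem'
  rw [map_mul, map_pow, hval, one_pow, mul_one]
  exact hr

end LocIdx


theorem finite_quot_locPowSub (hζ : IsPrimitiveRoot ζ p) (v : Pl k) :
    Finite (kˣ ⧸ locPowSub hζ v) := by
  have ha : ordv v (1 - ζ) = ((ordv v (1 - ζ)).toNat : ℕ) :=
    (Int.toNat_of_nonneg (ordv_one_sub_zeta_nonneg hζ v)).symm
  obtain ⟨f, hf⟩ := LocIdx.exists_surj hζ v ha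
  have := LocIdx.finite_quot_asIdeal_pow v (p * (ordv v (1 - ζ)).toNat + 1)
  exact Finite.of_surjective f hf

/-- the local index is finite -/
theorem locPowSub_index_ne_zero (hζ : IsPrimitiveRoot ζ p) (v : Pl k) :
    (locPowSub hζ v).index ≠ 0 := by
  have := finite_quot_locPowSub hζ v
  exact Subgroup.index_ne_zero_of_finite

/-- **local index** `[k* : LocPow v] ≤ p ^ 2 * N v ^ (ord_v p)` -/
theorem locPowSub_index_le (hζ : IsPrimitiveRoot ζ p) (v : Pl k) :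
    (locPowSub hζ v).index ≤ p ^ 2 * nrm v ^ (ordv v (p : k)).toNat := by
  have ha : ordv v (1 - ζ) = ((ordv v (1 - ζ)).toNat : ℕ) :=
    (Int.toNat_of_nonneg (ordv_one_sub_zeta_nonneg hζ v)).symm
  obtain ⟨f, hf⟩ := LocIdx.exists_surj hζ v ha
  have := LocIdx.finite_quot_asIdeal_pow v (p * (ordv v (1 - ζ)).toNat + 1)
  have h1 := Nat.card_le_card_of_surjective f hf
  rw [Nat.card_prod, Nat.card_fin, LocIdx.card_quot_pow_range] at h1
  have h2 := LocIdx.card_ker_le hζ v ha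
  have h3 : (ordv v (p : k)).toNat = (p - 1) * (ordv v (1 - ζ)).toNat := by
    rw [ordv_p_eq hζ v]
    conv_lhs => rw [ha]
    rw [← Nat.cast_mul, Int.toNat_natCast]
  rw [Subgroup.index_eq_card, h3]
  calc _ ≤ _ := h1
    _ ≤ p * (p * nrm v ^ ((p - 1) * (ordv v (1 - ζ)).toNat)) := Nat.mul_le_mul_left _ h2
    _ = _ := by ring

theorem LocIdx.index_biInf_ne_zero {G ι : Type*} [Group G] (f : ι → Subgroup G) (S : Finset ι)
    (h : ∀ i ∈ S, (f i).index ≠ 0) : (⨅ i ∈ S, f i).index ≠ 0 := by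
  classical
  induction S using Finset.induction_on with
  | empty => simp
  | insert i S hi ih =>
    rw [Finset.iInf_insert]
    exact Subgroup.index_inf_ne_zero (h i (Finset.mem_insert_self i S))
      (ih fun j hj => h j (Finset.mem_insert_of_mem hj))

theorem LocIdx.index_biInf_le {G ι : Type*} [Group G] (f : ι → Subgroup G) (S : Finset ι) :
    (⨅ i ∈ S, f i).index ≤ ∏ i ∈ S, (f i).index := by
  classical
  induction S using Finset.induction_on with
  | empty => simp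
  | insert i S hi ih =>
    rw [Finset.iInf_insert, Finset.prod_insert hi]
    exact Subgroup.index_inf_le.trans (Nat.mul_le_mul_left _ ih)

theorem iInf_locPowSub_index_ne_zero (hζ : IsPrimitiveRoot ζ p) (S : Finset (Pl k)) :
    (⨅ v ∈ S, locPowSub hζ v).index ≠ 0 :=
  LocIdx.index_biInf_ne_zero _ S fun v _ => locPowSub_index_ne_zero hζ v

/-- **(C)** of the plan: the total local index over `S ⊇ {v ∣ p}` -/
theorem iInf_locPowSub_index_le (hζ : IsPrimitiveRoot ζ p) (S : Finset (Pl k))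
    (hS : ∀ v : Pl k, Above p v → v ∈ S) :
    (⨅ v ∈ S, locPowSub hζ v).index ≤ p ^ (2 * S.card + Module.finrank ℚ k) := by
  calc (⨅ v ∈ S, locPowSub hζ v).index ≤ ∏ v ∈ S, (locPowSub hζ v).index :=
        LocIdx.index_biInf_le _ S
    _ ≤ ∏ v ∈ S, (p ^ 2 * nrm v ^ (ordv v (p : k)).toNat) :=
        Finset.prod_le_prod' fun v _ => locPowSub_index_le hζ v
    _ = p ^ (2 * S.card + Module.finrank ℚ k) := by
        rw [Finset.prod_mul_distrib, prod_nrm_pow_ordv_p S hS, Finset.prod_const, ← pow_mul,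
          pow_add]

theorem mem_iInf_locPowSub (hζ : IsPrimitiveRoot ζ p) (S : Finset (Pl k)) (x : kˣ) :
    x ∈ (⨅ v ∈ S, locPowSub hζ v) ↔ ∀ v ∈ S, LocPow p ζ v (x : k) := by
  simp [Subgroup.mem_iInf]

end Fermat.Agent.S14lib
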