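import Fermat.Agent.S14.Ord

/-!
# T-S14, WP2 (F): the filtration `U ⊇ U₁ ⊇ U₂ ⊇ …` of the `v`-units of `kˣ`
-/

set_option autoImplicit false
set_option linter.style.haveILetI false
set_option linter.deprecated false

open NumberField IsDedekindDomain

namespace Fermat.Agent.S14lib

/-- a separating function bounds the relative index -/
theorem relIndex_le_of_separating {G T : Type*} [Group G] [Finite T] (H K : Subgroup G)
    (f : G → T) (hf : ∀ x ∈ K, ∀ y ∈ K, f x = f y → x⁻¹ * y ∈ H) :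
    H.relIndex K ≠ 0 ∧ H.relIndex K ≤ Nat.card T := by
  have hinj : Function.Injective
      (fun q : K ⧸ H.subgroupOf K => f ((Quotient.out q : K) : G)) := by
    intro q q' h
    have h1 := hf _ (Quotient.out q : K).2 _ (Quotient.out q' : K).2 h
    have h2 : ((Quotient.out q : K) : K ⧸ H.subgroupOf K) = ((Quotient.out q' : K) : _) := by
      rw [QuotientGroup.eq, Subgroup.mem_subgroupOf]
      simpa using h1
    simpa using h2
  have hfin : Finite (K ⧸ H.subgroupOf K) := Finite.of_injective _ hinj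
  refine ⟨?_, ?_⟩
  · rw [Subgroup.relIndex]
    exact Subgroup.index_ne_zero_of_finite
  · rw [Subgroup.relIndex, Subgroup.index_eq_card]
    exact Nat.card_le_card_of_injective _ hinj

theorem index_le_of_separating {G T : Type*} [Group G] [Finite T] (H : Subgroup G)
    (f : G → T) (hf : ∀ x y, f x = f y → x⁻¹ * y ∈ H) :
    H.index ≠ 0 ∧ H.index ≤ Nat.card T := by
  have := relIndex_le_of_separating H ⊤ f fun x _ y _ => hf x y
  rwa [Subgroup.relIndex_top_right] at this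

variable {k : Type*} [Field k] [NumberField k]

/-- `Uv v 0` = the `v`-units, `Uv v m` = `{x ≡ 1 mod v ^ m}` -/
def Uv (v : Pl k) (m : ℕ) : Subgroup kˣ where
  carrier := {x | v.valuation k (x : k) = 1 ∧ v.valuation k ((x : k) - 1) ≤ WithZero.exp (-(m : ℤ))}
  one_mem' := by simp
  mul_mem' := by
    rintro x y ⟨hx, hx'⟩ ⟨hy, hy'⟩
    refine ⟨by simp [hx, hy], ?_⟩
    have e : ((x * y : kˣ) : k) - 1 = (x : k) * ((y : k) - 1) + ((x : k) - 1) := by
      push_cast; ring
    rw [e]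
    refine ((v.valuation k).map_add _ _).trans (max_le ?_ hx')
    rw [map_mul, hx, one_mul]
    exact hy'
  inv_mem' := by
    rintro x ⟨hx, hx'⟩
    refine ⟨by simp [hx], ?_⟩
    have e : ((x⁻¹ : kˣ) : k) - 1 = -((x : k)⁻¹ * ((x : k) - 1)) := by
      have := x.ne_zero
      push_cast
      field_simp
      ring
    rw [e, Valuation.map_neg, map_mul, map_inv₀, hx, inv_one, one_mul]
    exact hx'

theorem mem_Uv (v : Pl k) (m : ℕ) (x : kˣ) :
    x ∈ Uv v m ↔ v.valuation k (x : k) = 1 ∧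
      v.valuation k ((x : k) - 1) ≤ WithZero.exp (-(m : ℤ)) := Iff.rfl

theorem mem_Uv_zero (v : Pl k) (x : kˣ) : x ∈ Uv v 0 ↔ ordv v (x : k) = 0 := by
  rw [mem_Uv, valuation_eq_one_iff v x.ne_zero]
  refine ⟨fun h => h.1, fun h => ⟨h, ?_⟩⟩
  simp only [CharP.cast_eq_zero, neg_zero, WithZero.exp_zero]
  refine ((v.valuation k).map_sub _ _).trans (max_le ?_ (by simp))
  exact ((valuation_eq_one_iff v x.ne_zero).2 h).le

theorem exp_neg_lt_one {m : ℕ} (hm : m ≠ 0) :
    (WithZero.exp (-(m : ℤ)) : WithZero (Multiplicative ℤ)) < 1 := by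
  rw [← WithZero.exp_zero, WithZero.exp_lt_exp]
  omega

theorem mem_Uv_of_ne_zero (v : Pl k) {m : ℕ} (hm : m ≠ 0) (x : kˣ) :
    x ∈ Uv v m ↔ v.valuation k ((x : k) - 1) ≤ WithZero.exp (-(m : ℤ)) := by
  rw [mem_Uv]
  exact ⟨fun h => h.2, fun h =>
    ⟨valuation_eq_one_of_sub_one_lt v (lt_of_le_of_lt h (exp_neg_lt_one hm)), h⟩⟩

/-- strict inequalities: `val z < exp (-m) ↔ val z ≤ exp (-(m+1))` -/
theorem valuation_lt_exp_iff_le (v : Pl k) (z : k) (m : ℤ) :
    v.valuation k z < WithZero.exp (-m) ↔ v.valuation k z ≤ WithZero.exp (-(m + 1)) := by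
  rcases eq_or_ne z 0 with rfl | hz
  · simp [zero_lt_iff]
  · rw [valuation_lt_exp_iff v hz, valuation_le_exp_iff v hz]
    omega

theorem mem_Uv_succ (v : Pl k) (m : ℕ) (x : kˣ) :
    x ∈ Uv v (m + 1) ↔ v.valuation k ((x : k) - 1) < WithZero.exp (-(m : ℤ)) := by
  rw [mem_Uv_of_ne_zero v (Nat.succ_ne_zero m), valuation_lt_exp_iff_le]
  push_cast
  rfl

theorem Uv_anti (v : Pl k) {m n : ℕ} (h : m ≤ n) : Uv v n ≤ Uv v m := by
  rintro x ⟨h1, h2⟩
  exact ⟨h1, h2.trans (by rw [WithZero.exp_le_exp]; omega)⟩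

/-- `x⁻¹ y ∈ U_m` iff `x ≡ y mod v ^ m`, for `v`-units `x`, `y` -/
theorem inv_mul_mem_Uv_iff (v : Pl k) (m : ℕ) {x y : kˣ} (hx : v.valuation k (x : k) = 1)
    (hy : v.valuation k (y : k) = 1) :
    x⁻¹ * y ∈ Uv v m ↔ v.valuation k ((x : k) - y) ≤ WithZero.exp (-(m : ℤ)) := by
  have e : ((x⁻¹ * y : kˣ) : k) - 1 = -((x : k)⁻¹ * ((x : k) - y)) := by
    have := x.ne_zero
    push_cast
    field_simp
    ring
  rw [mem_Uv, e, Valuation.map_neg, map_mul, map_inv₀, hx, inv_one, one_mul]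
  simp [hx, hy]

theorem relIndex_Uv_succ (v : Pl k) (m : ℕ) :
    (Uv v (m + 1)).relIndex (Uv v m) ≠ 0 ∧ (Uv v (m + 1)).relIndex (Uv v m) ≤ nrm v := by
  classical
  obtain ⟨ϖ, hϖ0, hϖ⟩ := exists_ordv_eq_one v
  have hϖm : v.valuation k (ϖ ^ m) = WithZero.exp (-(m : ℤ)) := by
    rw [valuation_eq_exp v (pow_ne_zero m hϖ0), ordv_pow, hϖ, mul_one]
  haveI : Finite (𝓞 k ⧸ v.asIdeal) := finite_quot v
  -- the separating function
  have hex : ∀ x : kˣ, ∃ a : 𝓞 k, x ∈ Uv v m →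
      v.valuation k (((x : k) - 1) / ϖ ^ m - algebraMap (𝓞 k) k a) < 1 := by
    intro x
    by_cases hx : x ∈ Uv v m
    · have h1 : v.valuation k (((x : k) - 1) / ϖ ^ m) ≤ 1 := by
        rw [map_div₀, hϖm]
        exact div_le_one_of_le₀ hx.2 zero_le'
      obtain ⟨a, ha⟩ := exists_integer_valuation_sub_lt v h1 0
      exact ⟨a, fun _ => by simpa using ha⟩
    · exact ⟨0, fun h => absurd h hx⟩
  choose g hg using hex
  have key := relIndex_le_of_separating (Uv v (m + 1)) (Uv v m)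
    (fun x => Ideal.Quotient.mk v.asIdeal (g x)) (by
      intro x hx y hy hxy
      rw [inv_mul_mem_Uv_iff v _ hx.1 hy.1]
      have h1 : g x - g y ∈ v.asIdeal := by
        rw [← Ideal.Quotient.eq_zero_iff_mem, map_sub, sub_eq_zero]
        exact hxy
      have h2 : v.valuation k (algebraMap (𝓞 k) k (g x) - algebraMap (𝓞 k) k (g y)) < 1 := by
        rw [← map_sub]
        exact (v.valuation_lt_one_iff_mem _).2 h1
      have h3 : v.valuation k (((x : k) - y) / ϖ ^ m) < 1 := by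
        have e : ((x : k) - y) / ϖ ^ m =
            ((((x : k) - 1) / ϖ ^ m - algebraMap (𝓞 k) k (g x)) -
              (((y : k) - 1) / ϖ ^ m - algebraMap (𝓞 k) k (g y))) +
            (algebraMap (𝓞 k) k (g x) - algebraMap (𝓞 k) k (g y)) := by
          ring
        rw [e]
        refine lt_of_le_of_lt ((v.valuation k).map_add _ _) (max_lt ?_ h2)
        exact lt_of_le_of_lt ((v.valuation k).map_sub _ _) (max_lt (hg x hx) (hg y hy))
      rw [map_div₀, hϖm, div_lt_one₀ (zero_lt_iff.2 WithZero.exp_ne_zero)] at h3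
      have := (valuation_lt_exp_iff_le v _ _).1 h3
      push_cast
      exact this)
  rwa [card_quot_eq_nrm] at key

theorem relIndex_Uv (v : Pl k) {m n : ℕ} (h : m ≤ n) :
    (Uv v n).relIndex (Uv v m) ≠ 0 ∧ (Uv v n).relIndex (Uv v m) ≤ nrm v ^ (n - m) := by
  induction n, h using Nat.le_induction with
  | base => simp
  | succ n h ih =>
    have h1 := Subgroup.relIndex_mul_relIndex (Uv v (n + 1)) (Uv v n) (Uv v m)
      (Uv_anti v (Nat.le_succ n)) (Uv_anti v h)
    obtain ⟨h2, h3⟩ := relIndex_Uv_succ v n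
    refine ⟨?_, ?_⟩
    · rw [← h1]; exact mul_ne_zero h2 ih.1
    · rw [← h1, show n + 1 - m = (n - m) + 1 by omega, pow_succ, mul_comm]
      exact Nat.mul_le_mul ih.2 h3

end Fermat.Agent.S14lib
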