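import Fermat.Agent.S14.Defs

/-!
# T-S14, WP0f: relative vocabulary for an extension `F / K` of number fields (definitions only)
-/

set_option autoImplicit false

open NumberField IsDedekindDomain

namespace Fermat.Agent.S14lib

variable {K F : Type*} [Field K] [NumberField K] [Field F] [NumberField F] [Algebra K F]

/-- the place `w` of `F` lies over the place `v` of `K` -/
def Over (w : Pl F) (v : Pl K) : Prop := w.asIdeal.LiesOver v.asIdeal

variable (K) in
/-- ramification index of `w` over `K` -/
noncomputable def eRel (w : Pl F) : ℕ := w.asIdeal.ramificationIdx (𝓞 K)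

variable (K) in
/-- residue degree of `w` over `K` -/
noncomputable def fRel (w : Pl F) : ℕ := w.asIdeal.inertiaDeg (𝓞 K)

end Fermat.Agent.S14lib
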