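import Fermat.Agent.S14.SUnitCard

/-!
# T-S14, WP1 (N3): a family of `S`-units, independent modulo `p`-th powers, starting at `α`
-/

set_option autoImplicit false

open NumberField IsDedekindDomain Module

namespace Fermat.Agent.S14lib

/-- a nonzero vector is the first vector of a linearly independent family of any admissible
length -/
theorem exists_linearIndependent_zero_eq {K V : Type*} [Field K] [AddCommGroup V] [Module K V]
    {x : V} (hx : x ≠ 0) (m : ℕ) (hm : m + 1 ≤ finrank K V) :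
    ∃ v : Fin (m + 1) → V, v 0 = x ∧ LinearIndependent K v := by
  induction m with
  | zero =>
    refine ⟨fun _ => x, rfl, ?_⟩
    have : Subsingleton (Fin (0 + 1)) := inferInstanceAs (Subsingleton (Fin 1))
    exact LinearIndependent.of_subsingleton 0 hx
  | succ m ih =>
    obtain ⟨v, hv0, hv⟩ := ih (by omega)
    obtain ⟨y, hy⟩ := exists_linearIndependent_snoc_of_lt_finrank hv (by omega)
    refine ⟨Fin.snoc v y, ?_, hy⟩
    have h := Fin.snoc_castSucc (α := fun _ => V) y v 0
    rw [← hv0, ← h]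
    rfl

/-- abstract form: in a commutative group `G` with `|G / G ^ p| = p ^ (n + 1)`, every element
which is not a `p`-th power is the first member of a family of `n + 1` elements independent
modulo `p`-th powers -/
theorem exists_indep_mod_pow {G : Type*} [CommGroup G] {p : ℕ} [Fact p.Prime] {n : ℕ}
    (hcard : Nat.card (G ⧸ (powMonoidHom p : G →* G).range) = p ^ (n + 1))
    {a : G} (ha : a ∉ (powMonoidHom p : G →* G).range) :
    ∃ u : Fin (n + 1) → G, u 0 = a ∧
      ∀ e : Fin (n + 1) → ℤ, (∏ i, u i ^ e i) ∈ (powMonoidHom p : G →* G).range →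
        ∀ i, (p : ℤ) ∣ e i := by
  classical
  have hp : p.Prime := Fact.out
  set N : Subgroup G := (powMonoidHom p : G →* G).range with hN
  have hkill : ∀ x : Additive (G ⧸ N), p • x = 0 := by
    intro x
    induction x using Additive.rec with
    | _ x =>
      obtain ⟨g, rfl⟩ := QuotientGroup.mk_surjective x
      rw [← ofMul_pow, ← QuotientGroup.mk_pow, ofMul_eq_zero, QuotientGroup.eq_one_iff]
      exact ⟨g, rfl⟩
  let _ : Module (ZMod p) (Additive (G ⧸ N)) := AddCommGroup.zmodModule hkill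
  have hfin : Finite (Additive (G ⧸ N)) := by
    apply Nat.finite_of_card_ne_zero
    show Nat.card (G ⧸ N) ≠ 0
    rw [hcard]
    exact pow_ne_zero _ hp.ne_zero
  have _ : Fintype (Additive (G ⧸ N)) := Fintype.ofFinite _
  have hrank : finrank (ZMod p) (Additive (G ⧸ N)) = n + 1 := by
    have h1 := Module.card_eq_pow_finrank (K := ZMod p) (V := Additive (G ⧸ N))
    rw [ZMod.card, ← Nat.card_eq_fintype_card] at h1
    have h2 : Nat.card (Additive (G ⧸ N)) = p ^ (n + 1) := hcard
    rw [h2] at h1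
    exact (Nat.pow_right_injective hp.two_le h1).symm
  have hx : (Additive.ofMul (a : G ⧸ N)) ≠ 0 := by
    intro h
    rw [ofMul_eq_zero, QuotientGroup.eq_one_iff] at h
    exact ha h
  obtain ⟨v, hv0, hv⟩ := exists_linearIndependent_zero_eq (K := ZMod p) hx n hrank.ge
  have hlift : ∀ i, ∃ g : G, (i = 0 → g = a) ∧ Additive.ofMul (g : G ⧸ N) = v i := by
    intro i
    by_cases hi : i = 0
    · exact ⟨a, fun _ => rfl, by rw [hi, hv0]⟩
    · obtain ⟨g, hg⟩ := QuotientGroup.mk_surjective (Additive.toMul (v i))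
      exact ⟨g, fun h => absurd h hi, by rw [hg]; rfl⟩
  choose u hu0 hu using hlift
  refine ⟨u, hu0 0 rfl, ?_⟩
  intro e he i
  rw [← QuotientGroup.eq_one_iff] at he
  have h1 : ∑ i, ((e i : ℤ) : ZMod p) • v i = 0 := by
    have h2 : Additive.ofMul (((∏ i, u i ^ e i : G) : G ⧸ N)) = 0 := by
      rw [he]; rfl
    rw [← h2, QuotientGroup.mk_prod, ofMul_prod]
    refine Finset.sum_congr rfl fun j _ => ?_
    rw [Int.cast_smul_eq_zsmul, ← hu j, QuotientGroup.mk_zpow, ofMul_zpow]
  have h3 := Fintype.linearIndependent_iff.1 hv _ h1 i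
  exact (ZMod.intCast_zmod_eq_zero_iff_dvd _ _).1 h3

variable {k : Type*} [Field k] [NumberField k] {p : ℕ} [Fact p.Prime] {ζ : k}

theorem exists_US_basis (hζ : IsPrimitiveRoot ζ p) (S : Finset (Pl k)) {α : k} (hα0 : α ≠ 0)
    (hαS : ∀ v, v ∉ S → ordv v α = 0) (hα : ∀ y : k, y ^ p ≠ α) :
    ∃ u : Fin (S.card + Units.rank k + 1) → k, u 0 = α ∧ (∀ i, u i ≠ 0) ∧
      (∀ i, ∀ v, v ∉ S → ordv v (u i) = 0) ∧
      (∀ e : Fin (S.card + Units.rank k + 1) → ℤ, (∃ y : k, y ^ p = ∏ i, u i ^ e i) →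
        ∀ i, (p : ℤ) ∣ e i) := by
  classical
  have hp : p.Prime := Fact.out
  have hmem : Units.mk0 α hα0 ∈ US (S : Set (Pl k)) :=
    mem_US_iff.2 fun v hv => hαS v (by simpa using hv)
  have ha : (⟨Units.mk0 α hα0, hmem⟩ : US (S : Set (Pl k))) ∉
      (powMonoidHom p : US (S : Set (Pl k)) →* _).range := by
    rintro ⟨y, hy⟩
    apply hα ((y : kˣ) : k)
    have := congrArg (fun z : US (S : Set (Pl k)) => ((z : kˣ) : k)) hy
    simpa using this
  obtain ⟨u, hu0, hu⟩ := exists_indep_mod_pow (card_US_quot hζ S) ha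
  refine ⟨fun i => ((u i : kˣ) : k), by show ((u 0 : kˣ) : k) = α; rw [hu0]; rfl,
    fun i => Units.ne_zero _,
    fun i v hv => mem_US_iff.1 (u i).2 v (by simpa using hv), ?_⟩
  rintro e ⟨y, hy⟩
  apply hu e
  have hprod : (((∏ i, u i ^ e i : US (S : Set (Pl k))) : kˣ) : k) =
      ∏ i, ((u i : kˣ) : k) ^ e i := by
    push_cast
    rfl
  have hy0 : y ≠ 0 := by
    rintro rfl
    rw [zero_pow hp.ne_zero, ← hprod] at hy
    exact Units.ne_zero _ hy.symm
  have hymem : Units.mk0 y hy0 ∈ US (S : Set (Pl k)) := by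
    rw [mem_US_iff]
    intro v hv
    have h1 := mem_US_iff.1 (∏ i, u i ^ e i : US (S : Set (Pl k))).2 v hv
    rw [hprod, ← hy, ordv_pow] at h1
    rw [Units.val_mk0]
    rcases mul_eq_zero.1 h1 with h | h
    · exact absurd (by exact_mod_cast h) hp.ne_zero
    · exact h
  refine ⟨⟨Units.mk0 y hy0, hymem⟩, ?_⟩
  apply Subtype.ext
  apply Units.ext
  rw [hprod, ← hy]
  simp

end Fermat.Agent.S14lib
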