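import Fermat.Agent.S14.SUnitIdx

/-!
# T-S14, WP1: `card (U_S / U_S ^ p)`
-/

set_option autoImplicit false

open NumberField IsDedekindDomain

namespace Fermat.Agent.S14lib

variable {k : Type*} [Field k] [NumberField k] {p : ℕ} [Fact p.Prime] {ζ : k}

theorem card_US_quot (hζ : IsPrimitiveRoot ζ p) (S : Finset (Pl k)) :
    Nat.card (US (S : Set (Pl k)) ⧸ (powMonoidHom p : US (S : Set (Pl k)) →* _).range)
      = p ^ (S.card + Units.rank k + 1) :=
  index_pow_US hζ S

end Fermat.Agent.S14lib
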