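import Fermat.Agent.S14.SIaux
import Fermat.Agent.S14.SUnitCard
import Fermat.Agent.S14.SUnitBasis

/-!
# T-S14, WP7: assembly of (SI)
-/

set_option autoImplicit false

open NumberField IsDedekindDomain

namespace Fermat.Agent.S14lib

namespace SIaux

variable {k : Type} [Field k] [NumberField k] {p : ℕ} [Fact p.Prime] {ζ : k}

/-! ### API consumed (WP1 = helper9/10, WP0d = helper4) -/
namespace Need

theorem two_mul_rank_add_one (hp2 : p ≠ 2) (hζ : IsPrimitiveRoot ζ p) :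
    2 * (Units.rank k + 1) = Module.finrank ℚ k :=
  Fermat.Agent.S14lib.two_mul_rank_add_one hp2 hζ

theorem card_US_quot (hζ : IsPrimitiveRoot ζ p) (S : Finset (Pl k)) :
    Nat.card (US (S : Set (Pl k)) ⧸ (powMonoidHom p : US (S : Set (Pl k)) →* _).range)
      = p ^ (S.card + Units.rank k + 1) :=
  Fermat.Agent.S14lib.card_US_quot hζ S

theorem exists_US_basis (hζ : IsPrimitiveRoot ζ p) (S : Finset (Pl k)) {α : k} (hα0 : α ≠ 0)
    (hαS : ∀ v, v ∉ S → ordv v α = 0) (hα : ∀ y : k, y ^ p ≠ α) :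
    ∃ u : Fin (S.card + Units.rank k + 1) → k, u 0 = α ∧ (∀ i, u i ≠ 0) ∧
      (∀ i, ∀ v, v ∉ S → ordv v (u i) = 0) ∧
      (∀ e : Fin (S.card + Units.rank k + 1) → ℤ, (∃ y : k, y ^ p = ∏ i, u i ^ e i) →
        ∀ i, (p : ℤ) ∣ e i) :=
  Fermat.Agent.S14lib.exists_US_basis hζ S hα0 hαS hα

end Need

open Need

theorem dvS_one (S : Finset (Pl k)) : dvS S (1 : k) = 0 := by
  funext v; simp [dvS]

theorem dvS_mul (S : Finset (Pl k)) {x y : k} (hx : x ≠ 0) (hy : y ≠ 0) :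
    dvS S (x * y) = dvS S x + dvS S y := by
  funext v
  by_cases h : v ∈ S
  · simp [dvS, h, ordv_mul v hx hy]
  · simp [dvS, h]

theorem dvS_inv (S : Finset (Pl k)) (x : k) : dvS S x⁻¹ = - dvS S x := by
  funext v
  by_cases h : v ∈ S
  · simp [dvS, h, ordv_inv]
  · simp [dvS, h]

theorem dvS_zpow (S : Finset (Pl k)) (x : k) (n : ℤ) : dvS S (x ^ n) = n • dvS S x := by
  funext v
  by_cases h : v ∈ S
  · simp [dvS, h, ordv_zpow]
  · simp [dvS, h]

/-- the subgroup `R` -/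
def Rsub (hζ : IsPrimitiveRoot ζ p) (Sg : Set (Pl k)) (α : k) (S : Finset (Pl k)) :
    Subgroup kˣ where
  carrier := {x | InPN p ζ Sg α (dvS S (x : k))}
  one_mem' := by
    show InPN p ζ Sg α (dvS S ((1 : kˣ) : k))
    rw [Units.val_one, dvS_one]
    exact InPN.zero hζ (Fact.out : p.Prime).one_lt
  mul_mem' := fun {x y} hx hy => by
    show InPN p ζ Sg α (dvS S ((x * y : kˣ) : k))
    rw [Units.val_mul, dvS_mul S x.ne_zero y.ne_zero]
    exact InPN.add hζ (Fact.out : p.Prime).pos hx hy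
  inv_mem' := fun {x} hx => by
    show InPN p ζ Sg α (dvS S ((x⁻¹ : kˣ) : k))
    rw [Units.val_inv_eq_inv_val, dvS_inv]
    exact InPN.neg hζ (Fact.out : p.Prime).pos hx

theorem mem_Rsub (hζ : IsPrimitiveRoot ζ p) (Sg : Set (Pl k)) (α : k) (S : Finset (Pl k))
    (x : kˣ) : x ∈ Rsub hζ Sg α S ↔ InPN p ζ Sg α (dvS S (x : k)) := Iff.rfl

/-- the core: `α` an `S`-unit -/
theorem SI_core (hp2 : p ≠ 2) (hζ : IsPrimitiveRoot ζ p) {α : k} (hα0 : α ≠ 0)
    (hord : ∀ v : Pl k, (p : ℤ) ∣ ordv v α) (hαp : ∀ y : k, y ^ p ≠ α)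
    (Sg S : Finset (Pl k)) (hSp : ∀ v, Above p v → v ∈ S) (hdisj : Disjoint S Sg)
    (hcl : ClGen (S : Set (Pl k))) (hαS : ∀ v, v ∉ S → ordv v α = 0)
    (D₁ D₂ : Pl k →₀ ℤ) (h₁ : ∀ v ∈ Sg, D₁ v = 0) (h₂ : ∀ v ∈ Sg, D₂ v = 0)
    (hD₂ : ¬ InPN p ζ (↑Sg) α D₂) :
    ∃ j : ℤ, InPN p ζ (↑Sg) α (D₁ - j • D₂ : Pl k →₀ ℤ) := by
  classical
  have hpp : p.Prime := Fact.out
  obtain ⟨u, hu0α, hu0, huS, hind⟩ := exists_US_basis hζ S hα0 hαS hαp
  obtain ⟨q, hqinj, hqS, hqp, hq0, hq1, hq2⟩ := exists_T hp2 hζ u hu0 hind (S ∪ Sg)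
  set T : Finset (Pl k) := Finset.univ.image q with hT
  have hTcard : T.card = S.card + Units.rank k := by
    rw [hT, Finset.card_image_of_injective _ hqinj, Finset.card_univ, Fintype.card_fin]
  have hTS : ∀ v ∈ T, v ∉ S ∧ v ∉ Sg := by
    intro v hv
    rw [hT, Finset.mem_image] at hv
    obtain ⟨i, -, rfl⟩ := hv
    have := hqS i
    rw [Finset.mem_union, not_or] at this
    exact this
  have hSTdisj : Disjoint S T := by
    rw [Finset.disjoint_left]
    intro v hv hvT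
    exact (hTS v hvT).1 hv
  have hTsplit : ∀ v ∈ T, LocPow p ζ v α := by
    intro v hv
    rw [hT, Finset.mem_image] at hv
    obtain ⟨i, -, rfl⟩ := hv
    rw [← sym_eq_zero_iff hζ (hqp i) hα0 (hord _), ← hu0α]
    exact hq2 i 0 (Fin.succ_ne_zero i).symm
  -- (A)
  have hA : ∀ a : Pl k → ZMod p, ∃ y : k, y ≠ 0 ∧ (∀ v, v ∉ S → ordv v y = 0) ∧
      ∀ v ∈ T, sym p ζ v y = a v := by
    intro a
    obtain ⟨e, he⟩ := exists_sym_eq hζ u hu0 q hqp hq0 hq1 hq2 (fun i => a (q i))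
    refine ⟨∏ j, u j ^ e j, Finset.prod_ne_zero_iff.2 fun j _ => zpow_ne_zero _ (hu0 j), ?_, ?_⟩
    · intro v hv
      rw [ordv_prod v _ _ fun j _ => zpow_ne_zero _ (hu0 j)]
      refine Finset.sum_eq_zero fun j _ => ?_
      rw [ordv_zpow, huS j v hv, mul_zero]
    · intro v hv
      rw [hT, Finset.mem_image] at hv
      obtain ⟨i, -, rfl⟩ := hv
      exact he i
  -- the groups
  set H : Subgroup kˣ := ⨅ v ∈ S, locPowSub hζ v with hH
  set U : Subgroup kˣ := US ((S ∪ T : Finset (Pl k)) : Set (Pl k)) with hU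
  have hrel : H.relIndex U = p ^ (2 * S.card + 2 * Units.rank k + 1) := by
    rw [relIndex_eq_card (p := p) H U ?_ ?_, hU, card_US_quot hζ (S ∪ T),
      Finset.card_union_of_disjoint hSTdisj, hTcard]
    · congr 1; ring
    · intro x hxU hxH
      rw [hU, mem_US_iff] at hxU
      rw [hH, mem_iInf_locPowSub] at hxH
      obtain ⟨y, hy⟩ := exists_pow_eq hp2 hζ S T hSp hcl hA x.ne_zero (fun v h1 h2 => hxU v (by
        simp only [Finset.coe_union, Set.mem_union, Finset.mem_coe, not_or]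
        exact ⟨h1, h2⟩)) hxH
      have hy0 : y ≠ 0 := by
        rintro rfl
        rw [zero_pow hpp.ne_zero] at hy
        exact x.ne_zero hy.symm
      refine ⟨Units.mk0 y hy0, ?_, ?_⟩
      · rw [hU, mem_US_iff]
        intro v hv
        have h5 := hxU v hv
        rw [← hy, ordv_pow] at h5
        rcases mul_eq_zero.1 h5 with h6 | h6
        · exact absurd (by exact_mod_cast h6) hpp.ne_zero
        · exact h6
      · ext; simpa using hy
    · intro y
      rw [hH, Subgroup.mem_iInf]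
      intro v
      rw [Subgroup.mem_iInf]
      intro _
      exact pow_mem_locPowSub hζ v y
  have hHidx : H.index ≤ p ^ (2 * S.card + 2 * Units.rank k + 1 + 1) := by
    have := iInf_locPowSub_index_le hζ S hSp
    rw [← two_mul_rank_add_one hp2 hζ] at this
    have e : 2 * S.card + 2 * (Units.rank k + 1) = 2 * S.card + 2 * Units.rank k + 1 + 1 := by ring
    rwa [e] at this
  obtain ⟨hsup, hsup0⟩ := index_sup_le (p := p) H U _ (iInf_locPowSub_index_ne_zero hζ S) hHidx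
    hrel.ge
  -- R
  set R := Rsub hζ (↑Sg : Set (Pl k)) α S with hR
  have hHR : H ≤ R := by
    intro x hx
    rw [hH, mem_iInf_locPowSub] at hx
    rw [hR, mem_Rsub]
    refine InPN.of_dvd hζ hpp.one_lt fun v _ _ => ?_
    by_cases hv : v ∈ S
    · simp only [dvS, hv, if_true]
      exact InPN.aux_locPow_dvd hζ hpp.pos (hx v hv)
    · simp [dvS, hv]
  have hUR : U ≤ R := by
    intro x hx
    rw [hU, mem_US_iff] at hx
    rw [hR, mem_Rsub]
    have hxSg : ∀ v ∈ (↑Sg : Set (Pl k)), ordv v (x : k) = 0 := by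
      intro v hv
      refine hx v ?_
      simp only [Finset.coe_union, Set.mem_union, Finset.mem_coe, not_or]
      exact ⟨fun h => (Finset.disjoint_left.1 hdisj h) hv, fun h => (hTS v h).2 hv⟩
    refine InPN.congr (fun v _ hv' => ?_) (InPN.of_dv_unram' hord x.ne_zero hxSg)
    by_cases hv : v ∈ S
    · simp [dvS, dv, hv]
    · have hvT : v ∉ T := fun h => hv' (hTsplit v h)
      have : ordv v (x : k) = 0 := hx v (by
        simp only [Finset.coe_union, Set.mem_union, Finset.mem_coe, not_or]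
        exact ⟨hv, hvT⟩)
      simp [dvS, dv, hv, this]
  have hsupR : H ⊔ U ≤ R := sup_le hHR hUR
  have hRdvd : R.index ∣ (H ⊔ U).index := Subgroup.index_dvd_of_le hsupR
  have hR0 : R.index ≠ 0 := fun h => hsup0 (by rw [h] at hRdvd; exact Nat.eq_zero_of_zero_dvd hRdvd)
  have hRle : R.index ≤ p := (Nat.le_of_dvd (Nat.pos_of_ne_zero hsup0) hRdvd).trans hsup
  have hRpow : ∀ x : kˣ, x ^ p ∈ R := fun x => hHR (by
    rw [hH, Subgroup.mem_iInf]
    intro v
    rw [Subgroup.mem_iInf]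
    intro _
    exact pow_mem_locPowSub hζ v x)
  obtain ⟨x₁, hx₁0, hx₁⟩ := exists_dvS hζ hord Sg S hdisj hcl D₁ h₁
  obtain ⟨x₂, hx₂0, hx₂⟩ := exists_dvS hζ hord Sg S hdisj hcl D₂ h₂
  have hx₂R : Units.mk0 x₂ hx₂0 ∉ R := by
    intro h
    rw [hR, mem_Rsub, Units.val_mk0] at h
    exact hD₂ (InPN.of_add_right hζ hpp.pos hx₂ h)
  obtain ⟨j, hj⟩ := exists_zpow_mul_mem (p := p) R hR0 hRle hRpow hx₂R (Units.mk0 x₁ hx₁0)
  rw [hR, mem_Rsub, Units.val_mul, Units.val_zpow_eq_zpow_val, Units.val_mk0, Units.val_mk0,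
    dvS_mul S hx₁0 (zpow_ne_zero _ hx₂0), dvS_zpow] at hj
  refine ⟨j, ?_⟩
  have h9 := InPN.sub hζ hpp.pos (InPN.sub hζ hpp.pos hx₁ (InPN.zsmul hζ hpp.one_lt hx₂ j)) hj
  rw [Finsupp.coe_sub, Finsupp.coe_smul]
  convert h9 using 1
  rw [neg_smul, smul_add]
  abel

end SIaux

open SIaux in
/-- **(SI)** second inequality, unramified case, avoiding `Sg` -/
theorem SI {k : Type} [Field k] [NumberField k] {p : ℕ} [Fact p.Prime]
    (hp2 : p ≠ 2) {ζ : k} (hζ : IsPrimitiveRoot ζ p) {α : k} (hα0 : α ≠ 0)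
    (hord : ∀ v : Pl k, (p : ℤ) ∣ ordv v α) (hloc : ∀ v : Pl k, Above p v → LocPow p ζ v α)
    (Sg : Finset (Pl k)) (hSg : ∀ v ∈ Sg, ¬ Above p v)
    (D₁ D₂ : Pl k →₀ ℤ) (h₁ : ∀ v ∈ Sg, D₁ v = 0) (h₂ : ∀ v ∈ Sg, D₂ v = 0)
    (hD₂ : ¬ InPN p ζ (↑Sg) α D₂) :
    ∃ j : ℤ, InPN p ζ (↑Sg) α (D₁ - j • D₂ : Pl k →₀ ℤ) := by
  classical
  have hpp : p.Prime := Fact.out
  -- `α` is not a `p`-th power
  have hαp : ∀ y : k, y ^ p ≠ α := by
    intro y hy
    apply hD₂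
    have hy0 : y ≠ 0 := by
      rintro rfl
      rw [zero_pow hpp.ne_zero] at hy
      exact hα0 hy.symm
    refine InPN.of_dvd hζ hpp.one_lt fun v _ hv => absurd ?_ hv
    rw [← hy]
    exact InPN.aux_locPow_pow hζ hpp.one_lt v hy0
  -- the set `S`
  set S₀ : Finset (Pl k) := (finite_above (k := k) hpp.ne_zero).toFinset with hS₀
  have hS₀d : Disjoint S₀ Sg := by
    rw [Finset.disjoint_left]
    intro v hv hvS
    rw [hS₀, Set.Finite.mem_toFinset] at hv
    exact hSg v hvS hv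
  obtain ⟨S, hS₀S, hdisj, hcl⟩ := exists_clGen Sg S₀ hS₀d
  have hSp : ∀ v, Above p v → v ∈ S := fun v hv => hS₀S (by
    rw [hS₀, Set.Finite.mem_toFinset]; exact hv)
  -- make `α` an `S`-unit
  obtain ⟨c, hc0, hc⟩ := hcl.exists_fun (fun v => - (ordv v α / p)) (by
    refine (finite_ordv_ne_zero α).subset fun v hv => ?_
    intro h0
    apply hv
    show - (ordv v α / p) = 0
    rw [h0]; simp)
  have hα'0 : α * c ^ p ≠ 0 := mul_ne_zero hα0 (pow_ne_zero _ hc0)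
  have hαS : ∀ v, v ∉ S → ordv v (α * c ^ p) = 0 := by
    intro v hv
    rw [ordv_mul v hα0 (pow_ne_zero _ hc0), ordv_pow, hc v (by simpa using hv)]
    obtain ⟨d, hd⟩ := hord v
    rw [hd, Int.mul_ediv_cancel_left _ (by exact_mod_cast hpp.ne_zero)]
    ring
  have hord' : ∀ v : Pl k, (p : ℤ) ∣ ordv v (α * c ^ p) := by
    intro v
    rw [ordv_mul v hα0 (pow_ne_zero _ hc0), ordv_pow]
    exact dvd_add (hord v) (Dvd.intro _ rfl)
  have hback : ∀ D : Pl k → ℤ, InPN p ζ (↑Sg) (α * c ^ p) D → InPN p ζ (↑Sg) α D := by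
    intro D hD
    have := InPN.congr_x hζ hpp.one_lt hα'0 (inv_ne_zero hc0) hD
    rwa [mul_assoc, ← mul_pow, mul_inv_cancel₀ hc0, one_pow, mul_one] at this
  have hαp' : ∀ y : k, y ^ p ≠ α * c ^ p := by
    intro y hy
    refine hαp (y / c) ?_
    rw [div_pow, hy, mul_div_assoc, div_self (pow_ne_zero _ hc0), mul_one]
  obtain ⟨j, hj⟩ := SI_core hp2 hζ hα'0 hord' hαp' Sg S hSp hdisj hcl hαS D₁ D₂ h₁ h₂
    (fun h => hD₂ (hback _ h))
  exact ⟨j, hback _ hj⟩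

end Fermat.Agent.S14lib
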