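import Mathlib

/-!
# T-S14, WP7: the pure group theory of (SI): SI4, SI5, SI6
-/

set_option autoImplicit false
set_option linter.unusedSectionVars false

namespace Fermat.Agent.S14lib

namespace SIGrp

variable {p : ℕ} [Fact p.Prime]

/-- **SI4** -/
theorem index_sup_le {G : Type*} [CommGroup G] (H U : Subgroup G) (m : ℕ) (hH0 : H.index ≠ 0)
    (hH : H.index ≤ p ^ (m + 1)) (hU : p ^ m ≤ H.relIndex U) :
    (H ⊔ U).index ≤ p ∧ (H ⊔ U).index ≠ 0 := by
  have hpp : p.Prime := Fact.out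
  have h1 : H.relIndex (H ⊔ U) * (H ⊔ U).index = H.index :=
    Subgroup.relIndex_mul_index le_sup_left
  have h2 : H.relIndex (H ⊔ U) = H.relIndex U := by
    rw [sup_comm]
    exact Subgroup.relIndex_sup_right U H
  rw [h2] at h1
  have h0 : (H ⊔ U).index ≠ 0 := fun h => hH0 (by rw [← h1, h, mul_zero])
  refine ⟨?_, h0⟩
  by_contra hlt
  rw [not_le] at hlt
  have h3 : p ^ m * (p + 1) ≤ H.relIndex U * (H ⊔ U).index := Nat.mul_le_mul hU hlt
  rw [h1] at h3
  have h4 : p ^ (m + 1) < p ^ m * (p + 1) := by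
    rw [pow_succ, mul_add, mul_one]
    exact Nat.lt_add_of_pos_right (pow_pos hpp.pos m)
  omega

/-- **SI5** -/
theorem exists_zpow_mul_mem {G : Type*} [CommGroup G] (R : Subgroup G) (hR0 : R.index ≠ 0)
    (hR : R.index ≤ p) (hpow : ∀ x : G, x ^ p ∈ R) {x₂ : G} (hx₂ : x₂ ∉ R) (x₁ : G) :
    ∃ j : ℤ, x₁ * x₂ ^ (-j) ∈ R := by
  have hpp : p.Prime := Fact.out
  have hfi : R.FiniteIndex := ⟨hR0⟩
  have : Finite (G ⧸ R) := Subgroup.finite_quotient_of_finiteIndex
  set g : G ⧸ R := (x₂ : G ⧸ R) with hg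
  have hg1 : g ≠ 1 := by
    intro h
    exact hx₂ ((QuotientGroup.eq_one_iff x₂).1 h)
  have hgp : g ^ p = 1 := by
    rw [hg, ← QuotientGroup.mk_pow]
    exact (QuotientGroup.eq_one_iff _).2 (hpow x₂)
  have hord : orderOf g = p := orderOf_eq_prime hgp hg1
  have hcard : Nat.card (G ⧸ R) = p := by
    apply le_antisymm
    · exact hR
    · rw [← hord]
      exact orderOf_le_card
  have htop : Subgroup.zpowers g = ⊤ := by
    apply Subgroup.eq_top_of_card_eq
    rw [Nat.card_zpowers, hord, hcard]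
  have hmem : (x₁ : G ⧸ R) ∈ Subgroup.zpowers g := by rw [htop]; exact Subgroup.mem_top _
  obtain ⟨j, hj⟩ := Subgroup.mem_zpowers_iff.1 hmem
  refine ⟨j, ?_⟩
  rw [← QuotientGroup.eq_one_iff, QuotientGroup.mk_mul, QuotientGroup.mk_zpow, ← hg, ← hj,
    ← zpow_add, add_neg_cancel, zpow_zero]

/-- **SI6** -/
theorem relIndex_eq_card {G : Type*} [CommGroup G] (H U : Subgroup G)
    (h1 : ∀ x ∈ U, x ∈ H → ∃ y ∈ U, y ^ p = x) (h2 : ∀ y : G, y ^ p ∈ H) :
    H.relIndex U = Nat.card (U ⧸ (powMonoidHom p : U →* U).range) := by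
  have h : H.subgroupOf U = (powMonoidHom p : U →* U).range := by
    ext x
    rw [Subgroup.mem_subgroupOf, MonoidHom.mem_range]
    constructor
    · intro hx
      obtain ⟨y, hyU, hy⟩ := h1 x x.2 hx
      exact ⟨⟨y, hyU⟩, Subtype.ext hy⟩
    · rintro ⟨y, rfl⟩
      simpa using h2 (y : G)
  rw [Subgroup.relIndex, h, Subgroup.index]

end SIGrp

end Fermat.Agent.S14lib
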