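import Fermat.Agent.S14.Ord
import Fermat.Agent.S14.InPN
import Fermat.Agent.S14.Approx
import Fermat.Agent.S14.ClGen
import Fermat.Agent.S14.SUnit
import Fermat.Agent.S14.LocIdx
import Fermat.Agent.S14.Sym
import Fermat.Agent.S14.FI
import Fermat.Agent.S14.CK
import Fermat.Agent.S14.SIGrp

/-!
# T-S14, WP7: the chain of sub-statements of (SI)

`SI1 .. SI7` are independent of each other; `SI_core` and `SI` are derived from them.
-/

set_option autoImplicit false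

open NumberField IsDedekindDomain

namespace Fermat.Agent.S14lib

namespace SIaux

variable {k : Type} [Field k] [NumberField k] {p : ℕ} [Fact p.Prime] {ζ : k}

/-- **SI1** (the auxiliary places `T`; from `CK`, one application for each `i`;
injectivity is automatic) -/
theorem exists_T (hp2 : p ≠ 2) (hζ : IsPrimitiveRoot ζ p) {n : ℕ} (u : Fin (n + 1) → k)
    (hu0 : ∀ i, u i ≠ 0)
    (hind : ∀ e : Fin (n + 1) → ℤ, (∃ y : k, y ^ p = ∏ i, u i ^ e i) → ∀ i, (p : ℤ) ∣ e i)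
    (Sg : Finset (Pl k)) :
    ∃ q : Fin n → Pl k, Function.Injective q ∧ (∀ i, q i ∉ Sg) ∧ (∀ i, ¬ Above p (q i)) ∧
      (∀ i j, ordv (q i) (u j) = 0) ∧ (∀ i, sym p ζ (q i) (u i.succ) ≠ 0) ∧
      (∀ i j, j ≠ i.succ → sym p ζ (q i) (u j) = 0) := by
  classical
  have h : ∀ i : Fin n, ∃ v : Pl k, v ∉ Sg ∧ ¬ Above p v ∧ (∀ j, ordv v (u j) = 0) ∧
      ∃ c : ZMod p, c ≠ 0 ∧ ∀ j, sym p ζ v (u j) = c * (Pi.single i.succ 1 : Fin (n + 1) → ZMod p) j := by
    intro i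
    refine CK hp2 hζ u hu0 hind _ ?_ Sg
    intro h0
    have := congrFun h0 i.succ
    rw [Pi.single_eq_same, Pi.zero_apply] at this
    exact one_ne_zero this
  choose q hq1 hq2 hq3 c hc0 hc using h
  have h5 : ∀ i, sym p ζ (q i) (u i.succ) ≠ 0 := by
    intro i
    rw [hc i, Pi.single_eq_same, mul_one]
    exact hc0 i
  have h6 : ∀ i j, j ≠ i.succ → sym p ζ (q i) (u j) = 0 := by
    intro i j hj
    rw [hc i, Pi.single_eq_of_ne hj, mul_zero]
  refine ⟨q, ?_, hq1, hq2, hq3, h5, h6⟩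
  intro i i' hii
  by_contra hne
  apply h5 i
  rw [hii]
  exact h6 i' i.succ fun h => hne (Fin.succ_injective _ h)

/-- **SI2** = (A): the `u j` realise every family of symbols on `T` -/
theorem exists_sym_eq (hζ : IsPrimitiveRoot ζ p) {n : ℕ} (u : Fin (n + 1) → k)
    (hu0 : ∀ i, u i ≠ 0) (q : Fin n → Pl k) (hqp : ∀ i, ¬ Above p (q i))
    (hq0 : ∀ i j, ordv (q i) (u j) = 0) (hq1 : ∀ i, sym p ζ (q i) (u i.succ) ≠ 0)
    (hq2 : ∀ i j, j ≠ i.succ → sym p ζ (q i) (u j) = 0) (a : Fin n → ZMod p) :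
    ∃ e : Fin (n + 1) → ℤ, ∀ i, sym p ζ (q i) (∏ j, u j ^ e j) = a i := by
  classical
  have hpp : p.Prime := Fact.out
  have : NeZero p := ⟨hpp.ne_zero⟩
  refine ⟨Fin.cons 0 fun i => ((a i / sym p ζ (q i) (u i.succ)).val : ℤ), fun i => ?_⟩
  rw [sym_prod hζ (hqp i) _ _ (fun j _ => zpow_ne_zero _ (hu0 j))
    (fun j _ => by rw [ordv_zpow, hq0, mul_zero]; exact dvd_zero _)]
  rw [Finset.sum_eq_single i.succ]
  · rw [sym_zpow hζ (hqp i) (hu0 _) (by rw [hq0]; exact dvd_zero _), Fin.cons_succ]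
    rw [Int.cast_natCast, ZMod.natCast_zmod_val]
    exact div_mul_cancel₀ _ (hq1 i)
  · intro j _ hj
    rw [sym_zpow hζ (hqp i) (hu0 _) (by rw [hq0]; exact dvd_zero _), hq2 i j hj, mul_zero]
  · intro h
    exact absurd (Finset.mem_univ _) h

/-- **SI3** = (B): an `S ∪ T`-unit which is a local `p`-th power on `S` is a `p`-th power
(from `FI`) -/
theorem exists_pow_eq (hp2 : p ≠ 2) (hζ : IsPrimitiveRoot ζ p) (S T : Finset (Pl k))
    (hSp : ∀ v, Above p v → v ∈ S) (hcl : ClGen (S : Set (Pl k)))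
    (hA : ∀ a : Pl k → ZMod p, ∃ y : k, y ≠ 0 ∧ (∀ v, v ∉ S → ordv v y = 0) ∧
      ∀ v ∈ T, sym p ζ v y = a v)
    {x : k} (hx0 : x ≠ 0) (hxU : ∀ v, v ∉ S → v ∉ T → ordv v x = 0)
    (hxS : ∀ v ∈ S, LocPow p ζ v x) : ∃ y : k, y ^ p = x := by
  classical
  have hpp : p.Prime := Fact.out
  by_contra hcon
  push Not at hcon
  obtain ⟨D, hD0, hD⟩ := FI hp2 hζ hx0 hcon fun v hv => hxS v (hSp v hv)
  apply hD
  obtain ⟨z₀, hz₀, hz₀D⟩ := hcl D
  obtain ⟨y, hy0, hyS, hyT⟩ := hA fun v => - sym p ζ v z₀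
  have hnS : ∀ v, ¬ LocPow p ζ v x → v ∉ S := fun v hv h => hv (hxS v h)
  refine ⟨z₀ * y, mul_ne_zero hz₀ hy0, fun v hv => absurd hv (Set.notMem_empty v), ?_, ?_⟩
  · intro v hv
    have hvS : v ∉ S := fun h => hv (InPN.aux_locPow_dvd hζ hpp.pos (hxS v h))
    have hvT : v ∈ T := by
      by_contra h
      exact hv (by rw [hxU v hvS h]; exact dvd_zero _)
    have hvp : ¬ Above p v := fun h => hvS (hSp v h)
    have e1 : ordv v z₀ = 0 := by rw [hz₀D v (by simpa using hvS), hD0 v hv]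
    have e2 : ordv v y = 0 := hyS v hvS
    refine ⟨by rw [ordv_mul v hz₀ hy0, e1, e2, add_zero], ?_⟩
    rw [← sym_eq_zero_iff hζ hvp (mul_ne_zero hz₀ hy0)
      (by rw [ordv_mul v hz₀ hy0, e1, e2, add_zero]; exact dvd_zero _),
      sym_mul hζ hvp hz₀ (by rw [e1]; exact dvd_zero _) hy0 (by rw [e2]; exact dvd_zero _),
      hyT v hvT, add_neg_cancel]
  · intro v _ hv
    have hvS := hnS v hv
    rw [ordv_mul v hz₀ hy0, hz₀D v (by simpa using hvS), hyS v hvS, add_zero, sub_self]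
    exact dvd_zero _

/-- **SI4** pure group theory -/
theorem index_sup_le {G : Type*} [CommGroup G] (H U : Subgroup G) (m : ℕ) (hH0 : H.index ≠ 0)
    (hH : H.index ≤ p ^ (m + 1)) (hU : p ^ m ≤ H.relIndex U) : (H ⊔ U).index ≤ p ∧ (H ⊔ U).index ≠ 0 :=
  SIGrp.index_sup_le H U m hH0 hH hU

/-- **SI5** pure group theory -/
theorem exists_zpow_mul_mem {G : Type*} [CommGroup G] (R : Subgroup G) (hR0 : R.index ≠ 0)
    (hR : R.index ≤ p) (hpow : ∀ x : G, x ^ p ∈ R) {x₂ : G} (hx₂ : x₂ ∉ R) (x₁ : G) :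
    ∃ j : ℤ, x₁ * x₂ ^ (-j) ∈ R :=
  SIGrp.exists_zpow_mul_mem R hR0 hR hpow hx₂ x₁

/-- **SI6** `[U : U ∩ H] = [U : U ^ p]` when `U ∩ H = U ^ p` -/
theorem relIndex_eq_card {G : Type*} [CommGroup G] (H U : Subgroup G)
    (h1 : ∀ x ∈ U, x ∈ H → ∃ y ∈ U, y ^ p = x) (h2 : ∀ y : G, y ^ p ∈ H) :
    H.relIndex U = Nat.card (U ⧸ (powMonoidHom p : U →* U).range) :=
  SIGrp.relIndex_eq_card H U h1 h2

/-- the part of the divisor of `x` inside `S` -/
noncomputable def dvS (S : Finset (Pl k)) (x : k) : Pl k → ℤ := fun v =>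
  by classical exact if v ∈ S then ordv v x else 0

/-- **SI7** every divisor prime to `Sg` is equivalent to a divisor supported in `S` -/
theorem exists_dvS (_hζ : IsPrimitiveRoot ζ p) {α : k} (hord : ∀ v : Pl k, (p : ℤ) ∣ ordv v α)
    (Sg S : Finset (Pl k)) (hdisj : Disjoint S Sg) (hcl : ClGen (S : Set (Pl k)))
    (D : Pl k →₀ ℤ) (hD : ∀ v ∈ Sg, D v = 0) :
    ∃ x : k, x ≠ 0 ∧ InPN p ζ (↑Sg) α ((D : Pl k → ℤ) + dvS S x) := by
  classical
  obtain ⟨z, hz, hzD⟩ := hcl D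
  obtain ⟨x, hx0, hx⟩ := exists_ordv_eq S fun v => ordv v z - D v
  refine ⟨x, hx0, ?_⟩
  have e : (D : Pl k → ℤ) + dvS S x = dv z := by
    funext v
    by_cases hv : v ∈ S
    · simp [dvS, dv, hv, hx v hv]
    · simp [dvS, dv, hv, hzD v (by simpa using hv)]
  rw [e]
  refine InPN.of_dv_unram' hord hz fun v hv => ?_
  have hvS : v ∉ S := fun h => Finset.disjoint_left.1 hdisj h hv
  rw [hzD v (by simpa using hvS), hD v hv]

end SIaux

end Fermat.Agent.S14lib
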