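import Fermat.Agent.S14.SUnit

/-!
# T-S14, WP1: index of the `p`-th powers in the `S`-units
-/

set_option autoImplicit false
set_option linter.style.haveILetI false
set_option linter.unusedSectionVars false

open NumberField IsDedekindDomain Module

namespace Fermat.Agent.S14lib

section abstract

variable (A : Type*) [AddCommGroup A] (p : ℕ)

/-- free case -/
theorem su_index_range_nsmul_free [Module.Finite ℤ A] [Module.Free ℤ A] :
    (nsmulAddMonoidHom p : A →+ A).range.index = p ^ finrank ℤ A := by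
  classical
  let b := Module.finBasis ℤ A
  let e : A ≃+ (Fin (finrank ℤ A) → ℤ) := b.equivFun.toAddEquiv
  have h1 : (nsmulAddMonoidHom p : A →+ A).range.map (e : A →+ (Fin (finrank ℤ A) → ℤ)) =
      AddSubgroup.pi Set.univ fun _ => AddSubgroup.zmultiples (p : ℤ) := by
    ext f
    simp only [AddSubgroup.mem_map, AddMonoidHom.mem_range, AddSubgroup.mem_pi, Set.mem_univ,
      forall_true_left, Int.mem_zmultiples_iff]
    constructor
    · rintro ⟨_, ⟨a, rfl⟩, rfl⟩ i
      refine ⟨e a i, ?_⟩
      simp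
    · intro h
      choose g hg using h
      refine ⟨_, ⟨e.symm g, rfl⟩, ?_⟩
      ext i
      simp [hg i]
  have h2 := AddSubgroup.index_map_of_bijective (f := (e : A →+ (Fin (finrank ℤ A) → ℤ))) e.bijective
    (nsmulAddMonoidHom p : A →+ A).range
  rw [← h2, h1, AddSubgroup.index_pi]
  simp [Int.index_zmultiples]

/-- `[A : pA] = p ^ rank * |A[p]|` for a finitely generated abelian group -/
theorem su_index_range_nsmul [Module.Finite ℤ A] (hp : p ≠ 0) :
    (nsmulAddMonoidHom p : A →+ A).range.index =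
      p ^ finrank ℤ A * Nat.card (nsmulAddMonoidHom p : A →+ A).ker := by
  classical
  let Tm : Submodule ℤ A := Submodule.torsion ℤ A
  let T : AddSubgroup A := Tm.toAddSubgroup
  haveI : Finite Tm := Module.finite_of_fg_torsion _ Submodule.torsion_isTorsion
  haveI : Finite T := ‹Finite Tm›
  let P : AddSubgroup A := (nsmulAddMonoidHom p : A →+ A).range
  haveI : Module.Free ℤ (A ⧸ Tm) := Module.free_of_finite_type_torsion_free'
  have hQ : (nsmulAddMonoidHom p : (A ⧸ Tm) →+ (A ⧸ Tm)).range.index = p ^ finrank ℤ A := by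
    rw [su_index_range_nsmul_free, finrank_quotient_eq_of_le_torsion le_rfl]
  have h1 : P ⊔ T = ((nsmulAddMonoidHom p : (A ⧸ Tm) →+ (A ⧸ Tm)).range).comap
      (Tm.mkQ.toAddMonoidHom) := by
    ext x
    rw [AddSubgroup.mem_sup, AddSubgroup.mem_comap, AddMonoidHom.mem_range]
    constructor
    · rintro ⟨_, ⟨a, rfl⟩, t, ht, rfl⟩
      refine ⟨Tm.mkQ a, ?_⟩
      have ht' : Tm.mkQ t = 0 := (Submodule.Quotient.mk_eq_zero _).2 ht
      show p • Tm.mkQ a = Tm.mkQ (p • a + t)
      rw [map_add, ht', add_zero, map_nsmul]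
    · rintro ⟨y, hy⟩
      obtain ⟨a, rfl⟩ := Tm.mkQ_surjective y
      refine ⟨p • a, ⟨a, rfl⟩, x - p • a, ?_, by abel⟩
      have h : Tm.mkQ (x - p • a) = 0 := by
        rw [map_sub, map_nsmul]
        have hy' : p • Tm.mkQ a = Tm.mkQ x := hy
        rw [hy', sub_self]
      exact (Submodule.Quotient.mk_eq_zero _).1 h
  have h2 : (P ⊔ T).index = p ^ finrank ℤ A := by
    rw [h1, AddSubgroup.index_comap_of_surjective _ (Submodule.mkQ_surjective _), hQ]
  have h3 : P.relIndex (P ⊔ T) = P.relIndex T := AddSubgroup.relIndex_sup_left _ _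
  have hmemT : ∀ a : A, p • a ∈ T → a ∈ T := by
    intro a ha
    obtain ⟨n, hn⟩ := (Submodule.mem_torsion_iff _).1 ha
    refine (Submodule.mem_torsion_iff _).2 ⟨n * ⟨(p : ℤ), mem_nonZeroDivisors_of_ne_zero
      (by exact_mod_cast hp)⟩, ?_⟩
    have : ((n : ℤ) * (p : ℤ)) • a = 0 := by
      rw [mul_smul, natCast_zsmul]
      exact hn
    exact this
  have h5 : P.addSubgroupOf T = (nsmulAddMonoidHom p : T →+ T).range := by
    ext t
    rw [AddSubgroup.mem_addSubgroupOf, AddMonoidHom.mem_range, AddMonoidHom.mem_range]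
    constructor
    · rintro ⟨a, ha⟩
      have ha' : p • a = (t : A) := ha
      exact ⟨⟨a, hmemT a (ha' ▸ t.2)⟩, Subtype.ext ha'⟩
    · rintro ⟨t', rfl⟩
      exact ⟨t', rfl⟩
  have h4 : P.relIndex T = Nat.card (nsmulAddMonoidHom p : A →+ A).ker := by
    rw [AddSubgroup.relIndex, h5, AddSubgroup.index_range]
    refine Nat.card_congr
      { toFun := fun t => ⟨(t.1 : A), congrArg Subtype.val t.2⟩
        invFun := fun a => ⟨⟨a.1, hmemT a.1 (by
          have h : p • a.1 = 0 := a.2
          rw [h]; exact T.zero_mem)⟩, Subtype.ext a.2⟩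
        left_inv := fun t => rfl
        right_inv := fun a => rfl }
  rw [← AddSubgroup.relIndex_mul_index (le_sup_left : P ≤ P ⊔ T), h2, h3, h4, mul_comm]

end abstract

section field

variable {k : Type*} [Field k] [NumberField k] {p : ℕ} [Fact p.Prime]

theorem isTotallyComplex_of_root (hp2 : p ≠ 2) {ζ : k} (hζ : IsPrimitiveRoot ζ p) :
    IsTotallyComplex k := by
  have hp : p.Prime := Fact.out
  refine ⟨fun w => ?_⟩
  rw [← InfinitePlace.not_isReal_iff_isComplex]
  intro hw
  have h1 : (InfinitePlace.embedding_of_isReal hw ζ) ^ p = 1 := by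
    rw [← map_pow, hζ.pow_eq_one, map_one]
  have h2 : InfinitePlace.embedding_of_isReal hw ζ = 1 := by
    have hodd : Odd p := hp.odd_of_ne_two hp2
    exact hodd.pow_inj.1 (by rw [h1, one_pow])
  have h3 : ζ = 1 := (InfinitePlace.embedding_of_isReal hw).injective (by rw [h2, map_one])
  exact hζ.ne_one hp.one_lt h3

/-- **(U3)** -/
theorem two_mul_rank_add_one (hp2 : p ≠ 2) {ζ : k} (hζ : IsPrimitiveRoot ζ p) :
    2 * (NumberField.Units.rank k + 1) = Module.finrank ℚ k := by
  haveI := isTotallyComplex_of_root hp2 hζ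
  have h1 : Fintype.card (InfinitePlace k) = InfinitePlace.nrComplexPlaces k := by
    rw [InfinitePlace.card_eq_nrRealPlaces_add_nrComplexPlaces,
      IsTotallyComplex.nrRealPlaces_eq_zero, zero_add]
  have h2 : 0 < Fintype.card (InfinitePlace k) := Fintype.card_pos
  rw [IsTotallyComplex.finrank, NumberField.Units.rank, ← h1]
  omega

/-- the `p`-torsion of the `S`-units -/
theorem card_US_torsion {ζ : k} (hζ : IsPrimitiveRoot ζ p) (S : Set (Pl k)) :
    Nat.card {a : US S // a ^ p = 1} = p := by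
  have hp : p.Prime := Fact.out
  haveI : NeZero p := ⟨hp.ne_zero⟩
  have h1 : Nat.card (rootsOfUnity p k) = p := hζ.card_rootsOfUnity
  refine Eq.trans (Nat.card_congr ?_) h1
  exact
    { toFun := fun a => ⟨(a.1 : kˣ), (mem_rootsOfUnity _ _).2 (congrArg Subtype.val a.2)⟩
      invFun := fun x => ⟨⟨x.1, mem_US_iff.2 fun v _ =>
        ordv_eq_zero_of_pow_eq_one v hp.ne_zero
          (congrArg Units.val ((mem_rootsOfUnity _ _).1 x.2))⟩,
        Subtype.ext ((mem_rootsOfUnity _ _).1 x.2)⟩
      left_inv := fun a => rfl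
      right_inv := fun x => rfl }

/-- **(U4)**, intrinsic form -/
theorem index_pow_US {ζ : k} (hζ : IsPrimitiveRoot ζ p) (S : Finset (Pl k)) :
    (powMonoidHom p : US (S : Set (Pl k)) →* US (S : Set (Pl k))).range.index =
      p ^ (S.card + NumberField.Units.rank k + 1) := by
  have hp : p.Prime := Fact.out
  have h1 := su_index_range_nsmul (Additive (US (S : Set (Pl k)))) p hp.ne_zero
  have h2 : (nsmulAddMonoidHom p : Additive (US (S : Set (Pl k))) →+ _).range =
      Subgroup.toAddSubgroup (powMonoidHom p : US (S : Set (Pl k)) →* _).range := by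
    ext x
    rfl
  have h3 : Nat.card (nsmulAddMonoidHom p : Additive (US (S : Set (Pl k))) →+ _).ker = p := by
    refine Eq.trans (Nat.card_congr ?_) (card_US_torsion hζ (S : Set (Pl k)))
    exact
      { toFun := fun a => ⟨Additive.toMul a.1, a.2⟩
        invFun := fun a => ⟨Additive.ofMul a.1, a.2⟩
        left_inv := fun a => rfl
        right_inv := fun a => rfl }
  rw [h2, Subgroup.index_toAddSubgroup, h3, finrank_US] at h1
  rw [h1, pow_succ]

theorem pow_range_subgroupOf_US (S : Set (Pl k)) :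
    ((powMonoidHom p : kˣ →* kˣ).range).subgroupOf (US S) =
      (powMonoidHom p : US S →* US S).range := by
  have hp : p.Prime := Fact.out
  ext x
  rw [Subgroup.mem_subgroupOf, MonoidHom.mem_range, MonoidHom.mem_range]
  constructor
  · rintro ⟨y, hy⟩
    have hy' : y ^ p = (x : kˣ) := hy
    refine ⟨⟨y, mem_US_iff.2 fun v hv => ?_⟩, Subtype.ext hy'⟩
    have h1 := mem_US_iff.1 x.2 v hv
    rw [← hy', Units.val_pow_eq_pow_val, ordv_pow] at h1
    rcases mul_eq_zero.1 h1 with h | h
    · exact absurd (by exact_mod_cast h) hp.ne_zero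
    · exact h
  · rintro ⟨y, rfl⟩
    exact ⟨y, rfl⟩

/-- **(U4)** -/
theorem relIndex_pow_US {ζ : k} (hζ : IsPrimitiveRoot ζ p) (S : Finset (Pl k)) :
    ((powMonoidHom p : kˣ →* kˣ).range).relIndex (US (S : Set (Pl k))) =
      p ^ (S.card + NumberField.Units.rank k + 1) := by
  rw [Subgroup.relIndex, pow_range_subgroupOf_US, index_pow_US hζ]

end field

end Fermat.Agent.S14lib
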